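import Fermat.Agent.CFT.LC.Finite
import Fermat.Agent.CFT.Local.LocalSymbol
import Fermat.Agent.CFT.Local.ExistenceModPAux

/-!
# B7d: the existence theorem mod `p` at the level of level cohomology (helper16)

`(G, L)` a level group, `C : Rep ℤ G` smooth, `p` a prime.

* `lcSymCocycle`, `lcSymClass L C χ hχ a ha : LC.H2 L C`: the LC symbol class `a ∪ δχ` of an
  invariant `a` and a character `χ : G →* Multiplicative (ZMod n)` with open kernel (helper1's
  `bock`); additive in `a` (`lcSymClass_add`, `lcSymClass_zsmul`) and in `χ`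
  (`lcSymClass_mul_char`), killed by `n` (`nsmul_lcSymClass`), and inflated from the finite-level
  `symClass` (`lcSymClass_eq_inflH2`).
* `XChar L p := LC.Z₁ L (trivial 𝔽_p)` (`= H¹_LC(G, 𝔽_p)`), `charOf f` the attached character,
  `exists_charOf_eq`.
* `invSub C` (`C^G` as an additive subgroup), `VQuot C p = C^G / p` with its `𝔽_p`-structure,
  `symT L C a f ∈ LC.H2 L C [p]`, the pairings `pairAdd`, `pairV`, `pairLin`.
* `perfect`, `perfect_elementary`: ABSTRACT EXISTENCE THEOREM: from an injective invariant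
  `τ : LC.H2 L C [p] →+ 𝔽_p`, (N) nondegeneracy in the character and (K) a set-theoretic injection
  `C^G / p ↪ H¹_LC(G, 𝔽_p)` with `C^G / p` finite, the pairing `(a, f) ↦ τ (a ∪ δf)` is perfect.
* `exists_kummerChar`, `kummerChar_eq_iff`, `exists_kummer_injection`: abstract Kummer theory
  giving (K) when `C` is `p`-divisible and `C[p] ≅ 𝔽_p` with trivial action.
* `symT_ne_zero_of_level`, `charOf_surjective`, `symT_ne_zero_of_not_norm`: (N) from the norm
  criterion (helper1's `symClass_eq_zero_iff`) at the level `ker f`.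
* `perfect_of_kummer`: the assembled statement.
-/

set_option autoImplicit false
set_option linter.unusedSectionVars false
set_option linter.style.haveILetI false

open groupCohomology

namespace Fermat.Agent.CFT

namespace LCSym

section Sym

section Bock

variable {G : Type} [Group G] {n : ℕ} [NeZero n]

theorem chLift_mul_right (χ : G →* Multiplicative (ZMod n)) (g : G) {s : G} (hs : s ∈ χ.ker) :
    chLift χ (g * s) = chLift χ g := by
  unfold chLift
  rw [map_mul, (MonoidHom.mem_ker).1 hs, mul_one]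

theorem bock_mul_right (χ : G →* Multiplicative (ZMod n)) (g h : G) {s t : G} (hs : s ∈ χ.ker)
    (ht : t ∈ χ.ker) : bock χ (g * s, h * t) = bock χ (g, h) := by
  have hn : χ.ker.Normal := inferInstance
  have h1 : g * s * (h * t) = g * h * ((h⁻¹ * s * h) * t) := by group
  have h2 : h⁻¹ * s * h ∈ χ.ker := by
    have := hn.conj_mem s hs h⁻¹
    simpa [mul_assoc] using this
  unfold bock
  simp only
  rw [h1, chLift_mul_right χ (g * h) (χ.ker.mul_mem h2 ht), chLift_mul_right χ g hs,
    chLift_mul_right χ h ht]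

theorem bockDefect_mul_right (χ χ' : G →* Multiplicative (ZMod n)) (g : G) {s : G}
    (hs : s ∈ χ.ker) (hs' : s ∈ χ'.ker) : bockDefect χ χ' (g * s) = bockDefect χ χ' g := by
  have h3 : s ∈ (χ * χ').ker := by
    rw [MonoidHom.mem_ker, MonoidHom.mul_apply, (MonoidHom.mem_ker).1 hs,
      (MonoidHom.mem_ker).1 hs', mul_one]
  unfold bockDefect
  rw [chLift_mul_right χ g hs, chLift_mul_right χ' g hs', chLift_mul_right (χ * χ') g h3]

end Bock

variable {G : Type} [Group G] (L : LevelStructure G) (C : Rep.{0} ℤ G) {n : ℕ} [NeZero n]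

/-- The symbol cocycle `a ∪ δχ` of a character with open kernel is level-constant. -/
theorem isLC₂_symCocycle (χ : G →* Multiplicative (ZMod n)) (hχ : L.IsOpen χ.ker) (a : C)
    (ha : IsInv C a) : L.IsLC₂ (symCocycle C χ a ha : G × G → C) := by
  obtain ⟨N, hN, hle⟩ := hχ
  refine ⟨N, hN, fun g h s hs t ht => ?_⟩
  show bock χ (g * s, h * t) • a = bock χ (g, h) • a
  rw [bock_mul_right χ g h (hle hs) (hle ht)]

/-- The LC symbol cocycle `a ∪ δχ`. -/
def lcSymCocycle (χ : G →* Multiplicative (ZMod n)) (hχ : L.IsOpen χ.ker) (a : C)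
    (ha : IsInv C a) : ↥(LC.Z₂ L C) :=
  ⟨(symCocycle C χ a ha : G × G → C), (symCocycle C χ a ha).2, isLC₂_symCocycle L C χ hχ a ha⟩

@[simp] theorem lcSymCocycle_apply (χ : G →* Multiplicative (ZMod n)) (hχ : L.IsOpen χ.ker)
    (a : C) (ha : IsInv C a) (p : G × G) :
    (lcSymCocycle L C χ hχ a ha : G × G → C) p = bock χ p • a := rfl

/-- The LC symbol class `a ∪ δχ ∈ LC.H2 L C`. -/
def lcSymClass (χ : G →* Multiplicative (ZMod n)) (hχ : L.IsOpen χ.ker) (a : C)
    (ha : IsInv C a) : LC.H2 L C :=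
  LC.H2π L C (lcSymCocycle L C χ hχ a ha)

theorem lcSymClass_add (χ : G →* Multiplicative (ZMod n)) (hχ : L.IsOpen χ.ker) {a b : C}
    (ha : IsInv C a) (hb : IsInv C b) :
    lcSymClass L C χ hχ (a + b) (ha.add hb) =
      lcSymClass L C χ hχ a ha + lcSymClass L C χ hχ b hb := by
  unfold lcSymClass
  rw [← map_add]
  congr 1
  apply Subtype.ext
  funext p
  show bock χ p • (a + b) = bock χ p • a + bock χ p • b
  rw [smul_add]

theorem lcSymClass_congr (χ : G →* Multiplicative (ZMod n)) (hχ : L.IsOpen χ.ker) {a b : C}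
    (ha : IsInv C a) (h : a = b) :
    lcSymClass L C χ hχ a ha = lcSymClass L C χ hχ b (h ▸ ha) := by
  subst h; rfl

theorem lcSymClass_zero (χ : G →* Multiplicative (ZMod n)) (hχ : L.IsOpen χ.ker) :
    lcSymClass L C χ hχ 0 IsInv.zero = 0 := by
  unfold lcSymClass
  have : lcSymCocycle L C χ hχ 0 IsInv.zero = 0 := by
    apply Subtype.ext
    funext p
    show bock χ p • (0 : C) = 0
    rw [smul_zero]
  rw [this, map_zero]

theorem lcSymClass_zsmul (χ : G →* Multiplicative (ZMod n)) (hχ : L.IsOpen χ.ker) (m : ℤ)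
    {a : C} (ha : IsInv C a) :
    lcSymClass L C χ hχ (m • a) (ha.zsmul m) = m • lcSymClass L C χ hχ a ha := by
  unfold lcSymClass
  rw [← map_zsmul]
  congr 1
  apply Subtype.ext
  funext p
  show bock χ p • (m • a) = m • (bock χ p • a)
  rw [smul_comm]

theorem isOpen_ker_mul {χ χ' : G →* Multiplicative (ZMod n)} (hχ : L.IsOpen χ.ker)
    (hχ' : L.IsOpen χ'.ker) : L.IsOpen (χ * χ').ker := by
  refine (hχ.inf L hχ').mono L ?_
  intro s hs
  rw [MonoidHom.mem_ker, MonoidHom.mul_apply, (MonoidHom.mem_ker).1 hs.1,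
    (MonoidHom.mem_ker).1 hs.2, mul_one]

theorem isOpen_ker_one : L.IsOpen (1 : G →* Multiplicative (ZMod n)).ker := by
  rw [MonoidHom.ker_one]
  exact L.isOpen_top

/-- Additivity of the LC symbol class in the character. -/
theorem lcSymClass_mul_char (χ χ' : G →* Multiplicative (ZMod n)) (hχ : L.IsOpen χ.ker)
    (hχ' : L.IsOpen χ'.ker) {a : C} (ha : IsInv C a) :
    lcSymClass L C (χ * χ') (isOpen_ker_mul L hχ hχ') a ha =
      lcSymClass L C χ hχ a ha + lcSymClass L C χ' hχ' a ha := by
  unfold lcSymClass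
  rw [← map_add, eq_comm, ← sub_eq_zero, ← map_sub, LC.H2π_eq_zero_iff, LC.mem_B₂_iff]
  refine ⟨fun g => bockDefect χ χ' g • a, ?_, ?_⟩
  · obtain ⟨N, hN, hle⟩ := hχ.inf L hχ'
    refine ⟨N, hN, fun g s hs => ?_⟩
    show bockDefect χ χ' (g * s) • a = bockDefect χ χ' g • a
    rw [bockDefect_mul_right χ χ' g (hle hs).1 (hle hs).2]
  · funext p
    obtain ⟨g, h⟩ := p
    rw [d₁₂_hom_apply]
    show C.ρ g (bockDefect χ χ' h • a) - bockDefect χ χ' (g * h) • a + bockDefect χ χ' g • a
      = bock χ (g, h) • a + bock χ' (g, h) • a - bock (χ * χ') (g, h) • a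
    rw [map_zsmul, ha g, ← sub_smul, ← add_smul, ← add_smul, ← sub_smul, bock_mul]

theorem lcSymClass_one_char {a : C} (ha : IsInv C a) :
    lcSymClass L C (1 : G →* Multiplicative (ZMod n)) (isOpen_ker_one L) a ha = 0 := by
  have := lcSymClass_mul_char L C (1 : G →* Multiplicative (ZMod n)) 1 (isOpen_ker_one L)
    (isOpen_ker_one L) ha
  have h1 : lcSymClass L C ((1 : G →* Multiplicative (ZMod n)) * 1)
      (isOpen_ker_mul L (isOpen_ker_one L) (isOpen_ker_one L)) a ha =
      lcSymClass L C (1 : G →* Multiplicative (ZMod n)) (isOpen_ker_one L) a ha := by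
    congr 1
    exact one_mul _
  rw [h1] at this
  exact (add_eq_left.mp this.symm)

/-- The LC symbol class is killed by `n`. -/
theorem nsmul_lcSymClass (χ : G →* Multiplicative (ZMod n)) (hχ : L.IsOpen χ.ker) {a : C}
    (ha : IsInv C a) : n • lcSymClass L C χ hχ a ha = 0 := by
  unfold lcSymClass
  rw [← map_nsmul, LC.H2π_eq_zero_iff, LC.mem_B₂_iff]
  refine ⟨fun g => chLift χ g • a, ?_, ?_⟩
  · obtain ⟨N, hN, hle⟩ := hχ
    refine ⟨N, hN, fun g s hs => ?_⟩
    show chLift χ (g * s) • a = chLift χ g • a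
    rw [chLift_mul_right χ g (hle hs)]
  · funext p
    obtain ⟨g, h⟩ := p
    rw [d₁₂_hom_apply]
    show C.ρ g (chLift χ h • a) - chLift χ (g * h) • a + chLift χ g • a
      = n • (bock χ (g, h) • a)
    rw [map_zsmul, ha g, ← sub_smul, ← add_smul, ← natCast_zsmul, smul_smul, n_mul_bock]
    congr 1
    ring

end Sym

section Infl

variable {G : Type} [Group G] (L : LevelStructure G) (C : Rep.{0} ℤ G) {n : ℕ} [NeZero n]

/-- An invariant of `C`, as an element of `C^N`. -/
def toInv (N : Subgroup G) [N.Normal] (a : C) (ha : IsInv C a) : C.quotientToInvariants N :=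
  ⟨a, fun s => ha s⟩

@[simp] theorem coe_toInv (N : Subgroup G) [N.Normal] (a : C) (ha : IsInv C a) :
    ((toInv C N a ha : C.quotientToInvariants N) : C) = a := rfl

theorem isInv_toInv (N : Subgroup G) [N.Normal] (a : C) (ha : IsInv C a) :
    IsInv (C.quotientToInvariants N) (toInv C N a ha) := by
  intro q
  induction q using QuotientGroup.induction_on with
  | H g =>
    apply Subtype.ext
    rw [LC.quotientToInvariants_ρ_coe]
    exact ha g

/-- The LC symbol class of a character trivial on the open normal subgroup `N` is the inflation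
of the finite-level symbol class of `G ⧸ N`. -/
theorem lcSymClass_eq_inflH2 (N : Subgroup G) [N.Normal] (hN : L.IsOpen N)
    (χ : G →* Multiplicative (ZMod n)) (h : N ≤ χ.ker) (a : C) (ha : IsInv C a) :
    lcSymClass L C χ (hN.mono L h) a ha =
      LC.inflH2 C N hN (symClass (C.quotientToInvariants N) (QuotientGroup.lift N χ h)
        (toInv C N a ha) (isInv_toInv C N a ha)) := by
  unfold lcSymClass symClass
  rw [LC.inflH2_H2π]
  congr 1

end Infl

section Chars

variable {G : Type} [Group G] (L : LevelStructure G) (p : ℕ)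

/-- The trivial representation of `G` on `𝔽_p`. -/
noncomputable abbrev FpRep (G : Type) [Group G] (p : ℕ) : Rep.{0} (ZMod p) G :=
  Rep.trivial (ZMod p) G (ZMod p)

/-- `H¹_LC(G, 𝔽_p)`, realised as the space of LC `1`-cocycles (= LC homomorphisms `G → 𝔽_p`;
there are no coboundaries). -/
abbrev XChar : Type := ↥(LC.Z₁ L (FpRep G p))

variable {L p}

theorem XChar.map_mul (f : XChar L p) (g h : G) :
    (f : G → ZMod p) (g * h) = (f : G → ZMod p) g + (f : G → ZMod p) h := by
  have h1 := (mem_cocycles₁_iff (A := FpRep G p) (f : G → ZMod p)).1 f.2.1 g h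
  rw [h1, add_comm]
  rfl

theorem XChar.map_one (f : XChar L p) : (f : G → ZMod p) 1 = 0 := by
  have := XChar.map_mul f 1 1
  rw [mul_one] at this
  exact left_eq_add.mp this

/-- The multiplicative character attached to an LC homomorphism `G → 𝔽_p`. -/
def charOf (f : XChar L p) : G →* Multiplicative (ZMod p) where
  toFun g := Multiplicative.ofAdd ((f : G → ZMod p) g)
  map_one' := by rw [XChar.map_one]; rfl
  map_mul' g h := by rw [XChar.map_mul]; rfl

@[simp] theorem charOf_apply (f : XChar L p) (g : G) :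
    charOf f g = Multiplicative.ofAdd ((f : G → ZMod p) g) := rfl

theorem charOf_add (f f' : XChar L p) : charOf (f + f') = charOf f * charOf f' := by
  ext g
  rfl

theorem charOf_zero : charOf (0 : XChar L p) = 1 := by
  ext g
  rfl

theorem charOf_injective : Function.Injective (charOf (L := L) (p := p)) := by
  intro f f' h
  apply Subtype.ext
  funext g
  have := congrArg (fun χ : G →* Multiplicative (ZMod p) => Multiplicative.toAdd (χ g)) h
  exact this

theorem isOpen_ker_charOf (f : XChar L p) : L.IsOpen (charOf f).ker := by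
  obtain ⟨N, hN, hinv⟩ := f.2.2
  refine ⟨N, hN, fun s hs => ?_⟩
  rw [MonoidHom.mem_ker, charOf_apply]
  have := hinv 1 s hs
  rw [one_mul, XChar.map_one] at this
  rw [this]
  rfl

/-- A character with open kernel comes from an LC homomorphism. -/
theorem exists_charOf_eq (χ : G →* Multiplicative (ZMod p)) (hχ : L.IsOpen χ.ker) :
    ∃ f : XChar L p, charOf f = χ := by
  refine ⟨⟨fun g => Multiplicative.toAdd (χ g), ?_, ?_⟩, ?_⟩
  · refine (mem_cocycles₁_iff (A := FpRep G p) _).2 ?_
    intro g h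
    show Multiplicative.toAdd (χ (g * h)) = _ + Multiplicative.toAdd (χ g)
    rw [map_mul, toAdd_mul, add_comm]
    rfl
  · obtain ⟨N, hN, hle⟩ := hχ
    refine ⟨N, hN, fun g s hs => ?_⟩
    show Multiplicative.toAdd (χ (g * s)) = Multiplicative.toAdd (χ g)
    rw [map_mul, (MonoidHom.mem_ker).1 (hle hs), mul_one]
  · ext g
    rfl

end Chars

section Pair

variable {G : Type} [Group G] (L : LevelStructure G) (C : Rep.{0} ℤ G) (p : ℕ)

/-- The invariants `C^G`, as an additive subgroup. -/
def invSub : AddSubgroup C where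
  carrier := {a | IsInv C a}
  add_mem' ha hb := ha.add hb
  zero_mem' := IsInv.zero
  neg_mem' ha := ha.neg

/-- `C^G / p C^G`. -/
abbrev VQuot : Type :=
  ↥(invSub C) ⧸ (nsmulAddMonoidHom p : ↥(invSub C) →+ ↥(invSub C)).range

variable {C}

theorem isInv_of_mem {a : C} (ha : a ∈ invSub C) : IsInv C a := ha

theorem mem_of_isInv {a : C} (ha : IsInv C a) : a ∈ invSub C := ha

variable (C) {p}

theorem lcSymClass_congr_char {n : ℕ} [NeZero n] {χ χ' : G →* Multiplicative (ZMod n)}
    (h : χ = χ') (hχ : L.IsOpen χ.ker) (a : C) (ha : IsInv C a) :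
    lcSymClass L C χ hχ a ha = lcSymClass L C χ' (h ▸ hχ) a ha := by
  subst h; rfl

variable [NeZero p]

/-- The symbol `a ∪ δf` as an element of the `p`-torsion of `LC.H2 L C`. -/
noncomputable def symT (a : ↥(invSub C)) (f : XChar L p) :
    ↥(AddSubgroup.torsionBy (LC.H2 L C) (p : ℤ)) :=
  ⟨lcSymClass L C (charOf f) (isOpen_ker_charOf f) a.1 (isInv_of_mem a.2),
    AddSubgroup.torsionBy.nsmul_iff.2 (nsmul_lcSymClass L C _ _ _)⟩

theorem coe_symT (a : ↥(invSub C)) (f : XChar L p) :
    ((symT L C a f : ↥(AddSubgroup.torsionBy (LC.H2 L C) (p : ℤ))) : LC.H2 L C) =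
      lcSymClass L C (charOf f) (isOpen_ker_charOf f) a.1 (isInv_of_mem a.2) := rfl

theorem symT_add_left (a b : ↥(invSub C)) (f : XChar L p) :
    symT L C (a + b) f = symT L C a f + symT L C b f := by
  apply Subtype.ext
  rw [AddSubgroup.coe_add, coe_symT, coe_symT, coe_symT]
  exact lcSymClass_add L C (charOf f) (isOpen_ker_charOf f) (isInv_of_mem a.2) (isInv_of_mem b.2)

theorem symT_add_right (a : ↥(invSub C)) (f f' : XChar L p) :
    symT L C a (f + f') = symT L C a f + symT L C a f' := by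
  apply Subtype.ext
  rw [AddSubgroup.coe_add, coe_symT, coe_symT, coe_symT,
    lcSymClass_congr_char L C (charOf_add f f') (isOpen_ker_charOf (f + f')) a.1
      (isInv_of_mem a.2)]
  exact lcSymClass_mul_char L C (charOf f) (charOf f') (isOpen_ker_charOf f)
    (isOpen_ker_charOf f') (isInv_of_mem a.2)

variable {T : Type*} [AddCommGroup T]

/-- The pairing `C^G × H¹_LC(G, 𝔽_p) → T`, `(a, f) ↦ τ (a ∪ δf)`, as a biadditive map. -/
noncomputable def pairAdd (τ : ↥(AddSubgroup.torsionBy (LC.H2 L C) (p : ℤ)) →+ T) :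
    ↥(invSub C) →+ XChar L p →+ T :=
  AddMonoidHom.mk' (fun a => AddMonoidHom.mk' (fun f => τ (symT L C a f))
      (fun f f' => by rw [symT_add_right, map_add]))
    (fun a b => by
      ext f
      simp only [AddMonoidHom.mk'_apply, AddMonoidHom.add_apply]
      rw [symT_add_left, map_add])

@[simp] theorem pairAdd_apply (τ : ↥(AddSubgroup.torsionBy (LC.H2 L C) (p : ℤ)) →+ T)
    (a : ↥(invSub C)) (f : XChar L p) : pairAdd L C τ a f = τ (symT L C a f) := rfl

end Pair

section PairLin

variable {G : Type} [Group G] (L : LevelStructure G) (C : Rep.{0} ℤ G) {p : ℕ} [NeZero p]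

/-- `C^G / p` is an `𝔽_p`-vector space. -/
noncomputable instance instModuleVQuot : Module (ZMod p) (VQuot C p) :=
  QuotientAddGroup.zmodModule (fun x => ⟨x, rfl⟩)

theorem nsmul_zmod_eq_zero (z : ZMod p) : p • z = 0 := by
  rw [nsmul_eq_mul, ZMod.natCast_self, zero_mul]

theorem range_le_ker_pairAdd (τ : ↥(AddSubgroup.torsionBy (LC.H2 L C) (p : ℤ)) →+ ZMod p) :
    (nsmulAddMonoidHom p : ↥(invSub C) →+ ↥(invSub C)).range ≤ (pairAdd L C τ).ker := by
  rintro _ ⟨b, rfl⟩
  rw [AddMonoidHom.mem_ker]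
  ext f
  rw [nsmulAddMonoidHom_apply, map_nsmul, AddMonoidHom.nsmul_apply, nsmul_zmod_eq_zero,
    AddMonoidHom.zero_apply]

/-- The pairing on `C^G / p`. -/
noncomputable def pairV (τ : ↥(AddSubgroup.torsionBy (LC.H2 L C) (p : ℤ)) →+ ZMod p) :
    VQuot C p →+ XChar L p →+ ZMod p :=
  QuotientAddGroup.lift _ (pairAdd L C τ) (range_le_ker_pairAdd L C τ)

theorem pairV_mk (τ : ↥(AddSubgroup.torsionBy (LC.H2 L C) (p : ℤ)) →+ ZMod p)
    (a : ↥(invSub C)) (f : XChar L p) :
    pairV L C τ (QuotientAddGroup.mk a) f = τ (symT L C a f) := rfl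

/-- The pairing `C^G / p × H¹_LC(G, 𝔽_p) → 𝔽_p` as an `𝔽_p`-bilinear map. -/
noncomputable def pairLin (τ : ↥(AddSubgroup.torsionBy (LC.H2 L C) (p : ℤ)) →+ ZMod p) :
    VQuot C p →ₗ[ZMod p] XChar L p →ₗ[ZMod p] ZMod p :=
  LinearMap.mk₂ (ZMod p) (fun v f => pairV L C τ v f)
    (fun v v' f => by rw [map_add, AddMonoidHom.add_apply])
    (fun c v f => ZMod.map_smul (AddMonoidHom.flip (pairV L C τ) f) c v)
    (fun v f f' => map_add _ _ _)
    (fun c v f => ZMod.map_smul (pairV L C τ v) c f)

theorem pairLin_mk (τ : ↥(AddSubgroup.torsionBy (LC.H2 L C) (p : ℤ)) →+ ZMod p)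
    (a : ↥(invSub C)) (f : XChar L p) :
    pairLin L C τ (QuotientAddGroup.mk a) f = τ (symT L C a f) := rfl

end PairLin

section Perfect

variable {G : Type} [Group G] (L : LevelStructure G) (C : Rep.{0} ℤ G) {p : ℕ} [NeZero p]

/-- **Abstract existence theorem mod `p`.**  Let `τ` be an injective additive map from the
`p`-torsion of `LC.H2 L C` to `𝔽_p` (the invariant map).  Assume
* (N) every nonzero `f ∈ H¹_LC(G, 𝔽_p)` has a nonzero symbol `a ∪ δf` for some `a ∈ C^G`;
* (K) `C^G / p` is finite and injects (as a set) into `H¹_LC(G, 𝔽_p)` (Kummer theory).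
Then the pairing `C^G/p × H¹_LC(G, 𝔽_p) → 𝔽_p`, `(a, f) ↦ τ (a ∪ δf)`, is perfect. -/
theorem perfect (hp : p.Prime) (τ : ↥(AddSubgroup.torsionBy (LC.H2 L C) (p : ℤ)) →+ ZMod p)
    (hτ : Function.Injective τ)
    (hN : ∀ f : XChar L p, f ≠ 0 → ∃ a : ↥(invSub C), symT L C a f ≠ 0)
    (hfin : Finite (VQuot C p))
    (κ : VQuot C p → XChar L p) (hκ : Function.Injective κ) :
    (Finite (XChar L p) ∧ Nat.card (XChar L p) = Nat.card (VQuot C p)) ∧
    Function.Bijective (pairLin L C τ) ∧ Function.Bijective (pairLin L C τ).flip := by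
  classical
  haveI : Fact p.Prime := ⟨hp⟩
  -- injectivity of the flip
  have hinj : Function.Injective (pairLin L C τ).flip := by
    rw [injective_iff_map_eq_zero]
    intro f hf
    by_contra hne
    obtain ⟨a, ha⟩ := hN f hne
    apply ha
    apply hτ
    rw [map_zero, ← pairLin_mk, ← LinearMap.flip_apply, hf, LinearMap.zero_apply]
  haveI : Module.Finite (ZMod p) (VQuot C p) := Module.Finite.of_finite
  haveI : Finite (Module.Dual (ZMod p) (VQuot C p)) := Module.finite_of_finite (ZMod p)
  haveI hXfin : Finite (XChar L p) := Finite.of_injective (pairLin L C τ).flip hinj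
  haveI : Module.Finite (ZMod p) (XChar L p) := Module.Finite.of_finite
  -- dimensions
  have hcardV := Module.natCard_eq_pow_finrank (K := ZMod p) (V := VQuot C p)
  have hcardX := Module.natCard_eq_pow_finrank (K := ZMod p) (V := XChar L p)
  have hcardD := Module.natCard_eq_pow_finrank (K := ZMod p)
    (V := Module.Dual (ZMod p) (VQuot C p))
  rw [Subspace.dual_finrank_eq] at hcardD
  have h1 : Nat.card (VQuot C p) ≤ Nat.card (XChar L p) := Nat.card_le_card_of_injective κ hκ
  have h2 : Nat.card (XChar L p) ≤ Nat.card (VQuot C p) := by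
    rw [hcardV, ← hcardD]
    exact Nat.card_le_card_of_injective (pairLin L C τ).flip hinj
  have hcard : Nat.card (XChar L p) = Nat.card (VQuot C p) := le_antisymm h2 h1
  have hdim : Module.finrank (ZMod p) (VQuot C p) = Module.finrank (ZMod p) (XChar L p) := by
    have h3 := hcard
    rw [hcardV, hcardX, Nat.card_zmod] at h3
    exact (Nat.pow_right_injective hp.two_le h3).symm
  exact ⟨⟨hXfin, hcard⟩,
    PowIndex.bijective_of_injective_flip_of_finrank_eq (pairLin L C τ) hinj hdim,
    PowIndex.bijective_flip_of_injective_flip_of_finrank_eq (pairLin L C τ) hinj hdim⟩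

/-- Elementary reformulation of `perfect`. -/
theorem perfect_elementary (hp : p.Prime)
    (τ : ↥(AddSubgroup.torsionBy (LC.H2 L C) (p : ℤ)) →+ ZMod p)
    (hτ : Function.Injective τ)
    (hN : ∀ f : XChar L p, f ≠ 0 → ∃ a : ↥(invSub C), symT L C a f ≠ 0)
    (hfin : Finite (VQuot C p))
    (κ : VQuot C p → XChar L p) (hκ : Function.Injective κ) :
    (Finite (XChar L p) ∧ Nat.card (XChar L p) = Nat.card (VQuot C p)) ∧
    (∀ a : ↥(invSub C), (∀ f, τ (symT L C a f) = 0) → ∃ b : ↥(invSub C), a = p • b) ∧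
    (∀ φ : XChar L p →+ ZMod p, ∃ a : ↥(invSub C), ∀ f, τ (symT L C a f) = φ f) ∧
    (∀ ψ : ↥(invSub C) →+ ZMod p, ∃ f : XChar L p, ∀ a, τ (symT L C a f) = ψ a) := by
  obtain ⟨h0, hB, hBf⟩ := perfect L C hp τ hτ hN hfin κ hκ
  refine ⟨h0, ?_, ?_, ?_⟩
  · intro a ha
    have h0 : pairLin L C τ (QuotientAddGroup.mk a) = 0 := by
      ext f
      rw [pairLin_mk, ha, LinearMap.zero_apply]
    have h3 : (QuotientAddGroup.mk a : VQuot C p) = 0 :=
      hB.1 (h0.trans (map_zero (pairLin L C τ)).symm)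
    rw [QuotientAddGroup.eq_zero_iff] at h3
    obtain ⟨b, hb⟩ := h3
    exact ⟨b, hb.symm⟩
  · intro φ
    obtain ⟨v, hv⟩ := hB.2 (φ.toZModLinearMap p)
    obtain ⟨a, rfl⟩ := QuotientAddGroup.mk_surjective v
    refine ⟨a, fun f => ?_⟩
    rw [← pairLin_mk, hv]
    rfl
  · intro ψ
    have hψker : (nsmulAddMonoidHom p : ↥(invSub C) →+ ↥(invSub C)).range ≤ ψ.ker := by
      rintro _ ⟨b, rfl⟩
      rw [AddMonoidHom.mem_ker, nsmulAddMonoidHom_apply, map_nsmul, nsmul_zmod_eq_zero]
    let ψV : VQuot C p →+ ZMod p := QuotientAddGroup.lift _ ψ hψker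
    obtain ⟨f, hf⟩ := hBf.2 (ψV.toZModLinearMap p)
    refine ⟨f, fun a => ?_⟩
    rw [← pairLin_mk, ← LinearMap.flip_apply, hf]
    rfl

end Perfect

section KummerChar

/-- `ρ (g * h) a = ρ g (ρ h a)`, stated for a general coefficient ring (to be used over `ℤ`
without instance clashes). -/
theorem rho_mul_apply {k G : Type} [CommRing k] [Group G] (A : Rep.{0} k G) (g h : G) (a : A) :
    A.ρ (g * h) a = A.ρ g (A.ρ h a) := by
  rw [map_mul, Module.End.mul_apply]

variable {G : Type} [Group G] {L : LevelStructure G} {C : Rep.{0} ℤ G} {p : ℕ} [NeZero p]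

/-- **Kummer character.**  `C` smooth, `μ_p := C[p]` identified with `𝔽_p` by `e` with trivial
action.  For `α ∈ C` with `p • α ∈ C^G` there is an LC homomorphism `f : G → 𝔽_p` with
`e (f g) = g α - α`. -/
theorem exists_kummerChar (hC : IsSmooth L C) (e : ZMod p →+ C) (he_inj : Function.Injective e)
    (he_inv : ∀ (g : G) (z : ZMod p), C.ρ g (e z) = e z)
    (he_surj : ∀ c : C, p • c = 0 → ∃ z, e z = c) (α : C) (hα : IsInv C (p • α)) :
    ∃ f : XChar L p, ∀ g : G, e ((f : G → ZMod p) g) = C.ρ g α - α := by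
  have htors : ∀ g : G, p • (C.ρ g α - α) = 0 := fun g => by
    rw [smul_sub, ← map_nsmul, hα g, sub_self]
  choose z hz using fun g => he_surj _ (htors g)
  refine ⟨⟨z, ?_, ?_⟩, hz⟩
  · refine (mem_cocycles₁_iff (A := FpRep G p) _).2 fun g h => ?_
    apply he_inj
    show e (z (g * h)) = e (z h + z g)
    rw [map_add, hz, hz, hz, rho_mul_apply]
    have : C.ρ g (C.ρ h α) - α = C.ρ g (C.ρ h α - α) + (C.ρ g α - α) := by
      rw [map_sub]; abel
    rw [this, ← hz h, he_inv g (z h), hz h]
  · obtain ⟨N, hN, hfix⟩ := hC α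
    refine ⟨N, hN, fun g s hs => ?_⟩
    apply he_inj
    rw [hz, hz, rho_mul_apply, hfix s hs]

/-- The Kummer characters of `α, α'` agree iff `α - α'` is invariant. -/
theorem kummerChar_eq_iff (e : ZMod p →+ C) (he_inj : Function.Injective e) {α α' : C}
    {f f' : XChar L p} (hf : ∀ g : G, e ((f : G → ZMod p) g) = C.ρ g α - α)
    (hf' : ∀ g : G, e ((f' : G → ZMod p) g) = C.ρ g α' - α') :
    f = f' ↔ IsInv C (α - α') := by
  constructor
  · rintro rfl g
    have := (hf g).symm.trans (hf' g)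
    rw [map_sub]
    rw [sub_eq_sub_iff_add_eq_add] at this ⊢
    rw [this, add_comm]
  · intro h
    apply Subtype.ext
    funext g
    apply he_inj
    rw [hf, hf']
    have := h g
    rw [map_sub] at this
    rw [sub_eq_sub_iff_add_eq_add] at this ⊢
    rw [this, add_comm]

end KummerChar

section KummerInj

variable {G : Type} [Group G] {L : LevelStructure G} {C : Rep.{0} ℤ G} {p : ℕ} [NeZero p]

/-- **Kummer injection** `C^G / p ↪ H¹_LC(G, 𝔽_p)` for a smooth `p`-divisible module `C` whose
`p`-torsion is identified with `𝔽_p` (trivial action) by `e`. -/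
theorem exists_kummer_injection (hC : IsSmooth L C) (hdiv : ∀ c : C, ∃ c' : C, p • c' = c)
    (e : ZMod p →+ C) (he_inj : Function.Injective e)
    (he_inv : ∀ (g : G) (z : ZMod p), C.ρ g (e z) = e z)
    (he_surj : ∀ c : C, p • c = 0 → ∃ z, e z = c) :
    ∃ κ : VQuot C p → XChar L p, Function.Injective κ := by
  choose root hroot using hdiv
  have hα : ∀ a : ↥(invSub C), IsInv C (p • root a.1) := fun a => by
    rw [hroot]; exact a.2
  choose f hf using fun a : ↥(invSub C) =>
    exists_kummerChar (L := L) hC e he_inj he_inv he_surj (root a.1) (hα a)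
  have key : ∀ a a' : ↥(invSub C), f a = f a' ↔
      -a + a' ∈ (nsmulAddMonoidHom p : ↥(invSub C) →+ ↥(invSub C)).range := by
    intro a a'
    rw [kummerChar_eq_iff e he_inj (hf a) (hf a')]
    constructor
    · intro h
      refine ⟨⟨-(root a.1 - root a'.1), h.neg⟩, Subtype.ext ?_⟩
      show p • (-(root a.1 - root a'.1)) = -a.1 + a'.1
      rw [neg_sub, smul_sub, hroot, hroot]
      abel
    · rintro ⟨b, hb⟩
      have hb' : p • b.1 = -a.1 + a'.1 := congrArg Subtype.val hb
      have ht : p • (root a.1 - root a'.1 + b.1) = 0 := by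
        rw [smul_add, smul_sub, hroot, hroot, hb']
        abel
      obtain ⟨z, hz⟩ := he_surj _ ht
      have hinv : IsInv C (root a.1 - root a'.1 + b.1) := fun g => by rw [← hz, he_inv]
      have := hinv.add b.2.neg
      rwa [add_neg_cancel_right] at this
  let κ : VQuot C p → XChar L p := Quotient.lift f (fun a a' h =>
    (key a a').2 (QuotientAddGroup.leftRel_apply.1 h))
  refine ⟨κ, ?_⟩
  intro v v' h
  induction v using QuotientAddGroup.induction_on with
  | H a =>
    induction v' using QuotientAddGroup.induction_on with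
    | H a' =>
      exact QuotientAddGroup.eq.2 ((key a a').1 h)

end KummerInj

section Assemble

variable {G : Type} [Group G] (L : LevelStructure G) (C : Rep.{0} ℤ G) {p : ℕ} [NeZero p]

/-- The symbol at LC level is the inflation of the finite-level symbol. -/
theorem coe_symT_eq_inflH2 (N : Subgroup G) [N.Normal] (hN : L.IsOpen N) (f : XChar L p)
    (h : N ≤ (charOf f).ker) (a : ↥(invSub C)) :
    ((symT L C a f : ↥(AddSubgroup.torsionBy (LC.H2 L C) (p : ℤ))) : LC.H2 L C) =
      LC.inflH2 C N hN (symClass (C.quotientToInvariants N) (QuotientGroup.lift N (charOf f) h)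
        (toInv C N a.1 a.2) (isInv_toInv C N a.1 a.2)) :=
  lcSymClass_eq_inflH2 L C N hN (charOf f) h a.1 a.2

/-- If inflation from the level `N ≤ ker f` is injective on the finite-level symbol, the LC symbol
is nonzero as soon as the finite-level symbol is. -/
theorem symT_ne_zero_of_level (N : Subgroup G) [N.Normal] (hN : L.IsOpen N) (f : XChar L p)
    (h : N ≤ (charOf f).ker)
    (hinfl : ∀ y : groupCohomology.H2 (C.quotientToInvariants N), LC.inflH2 C N hN y = 0 → y = 0)
    (a : ↥(invSub C))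
    (hne : symClass (C.quotientToInvariants N) (QuotientGroup.lift N (charOf f) h)
        (toInv C N a.1 a.2) (isInv_toInv C N a.1 a.2) ≠ 0) :
    symT L C a f ≠ 0 := by
  intro h0
  apply hne
  apply hinfl
  rw [← coe_symT_eq_inflH2, h0]
  rfl

variable {L}

/-- A nonzero LC homomorphism `G → 𝔽_p` is surjective. -/
theorem charOf_surjective (hp : p.Prime) {f : XChar L p} (hf : f ≠ 0) :
    Function.Surjective (charOf f) := by
  haveI : Fact p.Prime := ⟨hp⟩
  have : ∃ g : G, (f : G → ZMod p) g ≠ 0 := by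
    by_contra hcon
    push Not at hcon
    exact hf (Subtype.ext (funext hcon))
  obtain ⟨g, hg⟩ := this
  intro z
  set w : ZMod p := Multiplicative.toAdd z * ((f : G → ZMod p) g)⁻¹ with hw
  refine ⟨g ^ w.val, ?_⟩
  rw [map_pow, charOf_apply, ← ofAdd_nsmul, nsmul_eq_mul, ZMod.natCast_zmod_val, hw,
    inv_mul_cancel_right₀ hg]
  rfl

variable (L)

/-- **(N) from the norm criterion.**  Let `f ≠ 0` and `N = ker f` (open normal of index `p`).  If
inflation from `N` is injective on `H²` and `a ∈ C^G` is not a norm from `C^N`, then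
`a ∪ δf ≠ 0`. -/
theorem symT_ne_zero_of_not_norm (hp : p.Prime) (f : XChar L p) (hf : f ≠ 0)
    (hinfl : ∀ y : groupCohomology.H2 (C.quotientToInvariants (charOf f).ker),
      LC.inflH2 C (charOf f).ker (isOpen_ker_charOf f) y = 0 → y = 0)
    (a : ↥(invSub C))
    (hnorm : ¬ ∃ b : C.quotientToInvariants (charOf f).ker,
      toInv C (charOf f).ker a.1 a.2 =
        ∑ᶠ q : G ⧸ (charOf f).ker, (C.quotientToInvariants (charOf f).ker).ρ q b) :
    symT L C a f ≠ 0 := by
  classical
  refine symT_ne_zero_of_level L C (charOf f).ker (isOpen_ker_charOf f) f le_rfl hinfl a ?_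
  let E : G ⧸ (charOf f).ker ≃* Multiplicative (ZMod p) :=
    QuotientGroup.quotientKerEquivOfSurjective (charOf f) (charOf_surjective hp hf)
  haveI : Fact p.Prime := ⟨hp⟩
  letI : Fintype (G ⧸ (charOf f).ker) := Fintype.ofEquiv _ E.symm.toEquiv
  have hcard : Fintype.card (G ⧸ (charOf f).ker) = p := by
    rw [Fintype.card_congr E.toEquiv, Fintype.card_multiplicative, ZMod.card]
  have hinj : Function.Injective (QuotientGroup.lift (charOf f).ker (charOf f) le_rfl) :=
    QuotientGroup.kerLift_injective (charOf f)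
  intro h0
  apply hnorm
  obtain ⟨b, hb⟩ := (symClass_eq_zero_iff (C.quotientToInvariants (charOf f).ker)
    (QuotientGroup.lift (charOf f).ker (charOf f) le_rfl) hinj hcard
    (isInv_toInv C (charOf f).ker a.1 a.2)).1 h0
  refine ⟨b, ?_⟩
  rw [finsum_eq_sum_of_fintype]
  exact hb

/-- **Abstract existence theorem mod `p`, Kummer form** (the case `μ_p ⊆ C^G`).  `C` a smooth
`p`-divisible module whose `p`-torsion is `𝔽_p` with trivial action; `τ` an injective invariant
map on `LC.H2 L C [p]`; `C^G / p` finite; for every nonzero `f` the inflation from `ker f` is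
injective on `H²` and some `a ∈ C^G` is not a norm from `C^{ker f}`.  Then the pairing
`C^G / p × H¹_LC(G, 𝔽_p) → 𝔽_p` is perfect. -/
theorem perfect_of_kummer (hp : p.Prime) (hC : IsSmooth L C)
    (τ : ↥(AddSubgroup.torsionBy (LC.H2 L C) (p : ℤ)) →+ ZMod p) (hτ : Function.Injective τ)
    (hdiv : ∀ c : C, ∃ c' : C, p • c' = c)
    (e : ZMod p →+ C) (he_inj : Function.Injective e)
    (he_inv : ∀ (g : G) (z : ZMod p), C.ρ g (e z) = e z)
    (he_surj : ∀ c : C, p • c = 0 → ∃ z, e z = c)
    (hfin : Finite (VQuot C p))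
    (hinfl : ∀ f : XChar L p, f ≠ 0 →
      ∀ y : groupCohomology.H2 (C.quotientToInvariants (charOf f).ker),
        LC.inflH2 C (charOf f).ker (isOpen_ker_charOf f) y = 0 → y = 0)
    (hnorm : ∀ f : XChar L p, f ≠ 0 → ∃ a : ↥(invSub C),
      ¬ ∃ b : C.quotientToInvariants (charOf f).ker,
        toInv C (charOf f).ker a.1 a.2 =
          ∑ᶠ q : G ⧸ (charOf f).ker, (C.quotientToInvariants (charOf f).ker).ρ q b) :
    (Finite (XChar L p) ∧ Nat.card (XChar L p) = Nat.card (VQuot C p)) ∧
    Function.Bijective (pairLin L C τ) ∧ Function.Bijective (pairLin L C τ).flip := by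
  obtain ⟨κ, hκ⟩ := exists_kummer_injection (L := L) hC hdiv e he_inj he_inv he_surj
  refine perfect L C hp τ hτ (fun f hf => ?_) hfin κ hκ
  obtain ⟨a, ha⟩ := hnorm f hf
  exact ⟨a, symT_ne_zero_of_not_norm L C hp f hf (hinfl f hf) a ha⟩

end Assemble

end LCSym

end Fermat.Agent.CFT
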