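import Fermat.Agent.CFT.LC.Basic

/-!
# Level cohomology: smooth modules, LC cochains, `H⁰, H¹, H²`
-/

set_option autoImplicit false

universe u

open CategoryTheory groupCohomology

namespace Fermat.Agent.CFT

namespace LevelStructure

variable {G : Type u} [Group G] {L : LevelStructure G}

lemma IsLC₂.finite_range {X : Type*} {f : G × G → X} (hf : L.IsLC₂ f) :
    (Set.range f).Finite := by
  obtain ⟨N, hN, h⟩ := hf
  have := L.finiteIndex hN
  have : Finite (G ⧸ N) := Subgroup.finite_quotient_of_finiteIndex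
  have key : ∀ a b a' b' : G, a⁻¹ * a' ∈ N → b⁻¹ * b' ∈ N → f (a', b') = f (a, b) := by
    intro a b a' b' ha hb
    have := h a b (a⁻¹ * a') ha (b⁻¹ * b') hb
    rwa [mul_inv_cancel_left, mul_inv_cancel_left] at this
  let f' : (G ⧸ N) × (G ⧸ N) → X := fun p =>
    Quotient.liftOn₂ p.1 p.2 (fun a b => f (a, b)) (by
      intro a b a' b' ha hb
      exact (key a b a' b' (QuotientGroup.leftRel_apply.1 ha) (QuotientGroup.leftRel_apply.1 hb)).symm)
  have : Set.range f ⊆ Set.range f' := by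
    rintro _ ⟨⟨g, g'⟩, rfl⟩
    exact ⟨((g : G ⧸ N), (g' : G ⧸ N)), rfl⟩
  exact (Set.finite_range f').subset this

end LevelStructure

variable {k G : Type u} [CommRing k] [Group G] (L : LevelStructure G) (A : Rep.{u} k G)

/-- A representation is smooth for the level structure `L` if every vector is fixed by a level. -/
def IsSmooth : Prop := ∀ a : A, ∃ N, L.IsLevel N ∧ ∀ g ∈ N, A.ρ g a = a

variable {L A}

/-- Finitely many vectors of a smooth module are fixed by a common level. -/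
lemma IsSmooth.exists_level_of_finite (hA : IsSmooth L A) {s : Set A} (hs : s.Finite) :
    ∃ N, L.IsLevel N ∧ ∀ a ∈ s, ∀ g ∈ N, A.ρ g a = a := by
  classical
  choose N hN hfix using hA
  obtain ⟨N₀, h₀, hle⟩ := L.exists_level_le_of_finite hs.toFinset N (fun a _ => hN a)
  exact ⟨N₀, h₀, fun a ha g hg => hfix a g (hle a (hs.mem_toFinset.2 ha) hg)⟩

namespace LevelStructure

/-- For an LC `1`-cochain with values in a smooth module there is a level which both leaves the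
cochain invariant and fixes all its values. -/
lemma IsLC₁.exists_good (hA : IsSmooth L A) {f : G → A} (hf : L.IsLC₁ f) :
    ∃ N, L.IsLevel N ∧ (∀ g, ∀ s ∈ N, f (g * s) = f g) ∧ ∀ g, ∀ s ∈ N, A.ρ s (f g) = f g := by
  obtain ⟨N₁, h₁, hinv⟩ := id hf
  obtain ⟨N₂, h₂, hfix⟩ := hA.exists_level_of_finite hf.finite_range
  obtain ⟨N, hN, hle⟩ := L.directed h₁ h₂
  exact ⟨N, hN, fun g s hs => hinv g s ((hle.trans inf_le_left) hs),
    fun g s hs => hfix _ ⟨g, rfl⟩ s ((hle.trans inf_le_right) hs)⟩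

/-- For an LC `2`-cochain with values in a smooth module there is a level which both leaves the
cochain invariant and fixes all its values. -/
lemma IsLC₂.exists_good (hA : IsSmooth L A) {f : G × G → A} (hf : L.IsLC₂ f) :
    ∃ N, L.IsLevel N ∧ (∀ g g', ∀ s ∈ N, ∀ s' ∈ N, f (g * s, g' * s') = f (g, g')) ∧
      ∀ p, ∀ s ∈ N, A.ρ s (f p) = f p := by
  obtain ⟨N₁, h₁, hinv⟩ := id hf
  obtain ⟨N₂, h₂, hfix⟩ := hA.exists_level_of_finite hf.finite_range
  obtain ⟨N, hN, hle⟩ := L.directed h₁ h₂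
  exact ⟨N, hN, fun g g' s hs s' hs' =>
      hinv g g' s ((hle.trans inf_le_left) hs) s' ((hle.trans inf_le_left) hs'),
    fun p s hs => hfix _ ⟨p, rfl⟩ s ((hle.trans inf_le_right) hs)⟩

end LevelStructure

variable (L A)

namespace LC

/-- LC `1`-cochains. -/
def C₁ : Submodule k (G → A) where
  carrier := {f | L.IsLC₁ f}
  add_mem' hf hf' := hf.add hf'
  zero_mem' := L.isLC₁_const (0 : A)
  smul_mem' c _ hf := hf.comp (c • ·)

/-- LC `2`-cochains. -/
def C₂ : Submodule k (G × G → A) where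
  carrier := {f | L.IsLC₂ f}
  add_mem' hf hf' := hf.add hf'
  zero_mem' := L.isLC₂_const (0 : A)
  smul_mem' c _ hf := hf.comp (c • ·)

/-- LC `3`-cochains. -/
def C₃ : Submodule k (G × G × G → A) where
  carrier := {f | L.IsLC₃ f}
  add_mem' hf hf' := hf.add hf'
  zero_mem' := L.isLC₃_const (0 : A)
  smul_mem' c _ hf := hf.comp (c • ·)

variable {L A}

lemma mem_C₁_iff {f : G → A} : f ∈ C₁ L A ↔ L.IsLC₁ f := Iff.rfl
lemma mem_C₂_iff {f : G × G → A} : f ∈ C₂ L A ↔ L.IsLC₂ f := Iff.rfl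
lemma mem_C₃_iff {f : G × G × G → A} : f ∈ C₃ L A ↔ L.IsLC₃ f := Iff.rfl

/-- `d₀₁` of any element of a smooth module is LC. -/
lemma d₀₁_mem_C₁ (hA : IsSmooth L A) (a : A) : (d₀₁ A).hom a ∈ C₁ L A := by
  obtain ⟨N, hN, hfix⟩ := hA a
  refine ⟨N, hN, fun g s hs => ?_⟩
  simp only [d₀₁_hom_apply, map_mul, Module.End.mul_apply, hfix s hs]

/-- `d₁₂` preserves LC cochains of a smooth module. -/
lemma d₁₂_mem_C₂ (hA : IsSmooth L A) {f : G → A} (hf : f ∈ C₁ L A) :
    (d₁₂ A).hom f ∈ C₂ L A := by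
  obtain ⟨N, hN, hinv, hfix⟩ := LevelStructure.IsLC₁.exists_good hA hf
  have hn := L.normal hN
  refine ⟨N, hN, fun g g' s hs s' hs' => ?_⟩
  have h1 : f (g * s * (g' * s')) = f (g * g') := by
    have : g * s * (g' * s') = g * g' * ((g'⁻¹ * s * g') * s') := by group
    rw [this]
    refine hinv _ _ (N.mul_mem ?_ hs')
    have := hn.conj_mem s hs g'⁻¹
    simpa [mul_assoc] using this
  simp only [d₁₂_hom_apply, map_mul, Module.End.mul_apply, hinv g' s' hs', hfix g' s hs, h1,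
    hinv g s hs]

/-- `d₂₃` preserves LC cochains of a smooth module. -/
lemma d₂₃_mem_C₃ (hA : IsSmooth L A) {f : G × G → A} (hf : f ∈ C₂ L A) :
    (d₂₃ A).hom f ∈ C₃ L A := by
  obtain ⟨N, hN, hinv, hfix⟩ := LevelStructure.IsLC₂.exists_good hA hf
  have hn := L.normal hN
  refine ⟨N, hN, fun g g' g'' s hs s' hs' s'' hs'' => ?_⟩
  have hconj : ∀ x : G, ∀ t ∈ N, x⁻¹ * t * x ∈ N := fun x t ht => by
    have := hn.conj_mem t ht x⁻¹
    simpa [mul_assoc] using this
  have h1 : f (g * s * (g' * s'), g'' * s'') = f (g * g', g'') := by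
    have : g * s * (g' * s') = g * g' * ((g'⁻¹ * s * g') * s') := by group
    rw [this]
    exact hinv _ _ _ (N.mul_mem (hconj g' s hs) hs') _ hs''
  have h2 : f (g * s, g' * s' * (g'' * s'')) = f (g, g' * g'') := by
    have : g' * s' * (g'' * s'') = g' * g'' * ((g''⁻¹ * s' * g'') * s'') := by group
    rw [this]
    exact hinv _ _ _ hs _ (N.mul_mem (hconj g'' s' hs') hs'')
  simp only [d₂₃_hom_apply, map_mul, Module.End.mul_apply, hinv g' g'' s' hs' s'' hs'',
    hfix (g', g'') s hs, h1, h2, hinv g g' s hs s' hs']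

variable (L A)

/-- LC `1`-cocycles. -/
def Z₁ : Submodule k (G → A) := cocycles₁ A ⊓ C₁ L A

/-- `1`-coboundaries (automatically LC for smooth modules). -/
def B₁ (_L : LevelStructure G) (A : Rep.{u} k G) : Submodule k (G → A) := coboundaries₁ A

/-- LC `2`-cocycles. -/
def Z₂ : Submodule k (G × G → A) := cocycles₂ A ⊓ C₂ L A

/-- LC `2`-coboundaries: differentials of LC `1`-cochains. -/
def B₂ : Submodule k (G × G → A) := (C₁ L A).map (d₁₂ A).hom

/-- LC `3`-coboundaries: differentials of LC `2`-cochains. -/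
def B₃ : Submodule k (G × G × G → A) := (C₂ L A).map (d₂₃ A).hom

/-- Level cohomology in degree `0`: the invariants. -/
noncomputable abbrev H0 (_L : LevelStructure G) (A : Rep.{u} k G) : Submodule k A :=
  A.ρ.invariants

/-- Level cohomology in degree `1`. -/
abbrev H1 : Type u := ↥(Z₁ L A) ⧸ (B₁ L A).comap (Z₁ L A).subtype

/-- Level cohomology in degree `2`. -/
abbrev H2 : Type u := ↥(Z₂ L A) ⧸ (B₂ L A).comap (Z₂ L A).subtype

/-- The class of an LC `1`-cocycle. -/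
abbrev H1π : ↥(Z₁ L A) →ₗ[k] H1 L A := Submodule.mkQ _

/-- The class of an LC `2`-cocycle. -/
abbrev H2π : ↥(Z₂ L A) →ₗ[k] H2 L A := Submodule.mkQ _

variable {L A}

lemma mem_Z₁_iff {f : G → A} : f ∈ Z₁ L A ↔ f ∈ cocycles₁ A ∧ L.IsLC₁ f := Iff.rfl
lemma mem_Z₂_iff {f : G × G → A} : f ∈ Z₂ L A ↔ f ∈ cocycles₂ A ∧ L.IsLC₂ f := Iff.rfl

lemma mem_B₂_iff {f : G × G → A} :
    f ∈ B₂ L A ↔ ∃ x : G → A, L.IsLC₁ x ∧ (d₁₂ A).hom x = f := by
  simp only [B₂, Submodule.mem_map, mem_C₁_iff]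

lemma B₁_le_Z₁ (hA : IsSmooth L A) : B₁ L A ≤ Z₁ L A := by
  intro f hf
  refine ⟨coboundaries₁_le_cocycles₁ A hf, ?_⟩
  obtain ⟨a, rfl⟩ := hf
  exact d₀₁_mem_C₁ hA a

lemma B₂_le_Z₂ (hA : IsSmooth L A) : B₂ L A ≤ Z₂ L A := by
  rintro _ ⟨x, hx, rfl⟩
  exact ⟨coboundaries₂_le_cocycles₂ A ⟨x, rfl⟩, d₁₂_mem_C₂ hA hx⟩

lemma H1π_eq_zero_iff (f : ↥(Z₁ L A)) : H1π L A f = 0 ↔ (f : G → A) ∈ B₁ L A := by
  simp [Submodule.Quotient.mk_eq_zero, Submodule.mem_comap]

lemma H2π_eq_zero_iff (f : ↥(Z₂ L A)) : H2π L A f = 0 ↔ (f : G × G → A) ∈ B₂ L A := by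
  simp [Submodule.Quotient.mk_eq_zero, Submodule.mem_comap]

end LC

end Fermat.Agent.CFT
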