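import Fermat.Agent.CFT.LC.LowDegree

/-!
# Level cohomology as a colimit over the finite quotients

For a level `N` of a level structure on `G` and a smooth module `A`, inflation
`Hⁿ(G ⧸ N, A^N) → LC.Hⁿ L A` (`n = 1, 2`; the source is Mathlib's group cohomology of the finite
group `G ⧸ N`).  Every LC class is inflated from some level, and a class of level `N` which dies in
level cohomology already dies after inflation to a deeper level.
-/

set_option autoImplicit false

universe u

open CategoryTheory groupCohomology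

namespace Fermat.Agent.CFT

namespace LC

open HExt

variable {k G : Type u} [CommRing k] [Group G] {L : LevelStructure G} (A : Rep.{u} k G)
  (N : Subgroup G) [N.Normal]

/-- The action of `G ⧸ N` on `A^N` is induced by the action of `G`. -/
lemma quotientToInvariants_ρ_coe (g : G) (a : A.quotientToInvariants N) :
    (((A.quotientToInvariants N).ρ (g : G ⧸ N) a : A.quotientToInvariants N) : A) =
      A.ρ g (a : A) := rfl

/-- Inflation of `1`-cochains. -/
def inflC₁ : ((G ⧸ N) → A.quotientToInvariants N) →ₗ[k] (G → A) where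
  toFun x g := ((x (g : G ⧸ N) : A.quotientToInvariants N) : A)
  map_add' _ _ := rfl
  map_smul' _ _ := rfl

/-- Inflation of `2`-cochains. -/
def inflC₂ : ((G ⧸ N) × (G ⧸ N) → A.quotientToInvariants N) →ₗ[k] (G × G → A) where
  toFun x g := ((x ((g.1 : G ⧸ N), (g.2 : G ⧸ N)) : A.quotientToInvariants N) : A)
  map_add' _ _ := rfl
  map_smul' _ _ := rfl

/-- Inflation of `3`-cochains. -/
def inflC₃ :
    ((G ⧸ N) × (G ⧸ N) × (G ⧸ N) → A.quotientToInvariants N) →ₗ[k] (G × G × G → A) where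
  toFun x g :=
    ((x ((g.1 : G ⧸ N), (g.2.1 : G ⧸ N), (g.2.2 : G ⧸ N)) : A.quotientToInvariants N) : A)
  map_add' _ _ := rfl
  map_smul' _ _ := rfl

variable {A N}

@[simp] lemma inflC₁_apply (x : (G ⧸ N) → A.quotientToInvariants N) (g : G) :
    inflC₁ A N x g = ((x (g : G ⧸ N) : A.quotientToInvariants N) : A) := rfl

@[simp] lemma inflC₂_apply (x : (G ⧸ N) × (G ⧸ N) → A.quotientToInvariants N) (g h : G) :
    inflC₂ A N x (g, h) = ((x ((g : G ⧸ N), (h : G ⧸ N)) : A.quotientToInvariants N) : A) := rfl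

lemma inflC₁_injective : Function.Injective (inflC₁ A N) := by
  intro x y hxy
  funext g
  induction g using QuotientGroup.induction_on with
  | H g => exact Subtype.ext (congrFun hxy g)

lemma inflC₂_injective : Function.Injective (inflC₂ A N) := by
  intro x y hxy
  funext ⟨g, h⟩
  induction g using QuotientGroup.induction_on with
  | H g =>
    induction h using QuotientGroup.induction_on with
    | H h => exact Subtype.ext (congrFun hxy (g, h))

lemma inflC₃_injective : Function.Injective (inflC₃ A N) := by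
  intro x y hxy
  funext ⟨g, h, j⟩
  induction g using QuotientGroup.induction_on with
  | H g =>
    induction h using QuotientGroup.induction_on with
    | H h =>
      induction j using QuotientGroup.induction_on with
      | H j => exact Subtype.ext (congrFun hxy (g, h, j))

lemma inflC₁_d₀₁ (a : A.quotientToInvariants N) :
    inflC₁ A N ((d₀₁ (A.quotientToInvariants N)).hom a) = (d₀₁ A).hom (a : A) := by
  funext g
  simp only [inflC₁_apply, d₀₁_hom_apply]
  rfl

lemma inflC₂_d₁₂ (x : (G ⧸ N) → A.quotientToInvariants N) :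
    inflC₂ A N ((d₁₂ (A.quotientToInvariants N)).hom x) = (d₁₂ A).hom (inflC₁ A N x) := by
  funext ⟨g, h⟩
  simp only [inflC₂_apply, d₁₂_hom_apply, inflC₁_apply]
  rfl

lemma inflC₃_d₂₃ (x : (G ⧸ N) × (G ⧸ N) → A.quotientToInvariants N) :
    inflC₃ A N ((d₂₃ (A.quotientToInvariants N)).hom x) = (d₂₃ A).hom (inflC₂ A N x) := by
  funext ⟨g, h, j⟩
  simp only [inflC₃, LinearMap.coe_mk, AddHom.coe_mk, d₂₃_hom_apply, inflC₂_apply]
  rfl

/-- Inflated cochains are invariant under `N`. -/
lemma inflC₁_mul_right (x : (G ⧸ N) → A.quotientToInvariants N) (g : G) {s : G} (hs : s ∈ N) :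
    inflC₁ A N x (g * s) = inflC₁ A N x g := by
  simp only [inflC₁_apply]
  have : ((g * s : G) : G ⧸ N) = (g : G ⧸ N) := by
    rw [QuotientGroup.mk_mul, (QuotientGroup.eq_one_iff s).2 hs, mul_one]
  rw [this]

lemma inflC₂_mul_right (x : (G ⧸ N) × (G ⧸ N) → A.quotientToInvariants N) (g h : G) {s t : G}
    (hs : s ∈ N) (ht : t ∈ N) : inflC₂ A N x (g * s, h * t) = inflC₂ A N x (g, h) := by
  simp only [inflC₂_apply]
  have h1 : ((g * s : G) : G ⧸ N) = (g : G ⧸ N) := by
    rw [QuotientGroup.mk_mul, (QuotientGroup.eq_one_iff s).2 hs, mul_one]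
  have h2 : ((h * t : G) : G ⧸ N) = (h : G ⧸ N) := by
    rw [QuotientGroup.mk_mul, (QuotientGroup.eq_one_iff t).2 ht, mul_one]
  rw [h1, h2]

lemma isLC₁_inflC₁ (hN : L.IsOpen N) (x : (G ⧸ N) → A.quotientToInvariants N) :
    L.IsLC₁ (inflC₁ A N x) := by
  obtain ⟨N', hN', hle⟩ := hN
  exact ⟨N', hN', fun g s hs => inflC₁_mul_right x g (hle hs)⟩

lemma isLC₂_inflC₂ (hN : L.IsOpen N) (x : (G ⧸ N) × (G ⧸ N) → A.quotientToInvariants N) :
    L.IsLC₂ (inflC₂ A N x) := by
  obtain ⟨N', hN', hle⟩ := hN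
  exact ⟨N', hN', fun g h s hs t ht => inflC₂_mul_right x g h (hle hs) (hle ht)⟩

/-! ### Inflation on cocycles and on cohomology -/

variable (A N)

/-- Inflation of `1`-cocycles of `G ⧸ N` to LC `1`-cocycles of `G`. -/
noncomputable def inflZ₁ (hN : L.IsOpen N) : cocycles₁ (A.quotientToInvariants N) →ₗ[k] ↥(Z₁ L A) :=
  ((inflC₁ A N).comp (cocycles₁ (A.quotientToInvariants N)).subtype).codRestrict (Z₁ L A)
    (fun x => ⟨by
      change (d₁₂ A).hom (inflC₁ A N x.1) = 0
      rw [← inflC₂_d₁₂]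
      have : (d₁₂ (A.quotientToInvariants N)).hom x.1 = 0 := x.2
      rw [this, map_zero], isLC₁_inflC₁ hN x.1⟩)

/-- Inflation of `2`-cocycles of `G ⧸ N` to LC `2`-cocycles of `G`. -/
noncomputable def inflZ₂ (hN : L.IsOpen N) : cocycles₂ (A.quotientToInvariants N) →ₗ[k] ↥(Z₂ L A) :=
  ((inflC₂ A N).comp (cocycles₂ (A.quotientToInvariants N)).subtype).codRestrict (Z₂ L A)
    (fun x => ⟨by
      change (d₂₃ A).hom (inflC₂ A N x.1) = 0
      rw [← inflC₃_d₂₃]
      have : (d₂₃ (A.quotientToInvariants N)).hom x.1 = 0 := x.2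
      rw [this, map_zero], isLC₂_inflC₂ hN x.1⟩)

variable {A N}

@[simp] lemma coe_inflZ₁ (hN : L.IsOpen N) (x : cocycles₁ (A.quotientToInvariants N)) :
    ((inflZ₁ A N hN x : ↥(Z₁ L A)) : G → A) = inflC₁ A N x.1 := rfl

@[simp] lemma coe_inflZ₂ (hN : L.IsOpen N) (x : cocycles₂ (A.quotientToInvariants N)) :
    ((inflZ₂ A N hN x : ↥(Z₂ L A)) : G × G → A) = inflC₂ A N x.1 := rfl

private lemma H1π_surj (B : Rep.{u} k (G ⧸ N)) : Function.Surjective (groupCohomology.H1π B).hom :=
  (ModuleCat.epi_iff_surjective _).1 inferInstance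

private lemma H2π_surj (B : Rep.{u} k (G ⧸ N)) : Function.Surjective (groupCohomology.H2π B).hom :=
  (ModuleCat.epi_iff_surjective _).1 inferInstance

variable (A N)

/-- **Inflation** `H¹(G ⧸ N, A^N) → LC.H1 L A` for an open normal subgroup `N`. -/
noncomputable def inflH1 (hN : L.IsOpen N) :
    groupCohomology.H1 (A.quotientToInvariants N) →ₗ[k] H1 L A :=
  liftSurj (groupCohomology.H1π (A.quotientToInvariants N)).hom (H1π_surj _)
    ((H1π L A).comp (inflZ₁ A N hN)) (by
      intro x hx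
      rw [LinearMap.mem_ker] at hx ⊢
      obtain ⟨a, ha⟩ := (groupCohomology.H1π_eq_zero_iff x).1 hx
      rw [LinearMap.comp_apply, H1π_eq_zero_iff]
      refine ⟨(a : A), ?_⟩
      rw [coe_inflZ₁, ← inflC₁_d₀₁]
      exact congrArg _ ha)

/-- **Inflation** `H²(G ⧸ N, A^N) → LC.H2 L A` for an open normal subgroup `N`. -/
noncomputable def inflH2 (hN : L.IsOpen N) :
    groupCohomology.H2 (A.quotientToInvariants N) →ₗ[k] H2 L A :=
  liftSurj (groupCohomology.H2π (A.quotientToInvariants N)).hom (H2π_surj _)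
    ((H2π L A).comp (inflZ₂ A N hN)) (by
      intro x hx
      rw [LinearMap.mem_ker] at hx ⊢
      obtain ⟨y, hy⟩ := (groupCohomology.H2π_eq_zero_iff x).1 hx
      rw [LinearMap.comp_apply, H2π_eq_zero_iff, mem_B₂_iff]
      refine ⟨inflC₁ A N y, isLC₁_inflC₁ hN y, ?_⟩
      rw [coe_inflZ₂, ← inflC₂_d₁₂]
      exact congrArg _ hy)

variable {A N}

@[simp] lemma inflH1_H1π (hN : L.IsOpen N) (x : cocycles₁ (A.quotientToInvariants N)) :
    inflH1 A N hN ((groupCohomology.H1π (A.quotientToInvariants N)).hom x) =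
      H1π L A (inflZ₁ A N hN x) :=
  liftSurj_apply _ _ _ _ x

@[simp] lemma inflH2_H2π (hN : L.IsOpen N) (x : cocycles₂ (A.quotientToInvariants N)) :
    inflH2 A N hN ((groupCohomology.H2π (A.quotientToInvariants N)).hom x) =
      H2π L A (inflZ₂ A N hN x) :=
  liftSurj_apply _ _ _ _ x

/-! ### Every LC class comes from a finite level -/

section defl

variable {x : G → A}

/-- Descent of an `N`-invariant `1`-cochain with `N`-fixed values to `G ⧸ N`. -/
noncomputable def deflC₁ (x : G → A) (hinv : ∀ g, ∀ s ∈ N, x (g * s) = x g)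
    (hfix : ∀ g, ∀ s ∈ N, A.ρ s (x g) = x g) : (G ⧸ N) → A.quotientToInvariants N :=
  fun q => Quotient.liftOn' q (fun g => (⟨x g, fun s => hfix g s.1 s.2⟩ : A.quotientToInvariants N))
    (by
      intro a b hab
      have hab' : a⁻¹ * b ∈ N := QuotientGroup.leftRel_apply.1 hab
      refine Subtype.ext ?_
      have := hinv a (a⁻¹ * b) hab'
      rw [mul_inv_cancel_left] at this
      exact this.symm)

lemma inflC₁_deflC₁ (x : G → A) (hinv : ∀ g, ∀ s ∈ N, x (g * s) = x g)
    (hfix : ∀ g, ∀ s ∈ N, A.ρ s (x g) = x g) : inflC₁ A N (deflC₁ x hinv hfix) = x := rfl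

/-- Descent of an `N`-invariant `2`-cochain with `N`-fixed values to `G ⧸ N`. -/
noncomputable def deflC₂ (x : G × G → A)
    (hinv : ∀ g h, ∀ s ∈ N, ∀ t ∈ N, x (g * s, h * t) = x (g, h))
    (hfix : ∀ p, ∀ s ∈ N, A.ρ s (x p) = x p) : (G ⧸ N) × (G ⧸ N) → A.quotientToInvariants N :=
  fun q => Quotient.liftOn₂' q.1 q.2
    (fun g h => (⟨x (g, h), fun s => hfix (g, h) s.1 s.2⟩ : A.quotientToInvariants N))
    (by
      intro a b a' b' ha hb
      have ha' : a⁻¹ * a' ∈ N := QuotientGroup.leftRel_apply.1 ha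
      have hb' : b⁻¹ * b' ∈ N := QuotientGroup.leftRel_apply.1 hb
      refine Subtype.ext ?_
      have := hinv a b (a⁻¹ * a') ha' (b⁻¹ * b') hb'
      rw [mul_inv_cancel_left, mul_inv_cancel_left] at this
      exact this.symm)

lemma inflC₂_deflC₂ (x : G × G → A)
    (hinv : ∀ g h, ∀ s ∈ N, ∀ t ∈ N, x (g * s, h * t) = x (g, h))
    (hfix : ∀ p, ∀ s ∈ N, A.ρ s (x p) = x p) : inflC₂ A N (deflC₂ x hinv hfix) = x := by
  funext ⟨g, h⟩
  rfl

end defl

end LC

/-- A level, bundled (so that normality and finiteness of the index are instances). -/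
structure LevelStructure.Level {G : Type u} [Group G] (L : LevelStructure G) where
  /-- the underlying subgroup -/
  N : Subgroup G
  isLevel : L.IsLevel N

namespace LevelStructure.Level

variable {G : Type u} [Group G] {L : LevelStructure G} (l : L.Level)

instance : l.N.Normal := L.normal l.isLevel
instance : l.N.FiniteIndex := L.finiteIndex l.isLevel
lemma isOpen : L.IsOpen l.N := L.isOpen_of_isLevel l.isLevel

lemma exists_le (l l' : L.Level) : ∃ l₀ : L.Level, l₀.N ≤ l.N ∧ l₀.N ≤ l'.N := by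
  obtain ⟨N₀, hN₀, hle⟩ := L.directed l.isLevel l'.isLevel
  exact ⟨⟨N₀, hN₀⟩, hle.trans inf_le_left, hle.trans inf_le_right⟩

end LevelStructure.Level

namespace LC

variable {k G : Type u} [CommRing k] [Group G] {L : LevelStructure G} {A : Rep.{u} k G}

/-! ### Inflation between finite levels -/

section fin

variable {N N' : Subgroup G} [N.Normal] [N'.Normal] (h : N' ≤ N)

/-- The quotient map `G ⧸ N' →* G ⧸ N` for `N' ≤ N`. -/
def quotMap : G ⧸ N' →* G ⧸ N := QuotientGroup.map N' N (MonoidHom.id G) h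

@[simp] lemma quotMap_mk (g : G) : quotMap h (g : G ⧸ N') = (g : G ⧸ N) := rfl

variable (A) in
/-- The inclusion `A^N → A^{N'}` for `N' ≤ N`, as a morphism of `G ⧸ N'`-representations. -/
noncomputable def invInclLin :
    (A.quotientToInvariants N) →ₗ[k] (A.quotientToInvariants N') where
  toFun a := ⟨(a : A), fun s => a.2 ⟨s.1, h s.2⟩⟩
  map_add' _ _ := rfl
  map_smul' _ _ := rfl

variable (A) in
/-- The inclusion `A^N → A^{N'}` for `N' ≤ N`, as a morphism of `G ⧸ N'`-representations. -/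
noncomputable def invIncl :
    Rep.res (quotMap h) (A.quotientToInvariants N) ⟶ A.quotientToInvariants N' :=
  Rep.ofHom ⟨invInclLin A h, fun g => by
      induction g using QuotientGroup.induction_on with
      | H g => rfl⟩

@[simp] lemma coe_invIncl_apply (a : A.quotientToInvariants N) :
    (((invIncl A h).hom a : A.quotientToInvariants N') : A) = (a : A) := rfl

variable (A) in
/-- Inflation `Hⁿ(G ⧸ N, A^N) → Hⁿ(G ⧸ N', A^{N'})` between finite levels. -/
noncomputable def inflFin (n : ℕ) :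
    groupCohomology (A.quotientToInvariants N) n ⟶ groupCohomology (A.quotientToInvariants N') n :=
  groupCohomology.map (quotMap h) (invIncl A h) n

lemma inflC₂_cochainsMap₂ (x : (G ⧸ N) × (G ⧸ N) → A.quotientToInvariants N) :
    inflC₂ A N' ((cochainsMap₂ (quotMap h) (invIncl A h)).hom x) = inflC₂ A N x := by
  funext ⟨g, g'⟩
  rfl

lemma inflC₁_cochainsMap₁ (x : (G ⧸ N) → A.quotientToInvariants N) :
    inflC₁ A N' ((cochainsMap₁ (quotMap h) (invIncl A h)).hom x) = inflC₁ A N x := by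
  funext g
  rfl

/-- Inflation to level cohomology is compatible with inflation between finite levels. -/
lemma inflH2_inflFin (hN' : L.IsOpen N') (y : groupCohomology.H2 (A.quotientToInvariants N)) :
    inflH2 A N' hN' ((inflFin A h 2).hom y) = inflH2 A N (LevelStructure.IsOpen.mono L hN' h) y := by
  obtain ⟨x, rfl⟩ := H2π_surj _ y
  have h1 : (inflFin A h 2).hom ((groupCohomology.H2π _).hom x) =
      (groupCohomology.H2π _).hom ((mapCocycles₂ (quotMap h) (invIncl A h)).hom x) :=
    H2π_comp_map_apply (quotMap h) (invIncl A h) x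
  rw [h1, inflH2_H2π, inflH2_H2π]
  congr 1

lemma inflH1_inflFin (hN' : L.IsOpen N') (y : groupCohomology.H1 (A.quotientToInvariants N)) :
    inflH1 A N' hN' ((inflFin A h 1).hom y) = inflH1 A N (LevelStructure.IsOpen.mono L hN' h) y := by
  obtain ⟨x, rfl⟩ := H1π_surj _ y
  have h1 : (inflFin A h 1).hom ((groupCohomology.H1π _).hom x) =
      (groupCohomology.H1π _).hom ((mapCocycles₁ (quotMap h) (invIncl A h)).hom x) :=
    H1π_comp_map_apply (quotMap h) (invIncl A h) x
  rw [h1, inflH1_H1π, inflH1_H1π]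
  congr 1

end fin

private lemma exists_inflH1_eq_aux (l : L.Level) (x : ↥(Z₁ L A))
    (hinv : ∀ g, ∀ s ∈ l.N, x.1 (g * s) = x.1 g)
    (hfix : ∀ g, ∀ s ∈ l.N, A.ρ s (x.1 g) = x.1 g) :
    ∃ y : groupCohomology.H1 (A.quotientToInvariants l.N),
      inflH1 A l.N l.isOpen y = H1π L A x := by
  have hcoc : deflC₁ (N := l.N) x.1 hinv hfix ∈ cocycles₁ (A.quotientToInvariants l.N) := by
    change (d₁₂ _).hom _ = 0
    apply inflC₂_injective
    rw [inflC₂_d₁₂, inflC₁_deflC₁, map_zero]
    exact x.2.1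
  refine ⟨(groupCohomology.H1π _).hom ⟨_, hcoc⟩, ?_⟩
  rw [inflH1_H1π]
  congr 1

/-- **Every class in `LC.H1` is inflated from a finite level.** -/
theorem exists_inflH1_eq (hA : IsSmooth L A) (c : H1 L A) :
    ∃ l : L.Level, ∃ y : groupCohomology.H1 (A.quotientToInvariants l.N),
      inflH1 A l.N l.isOpen y = c := by
  obtain ⟨x, rfl⟩ := Submodule.mkQ_surjective _ c
  obtain ⟨N, hN, hinv, hfix⟩ := LevelStructure.IsLC₁.exists_good hA x.2.2
  exact ⟨⟨N, hN⟩, exists_inflH1_eq_aux ⟨N, hN⟩ x hinv hfix⟩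

private lemma exists_inflH2_eq_aux (l : L.Level) (x : ↥(Z₂ L A))
    (hinv : ∀ g h, ∀ s ∈ l.N, ∀ t ∈ l.N, x.1 (g * s, h * t) = x.1 (g, h))
    (hfix : ∀ p, ∀ s ∈ l.N, A.ρ s (x.1 p) = x.1 p) :
    ∃ y : groupCohomology.H2 (A.quotientToInvariants l.N),
      inflH2 A l.N l.isOpen y = H2π L A x := by
  have hcoc : deflC₂ (N := l.N) x.1 hinv hfix ∈ cocycles₂ (A.quotientToInvariants l.N) := by
    change (d₂₃ _).hom _ = 0
    apply inflC₃_injective
    rw [inflC₃_d₂₃, inflC₂_deflC₂, map_zero]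
    exact x.2.1
  refine ⟨(groupCohomology.H2π _).hom ⟨_, hcoc⟩, ?_⟩
  rw [inflH2_H2π]
  congr 1

/-- **Every class in `LC.H2` is inflated from a finite level.** -/
theorem exists_inflH2_eq (hA : IsSmooth L A) (c : H2 L A) :
    ∃ l : L.Level, ∃ y : groupCohomology.H2 (A.quotientToInvariants l.N),
      inflH2 A l.N l.isOpen y = c := by
  obtain ⟨x, rfl⟩ := Submodule.mkQ_surjective _ c
  obtain ⟨N, hN, hinv, hfix⟩ := LevelStructure.IsLC₂.exists_good hA x.2.2
  exact ⟨⟨N, hN⟩, exists_inflH2_eq_aux ⟨N, hN⟩ x hinv hfix⟩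

private lemma exists_inflFin_eq_zero_aux (l l' : L.Level) (h : l'.N ≤ l.N)
    (x : cocycles₂ (A.quotientToInvariants l.N)) (z : G → A)
    (hz : (d₁₂ A).hom z = inflC₂ A l.N x.1)
    (hinv : ∀ g, ∀ s ∈ l'.N, z (g * s) = z g) (hfix : ∀ g, ∀ s ∈ l'.N, A.ρ s (z g) = z g) :
    (inflFin A h 2).hom ((groupCohomology.H2π _).hom x) = 0 := by
  have h1 : (inflFin A h 2).hom ((groupCohomology.H2π _).hom x) =
      (groupCohomology.H2π _).hom ((mapCocycles₂ (quotMap h) (invIncl A h)).hom x) :=
    H2π_comp_map_apply (quotMap h) (invIncl A h) x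
  rw [h1, groupCohomology.H2π_eq_zero_iff]
  refine ⟨deflC₁ (N := l'.N) z hinv hfix, ?_⟩
  apply inflC₂_injective
  rw [inflC₂_d₁₂, inflC₁_deflC₁, hz, coe_mapCocycles₂]
  exact (inflC₂_cochainsMap₂ h x.1).symm

/-- **A class of level `N` which dies in level cohomology dies at a deeper finite level.** -/
theorem exists_inflFin_eq_zero (hA : IsSmooth L A) (l : L.Level)
    (y : groupCohomology.H2 (A.quotientToInvariants l.N)) (hy : inflH2 A l.N l.isOpen y = 0) :
    ∃ (l' : L.Level) (h : l'.N ≤ l.N), (inflFin A h 2).hom y = 0 := by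
  obtain ⟨x, rfl⟩ := H2π_surj _ y
  rw [inflH2_H2π, H2π_eq_zero_iff, mem_B₂_iff] at hy
  obtain ⟨z, hzLC, hz⟩ := hy
  obtain ⟨N₁, hN₁, hinv, hfix⟩ := LevelStructure.IsLC₁.exists_good hA hzLC
  obtain ⟨N', hN', hle⟩ := L.directed hN₁ l.isLevel
  refine ⟨⟨N', hN'⟩, hle.trans inf_le_right, ?_⟩
  exact exists_inflFin_eq_zero_aux l ⟨N', hN'⟩ (hle.trans inf_le_right) x z hz
    (fun g s hs => hinv g s ((hle.trans inf_le_left) hs))
    (fun g s hs => hfix g s ((hle.trans inf_le_left) hs))

/-- Inflation from a finite level to `LC.H1` is injective. -/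
theorem inflH1_injective (N : Subgroup G) [N.Normal] (hN : L.IsOpen N) :
    Function.Injective (inflH1 A N hN) := by
  rw [injective_iff_map_eq_zero]
  intro y hy
  obtain ⟨x, rfl⟩ := H1π_surj _ y
  rw [inflH1_H1π, H1π_eq_zero_iff] at hy
  obtain ⟨a, ha⟩ := hy
  rw [coe_inflZ₁] at ha
  rw [groupCohomology.H1π_eq_zero_iff]
  have hfix : ∀ s : N, (A.ρ.comp N.subtype) s a = a := by
    intro s
    have h1 := congrFun ha (s : G)
    have h2 := congrFun ha 1
    rw [d₀₁_hom_apply] at h1 h2
    have h3 : inflC₁ A N x.1 (s : G) = inflC₁ A N x.1 1 := by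
      have := inflC₁_mul_right x.1 1 s.2
      rwa [one_mul] at this
    rw [h3, ← h2, map_one, Module.End.one_apply, sub_self] at h1
    exact sub_eq_zero.1 h1
  refine ⟨⟨a, hfix⟩, ?_⟩
  apply inflC₁_injective
  rw [inflC₁_d₀₁]
  exact ha

/-! ### The universal property of `LC.H2` as a colimit over the finite levels -/

section desc

variable {T : Type*} [AddCommGroup T] [Module k T]
  (t : ∀ l : L.Level, groupCohomology.H2 (A.quotientToInvariants l.N) →ₗ[k] T)
  (ht : ∀ (l l' : L.Level) (h : l'.N ≤ l.N) (y : groupCohomology.H2 (A.quotientToInvariants l.N)),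
    t l' ((inflFin A h 2).hom y) = t l y)

include ht in
lemma desc_aux (hA : IsSmooth L A) (l l' : L.Level)
    (y : groupCohomology.H2 (A.quotientToInvariants l.N))
    (y' : groupCohomology.H2 (A.quotientToInvariants l'.N))
    (h : inflH2 A l.N l.isOpen y = inflH2 A l'.N l'.isOpen y') : t l y = t l' y' := by
  obtain ⟨l₀, h1, h2⟩ := l.exists_le l'
  have h0 : inflH2 A l₀.N l₀.isOpen ((inflFin A h1 2).hom y - (inflFin A h2 2).hom y') = 0 := by
    rw [map_sub, inflH2_inflFin, inflH2_inflFin, sub_eq_zero]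
    exact h
  obtain ⟨l'', h3, h4⟩ := exists_inflFin_eq_zero hA l₀ _ h0
  have h5 := ht l₀ l'' h3 ((inflFin A h1 2).hom y - (inflFin A h2 2).hom y')
  rw [h4, map_zero, map_sub, ht l l₀ h1 y, ht l' l₀ h2 y'] at h5
  exact (sub_eq_zero.1 h5.symm)

/-- The value of the descended map on a class, by choice of a finite level. -/
noncomputable def descH2Fun (hA : IsSmooth L A) (c : H2 L A) : T :=
  t (exists_inflH2_eq hA c).choose (exists_inflH2_eq hA c).choose_spec.choose

include ht in
lemma descH2Fun_inflH2 (hA : IsSmooth L A) (l : L.Level)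
    (y : groupCohomology.H2 (A.quotientToInvariants l.N)) :
    descH2Fun t hA (inflH2 A l.N l.isOpen y) = t l y :=
  desc_aux t ht hA _ _ _ _ (exists_inflH2_eq hA (inflH2 A l.N l.isOpen y)).choose_spec.choose_spec

/-- **Universal property**: a family of linear maps on the finite levels which is compatible with
inflation descends to `LC.H2`. -/
noncomputable def descH2 (hA : IsSmooth L A) : H2 L A →ₗ[k] T where
  toFun := descH2Fun t hA
  map_add' c c' := by
    obtain ⟨l, y, rfl⟩ := exists_inflH2_eq hA c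
    obtain ⟨l', y', rfl⟩ := exists_inflH2_eq hA c'
    obtain ⟨l₀, h1, h2⟩ := l.exists_le l'
    have : inflH2 A l.N l.isOpen y + inflH2 A l'.N l'.isOpen y' =
        inflH2 A l₀.N l₀.isOpen ((inflFin A h1 2).hom y + (inflFin A h2 2).hom y') := by
      rw [map_add, inflH2_inflFin, inflH2_inflFin]
    rw [this, descH2Fun_inflH2 t ht, descH2Fun_inflH2 t ht, descH2Fun_inflH2 t ht, map_add,
      ht l l₀ h1 y, ht l' l₀ h2 y']
  map_smul' a c := by
    obtain ⟨l, y, rfl⟩ := exists_inflH2_eq hA c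
    rw [← map_smul, descH2Fun_inflH2 t ht, descH2Fun_inflH2 t ht, map_smul, RingHom.id_apply]

include ht in
@[simp] lemma descH2_inflH2 (hA : IsSmooth L A) (l : L.Level)
    (y : groupCohomology.H2 (A.quotientToInvariants l.N)) :
    descH2 t ht hA (inflH2 A l.N l.isOpen y) = t l y :=
  descH2Fun_inflH2 t ht hA l y

end desc

end LC

end Fermat.Agent.CFT
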