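import Fermat.Agent.CFT.LC.Complex

/-!
# Level cohomology: change of group

For a group homomorphism `f : H →* G` which is compatible with level structures `LH`, `LG`
(the preimage of every level of `G` contains a level of `H`), pulling back cochains along `f`
is a chain map `LC.cx hA ⟶ LC.cx (hA.res hf)`.  This covers restriction to open subgroups
(`LH = LG.comap U.subtype`), localisation to decomposition groups and inflation.
-/

set_option autoImplicit false

universe u

open CategoryTheory groupCohomology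

namespace Fermat.Agent.CFT

namespace LevelStructure

variable {G H K : Type u} [Group G] [Group H] [Group K]

/-- `f : H →* G` is compatible with the level structures: the preimage of every level of `G`
contains a level of `H`. -/
def Compat (LH : LevelStructure H) (LG : LevelStructure G) (f : H →* G) : Prop :=
  ∀ N, LG.IsLevel N → ∃ N', LH.IsLevel N' ∧ N' ≤ N.comap f

lemma compat_comap (L : LevelStructure G) (f : H →* G) : (L.comap f).Compat L f :=
  fun N hN => ⟨N.comap f, ⟨N, hN, rfl⟩, le_rfl⟩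

lemma compat_id (L : LevelStructure G) : L.Compat L (MonoidHom.id G) :=
  fun N hN => ⟨N, hN, le_rfl⟩

lemma Compat.comp {LK : LevelStructure K} {LH : LevelStructure H} {LG : LevelStructure G}
    {f' : K →* H} {f : H →* G} (hf' : LK.Compat LH f') (hf : LH.Compat LG f) :
    LK.Compat LG (f.comp f') := by
  intro N hN
  obtain ⟨N', hN', hle⟩ := hf N hN
  obtain ⟨N'', hN'', hle'⟩ := hf' N' hN'
  refine ⟨N'', hN'', fun x hx => ?_⟩
  exact hle (hle' hx)

variable {LH : LevelStructure H} {LG : LevelStructure G} {f : H →* G}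

lemma Compat.isLC₁ (hf : LH.Compat LG f) {X : Type*} {x : G → X} (hx : LG.IsLC₁ x) :
    LH.IsLC₁ (x ∘ f) := by
  obtain ⟨N, hN, h⟩ := hx
  obtain ⟨N', hN', hle⟩ := hf N hN
  refine ⟨N', hN', fun g s hs => ?_⟩
  simp only [Function.comp_apply, map_mul]
  exact h (f g) (f s) (hle hs)

lemma Compat.isLC₂ (hf : LH.Compat LG f) {X : Type*} {x : G × G → X} (hx : LG.IsLC₂ x) :
    LH.IsLC₂ (x ∘ Prod.map f f) := by
  obtain ⟨N, hN, h⟩ := hx
  obtain ⟨N', hN', hle⟩ := hf N hN
  refine ⟨N', hN', fun g g' s hs s' hs' => ?_⟩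
  simp only [Function.comp_apply, Prod.map_apply, map_mul]
  exact h (f g) (f g') (f s) (hle hs) (f s') (hle hs')

lemma Compat.isLC₃ (hf : LH.Compat LG f) {X : Type*} {x : G × G × G → X} (hx : LG.IsLC₃ x) :
    LH.IsLC₃ (x ∘ Prod.map f (Prod.map f f)) := by
  obtain ⟨N, hN, h⟩ := hx
  obtain ⟨N', hN', hle⟩ := hf N hN
  refine ⟨N', hN', fun g g' g'' s hs s' hs' s'' hs'' => ?_⟩
  simp only [Function.comp_apply, Prod.map_apply, map_mul]
  exact h (f g) (f g') (f g'') (f s) (hle hs) (f s') (hle hs') (f s'') (hle hs'')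

end LevelStructure

open LevelStructure

variable {k G H : Type u} [CommRing k] [Group G] [Group H]
  {LH : LevelStructure H} {LG : LevelStructure G} {f : H →* G} {A : Rep.{u} k G}

/-- The restriction of a smooth module along a compatible homomorphism is smooth. -/
lemma IsSmooth.res (hA : IsSmooth LG A) (hf : LH.Compat LG f) : IsSmooth LH (Rep.res f A) := by
  intro a
  obtain ⟨N, hN, hfix⟩ := hA a
  obtain ⟨N', hN', hle⟩ := hf N hN
  exact ⟨N', hN', fun g hg => hfix (f g) (hle hg)⟩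

namespace LC

open HExt

/-- Pull back of LC `1`-cochains. -/
def resC₁ (hf : LH.Compat LG f) (A : Rep.{u} k G) : ↥(C₁ LG A) →ₗ[k] ↥(C₁ LH (Rep.res f A)) where
  toFun x := ⟨fun h => (x : G → A) (f h), hf.isLC₁ x.2⟩
  map_add' _ _ := rfl
  map_smul' _ _ := rfl

/-- Pull back of LC `2`-cochains. -/
def resC₂ (hf : LH.Compat LG f) (A : Rep.{u} k G) : ↥(C₂ LG A) →ₗ[k] ↥(C₂ LH (Rep.res f A)) where
  toFun x := ⟨fun h => (x : G × G → A) (f h.1, f h.2), hf.isLC₂ x.2⟩
  map_add' _ _ := rfl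
  map_smul' _ _ := rfl

/-- Pull back of LC `3`-cochains. -/
def resC₃ (hf : LH.Compat LG f) (A : Rep.{u} k G) : ↥(C₃ LG A) →ₗ[k] ↥(C₃ LH (Rep.res f A)) where
  toFun x := ⟨fun h => (x : G × G × G → A) (f h.1, f h.2.1, f h.2.2), hf.isLC₃ x.2⟩
  map_add' _ _ := rfl
  map_smul' _ _ := rfl

@[simp] lemma resC₁_apply (hf : LH.Compat LG f) (x : ↥(C₁ LG A)) (h : H) :
    (resC₁ hf A x : H → Rep.res f A) h = (x : G → A) (f h) := rfl
@[simp] lemma resC₂_apply (hf : LH.Compat LG f) (x : ↥(C₂ LG A)) (h : H × H) :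
    (resC₂ hf A x : H × H → Rep.res f A) h = (x : G × G → A) (f h.1, f h.2) := rfl
@[simp] lemma resC₃_apply (hf : LH.Compat LG f) (x : ↥(C₃ LG A)) (h : H × H × H) :
    (resC₃ hf A x : H × H × H → Rep.res f A) h = (x : G × G × G → A) (f h.1, f h.2.1, f h.2.2) :=
  rfl

lemma resC₁_dLC₀ (hf : LH.Compat LG f) (hA : IsSmooth LG A) (a : A) :
    resC₁ hf A (dLC₀ hA a) = dLC₀ (hA.res hf) (a : Rep.res f A) := by
  refine Subtype.ext (funext fun h => ?_)
  change (d₀₁ A).hom a (f h) = (d₀₁ (Rep.res f A)).hom a h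
  rw [d₀₁_hom_apply, d₀₁_hom_apply]
  rfl

lemma resC₂_dLC₁ (hf : LH.Compat LG f) (hA : IsSmooth LG A) (x : ↥(C₁ LG A)) :
    resC₂ hf A (dLC₁ hA x) = dLC₁ (hA.res hf) (resC₁ hf A x) := by
  refine Subtype.ext (funext fun ⟨h, h'⟩ => ?_)
  change (d₁₂ A).hom (x : G → A) (f h, f h') =
    (d₁₂ (Rep.res f A)).hom (resC₁ hf A x : H → Rep.res f A) (h, h')
  rw [d₁₂_hom_apply, d₁₂_hom_apply]
  simp only [resC₁_apply, map_mul]
  rfl

lemma resC₃_dLC₂ (hf : LH.Compat LG f) (hA : IsSmooth LG A) (x : ↥(C₂ LG A)) :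
    resC₃ hf A (dLC₂ hA x) = dLC₂ (hA.res hf) (resC₂ hf A x) := by
  refine Subtype.ext (funext fun ⟨h, h', h''⟩ => ?_)
  change (d₂₃ A).hom (x : G × G → A) (f h, f h', f h'') =
    (d₂₃ (Rep.res f A)).hom (resC₂ hf A x : H × H → Rep.res f A) (h, h', h'')
  rw [d₂₃_hom_apply, d₂₃_hom_apply]
  simp only [resC₂_apply, map_mul]
  rfl

/-- The components of the restriction chain map. -/
def cxResF (hf : LH.Compat LG f) (A : Rep.{u} k G) :
    ∀ n, cxX LG A n →ₗ[k] cxX LH (Rep.res f A) n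
  | 0 => (LinearMap.id : A →ₗ[k] A)
  | 1 => resC₁ hf A
  | 2 => resC₂ hf A
  | 3 => resC₃ hf A
  | _ + 4 => LinearMap.id

/-- **Restriction** along a compatible homomorphism, as a chain map of LC complexes. -/
def cxRes (hf : LH.Compat LG f) (hA : IsSmooth LG A) : Cx.Hom (cx hA) (cx (hA.res hf)) where
  f := cxResF hf A
  comm n x := by
    match n, x with
    | 0, x => exact resC₁_dLC₀ hf hA x
    | 1, x => exact resC₂_dLC₁ hf hA x
    | 2, x => exact resC₃_dLC₂ hf hA x
    | _ + 3, _ => rfl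

/-- Restriction on level cohomology in degree `n`. -/
noncomputable def resH (hf : LH.Compat LG f) (hA : IsSmooth LG A) (n : ℕ) :
    (cx hA).H n →ₗ[k] (cx (hA.res hf)).H n :=
  (cxRes hf hA).mapH n

end LC

end Fermat.Agent.CFT
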