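import Fermat.Agent.CFT.LC.Finite
import Fermat.Agent.CFT.Tate.ResCores

/-!
# Level cohomology, node LC8: lifting finite-level class formation data

Generic transfer of statements about the Mathlib group cohomology of the finite quotients
`G ⧸ N` (`N` a level, coefficients `A^N`) to the level cohomology `LC.H1 L A`, `LC.H2 L A`:

* (L1) vanishing / absence of `n`-torsion of `H¹` at a cofinal family of levels passes to `LC.H1`;
  `LC.H1` and `LC.H2` are torsion (every class is killed by the index of a level);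
* (L2) a family of additive invariant maps on the `H²` of the finite levels, compatible with
  inflation, descends to an additive map on `LC.H2` (`descH2Add`), which is injective if the
  members of a cofinal family are; its range is the union of the ranges; for values in
  `ℚ/ℤ = AddCircle (1 : ℚ)` the `p`-torsion of the source is identified with `ZMod p`.
-/

set_option autoImplicit false

universe u

open CategoryTheory groupCohomology

namespace Fermat.Agent.CFT

namespace LC

variable {k G : Type u} [CommRing k] [Group G] {L : LevelStructure G} {A : Rep.{u} k G}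

/-! ### Classes come from arbitrarily deep levels -/

/-- Every class of `LC.H1` is inflated from a level below any given level. -/
lemma exists_inflH1_eq_of_le (hA : IsSmooth L A) (c : H1 L A) (l₀ : L.Level) :
    ∃ l : L.Level, l.N ≤ l₀.N ∧ ∃ y : groupCohomology.H1 (A.quotientToInvariants l.N),
      inflH1 A l.N l.isOpen y = c := by
  obtain ⟨l, y, rfl⟩ := exists_inflH1_eq hA c
  obtain ⟨l', h1, h2⟩ := l.exists_le l₀
  exact ⟨l', h2, (inflFin A h1 1).hom y, inflH1_inflFin h1 l'.isOpen y⟩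

/-- Every class of `LC.H2` is inflated from a level below any given level. -/
lemma exists_inflH2_eq_of_le (hA : IsSmooth L A) (c : H2 L A) (l₀ : L.Level) :
    ∃ l : L.Level, l.N ≤ l₀.N ∧ ∃ y : groupCohomology.H2 (A.quotientToInvariants l.N),
      inflH2 A l.N l.isOpen y = c := by
  obtain ⟨l, y, rfl⟩ := exists_inflH2_eq hA c
  obtain ⟨l', h1, h2⟩ := l.exists_le l₀
  exact ⟨l', h2, (inflFin A h1 2).hom y, inflH2_inflFin h1 l'.isOpen y⟩

/-- Every class of `LC.H1` is inflated from a level satisfying a cofinal property. -/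
lemma exists_inflH1_eq_of_cofinal (hA : IsSmooth L A) {P : L.Level → Prop}
    (hP : ∀ l : L.Level, ∃ l' : L.Level, l'.N ≤ l.N ∧ P l') (c : H1 L A) :
    ∃ l : L.Level, P l ∧ ∃ y : groupCohomology.H1 (A.quotientToInvariants l.N),
      inflH1 A l.N l.isOpen y = c := by
  obtain ⟨l, y, rfl⟩ := exists_inflH1_eq hA c
  obtain ⟨l', h1, h2⟩ := hP l
  exact ⟨l', h2, (inflFin A h1 1).hom y, inflH1_inflFin h1 l'.isOpen y⟩

/-- Every class of `LC.H2` is inflated from a level satisfying a cofinal property. -/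
lemma exists_inflH2_eq_of_cofinal (hA : IsSmooth L A) {P : L.Level → Prop}
    (hP : ∀ l : L.Level, ∃ l' : L.Level, l'.N ≤ l.N ∧ P l') (c : H2 L A) :
    ∃ l : L.Level, P l ∧ ∃ y : groupCohomology.H2 (A.quotientToInvariants l.N),
      inflH2 A l.N l.isOpen y = c := by
  obtain ⟨l, y, rfl⟩ := exists_inflH2_eq hA c
  obtain ⟨l', h1, h2⟩ := hP l
  exact ⟨l', h2, (inflFin A h1 2).hom y, inflH2_inflFin h1 l'.isOpen y⟩

/-! ### (L1) `H¹` -/

/-- If `H¹(G ⧸ N, A^N) = 0` for a cofinal family of levels then `LC.H1 L A = 0`. -/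
theorem H1_eq_zero_of_cofinal (hA : IsSmooth L A)
    (h : ∀ l : L.Level, ∃ l' : L.Level, l'.N ≤ l.N ∧
      ∀ y : groupCohomology.H1 (A.quotientToInvariants l'.N), y = 0) (c : H1 L A) : c = 0 := by
  obtain ⟨l, hl, y, rfl⟩ := exists_inflH1_eq_of_cofinal hA h c
  rw [hl y, map_zero]

/-- If `H¹(G ⧸ N, A^N) = 0` for all levels then `LC.H1 L A = 0`. -/
theorem H1_eq_zero_of_levels (hA : IsSmooth L A)
    (h : ∀ (l : L.Level) (y : groupCohomology.H1 (A.quotientToInvariants l.N)), y = 0)
    (c : H1 L A) : c = 0 :=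
  H1_eq_zero_of_cofinal hA (fun l => ⟨l, le_rfl, h l⟩) c

theorem subsingleton_H1_of_levels (hA : IsSmooth L A)
    (h : ∀ l : L.Level, Subsingleton (groupCohomology.H1 (A.quotientToInvariants l.N))) :
    Subsingleton (H1 L A) :=
  subsingleton_of_forall_eq 0 (H1_eq_zero_of_levels hA (fun l y => (h l).elim y 0))

/-- If `H¹(G ⧸ N, A^N)` has no `n`-torsion for a cofinal family of levels then `LC.H1 L A` has no
`n`-torsion. -/
theorem H1_eq_zero_of_nsmul_of_cofinal (hA : IsSmooth L A) (n : ℕ)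
    (h : ∀ l : L.Level, ∃ l' : L.Level, l'.N ≤ l.N ∧
      ∀ y : groupCohomology.H1 (A.quotientToInvariants l'.N), n • y = 0 → y = 0)
    (c : H1 L A) (hc : n • c = 0) : c = 0 := by
  obtain ⟨l, hl, y, rfl⟩ := exists_inflH1_eq_of_cofinal hA h c
  rw [← map_nsmul] at hc
  have h0 : n • y = 0 :=
    inflH1_injective l.N l.isOpen (hc.trans (map_zero (inflH1 A l.N l.isOpen)).symm)
  rw [hl y h0, map_zero]

/-- Every class of `LC.H1` is killed by the index of a level. -/
theorem exists_index_nsmul_H1_eq_zero (hA : IsSmooth L A) (c : H1 L A) :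
    ∃ l : L.Level, l.N.index • c = 0 := by
  obtain ⟨l, y, rfl⟩ := exists_inflH1_eq hA c
  have : Finite (G ⧸ l.N) := Subgroup.finite_quotient_of_finiteIndex
  refine ⟨l, ?_⟩
  have h0 : Nat.card (G ⧸ l.N) • y = 0 :=
    card_nsmul_groupCohomology_eq_zero (A.quotientToInvariants l.N) 0 y
  rw [← map_nsmul, Subgroup.index_eq_card, h0, map_zero]

/-- Every class of `LC.H2` is killed by the index of a level. -/
theorem exists_index_nsmul_H2_eq_zero (hA : IsSmooth L A) (c : H2 L A) :
    ∃ l : L.Level, l.N.index • c = 0 := by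
  obtain ⟨l, y, rfl⟩ := exists_inflH2_eq hA c
  have : Finite (G ⧸ l.N) := Subgroup.finite_quotient_of_finiteIndex
  refine ⟨l, ?_⟩
  have h0 : Nat.card (G ⧸ l.N) • y = 0 :=
    card_nsmul_groupCohomology_eq_zero (A.quotientToInvariants l.N) 1 y
  rw [← map_nsmul, Subgroup.index_eq_card, h0, map_zero]

/-- `LC.H1` is a torsion group. -/
theorem exists_pos_nsmul_H1_eq_zero (hA : IsSmooth L A) (c : H1 L A) : ∃ n : ℕ, 0 < n ∧ n • c = 0 := by
  obtain ⟨l, hl⟩ := exists_index_nsmul_H1_eq_zero hA c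
  exact ⟨l.N.index, Nat.pos_of_ne_zero Subgroup.FiniteIndex.index_ne_zero, hl⟩

/-- `LC.H2` is a torsion group. -/
theorem exists_pos_nsmul_H2_eq_zero (hA : IsSmooth L A) (c : H2 L A) : ∃ n : ℕ, 0 < n ∧ n • c = 0 := by
  obtain ⟨l, hl⟩ := exists_index_nsmul_H2_eq_zero hA c
  exact ⟨l.N.index, Nat.pos_of_ne_zero Subgroup.FiniteIndex.index_ne_zero, hl⟩


/-! ### (L2) descending additive invariant maps -/

section descAdd

variable {T : Type*} [AddCommGroup T]
  (t : ∀ l : L.Level, groupCohomology.H2 (A.quotientToInvariants l.N) →+ T)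
  (ht : ∀ (l l' : L.Level) (h : l'.N ≤ l.N) (y : groupCohomology.H2 (A.quotientToInvariants l.N)),
    t l' ((inflFin A h 2).hom y) = t l y)

include ht in
lemma descAdd_aux (hA : IsSmooth L A) (l l' : L.Level)
    (y : groupCohomology.H2 (A.quotientToInvariants l.N))
    (y' : groupCohomology.H2 (A.quotientToInvariants l'.N))
    (h : inflH2 A l.N l.isOpen y = inflH2 A l'.N l'.isOpen y') : t l y = t l' y' := by
  obtain ⟨l₀, h1, h2⟩ := l.exists_le l'
  have h0 : inflH2 A l₀.N l₀.isOpen ((inflFin A h1 2).hom y - (inflFin A h2 2).hom y') = 0 := by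
    rw [map_sub, inflH2_inflFin, inflH2_inflFin, sub_eq_zero]
    exact h
  obtain ⟨l'', h3, h4⟩ := exists_inflFin_eq_zero hA l₀ _ h0
  have h5 := ht l₀ l'' h3 ((inflFin A h1 2).hom y - (inflFin A h2 2).hom y')
  rw [h4, map_zero, map_sub, ht l l₀ h1 y, ht l' l₀ h2 y'] at h5
  exact (sub_eq_zero.1 h5.symm)

/-- The value of the descended additive map on a class, by choice of a finite level. -/
noncomputable def descH2AddFun (hA : IsSmooth L A) (c : H2 L A) : T :=
  t (exists_inflH2_eq hA c).choose (exists_inflH2_eq hA c).choose_spec.choose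

include ht in
lemma descH2AddFun_inflH2 (hA : IsSmooth L A) (l : L.Level)
    (y : groupCohomology.H2 (A.quotientToInvariants l.N)) :
    descH2AddFun t hA (inflH2 A l.N l.isOpen y) = t l y :=
  descAdd_aux t ht hA _ _ _ _
    (exists_inflH2_eq hA (inflH2 A l.N l.isOpen y)).choose_spec.choose_spec

/-- **Universal property, additive form**: a family of additive maps on the `H²` of the finite
levels which is compatible with inflation descends to `LC.H2`. -/
noncomputable def descH2Add (hA : IsSmooth L A) : H2 L A →+ T where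
  toFun := descH2AddFun t hA
  map_zero' := by
    obtain ⟨N, hN⟩ := L.exists_level
    obtain ⟨l, -⟩ : ∃ l : L.Level, l.N = N := ⟨⟨N, hN⟩, rfl⟩
    have h0 : (0 : H2 L A) = inflH2 A l.N l.isOpen 0 := (map_zero _).symm
    have h1 := descH2AddFun_inflH2 t ht hA l 0
    rw [map_zero (t l)] at h1
    rw [h0]
    exact h1
  map_add' c c' := by
    obtain ⟨l, y, rfl⟩ := exists_inflH2_eq hA c
    obtain ⟨l', y', rfl⟩ := exists_inflH2_eq hA c'
    obtain ⟨l₀, h1, h2⟩ := l.exists_le l'
    have : inflH2 A l.N l.isOpen y + inflH2 A l'.N l'.isOpen y' =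
        inflH2 A l₀.N l₀.isOpen ((inflFin A h1 2).hom y + (inflFin A h2 2).hom y') := by
      rw [map_add, inflH2_inflFin, inflH2_inflFin]
    rw [this, descH2AddFun_inflH2 t ht, descH2AddFun_inflH2 t ht, descH2AddFun_inflH2 t ht,
      map_add, ht l l₀ h1 y, ht l' l₀ h2 y']

include ht in
@[simp] lemma descH2Add_inflH2 (hA : IsSmooth L A) (l : L.Level)
    (y : groupCohomology.H2 (A.quotientToInvariants l.N)) :
    descH2Add t ht hA (inflH2 A l.N l.isOpen y) = t l y :=
  descH2AddFun_inflH2 t ht hA l y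

/-- The descended map is injective as soon as a cofinal family of the `t l` is. -/
theorem descH2Add_injective_of_cofinal (hA : IsSmooth L A)
    (hinj : ∀ l : L.Level, ∃ l' : L.Level, l'.N ≤ l.N ∧ Function.Injective (t l')) :
    Function.Injective (descH2Add t ht hA) := by
  rw [injective_iff_map_eq_zero]
  intro c hc
  obtain ⟨l, hl, y, rfl⟩ := exists_inflH2_eq_of_cofinal hA hinj c
  rw [descH2Add_inflH2] at hc
  have : y = 0 := hl (hc.trans (map_zero (t l)).symm)
  rw [this, map_zero]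

theorem descH2Add_injective (hA : IsSmooth L A) (hinj : ∀ l : L.Level, Function.Injective (t l)) :
    Function.Injective (descH2Add t ht hA) :=
  descH2Add_injective_of_cofinal t ht hA (fun l => ⟨l, le_rfl, hinj l⟩)

/-- The range of the descended map is the union of the ranges. -/
theorem mem_range_descH2Add (hA : IsSmooth L A) (x : T) :
    x ∈ (descH2Add t ht hA).range ↔
      ∃ (l : L.Level) (y : groupCohomology.H2 (A.quotientToInvariants l.N)), t l y = x := by
  constructor
  · rintro ⟨c, rfl⟩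
    obtain ⟨l, y, rfl⟩ := exists_inflH2_eq hA c
    exact ⟨l, y, (descH2Add_inflH2 t ht hA l y).symm⟩
  · rintro ⟨l, y, rfl⟩
    exact ⟨inflH2 A l.N l.isOpen y, descH2Add_inflH2 t ht hA l y⟩

/-- Uniqueness of the descended map. -/
theorem descH2Add_unique (hA : IsSmooth L A) (f : H2 L A →+ T)
    (hf : ∀ (l : L.Level) (y : groupCohomology.H2 (A.quotientToInvariants l.N)),
      f (inflH2 A l.N l.isOpen y) = t l y) : f = descH2Add t ht hA := by
  ext c
  obtain ⟨l, y, rfl⟩ := exists_inflH2_eq hA c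
  rw [hf, descH2Add_inflH2]

end descAdd

/-! ### Complements on the linear descent `descH2` -/

section descLin

variable {T : Type*} [AddCommGroup T] [Module k T]
  (t : ∀ l : L.Level, groupCohomology.H2 (A.quotientToInvariants l.N) →ₗ[k] T)
  (ht : ∀ (l l' : L.Level) (h : l'.N ≤ l.N) (y : groupCohomology.H2 (A.quotientToInvariants l.N)),
    t l' ((inflFin A h 2).hom y) = t l y)

theorem descH2_injective_of_cofinal (hA : IsSmooth L A)
    (hinj : ∀ l : L.Level, ∃ l' : L.Level, l'.N ≤ l.N ∧ Function.Injective (t l')) :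
    Function.Injective (descH2 t ht hA) := by
  rw [injective_iff_map_eq_zero]
  intro c hc
  obtain ⟨l, hl, y, rfl⟩ := exists_inflH2_eq_of_cofinal hA hinj c
  rw [descH2_inflH2] at hc
  have : y = 0 := hl (hc.trans (map_zero (t l)).symm)
  rw [this, map_zero]

theorem mem_range_descH2 (hA : IsSmooth L A) (x : T) :
    x ∈ LinearMap.range (descH2 t ht hA) ↔
      ∃ (l : L.Level) (y : groupCohomology.H2 (A.quotientToInvariants l.N)), t l y = x := by
  constructor
  · rintro ⟨c, rfl⟩
    obtain ⟨l, y, rfl⟩ := exists_inflH2_eq hA c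
    exact ⟨l, y, (descH2_inflH2 t ht hA l y).symm⟩
  · rintro ⟨l, y, rfl⟩
    exact ⟨inflH2 A l.N l.isOpen y, descH2_inflH2 t ht hA l y⟩

end descLin


/-! ### `ℚ/ℤ`-valued invariants and `p`-torsion -/

section torsion

variable {H : Type*} [AddCommGroup H]

lemma addCircle_nsmul_one_div (p : ℕ) (hp : 0 < p) :
    p • (((1 : ℚ) / (p : ℚ) : ℚ) : AddCircle (1 : ℚ)) = 0 := by
  have hp' : (p : ℚ) ≠ 0 := Nat.cast_ne_zero.2 hp.ne'
  rw [← AddCircle.coe_nsmul, nsmul_eq_mul, mul_one_div_cancel hp']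
  exact AddCircle.coe_period 1

lemma addCircle_coe_div_eq_zero {p m : ℕ} (hp : 0 < p) (hm : m < p)
    (h : (((m : ℚ) / (p : ℚ) : ℚ) : AddCircle (1 : ℚ)) = 0) : m = 0 := by
  have hp' : (p : ℚ) ≠ 0 := Nat.cast_ne_zero.2 hp.ne'
  rw [AddCircle.coe_eq_zero_iff] at h
  obtain ⟨n, hn⟩ := h
  rw [zsmul_eq_mul, mul_one, eq_div_iff hp'] at hn
  have h2 : n * (p : ℤ) = (m : ℤ) := by exact_mod_cast hn
  have hn0 : 0 ≤ n := by
    by_contra hneg
    push Not at hneg
    have : n * (p : ℤ) < 0 := mul_neg_of_neg_of_pos hneg (by exact_mod_cast hp)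
    omega
  obtain ⟨n', rfl⟩ := Int.eq_ofNat_of_zero_le hn0
  have h3 : n' * p = m := by exact_mod_cast h2
  rcases Nat.eq_zero_or_pos n' with rfl | hpos
  · simpa using h3.symm
  · exfalso
    have : p ≤ n' * p := Nat.le_mul_of_pos_left p hpos
    omega

/-- An injective `ℚ/ℤ`-valued additive map which takes the value `1/p` identifies the `p`-torsion
of its source with `ZMod p`. -/
theorem exists_torsionBy_addEquiv_zmod (inv : H →+ AddCircle (1 : ℚ))
    (hinj : Function.Injective inv) (p : ℕ) [hpf : Fact p.Prime] (c₀ : H)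
    (hc₀ : inv c₀ = (((1 : ℚ) / (p : ℚ) : ℚ) : AddCircle (1 : ℚ))) :
    ∃ e : ↥(AddSubgroup.torsionBy H (p : ℤ)) ≃+ ZMod p,
      ∀ c : ↥(AddSubgroup.torsionBy H (p : ℤ)),
        inv (c : H) = ((((e c).val : ℚ) / (p : ℚ) : ℚ) : AddCircle (1 : ℚ)) := by
  have hp0 : 0 < p := hpf.out.pos
  have hp' : (p : ℚ) ≠ 0 := Nat.cast_ne_zero.2 hp0.ne'
  have : NeZero p := ⟨hp0.ne'⟩
  have h1 : p • c₀ = 0 := hinj (by rw [map_nsmul, hc₀, addCircle_nsmul_one_div p hp0, map_zero])
  -- the map `m ↦ m.val • c₀`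
  have hval : ∀ m : ℕ, inv (m • c₀) = ((((m : ℚ)) / (p : ℚ) : ℚ) : AddCircle (1 : ℚ)) := by
    intro m
    rw [map_nsmul, hc₀, ← AddCircle.coe_nsmul, nsmul_eq_mul, mul_one_div]
  let φ : ZMod p →+ H := ZMod.lift p ⟨zmultiplesHom H c₀, by
    rw [zmultiplesHom_apply, natCast_zsmul]; exact h1⟩
  have hφ1 : φ 1 = c₀ := by
    have h := ZMod.lift_coe p (⟨zmultiplesHom H c₀, by
      rw [zmultiplesHom_apply, natCast_zsmul]; exact h1⟩ : {f : ℤ →+ H // f p = 0}) (1 : ℤ)
    rw [Int.cast_one] at h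
    exact h.trans (one_zsmul c₀)
  have hφ : ∀ m : ZMod p, φ m = m.val • c₀ := by
    intro m
    conv_lhs => rw [← ZMod.natCast_zmod_val m, ← nsmul_one (m.val)]
    rw [map_nsmul, hφ1]
  have hmem : ∀ m : ZMod p, φ m ∈ AddSubgroup.torsionBy H (p : ℤ) := by
    intro m
    rw [AddSubgroup.torsionBy.nsmul_iff, hφ, smul_comm, h1, smul_zero]
  let ψ : ZMod p →+ ↥(AddSubgroup.torsionBy H (p : ℤ)) := φ.codRestrict _ hmem
  have hψ : ∀ m, ((ψ m : ↥(AddSubgroup.torsionBy H (p : ℤ))) : H) = m.val • c₀ := hφ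
  have hinjψ : Function.Injective ψ := by
    rw [injective_iff_map_eq_zero]
    intro m hm
    have h2 : inv (m.val • c₀) = 0 := by
      rw [← hψ m, hm]; exact map_zero inv
    rw [hval] at h2
    have := addCircle_coe_div_eq_zero hp0 (ZMod.val_lt m) h2
    exact (ZMod.val_eq_zero m).1 this
  have hsurjψ : Function.Surjective ψ := by
    intro c
    have hc : p • (c : H) = 0 := AddSubgroup.torsionBy.nsmul_iff.1 c.2
    have h2 : p • inv (c : H) = 0 := by rw [← map_nsmul, hc, map_zero]
    obtain ⟨m, hm, hmc⟩ := (AddCircle.nsmul_eq_zero_iff hp0).1 h2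
    refine ⟨(m : ZMod p), Subtype.ext (hinj ?_)⟩
    rw [hψ, hval, ZMod.val_natCast_of_lt hm, ← hmc, mul_one]
  refine ⟨(AddEquiv.ofBijective ψ ⟨hinjψ, hsurjψ⟩).symm, fun c => ?_⟩
  set m := (AddEquiv.ofBijective ψ ⟨hinjψ, hsurjψ⟩).symm c with hm
  have hc : ψ m = c := (AddEquiv.ofBijective ψ ⟨hinjψ, hsurjψ⟩).apply_symm_apply c
  rw [← hc, hψ, hval]

end torsion

/-- **(T1)** for level cohomology: given a family of invariant maps
`t l : H²(G ⧸ N_l, A^{N_l}) →+ ℚ/ℤ` compatible with inflation, injective on a cofinal family of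
levels and taking the value `1/p` somewhere, the `p`-torsion of `LC.H2 L A` is identified with
`ZMod p` by the descended invariant map. -/
theorem exists_H2_torsionBy_addEquiv_zmod (hA : IsSmooth L A)
    (t : ∀ l : L.Level, groupCohomology.H2 (A.quotientToInvariants l.N) →+ AddCircle (1 : ℚ))
    (ht : ∀ (l l' : L.Level) (h : l'.N ≤ l.N)
      (y : groupCohomology.H2 (A.quotientToInvariants l.N)),
      t l' ((inflFin A h 2).hom y) = t l y)
    (hinj : ∀ l : L.Level, ∃ l' : L.Level, l'.N ≤ l.N ∧ Function.Injective (t l'))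
    (p : ℕ) [Fact p.Prime]
    (h1p : ∃ (l : L.Level) (y : groupCohomology.H2 (A.quotientToInvariants l.N)),
      t l y = (((1 : ℚ) / (p : ℚ) : ℚ) : AddCircle (1 : ℚ))) :
    ∃ e : ↥(AddSubgroup.torsionBy (H2 L A) (p : ℤ)) ≃+ ZMod p,
      ∀ c : ↥(AddSubgroup.torsionBy (H2 L A) (p : ℤ)),
        descH2Add t ht hA (c : H2 L A) =
          ((((e c).val : ℚ) / (p : ℚ) : ℚ) : AddCircle (1 : ℚ)) := by
  obtain ⟨l, y, hy⟩ := h1p
  exact exists_torsionBy_addEquiv_zmod (descH2Add t ht hA)
    (descH2Add_injective_of_cofinal t ht hA hinj) p (inflH2 A l.N l.isOpen y)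
    ((descH2Add_inflH2 t ht hA l y).trans hy)


/-! ### (L3) compatibility with restriction -/

section res

open HExt

variable {H : Type u} [Group H] {LH : LevelStructure H} {f : H →* G}

/-- Restriction on `LC.H2` (in the Prelude shape) along a compatible homomorphism: the map
`LC.resH` of `LC/Res.lean` transported by `h2Equiv`. -/
noncomputable def resLC2 (hf : LH.Compat L f) (hA : IsSmooth L A) :
    H2 L A →ₗ[k] H2 LH (Rep.res f A) :=
  (h2Equiv (hA.res hf)).toLinearMap ∘ₗ resH hf hA 2 ∘ₗ (h2Equiv hA).symm.toLinearMap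

/-- Restriction on `LC.H1` along a compatible homomorphism. -/
noncomputable def resLC1 (hf : LH.Compat L f) (hA : IsSmooth L A) :
    H1 L A →ₗ[k] H1 LH (Rep.res f A) :=
  (h1Equiv (hA.res hf)).toLinearMap ∘ₗ resH hf hA 1 ∘ₗ (h1Equiv hA).symm.toLinearMap

/-- The pull-back of an LC `2`-cocycle. -/
def resZ₂ (hf : LH.Compat L f) (x : ↥(Z₂ L A)) : ↥(Z₂ LH (Rep.res f A)) :=
  ⟨fun p => x.1 (f p.1, f p.2), by
    have h0 : ∀ g h j : G, A.ρ g (x.1 (h, j)) - x.1 (g * h, j) + x.1 (g, h * j) - x.1 (g, h) = 0 :=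
      (mem_cocycles₂_def x.1).1 x.2.1
    refine (mem_cocycles₂_def _).2 fun g h j => ?_
    simp only [map_mul]
    exact h0 (f g) (f h) (f j), hf.isLC₂ x.2.2⟩

/-- The pull-back of an LC `1`-cocycle. -/
def resZ₁ (hf : LH.Compat L f) (x : ↥(Z₁ L A)) : ↥(Z₁ LH (Rep.res f A)) :=
  ⟨fun h => x.1 (f h), by
    have h0 : ∀ g h : G, A.ρ g (x.1 h) - x.1 (g * h) + x.1 g = 0 :=
      (mem_cocycles₁_def x.1).1 x.2.1
    refine (mem_cocycles₁_def _).2 fun g h => ?_
    simp only [map_mul]
    exact h0 (f g) (f h), hf.isLC₁ x.2.2⟩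

@[simp] lemma resZ₂_coe (hf : LH.Compat L f) (x : ↥(Z₂ L A)) (p : H × H) :
    (resZ₂ hf x).1 p = x.1 (f p.1, f p.2) := rfl

@[simp] lemma resZ₁_coe (hf : LH.Compat L f) (x : ↥(Z₁ L A)) (h : H) :
    (resZ₁ hf x).1 h = x.1 (f h) := rfl

lemma resLC2_H2π (hf : LH.Compat L f) (hA : IsSmooth L A) (x : ↥(Z₂ L A)) :
    resLC2 hf hA (H2π L A x) = H2π LH (Rep.res f A) (resZ₂ hf x) := by
  have h1 : (h2Equiv hA).symm (H2π L A x) = mkH2 hA x := by
    rw [LinearEquiv.symm_apply_eq, h2Equiv_mkH2]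
  have h2 : resH hf hA 2 (mkH2 hA x) = mkH2 (hA.res hf) (resZ₂ hf x) := rfl
  simp only [resLC2, LinearMap.comp_apply, LinearEquiv.coe_coe]
  rw [h1, h2, h2Equiv_mkH2]

lemma resLC1_H1π (hf : LH.Compat L f) (hA : IsSmooth L A) (x : ↥(Z₁ L A)) :
    resLC1 hf hA (H1π L A x) = H1π LH (Rep.res f A) (resZ₁ hf x) := by
  have h1 : (h1Equiv hA).symm (H1π L A x) = mkH1 hA x := by
    rw [LinearEquiv.symm_apply_eq, h1Equiv_mkH1]
  have h2 : resH hf hA 1 (mkH1 hA x) = mkH1 (hA.res hf) (resZ₁ hf x) := rfl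
  simp only [resLC1, LinearMap.comp_apply, LinearEquiv.coe_coe]
  rw [h1, h2, h1Equiv_mkH1]


/-! #### Restriction between finite levels -/

lemma liftH1π_surj {G' : Type u} [Group G'] (B : Rep.{u} k G') :
    Function.Surjective (groupCohomology.H1π B).hom :=
  (ModuleCat.epi_iff_surjective _).1 inferInstance

lemma liftH2π_surj {G' : Type u} [Group G'] (B : Rep.{u} k G') :
    Function.Surjective (groupCohomology.H2π B).hom :=
  (ModuleCat.epi_iff_surjective _).1 inferInstance

section resFin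

variable {N : Subgroup G} [N.Normal] {N' : Subgroup H} [N'.Normal] (hle : N' ≤ N.comap f)

/-- The homomorphism `H ⧸ N' →* G ⧸ N` induced by `f` when `N' ≤ f⁻¹ N`. -/
def quotRes : H ⧸ N' →* G ⧸ N := QuotientGroup.map N' N f hle

@[simp] lemma quotRes_mk (h : H) : quotRes hle (h : H ⧸ N') = ((f h : G) : G ⧸ N) := rfl

variable (A) in
/-- The inclusion `A^N → (Res_f A)^{N'}` as a linear map. -/
noncomputable def invResLin :
    (A.quotientToInvariants N) →ₗ[k] ((Rep.res f A).quotientToInvariants N') where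
  toFun a := ⟨(a : A), fun s => a.2 ⟨f s.1, hle s.2⟩⟩
  map_add' _ _ := rfl
  map_smul' _ _ := rfl

variable (A) in
/-- The inclusion `A^N → (Res_f A)^{N'}` as a morphism of `H ⧸ N'`-representations. -/
noncomputable def invRes :
    Rep.res (quotRes hle) (A.quotientToInvariants N) ⟶ (Rep.res f A).quotientToInvariants N' :=
  Rep.ofHom ⟨invResLin A hle, fun g => by
      induction g using QuotientGroup.induction_on with
      | H g => rfl⟩

@[simp] lemma coe_invRes_apply (a : A.quotientToInvariants N) :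
    (((invRes A hle).hom a : (Rep.res f A).quotientToInvariants N') : A) = (a : A) := rfl

variable (A) in
/-- Restriction `Hⁿ(G ⧸ N, A^N) → Hⁿ(H ⧸ N', (Res_f A)^{N'})` between finite levels. -/
noncomputable def resFin (n : ℕ) :
    groupCohomology (A.quotientToInvariants N) n ⟶
      groupCohomology ((Rep.res f A).quotientToInvariants N') n :=
  groupCohomology.map (quotRes hle) (invRes A hle) n

/-- Restriction on level cohomology is compatible with restriction between finite levels. -/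
theorem resLC2_inflH2 (hf : LH.Compat L f) (hA : IsSmooth L A) (hN : L.IsOpen N)
    (hN' : LH.IsOpen N') (y : groupCohomology.H2 (A.quotientToInvariants N)) :
    resLC2 hf hA (inflH2 A N hN y) =
      inflH2 (Rep.res f A) N' hN' ((resFin A hle 2).hom y) := by
  obtain ⟨x, rfl⟩ := liftH2π_surj _ y
  have h1 : (resFin A hle 2).hom ((groupCohomology.H2π _).hom x) =
      (groupCohomology.H2π _).hom ((mapCocycles₂ (quotRes hle) (invRes A hle)).hom x) :=
    H2π_comp_map_apply (quotRes hle) (invRes A hle) x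
  rw [h1, inflH2_H2π, inflH2_H2π, resLC2_H2π]
  congr 1

/-- Restriction on level cohomology is compatible with restriction between finite levels. -/
theorem resLC1_inflH1 (hf : LH.Compat L f) (hA : IsSmooth L A) (hN : L.IsOpen N)
    (hN' : LH.IsOpen N') (y : groupCohomology.H1 (A.quotientToInvariants N)) :
    resLC1 hf hA (inflH1 A N hN y) =
      inflH1 (Rep.res f A) N' hN' ((resFin A hle 1).hom y) := by
  obtain ⟨x, rfl⟩ := liftH1π_surj _ y
  have h1 : (resFin A hle 1).hom ((groupCohomology.H1π _).hom x) =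
      (groupCohomology.H1π _).hom ((mapCocycles₁ (quotRes hle) (invRes A hle)).hom x) :=
    H1π_comp_map_apply (quotRes hle) (invRes A hle) x
  rw [h1, inflH1_H1π, inflH1_H1π, resLC1_H1π]
  congr 1

end resFin

/-- **(L3)**: if at the finite levels the invariant maps satisfy
`tH l' (res y) = d • tG l y`, then the descended invariant maps satisfy
`inv_H (res c) = d • inv_G c`. -/
theorem descH2Add_resLC2 {T : Type*} [AddCommGroup T] (hf : LH.Compat L f) (hA : IsSmooth L A)
    (tG : ∀ l : L.Level, groupCohomology.H2 (A.quotientToInvariants l.N) →+ T)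
    (htG : ∀ (l l' : L.Level) (h : l'.N ≤ l.N)
      (y : groupCohomology.H2 (A.quotientToInvariants l.N)),
      tG l' ((inflFin A h 2).hom y) = tG l y)
    (tH : ∀ l : LH.Level, groupCohomology.H2 ((Rep.res f A).quotientToInvariants l.N) →+ T)
    (htH : ∀ (l l' : LH.Level) (h : l'.N ≤ l.N)
      (y : groupCohomology.H2 ((Rep.res f A).quotientToInvariants l.N)),
      tH l' ((inflFin (Rep.res f A) h 2).hom y) = tH l y)
    (d : ℕ)
    (hd : ∀ (l : L.Level) (l' : LH.Level) (hle : l'.N ≤ l.N.comap f)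
      (y : groupCohomology.H2 (A.quotientToInvariants l.N)),
      tH l' ((resFin A hle 2).hom y) = d • tG l y)
    (c : H2 L A) :
    descH2Add tH htH (hA.res hf) (resLC2 hf hA c) = d • descH2Add tG htG hA c := by
  obtain ⟨l, y, rfl⟩ := exists_inflH2_eq hA c
  obtain ⟨N', hN', hle⟩ := hf l.N l.isLevel
  obtain ⟨l', rfl⟩ : ∃ l' : LH.Level, l'.N = N' := ⟨⟨N', hN'⟩, rfl⟩
  rw [resLC2_inflH2 hle hf hA l.isOpen l'.isOpen y, descH2Add_inflH2, descH2Add_inflH2,
    hd l l' hle y]

end res

end LC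

end Fermat.Agent.CFT
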