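import Fermat.Agent.CFT.LC.Complex
import Fermat.Agent.CFT.CupLow3

/-!
# Level cohomology: cup products on LC cochains

The cochain-level cup products of `CupLow.lean`/`CupLow3.lean` preserve level-constant cochains of
smooth modules; we package them as bilinear maps between the LC cochain modules `LC.C₁`, `LC.C₂`,
`LC.C₃` and restate the Leibniz rules.
-/

set_option autoImplicit false

universe u

open CategoryTheory groupCohomology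

namespace Fermat.Agent.CFT

namespace Cup

section

variable {R : Type*} [CommRing R] {M N P : Type*} [AddCommGroup M] [AddCommGroup N]
  [AddCommGroup P] [Module R M] [Module R N] [Module R P]

/-- Restrict the codomain of a bilinear map to a submodule containing its values. -/
def codRestr₂ (f : M →ₗ[R] N →ₗ[R] P) (p : Submodule R P) (h : ∀ m n, f m n ∈ p) :
    M →ₗ[R] N →ₗ[R] p :=
  LinearMap.mk₂ R (fun m n => ⟨f m n, h m n⟩)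
    (fun m m' n => Subtype.ext (by simp))
    (fun c m n => Subtype.ext (by simp))
    (fun m n n' => Subtype.ext (by simp))
    (fun c m n => Subtype.ext (by simp))

@[simp] lemma coe_codRestr₂ (f : M →ₗ[R] N →ₗ[R] P) (p : Submodule R P)
    (h : ∀ m n, f m n ∈ p) (m : M) (n : N) : (codRestr₂ f p h m n : P) = f m n := rfl

end

end Cup

namespace LC

open Cup

variable {k G : Type u} [CommRing k] [Group G] {L : LevelStructure G} {A B C : Rep.{u} k G}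
  (φ : RepPairing A B C)

/-! ### good levels -/

lemma exists_rightInv₁ {X : Rep.{u} k G} {f : G → X} (hf : f ∈ C₁ L X) :
    ∃ N, L.IsLevel N ∧ RightInv₁ N f := hf

lemma exists_rightInv₂ {X : Rep.{u} k G} {f : G × G → X} (hf : f ∈ C₂ L X) :
    ∃ N, L.IsLevel N ∧ RightInv₂ N f := hf

lemma exists_rightInv₃ {X : Rep.{u} k G} {f : G × G × G → X} (hf : f ∈ C₃ L X) :
    ∃ N, L.IsLevel N ∧ RightInv₃ N f := hf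

lemma exists_good₁ {X : Rep.{u} k G} (hX : IsSmooth L X) {f : G → X} (hf : f ∈ C₁ L X) :
    ∃ N, L.IsLevel N ∧ RightInv₁ N f ∧ ∀ g, FixedBy X N (f g) :=
  LevelStructure.IsLC₁.exists_good hX hf

lemma exists_good₂ {X : Rep.{u} k G} (hX : IsSmooth L X) {f : G × G → X} (hf : f ∈ C₂ L X) :
    ∃ N, L.IsLevel N ∧ RightInv₂ N f ∧ ∀ p, FixedBy X N (f p) :=
  LevelStructure.IsLC₂.exists_good hX hf

lemma exists_fixedBy {X : Rep.{u} k G} (hX : IsSmooth L X) (x : X) :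
    ∃ N, L.IsLevel N ∧ FixedBy X N x := hX x

/-! ### membership -/

lemma cup₀₁_mem_C₁ (a : A) {f : G → B} (hf : f ∈ C₁ L B) : φ.cup₀₁ a f ∈ C₁ L C := by
  obtain ⟨N, hN, h⟩ := exists_rightInv₁ hf
  exact ⟨N, hN, φ.rightInv₁_cup₀₁ a h⟩

lemma cup₁₀_mem_C₁ (hB : IsSmooth L B) {f : G → A} (hf : f ∈ C₁ L A) (b : B) :
    φ.cup₁₀ f b ∈ C₁ L C := by
  obtain ⟨N₁, hN₁, h₁⟩ := exists_rightInv₁ hf
  obtain ⟨N₂, hN₂, h₂⟩ := exists_fixedBy hB b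
  obtain ⟨N, hN, hle⟩ := L.directed hN₁ hN₂
  exact ⟨N, hN, φ.rightInv₁_cup₁₀ (h₁.mono (hle.trans inf_le_left))
    (h₂.mono (hle.trans inf_le_right))⟩

lemma cup₁₁_mem_C₂ (hB : IsSmooth L B) {f : G → A} (hf : f ∈ C₁ L A) {f' : G → B}
    (hf' : f' ∈ C₁ L B) : φ.cup₁₁ f f' ∈ C₂ L C := by
  obtain ⟨N₁, hN₁, h₁⟩ := exists_rightInv₁ hf
  obtain ⟨N₂, hN₂, h₂, hv⟩ := exists_good₁ hB hf'
  obtain ⟨N, hN, hle⟩ := L.directed hN₁ hN₂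
  exact ⟨N, hN, φ.rightInv₂_cup₁₁ (h₁.mono (hle.trans inf_le_left))
    (h₂.mono (hle.trans inf_le_right)) (fun h => (hv h).mono (hle.trans inf_le_right))⟩

lemma cup₀₂_mem_C₂ (a : A) {F : G × G → B} (hF : F ∈ C₂ L B) : φ.cup₀₂ a F ∈ C₂ L C := by
  obtain ⟨N, hN, h⟩ := exists_rightInv₂ hF
  exact ⟨N, hN, φ.rightInv₂_cup₀₂ a h⟩

lemma cup₂₀_mem_C₂ (hB : IsSmooth L B) {F : G × G → A} (hF : F ∈ C₂ L A) (b : B) :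
    φ.cup₂₀ F b ∈ C₂ L C := by
  obtain ⟨N₁, hN₁, h₁⟩ := exists_rightInv₂ hF
  obtain ⟨N₂, hN₂, h₂⟩ := exists_fixedBy hB b
  obtain ⟨N, hN, hle⟩ := L.directed hN₁ hN₂
  have := L.normal hN
  exact ⟨N, hN, φ.rightInv₂_cup₂₀ (h₁.mono (hle.trans inf_le_left))
    (h₂.mono (hle.trans inf_le_right))⟩

lemma cup₁₂_mem_C₃ (hB : IsSmooth L B) {f : G → A} (hf : f ∈ C₁ L A) {F : G × G → B}
    (hF : F ∈ C₂ L B) : φ.cup₁₂ f F ∈ C₃ L C := by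
  obtain ⟨N₁, hN₁, h₁⟩ := exists_rightInv₁ hf
  obtain ⟨N₂, hN₂, h₂, hv⟩ := exists_good₂ hB hF
  obtain ⟨N, hN, hle⟩ := L.directed hN₁ hN₂
  exact ⟨N, hN, φ.rightInv₃_cup₁₂ (h₁.mono (hle.trans inf_le_left))
    (h₂.mono (hle.trans inf_le_right)) (fun p => (hv p).mono (hle.trans inf_le_right))⟩

lemma cup₂₁_mem_C₃ (hB : IsSmooth L B) {F : G × G → A} (hF : F ∈ C₂ L A) {f : G → B}
    (hf : f ∈ C₁ L B) : φ.cup₂₁ F f ∈ C₃ L C := by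
  obtain ⟨N₁, hN₁, h₁⟩ := exists_rightInv₂ hF
  obtain ⟨N₂, hN₂, h₂, hv⟩ := exists_good₁ hB hf
  obtain ⟨N, hN, hle⟩ := L.directed hN₁ hN₂
  have := L.normal hN
  exact ⟨N, hN, φ.rightInv₃_cup₂₁ (h₁.mono (hle.trans inf_le_left))
    (h₂.mono (hle.trans inf_le_right)) (fun p => (hv p).mono (hle.trans inf_le_right))⟩

lemma cup₀₃_mem_C₃ (a : A) {T : G × G × G → B} (hT : T ∈ C₃ L B) : φ.cup₀₃ a T ∈ C₃ L C := by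
  obtain ⟨N, hN, h⟩ := exists_rightInv₃ hT
  exact ⟨N, hN, φ.rightInv₃_cup₀₃ a h⟩

lemma cup₃₀_mem_C₃ (hB : IsSmooth L B) {T : G × G × G → A} (hT : T ∈ C₃ L A) (b : B) :
    φ.cup₃₀ T b ∈ C₃ L C := by
  obtain ⟨N₁, hN₁, h₁⟩ := exists_rightInv₃ hT
  obtain ⟨N₂, hN₂, h₂⟩ := exists_fixedBy hB b
  obtain ⟨N, hN, hle⟩ := L.directed hN₁ hN₂
  have := L.normal hN
  exact ⟨N, hN, φ.rightInv₃_cup₃₀ (h₁.mono (hle.trans inf_le_left))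
    (h₂.mono (hle.trans inf_le_right))⟩


/-! ### the cup products as bilinear maps on LC cochains -/

/-- `a ∪ f`, `C⁰ × C¹ → C¹` on LC cochains. -/
def cupC₀₁ : A →ₗ[k] ↥(C₁ L B) →ₗ[k] ↥(C₁ L C) :=
  codRestr₂ (φ.cup₀₁.domRestrict₂ (C₁ L B)) (C₁ L C) (fun a f => cup₀₁_mem_C₁ φ a f.2)

/-- `f ∪ b`, `C¹ × C⁰ → C¹` on LC cochains. -/
def cupC₁₀ (hB : IsSmooth L B) : ↥(C₁ L A) →ₗ[k] B →ₗ[k] ↥(C₁ L C) :=
  codRestr₂ (φ.cup₁₀.domRestrict (C₁ L A)) (C₁ L C) (fun f b => cup₁₀_mem_C₁ φ hB f.2 b)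

/-- `f ∪ f'`, `C¹ × C¹ → C²` on LC cochains. -/
def cupC₁₁ (hB : IsSmooth L B) : ↥(C₁ L A) →ₗ[k] ↥(C₁ L B) →ₗ[k] ↥(C₂ L C) :=
  codRestr₂ (φ.cup₁₁.domRestrict₁₂ (C₁ L A) (C₁ L B)) (C₂ L C)
    (fun f f' => cup₁₁_mem_C₂ φ hB f.2 f'.2)

/-- `a ∪ F`, `C⁰ × C² → C²` on LC cochains. -/
def cupC₀₂ : A →ₗ[k] ↥(C₂ L B) →ₗ[k] ↥(C₂ L C) :=
  codRestr₂ (φ.cup₀₂.domRestrict₂ (C₂ L B)) (C₂ L C) (fun a F => cup₀₂_mem_C₂ φ a F.2)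

/-- `F ∪ b`, `C² × C⁰ → C²` on LC cochains. -/
def cupC₂₀ (hB : IsSmooth L B) : ↥(C₂ L A) →ₗ[k] B →ₗ[k] ↥(C₂ L C) :=
  codRestr₂ (φ.cup₂₀.domRestrict (C₂ L A)) (C₂ L C) (fun F b => cup₂₀_mem_C₂ φ hB F.2 b)

/-- `f ∪ F`, `C¹ × C² → C³` on LC cochains. -/
def cupC₁₂ (hB : IsSmooth L B) : ↥(C₁ L A) →ₗ[k] ↥(C₂ L B) →ₗ[k] ↥(C₃ L C) :=
  codRestr₂ (φ.cup₁₂.domRestrict₁₂ (C₁ L A) (C₂ L B)) (C₃ L C)
    (fun f F => cup₁₂_mem_C₃ φ hB f.2 F.2)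

/-- `F ∪ f`, `C² × C¹ → C³` on LC cochains. -/
def cupC₂₁ (hB : IsSmooth L B) : ↥(C₂ L A) →ₗ[k] ↥(C₁ L B) →ₗ[k] ↥(C₃ L C) :=
  codRestr₂ (φ.cup₂₁.domRestrict₁₂ (C₂ L A) (C₁ L B)) (C₃ L C)
    (fun F f => cup₂₁_mem_C₃ φ hB F.2 f.2)

/-- `a ∪ T`, `C⁰ × C³ → C³` on LC cochains. -/
def cupC₀₃ : A →ₗ[k] ↥(C₃ L B) →ₗ[k] ↥(C₃ L C) :=
  codRestr₂ (φ.cup₀₃.domRestrict₂ (C₃ L B)) (C₃ L C) (fun a T => cup₀₃_mem_C₃ φ a T.2)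

/-- `T ∪ b`, `C³ × C⁰ → C³` on LC cochains. -/
def cupC₃₀ (hB : IsSmooth L B) : ↥(C₃ L A) →ₗ[k] B →ₗ[k] ↥(C₃ L C) :=
  codRestr₂ (φ.cup₃₀.domRestrict (C₃ L A)) (C₃ L C) (fun T b => cup₃₀_mem_C₃ φ hB T.2 b)

@[simp] lemma coe_cupC₀₁ (a : A) (f : ↥(C₁ L B)) :
    (cupC₀₁ φ a f : G → C) = φ.cup₀₁ a (f : G → B) := rfl
@[simp] lemma coe_cupC₁₀ (hB : IsSmooth L B) (f : ↥(C₁ L A)) (b : B) :
    (cupC₁₀ φ hB f b : G → C) = φ.cup₁₀ (f : G → A) b := rfl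
@[simp] lemma coe_cupC₁₁ (hB : IsSmooth L B) (f : ↥(C₁ L A)) (f' : ↥(C₁ L B)) :
    (cupC₁₁ φ hB f f' : G × G → C) = φ.cup₁₁ (f : G → A) (f' : G → B) := rfl
@[simp] lemma coe_cupC₀₂ (a : A) (F : ↥(C₂ L B)) :
    (cupC₀₂ φ a F : G × G → C) = φ.cup₀₂ a (F : G × G → B) := rfl
@[simp] lemma coe_cupC₂₀ (hB : IsSmooth L B) (F : ↥(C₂ L A)) (b : B) :
    (cupC₂₀ φ hB F b : G × G → C) = φ.cup₂₀ (F : G × G → A) b := rfl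
@[simp] lemma coe_cupC₁₂ (hB : IsSmooth L B) (f : ↥(C₁ L A)) (F : ↥(C₂ L B)) :
    (cupC₁₂ φ hB f F : G × G × G → C) = φ.cup₁₂ (f : G → A) (F : G × G → B) := rfl
@[simp] lemma coe_cupC₂₁ (hB : IsSmooth L B) (F : ↥(C₂ L A)) (f : ↥(C₁ L B)) :
    (cupC₂₁ φ hB F f : G × G × G → C) = φ.cup₂₁ (F : G × G → A) (f : G → B) := rfl
@[simp] lemma coe_cupC₀₃ (a : A) (T : ↥(C₃ L B)) :
    (cupC₀₃ φ a T : G × G × G → C) = φ.cup₀₃ a (T : G × G × G → B) := rfl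
@[simp] lemma coe_cupC₃₀ (hB : IsSmooth L B) (T : ↥(C₃ L A)) (b : B) :
    (cupC₃₀ φ hB T b : G × G × G → C) = φ.cup₃₀ (T : G × G × G → A) b := rfl

/-! ### Leibniz rules on LC cochains: `d (a ∪ b) = d a ∪ b + (-1)^i a ∪ d b` -/

variable (hA : IsSmooth L A) (hB : IsSmooth L B) (hC : IsSmooth L C)

lemma dLC₀_cup₀₀ (a : A) (b : B) :
    dLC₀ hC (φ.toLin a b) = cupC₁₀ φ hB (dLC₀ hA a) b + cupC₀₁ φ a (dLC₀ hB b) :=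
  Subtype.ext (φ.d₀₁_cup₀₀ a b)

lemma dLC₁_cupC₀₁ (a : A) (f : ↥(C₁ L B)) :
    dLC₁ hC (cupC₀₁ φ a f) = cupC₁₁ φ hB (dLC₀ hA a) f + cupC₀₂ φ a (dLC₁ hB f) :=
  Subtype.ext (φ.d₁₂_cup₀₁ a f)

lemma dLC₁_cupC₁₀ (f : ↥(C₁ L A)) (b : B) :
    dLC₁ hC (cupC₁₀ φ hB f b) = cupC₂₀ φ hB (dLC₁ hA f) b - cupC₁₁ φ hB f (dLC₀ hB b) :=
  Subtype.ext (φ.d₁₂_cup₁₀ f b)

lemma dLC₂_cupC₁₁ (f : ↥(C₁ L A)) (f' : ↥(C₁ L B)) :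
    dLC₂ hC (cupC₁₁ φ hB f f') =
      cupC₂₁ φ hB (dLC₁ hA f) f' - cupC₁₂ φ hB f (dLC₁ hB f') :=
  Subtype.ext (φ.d₂₃_cup₁₁ f f')

lemma dLC₂_cupC₀₂ (a : A) (F : ↥(C₂ L B)) :
    dLC₂ hC (cupC₀₂ φ a F) = cupC₁₂ φ hB (dLC₀ hA a) F + cupC₀₃ φ a (dLC₂ hB F) :=
  Subtype.ext (φ.d₂₃_cup₀₂ a F)

lemma dLC₂_cupC₂₀ (F : ↥(C₂ L A)) (b : B) :
    dLC₂ hC (cupC₂₀ φ hB F b) = cupC₃₀ φ hB (dLC₂ hA F) b + cupC₂₁ φ hB F (dLC₀ hB b) :=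
  Subtype.ext (φ.d₂₃_cup₂₀ F b)


/-! ### cup products on LC cocycles and on level cohomology -/

omit hA hB hC

lemma cup₁₁_d₀₁_left_mem_B₂ (a : A) {f' : G → B} (hf' : f' ∈ Z₁ L B) :
    φ.cup₁₁ ((d₀₁ A).hom a) f' ∈ B₂ L C := by
  rw [mem_B₂_iff]
  refine ⟨φ.cup₀₁ a f', cup₀₁_mem_C₁ φ a hf'.2, ?_⟩
  have h : (d₁₂ B).hom f' = 0 := hf'.1
  rw [φ.d₁₂_cup₀₁, h, map_zero, add_zero]

lemma cup₁₁_d₀₁_right_mem_B₂ (hB : IsSmooth L B) {f : G → A} (hf : f ∈ Z₁ L A) (b : B) :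
    φ.cup₁₁ f ((d₀₁ B).hom b) ∈ B₂ L C := by
  rw [mem_B₂_iff]
  refine ⟨-φ.cup₁₀ f b, (C₁ L C).neg_mem (cup₁₀_mem_C₁ φ hB hf.2 b), ?_⟩
  have h : (d₁₂ A).hom f = 0 := hf.1
  rw [map_neg, φ.d₁₂_cup₁₀, h, map_zero, LinearMap.zero_apply, zero_sub, neg_neg]

lemma cup₀₂_d₁₂_mem_B₂ {a : A} (ha : a ∈ A.ρ.invariants) {x : G → B} (hx : x ∈ C₁ L B) :
    φ.cup₀₂ a ((d₁₂ B).hom x) ∈ B₂ L C := by
  rw [mem_B₂_iff]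
  refine ⟨φ.cup₀₁ a x, cup₀₁_mem_C₁ φ a hx, ?_⟩
  have h : (d₀₁ A).hom a = 0 := by
    funext g
    simp only [d₀₁_hom_apply, ha g, sub_self]
    rfl
  rw [φ.d₁₂_cup₀₁, h, map_zero, LinearMap.zero_apply, zero_add]

lemma cup₂₀_d₁₂_mem_B₂ (hB : IsSmooth L B) {x : G → A} (hx : x ∈ C₁ L A) {b : B}
    (hb : b ∈ B.ρ.invariants) : φ.cup₂₀ ((d₁₂ A).hom x) b ∈ B₂ L C := by
  rw [mem_B₂_iff]
  refine ⟨φ.cup₁₀ x b, cup₁₀_mem_C₁ φ hB hx b, ?_⟩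
  have h : (d₀₁ B).hom b = 0 := by
    funext g
    simp only [d₀₁_hom_apply, hb g, sub_self]
    rfl
  rw [φ.d₁₂_cup₁₀, h, map_zero, sub_zero]

/-- cup product of LC `1`-cocycles -/
noncomputable def cupZ₁₁ (hB : IsSmooth L B) : ↥(Z₁ L A) →ₗ[k] ↥(Z₁ L B) →ₗ[k] ↥(Z₂ L C) :=
  codRestr₂ (φ.cup₁₁.domRestrict₁₂ (Z₁ L A) (Z₁ L B)) (Z₂ L C)
    (fun f f' => ⟨φ.cup₁₁_mem_cocycles₂ f.2.1 f'.2.1, cup₁₁_mem_C₂ φ hB f.2.2 f'.2.2⟩)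

/-- `a ∪ f` for an invariant `a` and an LC `1`-cocycle `f` -/
noncomputable def cupZ₀₁ : ↥(H0 L A) →ₗ[k] ↥(Z₁ L B) →ₗ[k] ↥(Z₁ L C) :=
  codRestr₂ (φ.cup₀₁.domRestrict₁₂ (H0 L A) (Z₁ L B)) (Z₁ L C)
    (fun a f => ⟨φ.cup₀₁_mem_cocycles₁ a.2 f.2.1, cup₀₁_mem_C₁ φ a.1 f.2.2⟩)

/-- `f ∪ b` for an LC `1`-cocycle `f` and an invariant `b` -/
noncomputable def cupZ₁₀ (hB : IsSmooth L B) : ↥(Z₁ L A) →ₗ[k] ↥(H0 L B) →ₗ[k] ↥(Z₁ L C) :=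
  codRestr₂ (φ.cup₁₀.domRestrict₁₂ (Z₁ L A) (H0 L B)) (Z₁ L C)
    (fun f b => ⟨φ.cup₁₀_mem_cocycles₁ f.2.1 b.2, cup₁₀_mem_C₁ φ hB f.2.2 b.1⟩)

/-- `a ∪ F` for an invariant `a` and an LC `2`-cocycle `F` -/
noncomputable def cupZ₀₂ : ↥(H0 L A) →ₗ[k] ↥(Z₂ L B) →ₗ[k] ↥(Z₂ L C) :=
  codRestr₂ (φ.cup₀₂.domRestrict₁₂ (H0 L A) (Z₂ L B)) (Z₂ L C)
    (fun a F => ⟨φ.cup₀₂_mem_cocycles₂ a.2 F.2.1, cup₀₂_mem_C₂ φ a.1 F.2.2⟩)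

/-- `F ∪ b` for an LC `2`-cocycle `F` and an invariant `b` -/
noncomputable def cupZ₂₀ (hB : IsSmooth L B) : ↥(Z₂ L A) →ₗ[k] ↥(H0 L B) →ₗ[k] ↥(Z₂ L C) :=
  codRestr₂ (φ.cup₂₀.domRestrict₁₂ (Z₂ L A) (H0 L B)) (Z₂ L C)
    (fun F b => ⟨φ.cup₂₀_mem_cocycles₂ F.2.1 b.2, cup₂₀_mem_C₂ φ hB F.2.2 b.1⟩)

@[simp] lemma coe_cupZ₁₁ (hB : IsSmooth L B) (f : ↥(Z₁ L A)) (f' : ↥(Z₁ L B)) :
    (cupZ₁₁ φ hB f f' : G × G → C) = φ.cup₁₁ (f : G → A) (f' : G → B) := rfl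
@[simp] lemma coe_cupZ₀₁ (a : ↥(H0 L A)) (f : ↥(Z₁ L B)) :
    (cupZ₀₁ φ a f : G → C) = φ.cup₀₁ (a : A) (f : G → B) := rfl
@[simp] lemma coe_cupZ₁₀ (hB : IsSmooth L B) (f : ↥(Z₁ L A)) (b : ↥(H0 L B)) :
    (cupZ₁₀ φ hB f b : G → C) = φ.cup₁₀ (f : G → A) (b : B) := rfl
@[simp] lemma coe_cupZ₀₂ (a : ↥(H0 L A)) (F : ↥(Z₂ L B)) :
    (cupZ₀₂ φ a F : G × G → C) = φ.cup₀₂ (a : A) (F : G × G → B) := rfl
@[simp] lemma coe_cupZ₂₀ (hB : IsSmooth L B) (F : ↥(Z₂ L A)) (b : ↥(H0 L B)) :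
    (cupZ₂₀ φ hB F b : G × G → C) = φ.cup₂₀ (F : G × G → A) (b : B) := rfl

lemma H1π_surjective (X : Rep.{u} k G) : Function.Surjective (H1π L X) :=
  Submodule.mkQ_surjective _

lemma H2π_surjective (X : Rep.{u} k G) : Function.Surjective (H2π L X) :=
  Submodule.mkQ_surjective _

lemma mem_ker_H1π_iff {X : Rep.{u} k G} (f : ↥(Z₁ L X)) :
    f ∈ LinearMap.ker (H1π L X) ↔ (f : G → X) ∈ B₁ L X := by
  rw [LinearMap.mem_ker]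
  exact H1π_eq_zero_iff f

lemma mem_ker_H2π_iff {X : Rep.{u} k G} (f : ↥(Z₂ L X)) :
    f ∈ LinearMap.ker (H2π L X) ↔ (f : G × G → X) ∈ B₂ L X := by
  rw [LinearMap.mem_ker]
  exact H2π_eq_zero_iff f

/-- The cup product `H¹ × H¹ → H²` in level cohomology. -/
noncomputable def cupH₁₁ (hB : IsSmooth L B) : H1 L A →ₗ[k] H1 L B →ₗ[k] H2 L C :=
  (descSurj (H1π L B) (H1π_surjective B)
    (descSurj (H1π L A) (H1π_surjective A)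
      ((cupZ₁₁ φ hB).compr₂ (H2π L C)) (by
        intro f hf
        rw [mem_ker_H1π_iff] at hf
        obtain ⟨a, ha⟩ := hf
        rw [LinearMap.mem_ker]
        refine LinearMap.ext fun f' => ?_
        rw [LinearMap.compr₂_apply, LinearMap.zero_apply, H2π_eq_zero_iff, coe_cupZ₁₁, ← ha]
        exact cup₁₁_d₀₁_left_mem_B₂ φ a f'.2)).flip (by
    intro f' hf'
    rw [mem_ker_H1π_iff] at hf'
    obtain ⟨b, hb⟩ := hf'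
    rw [LinearMap.mem_ker]
    refine LinearMap.ext fun x => ?_
    obtain ⟨f, rfl⟩ := H1π_surjective A x
    rw [LinearMap.flip_apply, descSurj_apply, LinearMap.compr₂_apply, LinearMap.zero_apply,
      H2π_eq_zero_iff, coe_cupZ₁₁, ← hb]
    exact cup₁₁_d₀₁_right_mem_B₂ φ hB f.2 b)).flip

@[simp] lemma cupH₁₁_π (hB : IsSmooth L B) (f : ↥(Z₁ L A)) (f' : ↥(Z₁ L B)) :
    cupH₁₁ φ hB (H1π L A f) (H1π L B f') = H2π L C (cupZ₁₁ φ hB f f') := by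
  unfold cupH₁₁
  rw [LinearMap.flip_apply, descSurj_apply, LinearMap.flip_apply, descSurj_apply,
    LinearMap.compr₂_apply]

/-- The cup product `H⁰ × H¹ → H¹` in level cohomology. -/
noncomputable def cupH₀₁ : ↥(H0 L A) →ₗ[k] H1 L B →ₗ[k] H1 L C :=
  (descSurj (H1π L B) (H1π_surjective B) ((cupZ₀₁ φ).compr₂ (H1π L C)).flip (by
    intro f hf
    rw [mem_ker_H1π_iff] at hf
    obtain ⟨b, hb⟩ := hf
    rw [LinearMap.mem_ker]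
    refine LinearMap.ext fun a => ?_
    rw [LinearMap.flip_apply, LinearMap.compr₂_apply, LinearMap.zero_apply, H1π_eq_zero_iff,
      coe_cupZ₀₁, ← hb]
    exact φ.cup₀₁_d₀₁_mem a.2 b)).flip

@[simp] lemma cupH₀₁_π (a : ↥(H0 L A)) (f : ↥(Z₁ L B)) :
    cupH₀₁ φ a (H1π L B f) = H1π L C (cupZ₀₁ φ a f) := by
  unfold cupH₀₁
  rw [LinearMap.flip_apply, descSurj_apply, LinearMap.flip_apply, LinearMap.compr₂_apply]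

/-- The cup product `H¹ × H⁰ → H¹` in level cohomology. -/
noncomputable def cupH₁₀ (hB : IsSmooth L B) : H1 L A →ₗ[k] ↥(H0 L B) →ₗ[k] H1 L C :=
  descSurj (H1π L A) (H1π_surjective A) ((cupZ₁₀ φ hB).compr₂ (H1π L C)) (by
    intro f hf
    rw [mem_ker_H1π_iff] at hf
    obtain ⟨a, ha⟩ := hf
    rw [LinearMap.mem_ker]
    refine LinearMap.ext fun b => ?_
    rw [LinearMap.compr₂_apply, LinearMap.zero_apply, H1π_eq_zero_iff, coe_cupZ₁₀, ← ha]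
    exact φ.cup₁₀_d₀₁_mem a b.2)

@[simp] lemma cupH₁₀_π (hB : IsSmooth L B) (f : ↥(Z₁ L A)) (b : ↥(H0 L B)) :
    cupH₁₀ φ hB (H1π L A f) b = H1π L C (cupZ₁₀ φ hB f b) := by
  unfold cupH₁₀
  rw [descSurj_apply, LinearMap.compr₂_apply]

/-- The cup product `H⁰ × H² → H²` in level cohomology. -/
noncomputable def cupH₀₂ : ↥(H0 L A) →ₗ[k] H2 L B →ₗ[k] H2 L C :=
  (descSurj (H2π L B) (H2π_surjective B) ((cupZ₀₂ φ).compr₂ (H2π L C)).flip (by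
    intro F hF
    rw [mem_ker_H2π_iff, mem_B₂_iff] at hF
    obtain ⟨x, hx, hxF⟩ := hF
    rw [LinearMap.mem_ker]
    refine LinearMap.ext fun a => ?_
    rw [LinearMap.flip_apply, LinearMap.compr₂_apply, LinearMap.zero_apply, H2π_eq_zero_iff,
      coe_cupZ₀₂, ← hxF]
    exact cup₀₂_d₁₂_mem_B₂ φ a.2 hx)).flip

@[simp] lemma cupH₀₂_π (a : ↥(H0 L A)) (F : ↥(Z₂ L B)) :
    cupH₀₂ φ a (H2π L B F) = H2π L C (cupZ₀₂ φ a F) := by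
  unfold cupH₀₂
  rw [LinearMap.flip_apply, descSurj_apply, LinearMap.flip_apply, LinearMap.compr₂_apply]

/-- The cup product `H² × H⁰ → H²` in level cohomology. -/
noncomputable def cupH₂₀ (hB : IsSmooth L B) : H2 L A →ₗ[k] ↥(H0 L B) →ₗ[k] H2 L C :=
  descSurj (H2π L A) (H2π_surjective A) ((cupZ₂₀ φ hB).compr₂ (H2π L C)) (by
    intro F hF
    rw [mem_ker_H2π_iff, mem_B₂_iff] at hF
    obtain ⟨x, hx, hxF⟩ := hF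
    rw [LinearMap.mem_ker]
    refine LinearMap.ext fun b => ?_
    rw [LinearMap.compr₂_apply, LinearMap.zero_apply, H2π_eq_zero_iff, coe_cupZ₂₀, ← hxF]
    exact cup₂₀_d₁₂_mem_B₂ φ hB hx b.2)

@[simp] lemma cupH₂₀_π (hB : IsSmooth L B) (F : ↥(Z₂ L A)) (b : ↥(H0 L B)) :
    cupH₂₀ φ hB (H2π L A F) b = H2π L C (cupZ₂₀ φ hB F b) := by
  unfold cupH₂₀
  rw [descSurj_apply, LinearMap.compr₂_apply]

end LC

end Fermat.Agent.CFT
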