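import Fermat.Agent.CFT.LC.LowDegree
import Fermat.Agent.CFT.LC.Cup
import Fermat.Agent.CFT.ShapiroLowLevel
import Fermat.Agent.CFT.CoindMaps

/-!
# Level cohomology: Shapiro's lemma and corestriction

For an open subgroup `S` of `(G, L)` with the induced level structure `L.comap S.subtype` and a
smooth `S`-module `Y`, the coinduced module `coind Y` is smooth and the chain map
`LC.cxSh : cx (coind Y) ⟶ cx Y` (restriction to `S` followed by evaluation at `1`) induces
bijections on cohomology in degrees `0, 1, 2`. Corestriction is defined as `tr_* ∘ Shapiro⁻¹`.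
-/

set_option autoImplicit false

universe u

open CategoryTheory groupCohomology

namespace Fermat.Agent.CFT

namespace LC

open HExt Cup LevelStructure

variable {k G : Type u} [CommRing k] [Group G] {L : LevelStructure G} {S : Subgroup G}

lemma exists_level_le (hS : L.IsOpen S) {N : Subgroup G} (hN : L.IsLevel N) :
    ∃ N₀, L.IsLevel N₀ ∧ N₀ ≤ N ∧ N₀ ≤ S := by
  obtain ⟨N₁, hN₁, h₁⟩ := hS
  obtain ⟨N₀, hN₀, hle⟩ := L.directed hN hN₁
  exact ⟨N₀, hN₀, hle.trans inf_le_left, (hle.trans inf_le_right).trans h₁⟩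

/-- The coinduced module of a smooth module of an open subgroup is smooth. -/
lemma isSmooth_coind (hS : L.IsOpen S) {Y : Rep.{u} k S}
    (hY : IsSmooth (L.comap S.subtype) Y) : IsSmooth L (Rep.coind S.subtype Y) := by
  intro c
  have := hS.finiteIndex
  obtain ⟨T, hTfin, hT⟩ := Shap.exists_finite_reps S
  obtain ⟨N', hN', hfix⟩ := hY.exists_level_of_finite (hTfin.image (fun t => c.1 t))
  obtain ⟨N, hN, rfl⟩ := hN'
  obtain ⟨N₀, hN₀, hle, hleS⟩ := exists_level_le hS hN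
  have := L.normal hN₀
  refine ⟨N₀, hN₀, ?_⟩
  exact Shap.fixedBy_coind_of_forall_rep hleS c T hT
    (fun t ht n hn => hfix _ ⟨t, ht, rfl⟩ n (hle hn))

variable (hS : L.IsOpen S) {Y : Rep.{u} k S} (hY : IsSmooth (L.comap S.subtype) Y)

/-- The Shapiro chain map `cx (coind Y) ⟶ cx Y`: restriction to `S`, then evaluation at `1`. -/
noncomputable def cxSh :
    Cx.Hom (cx (isSmooth_coind hS hY)) (cx hY) :=
  (cxMap ((isSmooth_coind hS hY).res (compat_comap L S.subtype)) hY (Cup.ev₁ S Y)).comp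
    (cxRes (compat_comap L S.subtype) (isSmooth_coind hS hY))

lemma cxSh_f_zero (c : Rep.coind S.subtype Y) : (cxSh hS hY).f 0 c = c.1 1 := rfl

lemma coe_cxSh_f_one (f : ↥(C₁ L (Rep.coind S.subtype Y))) :
    ((show ↥(C₁ (L.comap S.subtype) Y) from (cxSh hS hY).f 1 f) : S → Y) =
      Shap.sh₁ (f : G → Rep.coind S.subtype Y) := rfl

lemma coe_cxSh_f_two (F : ↥(C₂ L (Rep.coind S.subtype Y))) :
    ((show ↥(C₂ (L.comap S.subtype) Y) from (cxSh hS hY).f 2 F) : S × S → Y) =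
      Shap.sh₂ (F : G × G → Rep.coind S.subtype Y) := rfl


lemma subgroupOf_le_of_le {N₀ N : Subgroup G} (h : N₀ ≤ N) : N₀.subgroupOf S ≤ N.subgroupOf S :=
  Subgroup.comap_mono h

/-- Shapiro's lemma for level cohomology in degree `0`. -/
theorem cxSh_mapH_zero_bijective : Function.Bijective ((cxSh hS hY).mapH 0) := by
  constructor
  · rw [injective_iff_map_eq_zero]
    intro x hx
    induction x using Cx.H.induction_on with | _ z hz =>
    rw [Cx.Hom.mapH_mk, Cx.H.mk_eq_zero_iff_zero] at hx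
    rw [Cx.H.mk_eq_zero_iff_zero]
    have hz' : (show Rep.coind S.subtype Y from z) ∈ (Rep.coind S.subtype Y).ρ.invariants :=
      (dLC₀_eq_zero_iff (isSmooth_coind hS hY) _).1 hz
    have h0 := (Shap.bijective_invMap S Y).1 (a₁ := ⟨_, hz'⟩) (a₂ := 0)
      (Subtype.ext (by
        show (show Rep.coind S.subtype Y from z).1 1 = 0
        exact hx))
    exact congrArg Subtype.val h0
  · intro x
    induction x using Cx.H.induction_on with | _ y hy =>
    have hy' : (show Y from y) ∈ Y.ρ.invariants := (dLC₀_eq_zero_iff hY _).1 hy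
    obtain ⟨c, hc⟩ := (Shap.bijective_invMap S Y).2 ⟨_, hy'⟩
    refine ⟨Cx.H.mk (C := cx (isSmooth_coind hS hY)) (n := 0) c.1
      ((dLC₀_eq_zero_iff (isSmooth_coind hS hY) _).2 c.2), ?_⟩
    have e : (cxSh hS hY).f 0 c.1 = y := congrArg Subtype.val hc
    exact (Cx.Hom.mapH_mk (cxSh hS hY) 0 _ _).trans (Cx.H.mk_congr e _)

/-- Shapiro's lemma for level cohomology in degree `1`. -/
theorem cxSh_mapH_one_bijective : Function.Bijective ((cxSh hS hY).mapH 1) := by
  constructor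
  · rw [injective_iff_map_eq_zero]
    intro x hx
    induction x using Cx.H.induction_on with | _ z hz =>
    rw [Cx.Hom.mapH_mk, Cx.H.mk_eq_zero_iff_succ] at hx
    rw [Cx.H.mk_eq_zero_iff_succ]
    obtain ⟨y, hy⟩ := hx
    have hcoc : ((show ↥(C₁ L (Rep.coind S.subtype Y)) from z) : G → Rep.coind S.subtype Y) ∈
        cocycles₁ (Rep.coind S.subtype Y) := (dLC₁_eq_zero_iff (isSmooth_coind hS hY) _).1 hz
    have hcob : Shap.sh₁ ((show ↥(C₁ L (Rep.coind S.subtype Y)) from z) :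
        G → Rep.coind S.subtype Y) ∈ coboundaries₁ Y :=
      ⟨(show Y from y), congrArg Subtype.val hy⟩
    obtain ⟨c, hc⟩ := Shap.mem_coboundaries₁_of_sh₁ hcoc hcob
    exact ⟨c, Subtype.ext hc⟩
  · intro x
    induction x using Cx.H.induction_on with | _ w hw =>
    have hcoc : ((show ↥(C₁ (L.comap S.subtype) Y) from w) : S → Y) ∈ cocycles₁ Y :=
      (dLC₁_eq_zero_iff hY _).1 hw
    obtain ⟨N', hN', hinv, hfix⟩ := exists_good₁ hY (show ↥(C₁ (L.comap S.subtype) Y) from w).2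
    obtain ⟨N, hN, rfl⟩ := hN'
    obtain ⟨N₀, hN₀, hle, hleS⟩ := exists_level_le hS hN
    have := L.normal hN₀
    obtain ⟨F, hF, hFinv, -, hFw⟩ := Shap.exists_level_cocycle₁ hleS hcoc
      (hinv.mono (subgroupOf_le_of_le hle)) (fun s => (hfix s).mono (subgroupOf_le_of_le hle))
    refine ⟨Cx.H.mk (C := cx (isSmooth_coind hS hY)) (n := 1)
      (⟨F, ⟨N₀, hN₀, hFinv⟩⟩ : ↥(C₁ L (Rep.coind S.subtype Y)))
      ((dLC₁_eq_zero_iff (isSmooth_coind hS hY) _).2 hF), ?_⟩
    exact (Cx.Hom.mapH_mk (cxSh hS hY) 1 _ _).trans (Cx.H.mk_congr (Subtype.ext hFw) _)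

/-- Shapiro's lemma for level cohomology in degree `2`. -/
theorem cxSh_mapH_two_bijective : Function.Bijective ((cxSh hS hY).mapH 2) := by
  constructor
  · rw [injective_iff_map_eq_zero]
    intro x hx
    induction x using Cx.H.induction_on with | _ z hz =>
    rw [Cx.Hom.mapH_mk, Cx.H.mk_eq_zero_iff_succ] at hx
    rw [Cx.H.mk_eq_zero_iff_succ]
    obtain ⟨y, hy⟩ := hx
    have hcoc : ((show ↥(C₂ L (Rep.coind S.subtype Y)) from z) :
        G × G → Rep.coind S.subtype Y) ∈ cocycles₂ (Rep.coind S.subtype Y) :=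
      (dLC₂_eq_zero_iff (isSmooth_coind hS hY) _).1 hz
    obtain ⟨N₁, hN₁, hinv₁, hfix₁⟩ := exists_good₂ (isSmooth_coind hS hY)
      (show ↥(C₂ L (Rep.coind S.subtype Y)) from z).2
    obtain ⟨N', hN', hinv₂, hfix₂⟩ := exists_good₁ hY
      (show ↥(C₁ (L.comap S.subtype) Y) from y).2
    obtain ⟨N₂, hN₂, rfl⟩ := hN'
    obtain ⟨N₃, hN₃, hle₃⟩ := L.directed hN₁ hN₂
    obtain ⟨N₀, hN₀, hle, hleS⟩ := exists_level_le hS hN₃
    have := L.normal hN₀
    have hle₁ : N₀ ≤ N₁ := hle.trans (hle₃.trans inf_le_left)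
    have hle₂ : N₀ ≤ N₂ := hle.trans (hle₃.trans inf_le_right)
    obtain ⟨Φ, hΦinv, -, hΦ⟩ := Shap.exists_level_primitive₂ hleS hcoc (hinv₁.mono hle₁)
      (fun p => (hfix₁ p).mono hle₁) (hinv₂.mono (subgroupOf_le_of_le hle₂))
      (fun s => (hfix₂ s).mono (subgroupOf_le_of_le hle₂)) (congrArg Subtype.val hy)
    exact ⟨(⟨Φ, ⟨N₀, hN₀, hΦinv⟩⟩ : ↥(C₁ L (Rep.coind S.subtype Y))), Subtype.ext hΦ⟩
  · intro x
    induction x using Cx.H.induction_on with | _ w hw =>
    have hcoc : ((show ↥(C₂ (L.comap S.subtype) Y) from w) : S × S → Y) ∈ cocycles₂ Y :=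
      (dLC₂_eq_zero_iff hY _).1 hw
    obtain ⟨N', hN', hinv, hfix⟩ := exists_good₂ hY (show ↥(C₂ (L.comap S.subtype) Y) from w).2
    obtain ⟨N, hN, rfl⟩ := hN'
    obtain ⟨N₀, hN₀, hle, hleS⟩ := exists_level_le hS hN
    have := L.normal hN₀
    obtain ⟨F, hF, hFinv, -, hFw⟩ := Shap.exists_level_cocycle₂ hleS hcoc
      (hinv.mono (subgroupOf_le_of_le hle)) (fun s => (hfix s).mono (subgroupOf_le_of_le hle))
    refine ⟨Cx.H.mk (C := cx (isSmooth_coind hS hY)) (n := 2)
      (⟨F, ⟨N₀, hN₀, hFinv⟩⟩ : ↥(C₂ L (Rep.coind S.subtype Y)))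
      ((dLC₂_eq_zero_iff (isSmooth_coind hS hY) _).2 hF), ?_⟩
    exact (Cx.Hom.mapH_mk (cxSh hS hY) 2 _ _).trans (Cx.H.mk_congr (Subtype.ext hFw) _)


/-- Shapiro's isomorphism in degree `0`. -/
noncomputable def shapEquiv₀ : (cx (isSmooth_coind hS hY)).H 0 ≃ₗ[k] (cx hY).H 0 :=
  LinearEquiv.ofBijective _ (cxSh_mapH_zero_bijective hS hY)

/-- Shapiro's isomorphism in degree `1`. -/
noncomputable def shapEquiv₁ : (cx (isSmooth_coind hS hY)).H 1 ≃ₗ[k] (cx hY).H 1 :=
  LinearEquiv.ofBijective _ (cxSh_mapH_one_bijective hS hY)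

/-- Shapiro's isomorphism in degree `2`. -/
noncomputable def shapEquiv₂ : (cx (isSmooth_coind hS hY)).H 2 ≃ₗ[k] (cx hY).H 2 :=
  LinearEquiv.ofBijective _ (cxSh_mapH_two_bijective hS hY)

@[simp] lemma shapEquiv₀_apply (x : (cx (isSmooth_coind hS hY)).H 0) :
    shapEquiv₀ hS hY x = (cxSh hS hY).mapH 0 x := rfl

@[simp] lemma shapEquiv₁_apply (x : (cx (isSmooth_coind hS hY)).H 1) :
    shapEquiv₁ hS hY x = (cxSh hS hY).mapH 1 x := rfl

@[simp] lemma shapEquiv₂_apply (x : (cx (isSmooth_coind hS hY)).H 2) :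
    shapEquiv₂ hS hY x = (cxSh hS hY).mapH 2 x := rfl

/-! ### Corestriction -/

section Cor

omit hS in
/-- the restriction of a smooth module to an open subgroup is smooth -/
lemma isSmooth_res {X : Rep.{u} k G} (hX : IsSmooth L X) :
    IsSmooth (L.comap S.subtype) (Rep.res S.subtype X) :=
  hX.res (compat_comap L S.subtype)

variable [S.FiniteIndex] {X : Rep.{u} k G} (hX : IsSmooth L X)

/-- the chain map induced by the trace `coind (res X) ⟶ X` -/
noncomputable def cxTr : Cx.Hom (cx (isSmooth_coind hS (isSmooth_res hX))) (cx hX) :=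
  cxMap (isSmooth_coind hS (isSmooth_res hX)) hX (Cup.tr S X)

/-- the chain map induced by the unit `X ⟶ coind (res X)` -/
noncomputable def cxUnit : Cx.Hom (cx hX) (cx (isSmooth_coind hS (isSmooth_res hX))) :=
  cxMap hX (isSmooth_coind hS (isSmooth_res hX)) (coindUnit S X)

omit [S.FiniteIndex] in
lemma cxSh_cxUnit_f (n : ℕ) (z : (cx hX).X n) :
    (cxSh hS (isSmooth_res hX)).f n ((cxUnit hS hX).f n z) =
      (cxRes (compat_comap L S.subtype) hX).f n z := by
  match n, z with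
  | 0, z =>
    have h : X.ρ 1 (show X from z) = (show X from z) := by
      rw [map_one, Module.End.one_apply]
    exact h
  | 1, z =>
    refine Subtype.ext (funext fun s => ?_)
    show X.ρ 1 ((show ↥(C₁ L X) from z).1 s) = _
    rw [map_one, Module.End.one_apply]
    rfl
  | 2, z =>
    refine Subtype.ext (funext fun s => ?_)
    show X.ρ 1 ((show ↥(C₂ L X) from z).1 (s.1, s.2)) = _
    rw [map_one, Module.End.one_apply]
    rfl
  | 3, z =>
    refine Subtype.ext (funext fun s => ?_)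
    show X.ρ 1 ((show ↥(C₃ L X) from z).1 (s.1, s.2.1, s.2.2)) = _
    rw [map_one, Module.End.one_apply]
    rfl
  | _ + 4, _ => rfl

lemma cxTr_cxUnit_f (n : ℕ) (z : (cx hX).X n) :
    (cxTr hS hX).f n ((cxUnit hS hX).f n z) = S.index • z := by
  match n, z with
  | 0, z => exact tr_coindUnit S X z
  | 1, z =>
    refine Subtype.ext (funext fun s => ?_)
    exact tr_coindUnit S X _
  | 2, z =>
    refine Subtype.ext (funext fun s => ?_)
    exact tr_coindUnit S X _
  | 3, z =>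
    refine Subtype.ext (funext fun s => ?_)
    exact tr_coindUnit S X _
  | _ + 4, _ => rfl

/-- Corestriction in degree `0`. -/
noncomputable def corH₀ : (cx (isSmooth_res (S := S) hX)).H 0 →ₗ[k] (cx hX).H 0 :=
  ((cxTr hS hX).mapH 0).comp (shapEquiv₀ hS (isSmooth_res hX)).symm.toLinearMap

/-- Corestriction in degree `1`. -/
noncomputable def corH₁ : (cx (isSmooth_res (S := S) hX)).H 1 →ₗ[k] (cx hX).H 1 :=
  ((cxTr hS hX).mapH 1).comp (shapEquiv₁ hS (isSmooth_res hX)).symm.toLinearMap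

/-- Corestriction in degree `2`. -/
noncomputable def corH₂ : (cx (isSmooth_res (S := S) hX)).H 2 →ₗ[k] (cx hX).H 2 :=
  ((cxTr hS hX).mapH 2).comp (shapEquiv₂ hS (isSmooth_res hX)).symm.toLinearMap

lemma corH₀_sh (x : (cx (isSmooth_coind hS (isSmooth_res hX))).H 0) :
    corH₀ hS hX ((cxSh hS (isSmooth_res hX)).mapH 0 x) = (cxTr hS hX).mapH 0 x := by
  show (cxTr hS hX).mapH 0 ((shapEquiv₀ hS (isSmooth_res hX)).symm
    (shapEquiv₀ hS (isSmooth_res hX) x)) = _
  rw [LinearEquiv.symm_apply_apply]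

lemma corH₁_sh (x : (cx (isSmooth_coind hS (isSmooth_res hX))).H 1) :
    corH₁ hS hX ((cxSh hS (isSmooth_res hX)).mapH 1 x) = (cxTr hS hX).mapH 1 x := by
  show (cxTr hS hX).mapH 1 ((shapEquiv₁ hS (isSmooth_res hX)).symm
    (shapEquiv₁ hS (isSmooth_res hX) x)) = _
  rw [LinearEquiv.symm_apply_apply]

lemma corH₂_sh (x : (cx (isSmooth_coind hS (isSmooth_res hX))).H 2) :
    corH₂ hS hX ((cxSh hS (isSmooth_res hX)).mapH 2 x) = (cxTr hS hX).mapH 2 x := by
  show (cxTr hS hX).mapH 2 ((shapEquiv₂ hS (isSmooth_res hX)).symm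
    (shapEquiv₂ hS (isSmooth_res hX) x)) = _
  rw [LinearEquiv.symm_apply_apply]

omit hS in
lemma d_map_eq_zero {A B : Cx.{u, u} k} (f : Cx.Hom A B) {n : ℕ} {z : A.X n}
    (hz : A.d n z = 0) : B.d n (f.f n z) = 0 := by
  rw [← f.comm, hz, map_zero]

omit [S.FiniteIndex] in
/-- restriction factors through the unit and the Shapiro map -/
lemma resH_eq_sh_unit (n : ℕ) (x : (cx hX).H n) :
    resH (compat_comap L S.subtype) hX n x =
      (cxSh hS (isSmooth_res hX)).mapH n ((cxUnit hS hX).mapH n x) := by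
  induction x using Cx.H.induction_on with | _ z hz =>
  show Cx.H.mk ((cxRes (compat_comap L S.subtype) hX).f n z) (d_map_eq_zero _ hz) =
    Cx.H.mk ((cxSh hS (isSmooth_res hX)).f n ((cxUnit hS hX).f n z))
      (d_map_eq_zero _ (d_map_eq_zero _ hz))
  exact (Cx.H.mk_congr (cxSh_cxUnit_f hS hX n z) _).symm

lemma cxTr_cxUnit_mapH (n : ℕ) (x : (cx hX).H n) :
    (cxTr hS hX).mapH n ((cxUnit hS hX).mapH n x) = S.index • x := by
  induction x using Cx.H.induction_on with | _ z hz =>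
  show Cx.H.mk ((cxTr hS hX).f n ((cxUnit hS hX).f n z))
    (d_map_eq_zero _ (d_map_eq_zero _ hz)) = S.index • Cx.H.mk z hz
  refine (Cx.H.mk_congr (cxTr_cxUnit_f hS hX n z) _).trans ?_
  rfl

/-- `cor ∘ res = [G : S]` in degree `0`. -/
theorem corH₀_resH (x : (cx hX).H 0) :
    corH₀ hS hX (resH (compat_comap L S.subtype) hX 0 x) = S.index • x := by
  rw [resH_eq_sh_unit hS hX, corH₀_sh, cxTr_cxUnit_mapH]

/-- `cor ∘ res = [G : S]` in degree `1`. -/
theorem corH₁_resH (x : (cx hX).H 1) :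
    corH₁ hS hX (resH (compat_comap L S.subtype) hX 1 x) = S.index • x := by
  rw [resH_eq_sh_unit hS hX, corH₁_sh, cxTr_cxUnit_mapH]

/-- `cor ∘ res = [G : S]` in degree `2`. -/
theorem corH₂_resH (x : (cx hX).H 2) :
    corH₂ hS hX (resH (compat_comap L S.subtype) hX 2 x) = S.index • x := by
  rw [resH_eq_sh_unit hS hX, corH₂_sh, cxTr_cxUnit_mapH]

end Cor

end LC

end Fermat.Agent.CFT
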