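import Fermat.Agent.CFT.LC.KummerPairing
import Fermat.Agent.CFT.LC.Lift
import Fermat.Agent.CFT.Local.LocalSymbolCor

/-!
# B7d, part 2: descent of the existence theorem mod `p` along an open normal subgroup of index
prime to `p` (the case `ζ_p ∉ K`) (helper16)

`(G, L)` a level group, `C : Rep ℤ G`, `U ⊴ G` open normal.

* `subLevel L U`, `subRep C U`, `resInv`, `resX`, `coe_symT_res`: restriction to `U` of invariants,
  of LC characters and of the symbol (`resLC2` of `LC/Lift.lean`).
* `conjElt`, `transfer_apply_coe`: the transfer `G → U^ab` restricted to `U` is the product of the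
  conjugates (Mathlib's `MonoidHom.transfer`).
* `conjInv`, `conjX`: the conjugation action of `G` on `C^U` and on `H¹_LC(U, 𝔽_p)`.
* `exists_transferX`: for `f' ∈ H¹_LC(U, 𝔽_p)` there is `f ∈ H¹_LC(G, 𝔽_p)` with
  `f|_U = ∑_{q ∈ G/U} t_q f'`.
* `exists_nsmul_eq_of_sub`: `a ∈ C^G ∩ p C^U ⇒ a ∈ p C^G` if `p ∤ [G:U]` (norm argument).
* `right_nondegenerate_of_sub`: descent of right-nondegeneracy, given `τ' ∘ res = [G:U] • τ` and
  conjugation invariance of `τ'` on symbols.
* `perfect_of_nondegenerate`: two-sided nondegeneracy + finiteness of `C^G/p` ⇒ perfect.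
* `perfect_of_sub`: the assembled descent statement.
-/

set_option autoImplicit false
set_option linter.unusedSectionVars false
set_option linter.style.haveILetI false

open groupCohomology

namespace Fermat.Agent.CFT

namespace LCSym

section Restriction

variable {G : Type} [Group G] (L : LevelStructure G) (C : Rep.{0} ℤ G) (U : Subgroup G)
  {p : ℕ} [NeZero p]

/-- The induced level structure on a subgroup. -/
abbrev subLevel : LevelStructure U := L.comap U.subtype

/-- The restricted module. -/
noncomputable abbrev subRep : Rep.{0} ℤ U := Rep.res U.subtype C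

theorem subRep_ρ (u : U) (c : C) : (subRep C U).ρ u c = C.ρ (u : G) c := rfl

/-- Restriction of invariants `C^G → C^U`. -/
def resInv : ↥(invSub C) →+ ↥(invSub (subRep C U)) where
  toFun a := ⟨a.1, fun u => a.2 (u : G)⟩
  map_zero' := rfl
  map_add' _ _ := rfl

@[simp] theorem coe_resInv (a : ↥(invSub C)) : ((resInv C U a : ↥(invSub (subRep C U))) : C) = a.1 :=
  rfl

/-- Restriction of LC homomorphisms `G → 𝔽_p` to `U`. -/
noncomputable def resX : XChar L p →+ XChar (subLevel L U) p where
  toFun f := ⟨fun u => (f : G → ZMod p) (u : G), by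
    refine (mem_cocycles₁_iff (A := FpRep U p) _).2 fun g h => ?_
    show (f : G → ZMod p) ((g : G) * (h : G)) = _ + (f : G → ZMod p) (g : G)
    rw [XChar.map_mul, add_comm]
    rfl,
    (L.compat_comap U.subtype).isLC₁ f.2.2⟩
  map_zero' := rfl
  map_add' _ _ := rfl

@[simp] theorem resX_apply (f : XChar L p) (u : U) :
    (resX L U f : U → ZMod p) u = (f : G → ZMod p) (u : G) := rfl

theorem charOf_resX (f : XChar L p) : charOf (resX L U f) = (charOf f).comp U.subtype := by
  ext u
  rfl

/-- The symbol is compatible with restriction. -/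
theorem coe_symT_res (hC : IsSmooth L C) (a : ↥(invSub C)) (f : XChar L p) :
    ((symT (subLevel L U) (subRep C U) (resInv C U a) (resX L U f) :
        ↥(AddSubgroup.torsionBy (LC.H2 (subLevel L U) (subRep C U)) (p : ℤ))) :
        LC.H2 (subLevel L U) (subRep C U)) =
      LC.resLC2 (L.compat_comap U.subtype) hC
        ((symT L C a f : ↥(AddSubgroup.torsionBy (LC.H2 L C) (p : ℤ))) : LC.H2 L C) := by
  rw [coe_symT, coe_symT]
  unfold lcSymClass
  rw [LC.resLC2_H2π]
  congr 1

end Restriction

section Transfer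

variable {G : Type*} [Group G] (H : Subgroup G) [hH : H.Normal]

/-- `t⁻¹ h t` as an element of the normal subgroup `H`. -/
def conjElt (t : G) (h : H) : H :=
  ⟨t⁻¹ * (h : G) * t, by
    have := hH.conj_mem (h : G) h.2 t⁻¹
    rwa [inv_inv] at this⟩

@[simp] theorem coe_conjElt (t : G) (h : H) : ((conjElt H t h : H) : G) = t⁻¹ * (h : G) * t := rfl

theorem conjElt_mul (t : G) (h h' : H) : conjElt H t (h * h') = conjElt H t h * conjElt H t h' := by
  apply Subtype.ext
  simp only [coe_conjElt, Subgroup.coe_mul]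
  group

theorem conjElt_one (t : G) : conjElt H t 1 = 1 := by
  apply Subtype.ext
  simp only [coe_conjElt, Subgroup.coe_one]
  group

open Subgroup Subgroup.leftTransversals MulAction in
/-- The transfer of `ϕ : H →* A` (`H` normal of finite index) restricted to `H` is the product of
the conjugates of `ϕ`. -/
theorem transfer_apply_coe [H.FiniteIndex] {A : Type*} [CommGroup A] (ϕ : H →* A) (h : H) :
    letI := H.fintypeQuotientOfFiniteIndex
    MonoidHom.transfer ϕ (h : G) =
      ∏ q : G ⧸ H, ϕ (conjElt H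
        (((default : H.LeftTransversal).2.leftQuotientEquiv q : G)) h) := by
  letI := H.fintypeQuotientOfFiniteIndex
  rw [MonoidHom.transfer_def ϕ (default : H.LeftTransversal)]
  unfold diff
  refine Finset.prod_congr rfl fun q _ => ?_
  refine congrArg ϕ (Subtype.ext ?_)
  have hq : ((h : G)⁻¹ • q : G ⧸ H) = q := by
    induction q using QuotientGroup.induction_on with
    | H x =>
      show (((h : G)⁻¹ * x : G) : G ⧸ H) = (x : G ⧸ H)
      rw [QuotientGroup.eq]
      have := hH.conj_mem (h : G) h.2 x⁻¹
      rw [inv_inv] at this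
      have h2 : ((h : G)⁻¹ * x)⁻¹ * x = x⁻¹ * (h : G) * x := by group
      rw [h2]
      exact this
  show ((default : H.LeftTransversal).2.leftQuotientEquiv q : G)⁻¹ *
      ((((h : G) • (default : H.LeftTransversal)) : H.LeftTransversal).2.leftQuotientEquiv q : G)
    = _⁻¹ * (h : G) * _
  rw [smul_apply_eq_smul_apply_inv_smul, hq, smul_eq_mul, mul_assoc]

end Transfer

section Conj

variable {G : Type} [Group G] (L : LevelStructure G) (C : Rep.{0} ℤ G) (U : Subgroup G)
  [hU : U.Normal] {p : ℕ} [NeZero p]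

/-- The action of `t ∈ G` on `C^U` for a normal subgroup `U`. -/
def conjInv (t : G) : ↥(invSub (subRep C U)) →+ ↥(invSub (subRep C U)) where
  toFun a := ⟨C.ρ t a.1, fun u => by
    show C.ρ (u : G) (C.ρ t a.1) = C.ρ t a.1
    rw [← rho_mul_apply]
    have h1 : (u : G) * t = t * ((conjElt U t u : U) : G) := by
      rw [coe_conjElt]; group
    rw [h1, rho_mul_apply]
    congr 1
    exact a.2 (conjElt U t u)⟩
  map_zero' := Subtype.ext (map_zero _)
  map_add' a b := Subtype.ext (map_add _ _ _)

@[simp] theorem coe_conjInv (t : G) (a : ↥(invSub (subRep C U))) :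
    ((conjInv C U t a : ↥(invSub (subRep C U))) : C) = C.ρ t a.1 := rfl

/-- A `G`-invariant is fixed by the conjugation action. -/
theorem conjInv_resInv (t : G) (a : ↥(invSub C)) : conjInv C U t (resInv C U a) = resInv C U a :=
  Subtype.ext (a.2 t)

/-- The conjugation action of `t ∈ G` on `H¹_LC(U, 𝔽_p)`: `(t f)(u) = f (t⁻¹ u t)`. -/
noncomputable def conjX (t : G) : XChar (subLevel L U) p →+ XChar (subLevel L U) p where
  toFun f := ⟨fun u => (f : U → ZMod p) (conjElt U t u), by
    refine (mem_cocycles₁_iff (A := FpRep U p) _).2 fun g h => ?_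
    show (f : U → ZMod p) (conjElt U t (g * h)) = _ + (f : U → ZMod p) (conjElt U t g)
    rw [conjElt_mul, XChar.map_mul, add_comm]
    rfl, by
    obtain ⟨N', ⟨N, hN, rfl⟩, hinv⟩ := f.2.2
    have hn := L.normal hN
    refine ⟨N.comap U.subtype, ⟨N, hN, rfl⟩, fun u s hs => ?_⟩
    show (f : U → ZMod p) (conjElt U t (u * s)) = (f : U → ZMod p) (conjElt U t u)
    rw [conjElt_mul]
    refine hinv _ _ ?_
    rw [Subgroup.mem_comap] at hs ⊢
    have := hn.conj_mem _ hs t⁻¹
    rwa [inv_inv] at this⟩
  map_zero' := rfl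
  map_add' _ _ := rfl

@[simp] theorem conjX_apply (t : G) (f : XChar (subLevel L U) p) (u : U) :
    (conjX L U t f : U → ZMod p) u = (f : U → ZMod p) (conjElt U t u) := rfl

end Conj

section TransferX

variable {G : Type} [Group G] (L : LevelStructure G) (U : Subgroup G)
  [hU : U.Normal] {p : ℕ} [NeZero p]

/-- **Transfer of characters.**  For an open normal subgroup `U` and `f' ∈ H¹_LC(U, 𝔽_p)` there is
`f ∈ H¹_LC(G, 𝔽_p)` (the composition of `f'` with the transfer `G → U^ab`) whose restriction to
`U` is the sum of the conjugates of `f'` over representatives of `G ⧸ U`. -/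
theorem exists_transferX [Fintype (G ⧸ U)] (hUo : L.IsOpen U) (f' : XChar (subLevel L U) p) :
    ∃ (f : XChar L p) (t : G ⧸ U → G), resX L U f = ∑ q : G ⧸ U, conjX L U (t q) f' := by
  classical
  haveI : U.FiniteIndex := hUo.finiteIndex L
  have key : ∀ h : U, MonoidHom.transfer (charOf f') (h : G) =
      ∏ q : G ⧸ U, charOf f' (conjElt U
        (((default : U.LeftTransversal).2.leftQuotientEquiv q : G)) h) := by
    intro h
    rw [transfer_apply_coe U (charOf f') h]
    exact Finset.prod_congr (Finset.ext fun _ => by simp) fun _ _ => rfl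
  -- the kernel of the transfer is open
  have hopen : L.IsOpen (MonoidHom.transfer (charOf f')).ker := by
    obtain ⟨N', ⟨N, hN, rfl⟩, hinv⟩ := f'.2.2
    obtain ⟨N₁, hN₁, hN₁U⟩ := hUo
    obtain ⟨N₂, hN₂, hle⟩ := L.directed hN hN₁
    have hn := L.normal hN
    refine ⟨N₂, hN₂, fun n hn₂ => ?_⟩
    have hnU : n ∈ U := hN₁U ((hle hn₂).2)
    rw [MonoidHom.mem_ker]
    have := key ⟨n, hnU⟩
    rw [Subgroup.coe_mk] at this
    rw [this]
    refine Finset.prod_eq_one fun q _ => ?_
    rw [charOf_apply]
    have hmem : conjElt U (((default : U.LeftTransversal).2.leftQuotientEquiv q : G)) ⟨n, hnU⟩ ∈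
        N.comap U.subtype := by
      rw [Subgroup.mem_comap]
      have := hn.conj_mem n ((hle hn₂).1)
        (((default : U.LeftTransversal).2.leftQuotientEquiv q : G))⁻¹
      rwa [inv_inv] at this
    have h0 := hinv 1 _ hmem
    rw [one_mul, XChar.map_one] at h0
    rw [h0]
    rfl
  obtain ⟨f, hf⟩ := exists_charOf_eq (MonoidHom.transfer (charOf f')) hopen
  refine ⟨f, fun q => ((default : U.LeftTransversal).2.leftQuotientEquiv q : G), ?_⟩
  apply Subtype.ext
  funext u
  have h1 : (f : G → ZMod p) (u : G) = Multiplicative.toAdd (charOf f (u : G)) := rfl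
  rw [resX_apply, h1, hf, key u, Submodule.coe_sum, Finset.sum_apply]
  rw [toAdd_prod]
  rfl

end TransferX

section Descent

variable {G : Type} [Group G] (L : LevelStructure G) (C : Rep.{0} ℤ G) (U : Subgroup G)
  [hU : U.Normal] {p : ℕ} [NeZero p]

/-- If `a ∈ C^G` is `p`-divisible in `C^U` and `[G : U]` is prime to `p`, then `a` is `p`-divisible
in `C^G` (norm argument). -/
theorem exists_nsmul_eq_of_sub [U.FiniteIndex] (hd : Nat.Coprime U.index p) (a : ↥(invSub C))
    (b' : ↥(invSub (subRep C U))) (hb' : resInv C U a = p • b') :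
    ∃ b : ↥(invSub C), a = p • b := by
  classical
  letI : Fintype (G ⧸ U) := U.fintypeQuotientOfFiniteIndex
  have hb1 : a.1 = p • b'.1 := congrArg Subtype.val hb'
  have hb'inv : IsInv (Rep.res U.subtype C) b'.1 := isInv_of_mem b'.2
  set N : C := invRelNorm U C b'.1 hb'inv with hN
  have hNinv : IsInv C N := isInv_invRelNorm U C b'.1 hb'inv
  have hpN : p • N = U.index • a.1 := by
    rw [hN, invRelNorm_eq_finsum, finsum_eq_sum_of_fintype, Finset.smul_sum]
    have : ∀ q : G ⧸ U, p • C.ρ q.out b'.1 = a.1 := fun q => by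
      rw [← map_nsmul, ← hb1]
      exact a.2 q.out
    rw [Finset.sum_congr rfl fun q _ => this q, Finset.sum_const, Finset.card_univ,
      Subgroup.index_eq_card, Nat.card_eq_fintype_card]
  have hcop : IsCoprime (U.index : ℤ) (p : ℤ) := Nat.isCoprime_iff_coprime.mpr hd
  obtain ⟨u, v, huv⟩ := hcop
  refine ⟨⟨u • N + v • a.1, (hNinv.zsmul u).add ((isInv_of_mem a.2).zsmul v)⟩, Subtype.ext ?_⟩
  show a.1 = p • (u • N + v • a.1)
  rw [smul_add, smul_comm p u N, hpN]
  have h1 : a.1 = (u * (U.index : ℤ) + v * (p : ℤ)) • a.1 := by rw [huv, one_smul]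
  conv_lhs => rw [h1]
  rw [add_smul, mul_smul, mul_smul, natCast_zsmul, natCast_zsmul, smul_comm p v a.1]

/-- **Descent of right-nondegeneracy** along an open normal subgroup `U` of index prime to `p`:
if the invariant maps satisfy `τ' ∘ res = [G:U] • τ` and `τ'` is conjugation invariant (on
symbols), then right-nondegeneracy of the pairing for `U` implies it for `G`. -/
theorem right_nondegenerate_of_sub (hp : p.Prime) (hUo : L.IsOpen U)
    (hd : Nat.Coprime U.index p)
    (τ : ↥(AddSubgroup.torsionBy (LC.H2 L C) (p : ℤ)) →+ ZMod p)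
    (τ' : ↥(AddSubgroup.torsionBy (LC.H2 (subLevel L U) (subRep C U)) (p : ℤ)) →+ ZMod p)
    (hres : ∀ (a : ↥(invSub C)) (f : XChar L p),
      τ' (symT (subLevel L U) (subRep C U) (resInv C U a) (resX L U f)) =
        U.index • τ (symT L C a f))
    (hconj : ∀ (t : G) (a' : ↥(invSub (subRep C U))) (f' : XChar (subLevel L U) p),
      τ' (symT (subLevel L U) (subRep C U) (conjInv C U t a') (conjX L U t f')) =
        τ' (symT (subLevel L U) (subRep C U) a' f'))
    (hR' : ∀ a' : ↥(invSub (subRep C U)),
      (∀ f', τ' (symT (subLevel L U) (subRep C U) a' f') = 0) →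
        ∃ b' : ↥(invSub (subRep C U)), a' = p • b')
    (a : ↥(invSub C)) (ha : ∀ f : XChar L p, τ (symT L C a f) = 0) :
    ∃ b : ↥(invSub C), a = p • b := by
  classical
  haveI : Fact p.Prime := ⟨hp⟩
  haveI : U.FiniteIndex := hUo.finiteIndex L
  letI : Fintype (G ⧸ U) := U.fintypeQuotientOfFiniteIndex
  have hdz : ((U.index : ℕ) : ZMod p) ≠ 0 := by
    rw [Ne, ZMod.natCast_eq_zero_iff]
    intro hdvd
    have := Nat.Coprime.eq_one_of_dvd hd.symm hdvd
    exact hp.one_lt.ne' this
  have step2 : ∀ f', τ' (symT (subLevel L U) (subRep C U) (resInv C U a) f') = 0 := by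
    intro f'
    obtain ⟨f, t, hft⟩ := exists_transferX L U hUo f'
    have h1 := hres a f
    rw [ha f, smul_zero, hft] at h1
    have h2 : τ' (symT (subLevel L U) (subRep C U) (resInv C U a)
        (∑ q : G ⧸ U, conjX L U (t q) f')) =
        ∑ q : G ⧸ U, τ' (symT (subLevel L U) (subRep C U) (resInv C U a)
          (conjX L U (t q) f')) := by
      have := map_sum (pairAdd (subLevel L U) (subRep C U) τ' (resInv C U a))
        (fun q : G ⧸ U => conjX L U (t q) f') Finset.univ
      simpa only [pairAdd_apply] using this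
    rw [h2] at h1
    have h3 : ∀ q : G ⧸ U, τ' (symT (subLevel L U) (subRep C U) (resInv C U a)
        (conjX L U (t q) f')) = τ' (symT (subLevel L U) (subRep C U) (resInv C U a) f') := by
      intro q
      have := hconj (t q) (resInv C U a) f'
      rwa [conjInv_resInv] at this
    rw [Finset.sum_congr rfl fun q _ => h3 q, Finset.sum_const, Finset.card_univ,
      ← Nat.card_eq_fintype_card, ← Subgroup.index_eq_card, nsmul_eq_mul] at h1
    exact (mul_eq_zero.1 h1).resolve_left hdz
  obtain ⟨b', hb'⟩ := hR' _ step2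
  exact exists_nsmul_eq_of_sub C U hd a b' hb'

end Descent

section Perfect2

variable {G : Type} [Group G] (L : LevelStructure G) (C : Rep.{0} ℤ G) {p : ℕ} [NeZero p]

/-- **Abstract existence theorem mod `p`, two-sided form**: if the pairing is nondegenerate on
both sides and `C^G / p` is finite, it is perfect. -/
theorem perfect_of_nondegenerate (hp : p.Prime)
    (τ : ↥(AddSubgroup.torsionBy (LC.H2 L C) (p : ℤ)) →+ ZMod p)
    (hN : ∀ f : XChar L p, f ≠ 0 → ∃ a : ↥(invSub C), τ (symT L C a f) ≠ 0)
    (hR : ∀ a : ↥(invSub C), (∀ f, τ (symT L C a f) = 0) → ∃ b : ↥(invSub C), a = p • b)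
    (hfin : Finite (VQuot C p)) :
    (Finite (XChar L p) ∧ Nat.card (XChar L p) = Nat.card (VQuot C p)) ∧
    Function.Bijective (pairLin L C τ) ∧ Function.Bijective (pairLin L C τ).flip := by
  classical
  haveI : Fact p.Prime := ⟨hp⟩
  have hinjf : Function.Injective (pairLin L C τ).flip := by
    rw [injective_iff_map_eq_zero]
    intro f hf
    by_contra hne
    obtain ⟨a, ha⟩ := hN f hne
    apply ha
    rw [← pairLin_mk, ← LinearMap.flip_apply, hf, LinearMap.zero_apply]
  have hinj : Function.Injective (pairLin L C τ) := by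
    rw [injective_iff_map_eq_zero]
    intro v hv
    obtain ⟨a, rfl⟩ := QuotientAddGroup.mk_surjective v
    obtain ⟨b, hb⟩ := hR a (fun f => by rw [← pairLin_mk, hv, LinearMap.zero_apply])
    rw [QuotientAddGroup.eq_zero_iff]
    exact ⟨b, hb.symm⟩
  haveI : Module.Finite (ZMod p) (VQuot C p) := Module.Finite.of_finite
  haveI : Finite (Module.Dual (ZMod p) (VQuot C p)) := Module.finite_of_finite (ZMod p)
  haveI hXfin : Finite (XChar L p) := Finite.of_injective (pairLin L C τ).flip hinjf
  haveI : Module.Finite (ZMod p) (XChar L p) := Module.Finite.of_finite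
  have h1 : Module.finrank (ZMod p) (XChar L p) ≤ Module.finrank (ZMod p) (VQuot C p) := by
    have := LinearMap.finrank_le_finrank_of_injective hinjf
    rwa [Subspace.dual_finrank_eq] at this
  have h2 : Module.finrank (ZMod p) (VQuot C p) ≤ Module.finrank (ZMod p) (XChar L p) := by
    have := LinearMap.finrank_le_finrank_of_injective hinj
    rwa [Subspace.dual_finrank_eq] at this
  have hdim : Module.finrank (ZMod p) (VQuot C p) = Module.finrank (ZMod p) (XChar L p) :=
    le_antisymm h2 h1
  have hcard : Nat.card (XChar L p) = Nat.card (VQuot C p) := by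
    rw [Module.natCard_eq_pow_finrank (K := ZMod p) (V := VQuot C p),
      Module.natCard_eq_pow_finrank (K := ZMod p) (V := XChar L p), hdim]
  exact ⟨⟨hXfin, hcard⟩,
    PowIndex.bijective_of_injective_flip_of_finrank_eq (pairLin L C τ) hinjf hdim,
    PowIndex.bijective_flip_of_injective_flip_of_finrank_eq (pairLin L C τ) hinjf hdim⟩

end Perfect2

section Assemble2

variable {G : Type} [Group G] (L : LevelStructure G) (C : Rep.{0} ℤ G) {p : ℕ} [NeZero p]

/-- Right-nondegeneracy in elementary form from injectivity of `pairLin`. -/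
theorem exists_nsmul_eq_of_injective_pairLin
    (τ : ↥(AddSubgroup.torsionBy (LC.H2 L C) (p : ℤ)) →+ ZMod p)
    (hB : Function.Injective (pairLin L C τ)) (a : ↥(invSub C))
    (ha : ∀ f, τ (symT L C a f) = 0) : ∃ b : ↥(invSub C), a = p • b := by
  have h0 : pairLin L C τ (QuotientAddGroup.mk a) = 0 := by
    ext f
    rw [pairLin_mk, ha, LinearMap.zero_apply]
  have h3 : (QuotientAddGroup.mk a : VQuot C p) = 0 :=
    hB (h0.trans (map_zero (pairLin L C τ)).symm)
  rw [QuotientAddGroup.eq_zero_iff] at h3
  obtain ⟨b, hb⟩ := h3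
  exact ⟨b, hb.symm⟩

variable (U : Subgroup G) [hU : U.Normal]

/-- **Existence theorem mod `p` by descent.**  `U ⊴ G` open normal of index prime to `p`.  If the
pairing for `U` is right-nondegenerate (e.g. perfect, by `perfect_of_kummer` when
`μ_p ⊆ C^U`), the invariant maps satisfy `τ' ∘ res = [G:U] • τ` and conjugation invariance on
symbols, `τ` is injective, (N) holds for `G` and `C^G / p` is finite, then the pairing for `G`
is perfect. -/
theorem perfect_of_sub (hp : p.Prime) (hUo : L.IsOpen U) (hd : Nat.Coprime U.index p)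
    (τ : ↥(AddSubgroup.torsionBy (LC.H2 L C) (p : ℤ)) →+ ZMod p) (hτ : Function.Injective τ)
    (τ' : ↥(AddSubgroup.torsionBy (LC.H2 (subLevel L U) (subRep C U)) (p : ℤ)) →+ ZMod p)
    (hres : ∀ (a : ↥(invSub C)) (f : XChar L p),
      τ' (symT (subLevel L U) (subRep C U) (resInv C U a) (resX L U f)) =
        U.index • τ (symT L C a f))
    (hconj : ∀ (t : G) (a' : ↥(invSub (subRep C U))) (f' : XChar (subLevel L U) p),
      τ' (symT (subLevel L U) (subRep C U) (conjInv C U t a') (conjX L U t f')) =
        τ' (symT (subLevel L U) (subRep C U) a' f'))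
    (hR' : ∀ a' : ↥(invSub (subRep C U)),
      (∀ f', τ' (symT (subLevel L U) (subRep C U) a' f') = 0) →
        ∃ b' : ↥(invSub (subRep C U)), a' = p • b')
    (hN : ∀ f : XChar L p, f ≠ 0 → ∃ a : ↥(invSub C), symT L C a f ≠ 0)
    (hfin : Finite (VQuot C p)) :
    (Finite (XChar L p) ∧ Nat.card (XChar L p) = Nat.card (VQuot C p)) ∧
    Function.Bijective (pairLin L C τ) ∧ Function.Bijective (pairLin L C τ).flip := by
  refine perfect_of_nondegenerate L C hp τ (fun f hf => ?_)
    (right_nondegenerate_of_sub L C U hp hUo hd τ τ' hres hconj hR') hfin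
  obtain ⟨a, ha⟩ := hN f hf
  exact ⟨a, fun h0 => ha (hτ (h0.trans (map_zero τ).symm))⟩

end Assemble2

end LCSym

end Fermat.Agent.CFT
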