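import Fermat.Agent.CFT.LC.DualityModules

/-!
# Module-level constructions for the abstract duality theorem (node A7.M), part 2: the line

`G` a group, `p` a prime, `N : Rep ℤ G` a module killed by `p`, `n : N` a fixed vector.

* (M3) `lineHom : Rep.trivial ℤ G (ZMod p) ⟶ N`, `1 ↦ n`, injective for `n ≠ 0`; the quotient
  `lineQuot`, the projection `lineProj : N ⟶ lineQuot`, exactness, finiteness, cardinality,
  smoothness;
* (M4) the split case (trivial action): a retraction of `lineHom` and a section of `lineProj`;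
* (M6) coinduced modules are killed by `p`.
-/

set_option autoImplicit false
set_option linter.unusedSectionVars false

open CategoryTheory

namespace Fermat.Agent.CFT

section ElementaryAbelian

variable {p : ℕ} [Fact p.Prime] {A B : Type*} [AddCommGroup A] [AddCommGroup B]

/-- An injective additive map between abelian groups killed by `p` has an additive retraction. -/
lemma exists_addHom_leftInverse (hA : ∀ a : A, p • a = 0) (hB : ∀ b : B, p • b = 0)
    (f : A →+ B) (hf : Function.Injective f) : ∃ g : B →+ A, ∀ a, g (f a) = a := by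
  have iA : Module (ZMod p) A := AddCommGroup.zmodModule hA
  have iB : Module (ZMod p) B := AddCommGroup.zmodModule hB
  obtain ⟨g, hg⟩ := LinearMap.exists_leftInverse_of_injective (AddMonoidHom.toZModLinearMap p f)
    (LinearMap.ker_eq_bot.2 hf)
  exact ⟨g.toAddMonoidHom, fun a => congrArg (fun φ => φ a) hg⟩

/-- A surjective additive map between abelian groups killed by `p` has an additive section. -/
lemma exists_addHom_rightInverse (hA : ∀ a : A, p • a = 0) (hB : ∀ b : B, p • b = 0)
    (f : A →+ B) (hf : Function.Surjective f) : ∃ g : B →+ A, ∀ b, f (g b) = b := by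
  have iA : Module (ZMod p) A := AddCommGroup.zmodModule hA
  have iB : Module (ZMod p) B := AddCommGroup.zmodModule hB
  obtain ⟨g, hg⟩ := LinearMap.exists_rightInverse_of_surjective (AddMonoidHom.toZModLinearMap p f)
    (LinearMap.range_eq_top.2 hf)
  exact ⟨g.toAddMonoidHom, fun b => congrArg (fun φ => φ b) hg⟩

end ElementaryAbelian

section Line

attribute [local instance 2000] Rep.hV2

variable {G : Type} [Group G] {p : ℕ} [Fact p.Prime] (N : Rep.{0} ℤ G)
  (hp : ∀ n : N, p • n = 0) (n : N) (hn : ∀ g, N.ρ g n = n)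

/-- The additive map `ZMod p →+ N`, `1 ↦ n`. -/
noncomputable def lineAddHom : ZMod p →+ N.V :=
  ZMod.lift p ⟨zmultiplesHom N.V n, by
    show ((p : ℕ) : ℤ) • n = 0
    rw [natCast_zsmul]
    exact hp n⟩

lemma lineAddHom_intCast (k : ℤ) : lineAddHom N hp n (k : ZMod p) = k • n :=
  ZMod.lift_coe p _ k

lemma lineAddHom_one : lineAddHom N hp n 1 = n := by
  have h := lineAddHom_intCast N hp n 1
  rwa [Int.cast_one, one_zsmul] at h

include hn in
lemma lineAddHom_fixed (g : G) (x : ZMod p) :
    N.ρ g (lineAddHom N hp n x) = lineAddHom N hp n x := by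
  obtain ⟨k, rfl⟩ := ZMod.intCast_surjective x
  rw [lineAddHom_intCast, map_zsmul, hn g]

/-- The `ℤ`-linear map `ZMod p → N`, `1 ↦ n`. -/
noncomputable def lineLin : ZMod p →ₗ[ℤ] N.V where
  toFun := lineAddHom N hp n
  map_add' := map_add _
  map_smul' k x := by
    have h := map_intCast_smul (lineAddHom N hp n) ℤ ℤ k x
    simpa using h

/-- (M3) The line spanned by a fixed vector `n`, as a morphism from the trivial module `ZMod p`. -/
noncomputable def lineHom : Rep.trivial ℤ G (ZMod p) ⟶ N :=
  Rep.ofHom ⟨lineLin N hp n, fun g => by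
    apply LinearMap.ext
    intro x
    exact (lineAddHom_fixed N hp n hn g x).symm⟩

lemma lineHom_hom_apply (x : ZMod p) : (lineHom N hp n hn).hom x = lineAddHom N hp n x := rfl

lemma lineHom_one : (lineHom N hp n hn).hom (1 : ZMod p) = n := lineAddHom_one N hp n

lemma lineHom_intCast (k : ℤ) : (lineHom N hp n hn).hom (k : ZMod p) = k • n :=
  lineAddHom_intCast N hp n k

lemma lineHom_injective (hn0 : n ≠ 0) : Function.Injective (lineHom N hp n hn).hom := by
  have key : ∀ x : ZMod p, lineAddHom N hp n x = 0 → x = 0 := by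
    intro x hx
    obtain ⟨k, rfl⟩ := ZMod.intCast_surjective x
    rw [lineAddHom_intCast] at hx
    have h1 := addOrderOf_dvd_iff_zsmul_eq_zero.2 hx
    rw [addOrderOf_eq_prime_of_smul_eq_zero hp hn0] at h1
    exact (ZMod.intCast_zmod_eq_zero_iff_dvd k p).2 h1
  intro x y hxy
  have h : lineAddHom N hp n (x - y) = 0 := by
    rw [map_sub]
    exact sub_eq_zero.2 hxy
  exact sub_eq_zero.1 (key _ h)

lemma range_lineHom :
    Set.range (lineHom N hp n hn).hom = (Submodule.span ℤ {n} : Set N.V) := by
  ext x
  constructor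
  · rintro ⟨y, rfl⟩
    obtain ⟨k, rfl⟩ := ZMod.intCast_surjective y
    rw [lineHom_intCast]
    exact zsmul_mem (Submodule.mem_span_singleton_self n) k
  · intro hx
    obtain ⟨k, rfl⟩ := Submodule.mem_span_singleton.1 hx
    exact ⟨(k : ZMod p), (lineHom_intCast N hp n hn k).trans (int_smul_eq_zsmul N.hV2 k n).symm⟩

include hn in
lemma lineSpan_le_comap (g : G) :
    Submodule.span ℤ {n} ≤ (Submodule.span ℤ {n}).comap (N.ρ g) := by
  rw [Submodule.span_le]
  intro x hx
  rw [Set.mem_singleton_iff.1 hx]
  show N.ρ g n ∈ Submodule.span ℤ {n}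
  rw [hn g]
  exact Submodule.mem_span_singleton_self n

/-- (M3) The quotient of `N` by the line spanned by the fixed vector `n`. -/
noncomputable def lineQuot : Rep.{0} ℤ G :=
  Rep.quotient N (Submodule.span ℤ {n}) (lineSpan_le_comap N n hn)

/-- (M3) The projection `N ⟶ N / ⟨n⟩`. -/
noncomputable def lineProj : N ⟶ lineQuot N n hn :=
  Rep.mkQ N (Submodule.span ℤ {n}) (lineSpan_le_comap N n hn)

lemma lineProj_surjective : Function.Surjective (lineProj N n hn).hom :=
  Submodule.Quotient.mk_surjective _

lemma lineProj_eq_zero_iff (x : N) :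
    (lineProj N n hn).hom x = 0 ↔ x ∈ Submodule.span ℤ {n} :=
  Submodule.Quotient.mk_eq_zero _

lemma exact_lineHom_lineProj :
    Function.Exact (lineHom N hp n hn).hom (lineProj N n hn).hom := by
  intro x
  rw [lineProj_eq_zero_iff, ← SetLike.mem_coe, ← range_lineHom N hp n hn]

instance finite_lineQuot [Finite N] : Finite (lineQuot N n hn) :=
  Finite.of_surjective _ (lineProj_surjective N n hn)

include hp in
lemma smul_lineQuot_eq_zero (q : lineQuot N n hn) : p • q = 0 := by
  obtain ⟨x, rfl⟩ := lineProj_surjective N n hn q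
  rw [← map_nsmul, hp, map_zero]

include hp in
lemma natCard_lineQuot_mul [Finite N] (hn0 : n ≠ 0) :
    Nat.card (lineQuot N n hn) * p = Nat.card N := by
  have h1 := Submodule.card_eq_card_quotient_mul_card (Submodule.span ℤ {n} : Submodule ℤ N.V)
  have h2 : Nat.card (Submodule.span ℤ {n} : Submodule ℤ N.V) = p := by
    have e : ZMod p ≃ (Submodule.span ℤ {n} : Submodule ℤ N.V) :=
      (Equiv.ofInjective _ (lineHom_injective N hp n hn hn0)).trans
        (Equiv.setCongr (range_lineHom N hp n hn))
    rw [← Nat.card_congr e, Nat.card_zmod]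
  rw [h2] at h1
  rw [h1, mul_comm]
  rfl

lemma isSmooth_lineQuot {L : LevelStructure G} (hN : IsSmooth L N) :
    IsSmooth L (lineQuot N n hn) :=
  IsSmooth.of_surjective (lineProj N n hn) (lineProj_surjective N n hn) hN

lemma lineQuot_fixed (K : Subgroup G) (hK : ∀ g ∈ K, ∀ x : N, N.ρ g x = x) :
    ∀ g ∈ K, ∀ q : lineQuot N n hn, (lineQuot N n hn).ρ g q = q := by
  intro g hg q
  obtain ⟨x, rfl⟩ := lineProj_surjective N n hn q
  rw [← Rep.hom_comm_apply, hK g hg x]

/-- An additive map between `ℤ`-modules (with arbitrary `ℤ`-module structures) as a linear map. -/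
def intLinOfAddHom {A B : Type*} [AddCommGroup A] [Module ℤ A] [AddCommGroup B] [Module ℤ B]
    (f : A →+ B) : A →ₗ[ℤ] B where
  toFun := f
  map_add' := map_add f
  map_smul' k x := by
    have h := map_intCast_smul f ℤ ℤ k x
    simpa using h

@[simp]
lemma intLinOfAddHom_apply {A B : Type*} [AddCommGroup A] [Module ℤ A] [AddCommGroup B]
    [Module ℤ B] (f : A →+ B) (x : A) : intLinOfAddHom f x = f x := rfl

/-- (M4) In the split case (trivial action) the line has a retraction. -/
theorem exists_retraction_lineHom (hn0 : n ≠ 0) (htriv : ∀ g (x : N), N.ρ g x = x) :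
    ∃ r : N ⟶ Rep.trivial ℤ G (ZMod p), lineHom N hp n hn ≫ r = 𝟙 _ := by
  obtain ⟨r₁, hr₁⟩ : ∃ r₁ : N.V →+ ZMod p, ∀ x, r₁ (lineAddHom N hp n x) = x :=
    exists_addHom_leftInverse (p := p) (fun a => by
      rw [← Nat.cast_smul_eq_nsmul (ZMod p), ZMod.natCast_self, zero_smul]) hp
      (lineAddHom N hp n) (lineHom_injective N hp n hn hn0)
  refine ⟨Rep.ofHom ⟨intLinOfAddHom r₁, fun g => ?_⟩, ?_⟩
  · apply LinearMap.ext
    intro x
    show r₁ (N.ρ g x) = r₁ x
    rw [htriv g x]
  · ext x
    exact hr₁ x

include hp in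
/-- (M4) In the split case (trivial action) the projection to the quotient by the line has a
section. -/
theorem exists_section_lineProj (htriv : ∀ g (x : N), N.ρ g x = x) :
    ∃ s : lineQuot N n hn ⟶ N, s ≫ lineProj N n hn = 𝟙 _ := by
  obtain ⟨s₁, hs₁⟩ : ∃ s₁ : (lineQuot N n hn).V →+ N.V,
      ∀ q, (lineProj N n hn).hom (s₁ q) = q :=
    exists_addHom_rightInverse (p := p) hp (smul_lineQuot_eq_zero N hp n hn)
      (AddMonoidHom.mk' (fun x => (lineProj N n hn).hom x) (fun x y => map_add _ x y))
      (lineProj_surjective N n hn)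
  refine ⟨ConcreteCategory.ofHom (C := Rep.{0} ℤ G) (X := lineQuot N n hn) (Y := N)
    ⟨intLinOfAddHom s₁, fun g => ?_⟩, ?_⟩
  · apply LinearMap.ext
    intro q
    show s₁ ((lineQuot N n hn).ρ g q) = N.ρ g (s₁ q)
    rw [htriv g, lineQuot_fixed N n hn ⊤ (fun g _ x => htriv g x) g trivial q]
  · ext q
    exact hs₁ q

end Line

section Coind

attribute [local instance 2000] Rep.hV2

variable {G : Type} [Group G] {p : ℕ}

/-- (M6) A module coinduced from a module killed by `p` is killed by `p`. -/
lemma smul_coind_eq_zero (S : Subgroup G) (Y : Rep.{0} ℤ S) (hp : ∀ y : Y, p • y = 0)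
    (f : Rep.coind S.subtype Y) : p • f = 0 := by
  apply Subtype.ext
  funext g
  show p • (f.1 g) = 0
  exact hp _

end Coind

end Fermat.Agent.CFT
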