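import Fermat.Agent.CFT.LC.Cup
import Fermat.Agent.CFT.HyperExt.Pairing

/-!
# The LC cochain complexes carry a pairing (node A7.P)

For a `G`-equivariant bilinear pairing `φ : A × B → C` of smooth modules, the cochain cup products
of `LC/Cup.lean` assemble into a `HExt.Cx.Pairing (cx hA) (cx hB) (cx hC)` of the truncated LC
complexes.
-/

set_option autoImplicit false

universe u

open CategoryTheory groupCohomology

namespace Fermat.Agent.CFT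

namespace LC

open HExt

variable {k G : Type u} [CommRing k] [Group G] {L : LevelStructure G} {A B C : Rep.{u} k G}

/-- The terms of the truncated LC complex vanish above degree `3`. -/
instance subsingleton_cxX_add_four (X : Rep.{u} k G) (n : ℕ) : Subsingleton (cxX L X (n + 4)) :=
  inferInstanceAs (Subsingleton PUnit.{u + 1})

theorem subsingleton_cxX_succ (X : Rep.{u} k G) {n : ℕ} (hn : 3 ≤ n) :
    Subsingleton (cxX L X (n + 1)) := by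
  obtain ⟨m, rfl⟩ : ∃ m, n = m + 3 := ⟨n - 3, by omega⟩
  exact subsingleton_cxX_add_four X m

/-- The cochain cup products in all bidegrees (zero when the total degree exceeds `3`). -/
noncomputable def cxCup (φ : RepPairing A B C) (hB : IsSmooth L B) :
    ∀ a b c : ℕ, a + b = c → (cxX L A a →ₗ[k] cxX L B b →ₗ[k] cxX L C c)
  | 0, 0, 0, _ => φ.toLin
  | 0, 1, 1, _ => cupC₀₁ φ
  | 1, 0, 1, _ => cupC₁₀ φ hB
  | 1, 1, 2, _ => cupC₁₁ φ hB
  | 0, 2, 2, _ => cupC₀₂ φ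
  | 2, 0, 2, _ => cupC₂₀ φ hB
  | 1, 2, 3, _ => cupC₁₂ φ hB
  | 2, 1, 3, _ => cupC₂₁ φ hB
  | 0, 3, 3, _ => cupC₀₃ φ
  | 3, 0, 3, _ => cupC₃₀ φ hB
  | _, _, _, _ => 0

section leibniz

variable (φ : RepPairing A B C) (hA : IsSmooth L A) (hB : IsSmooth L B) (hC : IsSmooth L C)

theorem leibniz₀₀ (x : A) (y : B) : dLC₀ hC (φ.toLin x y) =
    cupC₁₀ φ hB (dLC₀ hA x) y + (-1 : k) ^ 0 • cupC₀₁ φ x (dLC₀ hB y) := by
  rw [pow_zero, one_smul]
  exact dLC₀_cup₀₀ φ hA hB hC x y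

theorem leibniz₀₁ (x : A) (y : ↥(C₁ L B)) : dLC₁ hC (cupC₀₁ φ x y) =
    cupC₁₁ φ hB (dLC₀ hA x) y + (-1 : k) ^ 0 • cupC₀₂ φ x (dLC₁ hB y) := by
  rw [pow_zero, one_smul]
  exact dLC₁_cupC₀₁ φ hA hB hC x y

theorem leibniz₁₀ (x : ↥(C₁ L A)) (y : B) : dLC₁ hC (cupC₁₀ φ hB x y) =
    cupC₂₀ φ hB (dLC₁ hA x) y + (-1 : k) ^ 1 • cupC₁₁ φ hB x (dLC₀ hB y) := by
  have h : ∀ z : ↥(C₂ L C), (-1 : k) ^ 1 • z = -z := fun z => by
    rw [pow_one]
    exact neg_one_smul k z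
  rw [h, ← sub_eq_add_neg]
  exact dLC₁_cupC₁₀ φ hA hB hC x y

theorem leibniz₁₁ (x : ↥(C₁ L A)) (y : ↥(C₁ L B)) : dLC₂ hC (cupC₁₁ φ hB x y) =
    cupC₂₁ φ hB (dLC₁ hA x) y + (-1 : k) ^ 1 • cupC₁₂ φ hB x (dLC₁ hB y) := by
  have h : ∀ z : ↥(C₃ L C), (-1 : k) ^ 1 • z = -z := fun z => by
    rw [pow_one]
    exact neg_one_smul k z
  rw [h, ← sub_eq_add_neg]
  exact dLC₂_cupC₁₁ φ hA hB hC x y

theorem leibniz₀₂ (x : A) (y : ↥(C₂ L B)) : dLC₂ hC (cupC₀₂ φ x y) =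
    cupC₁₂ φ hB (dLC₀ hA x) y + (-1 : k) ^ 0 • cupC₀₃ φ x (dLC₂ hB y) := by
  rw [pow_zero, one_smul]
  exact dLC₂_cupC₀₂ φ hA hB hC x y

theorem leibniz₂₀ (x : ↥(C₂ L A)) (y : B) : dLC₂ hC (cupC₂₀ φ hB x y) =
    cupC₃₀ φ hB (dLC₂ hA x) y + (-1 : k) ^ 2 • cupC₂₁ φ hB x (dLC₀ hB y) := by
  rw [neg_one_sq, one_smul]
  exact dLC₂_cupC₂₀ φ hA hB hC x y

end leibniz

/-- **The pairing of truncated LC complexes** induced by a pairing of smooth modules. -/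
noncomputable def cxPairing (φ : RepPairing A B C) (hA : IsSmooth L A) (hB : IsSmooth L B)
    (hC : IsSmooth L C) : Cx.Pairing (cx hA) (cx hB) (cx hC) where
  cup := cxCup φ hB
  leibniz := by
    intro a b c h x y
    subst h
    by_cases hab : 3 ≤ a + b
    · have : Subsingleton ((cx hC).X (a + b + 1)) := subsingleton_cxX_succ C hab
      exact Subsingleton.elim _ _
    · match a, b, x, y, hab with
      | 0, 0, x, y, _ => exact leibniz₀₀ φ hA hB hC x y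
      | 0, 1, x, y, _ => exact leibniz₀₁ φ hA hB hC x y
      | 1, 0, x, y, _ => exact leibniz₁₀ φ hA hB hC x y
      | 1, 1, x, y, _ => exact leibniz₁₁ φ hA hB hC x y
      | 0, 2, x, y, _ => exact leibniz₀₂ φ hA hB hC x y
      | 2, 0, x, y, _ => exact leibniz₂₀ φ hA hB hC x y
      | 0, b + 3, _, _, h => exact absurd (by omega) h
      | 1, b + 2, _, _, h => exact absurd (by omega) h
      | 2, b + 1, _, _, h => exact absurd (by omega) h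
      | a + 3, b, _, _, h => exact absurd (by omega) h

section components

variable (φ : RepPairing A B C) (hA : IsSmooth L A) (hB : IsSmooth L B) (hC : IsSmooth L C)

@[simp] theorem cxPairing_cup₀₀ (x : A) (y : B) :
    (cxPairing φ hA hB hC).cup 0 0 0 rfl x y = φ.toLin x y := rfl

@[simp] theorem cxPairing_cup₀₁ (x : A) (y : ↥(C₁ L B)) :
    (cxPairing φ hA hB hC).cup 0 1 1 rfl x y = cupC₀₁ φ x y := rfl

@[simp] theorem cxPairing_cup₁₀ (x : ↥(C₁ L A)) (y : B) :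
    (cxPairing φ hA hB hC).cup 1 0 1 rfl x y = cupC₁₀ φ hB x y := rfl

@[simp] theorem cxPairing_cup₁₁ (x : ↥(C₁ L A)) (y : ↥(C₁ L B)) :
    (cxPairing φ hA hB hC).cup 1 1 2 rfl x y = cupC₁₁ φ hB x y := rfl

@[simp] theorem cxPairing_cup₀₂ (x : A) (y : ↥(C₂ L B)) :
    (cxPairing φ hA hB hC).cup 0 2 2 rfl x y = cupC₀₂ φ x y := rfl

@[simp] theorem cxPairing_cup₂₀ (x : ↥(C₂ L A)) (y : B) :
    (cxPairing φ hA hB hC).cup 2 0 2 rfl x y = cupC₂₀ φ hB x y := rfl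

@[simp] theorem cxPairing_cup₁₂ (x : ↥(C₁ L A)) (y : ↥(C₂ L B)) :
    (cxPairing φ hA hB hC).cup 1 2 3 rfl x y = cupC₁₂ φ hB x y := rfl

@[simp] theorem cxPairing_cup₂₁ (x : ↥(C₂ L A)) (y : ↥(C₁ L B)) :
    (cxPairing φ hA hB hC).cup 2 1 3 rfl x y = cupC₂₁ φ hB x y := rfl

@[simp] theorem cxPairing_cup₀₃ (x : A) (y : ↥(C₃ L B)) :
    (cxPairing φ hA hB hC).cup 0 3 3 rfl x y = cupC₀₃ φ x y := rfl

@[simp] theorem cxPairing_cup₃₀ (x : ↥(C₃ L A)) (y : B) :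
    (cxPairing φ hA hB hC).cup 3 0 3 rfl x y = cupC₃₀ φ hB x y := rfl

end components

theorem subsingleton_cxX_of_le (X : Rep.{u} k G) {n : ℕ} (hn : 4 ≤ n) :
    Subsingleton (cxX L X n) := by
  obtain ⟨m, rfl⟩ : ∃ m, n = m + 4 := ⟨n - 4, by omega⟩
  exact subsingleton_cxX_add_four X m

section adjoint

variable {A' B' : Rep.{u} k G} (ψ : RepPairing A B C) (χ : RepPairing A' B' C)
  (u : A' ⟶ A) (v : B ⟶ B')
  (hA : IsSmooth L A) (hB : IsSmooth L B) (hC : IsSmooth L C)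
  (hA' : IsSmooth L A') (hB' : IsSmooth L B')

variable (hadj : ∀ (a' : A') (b : B), ψ.toLin (u.hom a') b = χ.toLin a' (v.hom b))

include hadj

theorem adjoint₀₁ (x : A') (y : ↥(C₁ L B)) :
    cupC₀₁ ψ (u.hom x) y = cupC₀₁ χ x (mapC₁ v y) :=
  Subtype.ext (funext fun _ => hadj x _)

theorem adjoint₁₀ (x : ↥(C₁ L A')) (y : B) :
    cupC₁₀ ψ hB (mapC₁ u x) y = cupC₁₀ χ hB' x (v.hom y) := by
  refine Subtype.ext (funext fun g => ?_)
  change ψ.toLin (u.hom (x.1 g)) (B.ρ g y) = χ.toLin (x.1 g) (B'.ρ g (v.hom y))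
  rw [hadj, Rep.hom_comm_apply]

theorem adjoint₁₁ (x : ↥(C₁ L A')) (y : ↥(C₁ L B)) :
    cupC₁₁ ψ hB (mapC₁ u x) y = cupC₁₁ χ hB' x (mapC₁ v y) := by
  refine Subtype.ext (funext fun p => ?_)
  change ψ.toLin (u.hom (x.1 p.1)) (B.ρ p.1 (y.1 p.2)) =
    χ.toLin (x.1 p.1) (B'.ρ p.1 (v.hom (y.1 p.2)))
  rw [hadj, Rep.hom_comm_apply]

theorem adjoint₀₂ (x : A') (y : ↥(C₂ L B)) :
    cupC₀₂ ψ (u.hom x) y = cupC₀₂ χ x (mapC₂ v y) :=
  Subtype.ext (funext fun _ => hadj x _)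

theorem adjoint₂₀ (x : ↥(C₂ L A')) (y : B) :
    cupC₂₀ ψ hB (mapC₂ u x) y = cupC₂₀ χ hB' x (v.hom y) := by
  refine Subtype.ext (funext fun p => ?_)
  change ψ.toLin (u.hom (x.1 p)) (B.ρ (p.1 * p.2) y) =
    χ.toLin (x.1 p) (B'.ρ (p.1 * p.2) (v.hom y))
  rw [hadj, Rep.hom_comm_apply]

theorem adjoint₁₂ (x : ↥(C₁ L A')) (y : ↥(C₂ L B)) :
    cupC₁₂ ψ hB (mapC₁ u x) y = cupC₁₂ χ hB' x (mapC₂ v y) := by
  refine Subtype.ext (funext fun p => ?_)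
  change ψ.toLin (u.hom (x.1 p.1)) (B.ρ p.1 (y.1 (p.2.1, p.2.2))) =
    χ.toLin (x.1 p.1) (B'.ρ p.1 (v.hom (y.1 (p.2.1, p.2.2))))
  rw [hadj, Rep.hom_comm_apply]

theorem adjoint₂₁ (x : ↥(C₂ L A')) (y : ↥(C₁ L B)) :
    cupC₂₁ ψ hB (mapC₂ u x) y = cupC₂₁ χ hB' x (mapC₁ v y) := by
  refine Subtype.ext (funext fun p => ?_)
  change ψ.toLin (u.hom (x.1 (p.1, p.2.1))) (B.ρ (p.1 * p.2.1) (y.1 p.2.2)) =
    χ.toLin (x.1 (p.1, p.2.1)) (B'.ρ (p.1 * p.2.1) (v.hom (y.1 p.2.2)))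
  rw [hadj, Rep.hom_comm_apply]

theorem adjoint₀₃ (x : A') (y : ↥(C₃ L B)) :
    cupC₀₃ ψ (u.hom x) y = cupC₀₃ χ x (mapC₃ v y) :=
  Subtype.ext (funext fun _ => hadj x _)

theorem adjoint₃₀ (x : ↥(C₃ L A')) (y : B) :
    cupC₃₀ ψ hB (mapC₃ u x) y = cupC₃₀ χ hB' x (v.hom y) := by
  refine Subtype.ext (funext fun p => ?_)
  change ψ.toLin (u.hom (x.1 p)) (B.ρ (p.1 * p.2.1 * p.2.2) y) =
    χ.toLin (x.1 p) (B'.ρ (p.1 * p.2.1 * p.2.2) (v.hom y))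
  rw [hadj, Rep.hom_comm_apply]

/-- **Cochain-level adjointness**: if `ψ(u a', b) = χ(a', v b)` then
`(u_* x) ∪_ψ y = x ∪_χ (v_* y)` for LC cochains in all bidegrees. -/
theorem cxPairing_adjoint (a b c : ℕ) (h : a + b = c) (x : (cx hA').X a) (y : (cx hB).X b) :
    (cxPairing ψ hA hB hC).cup a b c h ((cxMap hA' hA u).f a x) y =
      (cxPairing χ hA' hB' hC).cup a b c h x ((cxMap hB hB' v).f b y) := by
  subst h
  by_cases hab : 4 ≤ a + b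
  · have : Subsingleton ((cx hC).X (a + b)) := subsingleton_cxX_of_le C hab
    exact Subsingleton.elim _ _
  · match a, b, x, y, hab with
    | 0, 0, x, y, _ => exact hadj x y
    | 0, 1, x, y, _ => exact adjoint₀₁ ψ χ u v hadj x y
    | 1, 0, x, y, _ => exact adjoint₁₀ ψ χ u v hB hB' hadj x y
    | 1, 1, x, y, _ => exact adjoint₁₁ ψ χ u v hB hB' hadj x y
    | 0, 2, x, y, _ => exact adjoint₀₂ ψ χ u v hadj x y
    | 2, 0, x, y, _ => exact adjoint₂₀ ψ χ u v hB hB' hadj x y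
    | 1, 2, x, y, _ => exact adjoint₁₂ ψ χ u v hB hB' hadj x y
    | 2, 1, x, y, _ => exact adjoint₂₁ ψ χ u v hB hB' hadj x y
    | 0, 3, x, y, _ => exact adjoint₀₃ ψ χ u v hadj x y
    | 3, 0, x, y, _ => exact adjoint₃₀ ψ χ u v hB hB' hadj x y
    | 0, b + 4, _, _, h => exact absurd (by omega) h
    | 1, b + 3, _, _, h => exact absurd (by omega) h
    | 2, b + 2, _, _, h => exact absurd (by omega) h
    | 3, b + 1, _, _, h => exact absurd (by omega) h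
    | a + 4, b, _, _, h => exact absurd (by omega) h

end adjoint

end LC

end Fermat.Agent.CFT
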