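import Fermat.Agent.CFT.LC.ZResCoind

/-!
# Transfer of perfectness of the duality maps along Shapiro's isomorphisms (S55, node N4d)

For an open subgroup `S` of `(G, L)`, invariant maps `invG : H²(G, C)[p] → ℤ/p` and
`invS : H²(S, C)[p] → ℤ/p` with `invG ∘ cor = invS`, and a resolution `R` of an `S`-module `Y`
killed by `p`: the duality maps of `coind Y` (computed from `coindRes hS R`, or from the canonical
resolution `zResR (coind Y)`) correspond to those of `Y` under Shapiro's isomorphisms; in
particular one is perfect iff the other is.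
-/

set_option autoImplicit false

universe u

open CategoryTheory

namespace Fermat.Agent.CFT

namespace LC

open HExt

variable {k G : Type u} [CommRing k] [Group G] {L : LevelStructure G} {S : Subgroup G}

lemma nsmul_coind_eq_zero {Y : Rep.{u} k S} (p : ℕ) (hpY : ∀ y : Y, p • y = 0)
    (φ : Rep.coind S.subtype Y) : p • φ = 0 :=
  Subtype.ext (funext fun g => hpY (φ.1 g))

/-- If `f = Φ ∘ g ∘ σ` with `Φ`, `σ` bijective then `f` is bijective iff `g` is. -/
lemma bijective_iff_of_conj {α β γ δ : Type*} (f : α → δ) (g : β → γ) (σ : α → β) (Φ : γ → δ)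
    (hσ : Function.Bijective σ) (hΦ : Function.Bijective Φ) (h : ∀ a, f a = Φ (g (σ a))) :
    Function.Bijective f ↔ Function.Bijective g := by
  have hf : f = Φ ∘ (g ∘ σ) := funext h
  rw [hf, Function.Bijective.of_comp_iff' hΦ, Function.Bijective.of_comp_iff _ hσ]

/-- Precomposition with a bijective additive map is bijective on `Hom(-, Z)`. -/
lemma bijective_addMonoidHom_precomp {A B Z : Type*} [AddCommGroup A] [AddCommGroup B]
    [AddCommGroup Z] (f : A →+ B) (hf : Function.Bijective f) :
    Function.Bijective (fun ψ : B →+ Z => ψ.comp f) := by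
  let e : A ≃+ B := AddEquiv.ofBijective f hf
  constructor
  · intro ψ ψ' h
    ext b
    obtain ⟨a, rfl⟩ := hf.2 b
    exact DFunLike.congr_fun h a
  · intro χ
    refine ⟨χ.comp e.symm.toAddMonoidHom, ?_⟩
    ext a
    change χ (e.symm (e a)) = χ a
    rw [AddEquiv.symm_apply_apply]

section Transfer

variable (hS : L.IsOpen S) [S.FiniteIndex] {Y : Rep.{u} k S}
  (R : LatticeRes (L.comap S.subtype) Y) {C : Rep.{u} k G} (hC : IsSmooth L C) (p : ℕ)
  (hpY : ∀ y : Y, p • y = 0)
  (invG : LC.Hp p hC 2 →+ ZMod p) (invS : LC.Hp p (isSmooth_res (S := S) hC) 2 →+ ZMod p)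
  (hinv : ∀ (x : (cx (isSmooth_res (S := S) hC)).H 2) (hx : x ∈ LC.Hp p (isSmooth_res hC) 2)
    (hx' : corH₂ hS hC x ∈ LC.Hp p hC 2), invG ⟨corH₂ hS hC x, hx'⟩ = invS ⟨x, hx⟩)

include hinv in
/-- The duality map of `coind Y` corresponds to that of `Y` under Shapiro's maps. -/
theorem dual_coindRes (n s : ℕ) (hm : n + s = 1) (e : (coindRes hS R).Ext hC (n + 1))
    (c : (cx (coindRes hS R).smooth).H s) :
    (coindRes hS R).dual p hC (nsmul_coind_eq_zero p hpY) invG n s hm e c =
      R.dual p (isSmooth_res hC) hpY invS n s hm (shExtMap hS R.toLatticePair hC (n + 1) e)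
        ((cxSh hS R.smooth).mapH s c) := by
  rw [LatticeRes.dual_apply, LatticeRes.dual_apply]
  have h1 := pair_coindRes hS R hC n s hm e c
  have h2 := hinv _ (R.pair_mem_Hp p (isSmooth_res hC) hpY n s 1 hm
    (shExtMap hS R.toLatticePair hC (n + 1) e) ((cxSh hS R.smooth).mapH s c))
    (h1 ▸ (coindRes hS R).pair_mem_Hp p hC (nsmul_coind_eq_zero p hpY) n s 1 hm e c)
  refine Eq.trans (congrArg invG (Subtype.ext ?_)) h2
  exact h1

omit [S.FiniteIndex] in
lemma cxSh_mapH_bijective_of_le {Y' : Rep.{u} k S} (hY' : IsSmooth (L.comap S.subtype) Y')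
    (s : ℕ) (hs : s ≤ 2) : Function.Bijective ((cxSh hS hY').mapH s) := by
  match s, hs with
  | 0, _ => exact cxSh_mapH_zero_bijective hS hY'
  | 1, _ => exact cxSh_mapH_one_bijective hS hY'
  | 2, _ => exact cxSh_mapH_two_bijective hS hY'

include hinv in
/-- The duality map of `coind Y` is bijective iff that of `Y` is. -/
theorem dual_coindRes_bijective_iff (n s : ℕ) (hm : n + s = 1) :
    Function.Bijective ((coindRes hS R).dual p hC (nsmul_coind_eq_zero p hpY) invG n s hm) ↔
      Function.Bijective (R.dual p (isSmooth_res hC) hpY invS n s hm) := by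
  refine bijective_iff_of_conj _ _ (shExtMap hS R.toLatticePair hC (n + 1))
    (fun ψ : (cx R.smooth).H s →+ ZMod p =>
      ψ.comp ((cxSh hS R.smooth).mapH s).toAddMonoidHom)
    (shExtMap_bijective hS R.toLatticePair hC (n + 1) (by omega))
    (bijective_addMonoidHom_precomp _ (cxSh_mapH_bijective_of_le hS R.smooth s (by omega)))
    (fun e => ?_)
  ext c
  exact dual_coindRes hS R hC p hpY invG invS hinv n s hm e c

include hinv in
/-- **Perfectness transfers along coinduction** (for a coinduced resolution). -/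
theorem isPerfect_coindRes_iff :
    (coindRes hS R).IsPerfect p hC (nsmul_coind_eq_zero p hpY) invG ↔
      R.IsPerfect p (isSmooth_res hC) hpY invS :=
  and_congr (dual_coindRes_bijective_iff hS R hC p hpY invG invS hinv 0 1 rfl)
    (dual_coindRes_bijective_iff hS R hC p hpY invG invS hinv 1 0 rfl)

end Transfer

section TransferZ

variable [IsNoetherianRing k] (hS : L.IsOpen S) [S.FiniteIndex] (Y : Rep.{u} k S) [Finite Y]
  (hY : IsSmooth (L.comap S.subtype) Y) {C : Rep.{u} k G} (hC : IsSmooth L C) (p : ℕ)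
  (hpY : ∀ y : Y, p • y = 0) (invG : LC.Hp p hC 2 →+ ZMod p)

/-- The duality maps computed from `zResR (coind Y)` and from `coindRes hS (zResR Y)` agree
under the comparison `zResCoind`. -/
theorem dual_zResCoind (n s : ℕ) (hm : n + s = 1)
    (e' : (coindRes hS (zResR Y hY)).Ext hC (n + 1))
    (c : (cx (isSmooth_coind hS hY)).H s) :
    (zResR (Rep.coind S.subtype Y) (isSmooth_coind hS hY)).dual p hC
        (nsmul_coind_eq_zero p hpY) invG n s hm
        (LatticePair.Ext.map hC (zResCoind hS Y hY) (n + 1) e') c =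
      (coindRes hS (zResR Y hY)).dual p hC (nsmul_coind_eq_zero p hpY) invG n s hm e' c := by
  exact congrArg invG (Subtype.ext (pair_zResCoind hS Y hY hC n s 1 hm e' c))

theorem dual_zResR_coind_bijective_iff (n s : ℕ) (hm : n + s = 1) :
    Function.Bijective ((zResR (Rep.coind S.subtype Y) (isSmooth_coind hS hY)).dual p hC
        (nsmul_coind_eq_zero p hpY) invG n s hm) ↔
      Function.Bijective
        ((coindRes hS (zResR Y hY)).dual p hC (nsmul_coind_eq_zero p hpY) invG n s hm) := by
  refine (bijective_iff_of_conj _ _ (LatticePair.Ext.map hC (zResCoind hS Y hY) (n + 1)) id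
    (zResCoind_map_bijective hS Y hY hC (n + 1)) Function.bijective_id (fun e' => ?_)).symm
  ext c
  exact (dual_zResCoind hS Y hY hC p hpY invG n s hm e' c).symm

variable (invS : LC.Hp p (isSmooth_res (S := S) hC) 2 →+ ZMod p)
  (hinv : ∀ (x : (cx (isSmooth_res (S := S) hC)).H 2) (hx : x ∈ LC.Hp p (isSmooth_res hC) 2)
    (hx' : corH₂ hS hC x ∈ LC.Hp p hC 2), invG ⟨corH₂ hS hC x, hx'⟩ = invS ⟨x, hx⟩)

include hinv in
/-- **Perfectness transfers along coinduction** (canonical resolutions): the duality maps of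
`coind Y` over `G` are bijective iff those of `Y` over `S` are. -/
theorem isPerfect_zResR_coind_iff :
    (zResR (Rep.coind S.subtype Y) (isSmooth_coind hS hY)).IsPerfect p hC
        (nsmul_coind_eq_zero p hpY) invG ↔
      (zResR Y hY).IsPerfect p (isSmooth_res hC) hpY invS :=
  (and_congr (dual_zResR_coind_bijective_iff hS Y hY hC p hpY invG 0 1 rfl)
    (dual_zResR_coind_bijective_iff hS Y hY hC p hpY invG 1 0 rfl)).trans
    (isPerfect_coindRes_iff hS (zResR Y hY) hC p hpY invG invS hinv)

end TransferZ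

end LC

end Fermat.Agent.CFT
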