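import Fermat.Agent.CFT.HyperExt.LCHom

/-!
# Module-level constructions for the abstract duality theorem (node A7.M)

`G` a group, `p` a prime, `N : Rep ℤ G` a finite module killed by `p`.

* (M1) `exists_fixed_ne_zero_of_isPGroup_quotient`, `exists_fixed_ne_zero_of_pow_mem`: if `G` acts on `N ≠ 0` through a `p`-group, there is a non-zero
  fixed vector;
* (M2) `exists_open_sylow`: for a smooth `N` there are a level `K` fixing `N` pointwise and an
  open subgroup `V ⊇ K` of index prime to `p` acting on `N` through the `p`-group `V / K`;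
* (M3) the line: `lineHom`, the quotient `lineQuot`, `lineProj` and their properties;
* (M4) the split case (trivial action);
* (M5) integers prime to `p` act invertibly;
* (M6) coinduced modules are killed by `p`.
-/

set_option autoImplicit false
set_option linter.unusedSectionVars false

open CategoryTheory

namespace Fermat.Agent.CFT

section PGroupAction

/-- If every element of `G` has a `p`-power acting trivially on the finite set `α`, `p` divides
the cardinality of `α` and `a` is a fixed point, then there is another fixed point. -/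
lemma exists_fixed_ne_of_pow_smul_eq {G α : Type*} [Group G] [MulAction G α] [Finite α] (p : ℕ)
    [Fact p.Prime] (h : ∀ g : G, ∃ n : ℕ, ∀ a : α, (g ^ p ^ n) • a = a) (hp : p ∣ Nat.card α)
    {a : α} (ha : ∀ g : G, g • a = a) : ∃ b : α, b ≠ a ∧ ∀ g : G, g • b = b := by
  have hQ : IsPGroup p (MulAction.toPermHom G α).range := by
    rintro ⟨_, g, rfl⟩
    obtain ⟨n, hn⟩ := h g
    refine ⟨n, Subtype.ext ?_⟩
    rw [Subgroup.coe_pow, Subgroup.coe_one, ← map_pow]
    ext x
    exact hn x
  have ha' : a ∈ MulAction.fixedPoints (MulAction.toPermHom G α).range α := by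
    rintro ⟨_, g, rfl⟩
    exact ha g
  obtain ⟨b, hb, hab⟩ := hQ.exists_fixed_point_of_prime_dvd_card_of_fixed_point α hp ha'
  exact ⟨b, fun h => hab h.symm, fun g => hb ⟨_, g, rfl⟩⟩

end PGroupAction

section Modules

variable {G : Type} [Group G] {p : ℕ} [Fact p.Prime] (N : Rep.{0} ℤ G)

/-- A non-zero element of a module killed by `p` has additive order `p`. -/
lemma addOrderOf_eq_prime_of_smul_eq_zero {M : Type*} [AddCommGroup M] (hp : ∀ n : M, p • n = 0)
    {n : M} (hn : n ≠ 0) : addOrderOf n = p := by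
  have h1 : addOrderOf n ∣ p := addOrderOf_dvd_of_nsmul_eq_zero (hp n)
  rcases (Nat.dvd_prime Fact.out).1 h1 with h | h
  · exact absurd (AddMonoid.addOrderOf_eq_one_iff.1 h) hn
  · exact h

/-- `p` divides the cardinality of a nontrivial finite module killed by `p`. -/
lemma prime_dvd_natCard_of_smul_eq_zero {M : Type*} [AddCommGroup M] [Finite M] [Nontrivial M]
    (hp : ∀ n : M, p • n = 0) : p ∣ Nat.card M := by
  obtain ⟨n, hn⟩ := exists_ne (0 : M)
  rw [← addOrderOf_eq_prime_of_smul_eq_zero hp hn]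
  exact addOrderOf_dvd_natCard n

/-- (M1), elementwise form: if every element of `G` has a `p`-power in a subgroup `K` acting
trivially on the nontrivial finite module `N` killed by `p`, then `N` has a non-zero fixed
vector. -/
theorem exists_fixed_ne_zero_of_pow_mem [Finite N] [Nontrivial N] (hp : ∀ n : N, p • n = 0)
    (K : Subgroup G) (hK : ∀ g ∈ K, ∀ n : N, N.ρ g n = n) (hG : ∀ g : G, ∃ n : ℕ, g ^ p ^ n ∈ K) :
    ∃ n : N, n ≠ 0 ∧ ∀ g, N.ρ g n = n := by
  let _ : MulAction G N.V :=
    { smul := fun g x => N.ρ g x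
      one_smul := fun x => by
        show N.ρ 1 x = x
        simp
      mul_smul := fun g h x => by
        show N.ρ (g * h) x = N.ρ g (N.ρ h x)
        simp }
  have hsmul : ∀ (g : G) (x : N.V), g • x = N.ρ g x := fun _ _ => rfl
  have h : ∀ g : G, ∃ n : ℕ, ∀ a : N.V, (g ^ p ^ n) • a = a := by
    intro g
    obtain ⟨n, hn⟩ := hG g
    exact ⟨n, fun a => hK _ hn a⟩
  obtain ⟨b, hb0, hb⟩ := exists_fixed_ne_of_pow_smul_eq (G := G) (α := N.V) p h
    (prime_dvd_natCard_of_smul_eq_zero (M := N.V) hp) (a := 0) (fun g => by rw [hsmul, map_zero])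
  exact ⟨b, hb0, hb⟩

/-- (M1): if `G` acts on the nontrivial finite module `N` (killed by `p`) through the `p`-group
`G ⧸ K`, then `N` has a non-zero fixed vector. -/
theorem exists_fixed_ne_zero_of_isPGroup_quotient [Finite N] [Nontrivial N] (hp : ∀ n : N, p • n = 0)
    (K : Subgroup G) [K.Normal] (hK : ∀ g ∈ K, ∀ n : N, N.ρ g n = n) (hG : IsPGroup p (G ⧸ K)) :
    ∃ n : N, n ≠ 0 ∧ ∀ g, N.ρ g n = n := by
  refine exists_fixed_ne_zero_of_pow_mem N hp K hK fun g => ?_
  obtain ⟨n, hn⟩ := hG (g : G ⧸ K)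
  refine ⟨n, ?_⟩
  rw [← QuotientGroup.eq_one_iff, QuotientGroup.mk_pow]
  exact hn

/-- (M5): an integer prime to `p` acts invertibly on a module killed by `p`. -/
lemma exists_int_mul_smul_eq {M : Type*} [AddCommGroup M] (hp : ∀ n : M, p • n = 0) (m : ℕ)
    (hm : Nat.Coprime p m) : ∃ m' : ℤ, ∀ n : M, (m' * (m : ℤ)) • n = n := by
  refine ⟨Nat.gcdB p m, fun n => ?_⟩
  have h := Nat.gcd_eq_gcd_ab p m
  rw [hm, Nat.cast_one] at h
  have h2 : (Nat.gcdB p m * (m : ℤ)) = 1 - (p : ℤ) * Nat.gcdA p m := by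
    rw [h]
    ring
  rw [h2, sub_smul, one_smul, mul_comm, mul_smul, natCast_zsmul, hp, smul_zero, sub_zero]

/-- (M5) for the index of a subgroup. -/
lemma exists_int_mul_index_smul_eq [Finite N] (hp : ∀ n : N, p • n = 0) (V : Subgroup G)
    (hV : Nat.Coprime p V.index) : ∃ m' : ℤ, ∀ n : N, (m' * (V.index : ℤ)) • n = n :=
  exists_int_mul_smul_eq hp V.index hV

/-- (M2): for a finite smooth module `N` there are a level `K` fixing `N` pointwise and a
subgroup `V ⊇ K` of index prime to `p` such that every element of `V` has a `p`-power in `K`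
(`V` is the preimage of a Sylow `p`-subgroup of the finite group `G ⧸ K`). -/
theorem exists_open_sylow_pow_mem [Finite N] (L : LevelStructure G) (hN : IsSmooth L N) :
    ∃ (V : Subgroup G) (K : Subgroup G), L.IsLevel K ∧ K ≤ V ∧
      (∀ g ∈ K, ∀ n : N, N.ρ g n = n) ∧ Nat.Coprime p V.index ∧
      ∀ g ∈ V, ∃ n : ℕ, g ^ p ^ n ∈ K := by
  obtain ⟨K, hK, hfix⟩ := hN.exists_level_of_finite (s := Set.univ) Set.finite_univ
  have := L.normal hK
  have := L.finiteIndex hK
  have : Finite (G ⧸ K) := Subgroup.finite_quotient_of_finiteIndex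
  obtain ⟨P⟩ := (inferInstance : Nonempty (Sylow p (G ⧸ K)))
  refine ⟨(P : Subgroup (G ⧸ K)).comap (QuotientGroup.mk' K), K, hK, ?_,
    fun g hg n => hfix n (Set.mem_univ n) g hg, ?_, ?_⟩
  · intro g hg
    rw [Subgroup.mem_comap, QuotientGroup.mk'_apply, (QuotientGroup.eq_one_iff g).2 hg]
    exact Subgroup.one_mem _
  · rw [Subgroup.index_comap_of_surjective _ (QuotientGroup.mk'_surjective K)]
    exact (Nat.Prime.coprime_iff_not_dvd Fact.out).2 P.not_dvd_index
  · intro g hg
    obtain ⟨n, hn⟩ := P.isPGroup' ⟨QuotientGroup.mk' K g, hg⟩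
    refine ⟨n, ?_⟩
    have h1 : (QuotientGroup.mk' K g) ^ p ^ n = 1 := by
      have := congrArg Subtype.val hn
      simpa using this
    rw [← QuotientGroup.eq_one_iff, QuotientGroup.mk_pow]
    exact h1

/-- The quotient form of the `p`-group condition in (M2). -/
lemma isPGroup_quotient_subgroupOf (V K : Subgroup G) [K.Normal]
    (h : ∀ g ∈ V, ∃ n : ℕ, g ^ p ^ n ∈ K) : IsPGroup p (↥V ⧸ K.subgroupOf V) := by
  intro x
  obtain ⟨g, rfl⟩ := QuotientGroup.mk_surjective x
  obtain ⟨n, hn⟩ := h g g.2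
  refine ⟨n, ?_⟩
  rw [← QuotientGroup.mk_pow, QuotientGroup.eq_one_iff]
  exact hn

end Modules

end Fermat.Agent.CFT
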