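import Fermat.Agent.CFT.LC.ShapiroPerfect

/-!
# One-sided transfer of the duality maps along Shapiro's isomorphisms (S55, node N4d')

Injective-only and surjective-only versions of `LC/ShapiroPerfect.lean`.
-/

set_option autoImplicit false

universe u

open CategoryTheory

namespace Fermat.Agent.CFT

namespace LC

open HExt

variable {k G : Type u} [CommRing k] [Group G] {L : LevelStructure G} {S : Subgroup G}

lemma injective_iff_of_conj {α β γ δ : Type*} (f : α → δ) (g : β → γ) (σ : α → β) (Φ : γ → δ)
    (hσ : Function.Bijective σ) (hΦ : Function.Bijective Φ) (h : ∀ a, f a = Φ (g (σ a))) :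
    Function.Injective f ↔ Function.Injective g := by
  have hf : f = Φ ∘ (g ∘ σ) := funext h
  rw [hf, Function.Injective.of_comp_iff hΦ.1, Function.Injective.of_comp_iff' _ hσ]

lemma surjective_iff_of_conj {α β γ δ : Type*} (f : α → δ) (g : β → γ) (σ : α → β) (Φ : γ → δ)
    (hσ : Function.Bijective σ) (hΦ : Function.Bijective Φ) (h : ∀ a, f a = Φ (g (σ a))) :
    Function.Surjective f ↔ Function.Surjective g := by
  have hf : f = Φ ∘ (g ∘ σ) := funext h
  rw [hf, Function.Surjective.of_comp_iff' hΦ, Function.Surjective.of_comp_iff _ hσ.2]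

section Transfer

variable (hS : L.IsOpen S) [S.FiniteIndex] {Y : Rep.{u} k S}
  (R : LatticeRes (L.comap S.subtype) Y) {C : Rep.{u} k G} (hC : IsSmooth L C) (p : ℕ)
  (hpY : ∀ y : Y, p • y = 0)
  (invG : LC.Hp p hC 2 →+ ZMod p) (invS : LC.Hp p (isSmooth_res (S := S) hC) 2 →+ ZMod p)
  (hinv : ∀ (x : (cx (isSmooth_res (S := S) hC)).H 2) (hx : x ∈ LC.Hp p (isSmooth_res hC) 2)
    (hx' : corH₂ hS hC x ∈ LC.Hp p hC 2), invG ⟨corH₂ hS hC x, hx'⟩ = invS ⟨x, hx⟩)

include hinv in
theorem dual_coindRes_injective_iff (n s : ℕ) (hm : n + s = 1) :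
    Function.Injective ((coindRes hS R).dual p hC (nsmul_coind_eq_zero p hpY) invG n s hm) ↔
      Function.Injective (R.dual p (isSmooth_res hC) hpY invS n s hm) := by
  refine injective_iff_of_conj _ _ (shExtMap hS R.toLatticePair hC (n + 1))
    (fun ψ : (cx R.smooth).H s →+ ZMod p =>
      ψ.comp ((cxSh hS R.smooth).mapH s).toAddMonoidHom)
    (shExtMap_bijective hS R.toLatticePair hC (n + 1) (by omega))
    (bijective_addMonoidHom_precomp _ (cxSh_mapH_bijective_of_le hS R.smooth s (by omega)))
    (fun e => ?_)
  ext c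
  exact dual_coindRes hS R hC p hpY invG invS hinv n s hm e c

include hinv in
theorem dual_coindRes_surjective_iff (n s : ℕ) (hm : n + s = 1) :
    Function.Surjective ((coindRes hS R).dual p hC (nsmul_coind_eq_zero p hpY) invG n s hm) ↔
      Function.Surjective (R.dual p (isSmooth_res hC) hpY invS n s hm) := by
  refine surjective_iff_of_conj _ _ (shExtMap hS R.toLatticePair hC (n + 1))
    (fun ψ : (cx R.smooth).H s →+ ZMod p =>
      ψ.comp ((cxSh hS R.smooth).mapH s).toAddMonoidHom)
    (shExtMap_bijective hS R.toLatticePair hC (n + 1) (by omega))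
    (bijective_addMonoidHom_precomp _ (cxSh_mapH_bijective_of_le hS R.smooth s (by omega)))
    (fun e => ?_)
  ext c
  exact dual_coindRes hS R hC p hpY invG invS hinv n s hm e c

end Transfer

section TransferZ

variable [IsNoetherianRing k] (hS : L.IsOpen S) [S.FiniteIndex] (Y : Rep.{u} k S) [Finite Y]
  (hY : IsSmooth (L.comap S.subtype) Y) {C : Rep.{u} k G} (hC : IsSmooth L C) (p : ℕ)
  (hpY : ∀ y : Y, p • y = 0) (invG : LC.Hp p hC 2 →+ ZMod p)

theorem dual_zResR_coind_injective_iff' (n s : ℕ) (hm : n + s = 1) :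
    Function.Injective ((zResR (Rep.coind S.subtype Y) (isSmooth_coind hS hY)).dual p hC
        (nsmul_coind_eq_zero p hpY) invG n s hm) ↔
      Function.Injective
        ((coindRes hS (zResR Y hY)).dual p hC (nsmul_coind_eq_zero p hpY) invG n s hm) := by
  refine (injective_iff_of_conj _ _ (LatticePair.Ext.map hC (zResCoind hS Y hY) (n + 1)) id
    (zResCoind_map_bijective hS Y hY hC (n + 1)) Function.bijective_id (fun e' => ?_)).symm
  ext c
  exact (dual_zResCoind hS Y hY hC p hpY invG n s hm e' c).symm

theorem dual_zResR_coind_surjective_iff' (n s : ℕ) (hm : n + s = 1) :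
    Function.Surjective ((zResR (Rep.coind S.subtype Y) (isSmooth_coind hS hY)).dual p hC
        (nsmul_coind_eq_zero p hpY) invG n s hm) ↔
      Function.Surjective
        ((coindRes hS (zResR Y hY)).dual p hC (nsmul_coind_eq_zero p hpY) invG n s hm) := by
  refine (surjective_iff_of_conj _ _ (LatticePair.Ext.map hC (zResCoind hS Y hY) (n + 1)) id
    (zResCoind_map_bijective hS Y hY hC (n + 1)) Function.bijective_id (fun e' => ?_)).symm
  ext c
  exact (dual_zResCoind hS Y hY hC p hpY invG n s hm e' c).symm

variable (invS : LC.Hp p (isSmooth_res (S := S) hC) 2 →+ ZMod p)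
  (hinv : ∀ (x : (cx (isSmooth_res (S := S) hC)).H 2) (hx : x ∈ LC.Hp p (isSmooth_res hC) 2)
    (hx' : corH₂ hS hC x ∈ LC.Hp p hC 2), invG ⟨corH₂ hS hC x, hx'⟩ = invS ⟨x, hx⟩)

include hinv in
/-- **Injectivity of the duality maps transfers along coinduction** (canonical resolutions). -/
theorem dual_zResR_coind_injective_iff (n s : ℕ) (hm : n + s = 1) :
    Function.Injective ((zResR (Rep.coind S.subtype Y) (isSmooth_coind hS hY)).dual p hC
        (nsmul_coind_eq_zero p hpY) invG n s hm) ↔
      Function.Injective ((zResR Y hY).dual p (isSmooth_res hC) hpY invS n s hm) :=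
  (dual_zResR_coind_injective_iff' hS Y hY hC p hpY invG n s hm).trans
    (dual_coindRes_injective_iff hS (zResR Y hY) hC p hpY invG invS hinv n s hm)

include hinv in
/-- **Surjectivity of the duality maps transfers along coinduction** (canonical resolutions). -/
theorem dual_zResR_coind_surjective_iff (n s : ℕ) (hm : n + s = 1) :
    Function.Surjective ((zResR (Rep.coind S.subtype Y) (isSmooth_coind hS hY)).dual p hC
        (nsmul_coind_eq_zero p hpY) invG n s hm) ↔
      Function.Surjective ((zResR Y hY).dual p (isSmooth_res hC) hpY invS n s hm) :=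
  (dual_zResR_coind_surjective_iff' hS Y hY hC p hpY invG n s hm).trans
    (dual_coindRes_surjective_iff hS (zResR Y hY) hC p hpY invG invS hinv n s hm)

include hinv in
/-- **Bijectivity of the duality maps transfers along coinduction** (canonical resolutions),
degree by degree. -/
theorem dual_zResR_coind_bijective_iff' (n s : ℕ) (hm : n + s = 1) :
    Function.Bijective ((zResR (Rep.coind S.subtype Y) (isSmooth_coind hS hY)).dual p hC
        (nsmul_coind_eq_zero p hpY) invG n s hm) ↔
      Function.Bijective ((zResR Y hY).dual p (isSmooth_res hC) hpY invS n s hm) :=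
  (dual_zResR_coind_bijective_iff hS Y hY hC p hpY invG n s hm).trans
    (dual_coindRes_bijective_iff hS (zResR Y hY) hC p hpY invG invS hinv n s hm)

end TransferZ

end LC

end Fermat.Agent.CFT
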