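import Fermat.Agent.CFT.LC.Res

/-!
# Level cohomology: the cohomology of `LC.cx` in degrees `0, 1, 2`

`Cx.H (LC.cx hA) n` is identified with `LC.H0`, `LC.H1`, `LC.H2` (the Prelude-shaped quotients).
-/

set_option autoImplicit false

universe u

open CategoryTheory groupCohomology

namespace Fermat.Agent.CFT

namespace LC

open HExt

variable {k G : Type u} [CommRing k] [Group G] {L : LevelStructure G} {A : Rep.{u} k G}
  (hA : IsSmooth L A)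

lemma cx_d_zero_apply (a : A) : (cx hA).d 0 a = dLC₀ hA a := rfl
lemma cx_d_one_apply (x : ↥(C₁ L A)) : (cx hA).d 1 x = dLC₁ hA x := rfl
lemma cx_d_two_apply (x : ↥(C₂ L A)) : (cx hA).d 2 x = dLC₂ hA x := rfl

lemma dLC₀_eq_zero_iff (a : A) : dLC₀ hA a = 0 ↔ a ∈ A.ρ.invariants := by
  rw [← d₀₁_ker_eq_invariants, LinearMap.mem_ker, Subtype.ext_iff]
  rfl

lemma dLC₁_eq_zero_iff (x : ↥(C₁ L A)) : dLC₁ hA x = 0 ↔ (x : G → A) ∈ cocycles₁ A := by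
  rw [cocycles₁, LinearMap.mem_ker, Subtype.ext_iff]
  rfl

lemma dLC₂_eq_zero_iff (x : ↥(C₂ L A)) : dLC₂ hA x = 0 ↔ (x : G × G → A) ∈ cocycles₂ A := by
  rw [cocycles₂, LinearMap.mem_ker, Subtype.ext_iff]
  rfl

/-- The class in `Cx.H (cx hA) 1` of an LC `1`-cocycle. -/
def mkH1 (x : ↥(Z₁ L A)) : (cx hA).H 1 :=
  Cx.H.mk (C := cx hA) (n := 1) (⟨x.1, x.2.2⟩ : ↥(C₁ L A))
    ((dLC₁_eq_zero_iff hA _).2 x.2.1)

/-- The class in `Cx.H (cx hA) 2` of an LC `2`-cocycle. -/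
def mkH2 (x : ↥(Z₂ L A)) : (cx hA).H 2 :=
  Cx.H.mk (C := cx hA) (n := 2) (⟨x.1, x.2.2⟩ : ↥(C₂ L A))
    ((dLC₂_eq_zero_iff hA _).2 x.2.1)

/-- The class in `Cx.H (cx hA) 0` of an invariant. -/
def mkH0 (a : ↥(H0 L A)) : (cx hA).H 0 :=
  Cx.H.mk (C := cx hA) (n := 0) (a.1 : A) ((dLC₀_eq_zero_iff hA _).2 a.2)

/-- LC `1`-cocycles as the cycles of `cx hA` at the spot `1`. -/
def zEquiv₁ : ↥((Cx.sh (cx hA)).Z 1) ≃ₗ[k] ↥(Z₁ L A) where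
  toFun z := ⟨((show ↥(C₁ L A) from z.1) : G → A),
    (dLC₁_eq_zero_iff hA _).1 ((Cx.mem_Z_iff _ _ _).1 z.2), (show ↥(C₁ L A) from z.1).2⟩
  map_add' _ _ := rfl
  map_smul' _ _ := rfl
  invFun x := ⟨(⟨x.1, x.2.2⟩ : ↥(C₁ L A)),
    (Cx.mem_Z_iff _ _ _).2 ((dLC₁_eq_zero_iff hA _).2 x.2.1)⟩
  left_inv _ := rfl
  right_inv _ := rfl

/-- LC `2`-cocycles as the cycles of `cx hA` at the spot `2`. -/
def zEquiv₂ : ↥((Cx.sh (cx hA)).Z 2) ≃ₗ[k] ↥(Z₂ L A) where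
  toFun z := ⟨((show ↥(C₂ L A) from z.1) : G × G → A),
    (dLC₂_eq_zero_iff hA _).1 ((Cx.mem_Z_iff _ _ _).1 z.2), (show ↥(C₂ L A) from z.1).2⟩
  map_add' _ _ := rfl
  map_smul' _ _ := rfl
  invFun x := ⟨(⟨x.1, x.2.2⟩ : ↥(C₂ L A)),
    (Cx.mem_Z_iff _ _ _).2 ((dLC₂_eq_zero_iff hA _).2 x.2.1)⟩
  left_inv _ := rfl
  right_inv _ := rfl

/-- `H¹` of the LC complex is the Prelude-shaped `LC.H1`. -/
noncomputable def h1Equiv : (cx hA).H 1 ≃ₗ[k] H1 L A :=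
  Submodule.Quotient.equiv _ _ (zEquiv₁ hA) (by
    ext x
    simp only [Submodule.mem_map, Submodule.mem_comap, Submodule.subtype_apply]
    constructor
    · rintro ⟨z, ⟨a, ha⟩, rfl⟩
      refine ⟨(show A from a), ?_⟩
      have := congrArg (fun y : ↥(C₁ L A) => (y : G → A)) ha
      exact this
    · rintro ⟨a, ha⟩
      refine ⟨(zEquiv₁ hA).symm x, ⟨(show A from a), ?_⟩, by simp⟩
      exact Subtype.ext ha)

/-- `H²` of the LC complex is the Prelude-shaped `LC.H2`. -/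
noncomputable def h2Equiv : (cx hA).H 2 ≃ₗ[k] H2 L A :=
  Submodule.Quotient.equiv _ _ (zEquiv₂ hA) (by
    ext x
    simp only [Submodule.mem_map, Submodule.mem_comap, Submodule.subtype_apply]
    constructor
    · rintro ⟨z, ⟨a, ha⟩, rfl⟩
      refine ⟨((show ↥(C₁ L A) from a) : G → A), (show ↥(C₁ L A) from a).2, ?_⟩
      have := congrArg (fun y : ↥(C₂ L A) => (y : G × G → A)) ha
      exact this
    · rintro ⟨a, ha, hax⟩
      refine ⟨(zEquiv₂ hA).symm x, ⟨(⟨a, ha⟩ : ↥(C₁ L A)), ?_⟩, by simp⟩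
      exact Subtype.ext hax)

/-- Invariants as the cycles of `cx hA` at the spot `0`. -/
def zEquiv₀ : ↥((Cx.sh (cx hA)).Z 0) ≃ₗ[k] ↥(H0 L A) where
  toFun z := ⟨(show A from z.1), (dLC₀_eq_zero_iff hA _).1 ((Cx.mem_Z_iff _ _ _).1 z.2)⟩
  map_add' _ _ := rfl
  map_smul' _ _ := rfl
  invFun a := ⟨(a.1 : A), (Cx.mem_Z_iff _ _ _).2 ((dLC₀_eq_zero_iff hA _).2 a.2)⟩
  left_inv _ := rfl
  right_inv _ := rfl

/-- `H⁰` of the LC complex is the module of invariants. -/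
noncomputable def h0Equiv : (cx hA).H 0 ≃ₗ[k] ↥(H0 L A) :=
  (Submodule.quotEquivOfEqBot _ (by
    rw [eq_bot_iff]
    rintro z ⟨y, hy⟩
    refine Subtype.ext ?_
    exact hy.symm)).trans (zEquiv₀ hA)

@[simp] lemma h0Equiv_mkH0 (a : ↥(H0 L A)) : h0Equiv hA (mkH0 hA a) = a := rfl

@[simp] lemma h1Equiv_mkH1 (x : ↥(Z₁ L A)) : h1Equiv hA (mkH1 hA x) = H1π L A x := rfl

@[simp] lemma h2Equiv_mkH2 (x : ↥(Z₂ L A)) : h2Equiv hA (mkH2 hA x) = H2π L A x := rfl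

end LC

end Fermat.Agent.CFT
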