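import Fermat.Agent.CFT.LC.CxPairing
import Fermat.Agent.CFT.LC.LowDegree

/-!
# Naturality of the LC cochain pairing and comparison with the cup products of `LC/Cup.lean`
(node A7.P, parts (4) and (5))
-/

set_option autoImplicit false

universe u

open CategoryTheory groupCohomology

namespace Fermat.Agent.CFT

namespace LC

open HExt

variable {k G : Type u} [CommRing k] [Group G] {L : LevelStructure G}

section natural

variable {A B C A' B' C' : Rep.{u} k G} (ψ : RepPairing A B C) (χ : RepPairing A' B' C')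
  (u : A ⟶ A') (v : B ⟶ B') (w : C ⟶ C')
  (hA : IsSmooth L A) (hB : IsSmooth L B) (hC : IsSmooth L C)
  (hA' : IsSmooth L A') (hB' : IsSmooth L B') (hC' : IsSmooth L C')
  (hnat : ∀ (a : A) (b : B), χ.toLin (u.hom a) (v.hom b) = w.hom (ψ.toLin a b))

include hnat

theorem natural₀₁ (x : A) (y : ↥(C₁ L B)) :
    mapC₁ w (cupC₀₁ ψ x y) = cupC₀₁ χ (u.hom x) (mapC₁ v y) :=
  Subtype.ext (funext fun _ => (hnat x _).symm)

theorem natural₁₀ (x : ↥(C₁ L A)) (y : B) :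
    mapC₁ w (cupC₁₀ ψ hB x y) = cupC₁₀ χ hB' (mapC₁ u x) (v.hom y) := by
  refine Subtype.ext (funext fun g => ?_)
  change w.hom (ψ.toLin (x.1 g) (B.ρ g y)) = χ.toLin (u.hom (x.1 g)) (B'.ρ g (v.hom y))
  rw [← hnat, Rep.hom_comm_apply]

theorem natural₁₁ (x : ↥(C₁ L A)) (y : ↥(C₁ L B)) :
    mapC₂ w (cupC₁₁ ψ hB x y) = cupC₁₁ χ hB' (mapC₁ u x) (mapC₁ v y) := by
  refine Subtype.ext (funext fun p => ?_)
  change w.hom (ψ.toLin (x.1 p.1) (B.ρ p.1 (y.1 p.2))) =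
    χ.toLin (u.hom (x.1 p.1)) (B'.ρ p.1 (v.hom (y.1 p.2)))
  rw [← hnat, Rep.hom_comm_apply]

theorem natural₀₂ (x : A) (y : ↥(C₂ L B)) :
    mapC₂ w (cupC₀₂ ψ x y) = cupC₀₂ χ (u.hom x) (mapC₂ v y) :=
  Subtype.ext (funext fun _ => (hnat x _).symm)

theorem natural₂₀ (x : ↥(C₂ L A)) (y : B) :
    mapC₂ w (cupC₂₀ ψ hB x y) = cupC₂₀ χ hB' (mapC₂ u x) (v.hom y) := by
  refine Subtype.ext (funext fun p => ?_)
  change w.hom (ψ.toLin (x.1 p) (B.ρ (p.1 * p.2) y)) =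
    χ.toLin (u.hom (x.1 p)) (B'.ρ (p.1 * p.2) (v.hom y))
  rw [← hnat, Rep.hom_comm_apply]

theorem natural₁₂ (x : ↥(C₁ L A)) (y : ↥(C₂ L B)) :
    mapC₃ w (cupC₁₂ ψ hB x y) = cupC₁₂ χ hB' (mapC₁ u x) (mapC₂ v y) := by
  refine Subtype.ext (funext fun p => ?_)
  change w.hom (ψ.toLin (x.1 p.1) (B.ρ p.1 (y.1 (p.2.1, p.2.2)))) =
    χ.toLin (u.hom (x.1 p.1)) (B'.ρ p.1 (v.hom (y.1 (p.2.1, p.2.2))))
  rw [← hnat, Rep.hom_comm_apply]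

theorem natural₂₁ (x : ↥(C₂ L A)) (y : ↥(C₁ L B)) :
    mapC₃ w (cupC₂₁ ψ hB x y) = cupC₂₁ χ hB' (mapC₂ u x) (mapC₁ v y) := by
  refine Subtype.ext (funext fun p => ?_)
  change w.hom (ψ.toLin (x.1 (p.1, p.2.1)) (B.ρ (p.1 * p.2.1) (y.1 p.2.2))) =
    χ.toLin (u.hom (x.1 (p.1, p.2.1))) (B'.ρ (p.1 * p.2.1) (v.hom (y.1 p.2.2)))
  rw [← hnat, Rep.hom_comm_apply]

theorem natural₀₃ (x : A) (y : ↥(C₃ L B)) :
    mapC₃ w (cupC₀₃ ψ x y) = cupC₀₃ χ (u.hom x) (mapC₃ v y) :=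
  Subtype.ext (funext fun _ => (hnat x _).symm)

theorem natural₃₀ (x : ↥(C₃ L A)) (y : B) :
    mapC₃ w (cupC₃₀ ψ hB x y) = cupC₃₀ χ hB' (mapC₃ u x) (v.hom y) := by
  refine Subtype.ext (funext fun p => ?_)
  change w.hom (ψ.toLin (x.1 p) (B.ρ (p.1 * p.2.1 * p.2.2) y)) =
    χ.toLin (u.hom (x.1 p)) (B'.ρ (p.1 * p.2.1 * p.2.2) (v.hom y))
  rw [← hnat, Rep.hom_comm_apply]

/-- **Naturality of the cochain pairing** in all three variables: if `χ(u a, v b) = w (ψ(a, b))`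
then `w_* (x ∪_ψ y) = (u_* x) ∪_χ (v_* y)` for LC cochains in all bidegrees. -/
theorem cxPairing_natural (a b c : ℕ) (h : a + b = c) (x : (cx hA).X a) (y : (cx hB).X b) :
    (cxMap hC hC' w).f c ((cxPairing ψ hA hB hC).cup a b c h x y) =
      (cxPairing χ hA' hB' hC').cup a b c h ((cxMap hA hA' u).f a x) ((cxMap hB hB' v).f b y) := by
  subst h
  by_cases hab : 4 ≤ a + b
  · have : Subsingleton ((cx hC').X (a + b)) := subsingleton_cxX_of_le C' hab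
    exact Subsingleton.elim _ _
  · match a, b, x, y, hab with
    | 0, 0, x, y, _ => exact (hnat x y).symm
    | 0, 1, x, y, _ => exact natural₀₁ ψ χ u v w hnat x y
    | 1, 0, x, y, _ => exact natural₁₀ ψ χ u v w hB hB' hnat x y
    | 1, 1, x, y, _ => exact natural₁₁ ψ χ u v w hB hB' hnat x y
    | 0, 2, x, y, _ => exact natural₀₂ ψ χ u v w hnat x y
    | 2, 0, x, y, _ => exact natural₂₀ ψ χ u v w hB hB' hnat x y
    | 1, 2, x, y, _ => exact natural₁₂ ψ χ u v w hB hB' hnat x y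
    | 2, 1, x, y, _ => exact natural₂₁ ψ χ u v w hB hB' hnat x y
    | 0, 3, x, y, _ => exact natural₀₃ ψ χ u v w hnat x y
    | 3, 0, x, y, _ => exact natural₃₀ ψ χ u v w hB hB' hnat x y
    | 0, b + 4, _, _, h => exact absurd (by omega) h
    | 1, b + 3, _, _, h => exact absurd (by omega) h
    | 2, b + 2, _, _, h => exact absurd (by omega) h
    | 3, b + 1, _, _, h => exact absurd (by omega) h
    | a + 4, b, _, _, h => exact absurd (by omega) h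

end natural

section target

variable {A B C C' : Rep.{u} k G} (ψ : RepPairing A B C) (ψ' : RepPairing A B C') (w : C ⟶ C')
  (hA : IsSmooth L A) (hB : IsSmooth L B) (hC : IsSmooth L C) (hC' : IsSmooth L C')

/-- **Functoriality in the target** (part (4)): if `ψ' = w ∘ ψ` then `w_* (x ∪_ψ y) = x ∪_ψ' y`. -/
theorem cxPairing_map_target (hw : ∀ (a : A) (b : B), ψ'.toLin a b = w.hom (ψ.toLin a b))
    (a b c : ℕ) (h : a + b = c) (x : (cx hA).X a) (y : (cx hB).X b) :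
    (cxMap hC hC' w).f c ((cxPairing ψ hA hB hC).cup a b c h x y) =
      (cxPairing ψ' hA hB hC').cup a b c h x y := by
  have key := cxPairing_natural ψ ψ' (𝟙 A) (𝟙 B) w hA hB hC hA hB hC' hw a b c h x y
  rw [key]
  congr 1
  · congr 1
    match a, x with
    | 0, _ => rfl
    | 1, _ => rfl
    | 2, _ => rfl
    | 3, _ => rfl
    | _ + 4, _ => rfl
  · match b, y with
    | 0, _ => rfl
    | 1, _ => rfl
    | 2, _ => rfl
    | 3, _ => rfl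
    | _ + 4, _ => rfl

end target

/-! ### Comparison with the cup products on level cohomology -/

section compare

variable {A B C : Rep.{u} k G} (φ : RepPairing A B C)
  (hA : IsSmooth L A) (hB : IsSmooth L B) (hC : IsSmooth L C)

theorem exists_mkH0_eq (x : (cx hA).H 0) : ∃ a : ↥(H0 L A), mkH0 hA a = x :=
  ⟨h0Equiv hA x, (h0Equiv hA).injective (h0Equiv_mkH0 hA _)⟩

theorem exists_mkH1_eq (x : (cx hA).H 1) : ∃ f : ↥(Z₁ L A), mkH1 hA f = x := by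
  obtain ⟨f, hf⟩ := H1π_surjective (L := L) A (h1Equiv hA x)
  exact ⟨f, (h1Equiv hA).injective ((h1Equiv_mkH1 hA f).trans hf)⟩

theorem exists_mkH2_eq (x : (cx hA).H 2) : ∃ f : ↥(Z₂ L A), mkH2 hA f = x := by
  obtain ⟨f, hf⟩ := H2π_surjective (L := L) A (h2Equiv hA x)
  exact ⟨f, (h2Equiv hA).injective ((h2Equiv_mkH2 hA f).trans hf)⟩

theorem cupH_mkH1_mkH1 (f : ↥(Z₁ L A)) (f' : ↥(Z₁ L B)) :
    (cxPairing φ hA hB hC).cupH 1 1 2 rfl (mkH1 hA f) (mkH1 hB f') =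
      mkH2 hC (cupZ₁₁ φ hB f f') :=
  Cx.Pairing.cupH_mk _ 1 1 2 rfl _ _ _ _

theorem cupH_mkH0_mkH1 (a : ↥(H0 L A)) (f : ↥(Z₁ L B)) :
    (cxPairing φ hA hB hC).cupH 0 1 1 rfl (mkH0 hA a) (mkH1 hB f) = mkH1 hC (cupZ₀₁ φ a f) :=
  Cx.Pairing.cupH_mk _ 0 1 1 rfl _ _ _ _

theorem cupH_mkH1_mkH0 (f : ↥(Z₁ L A)) (b : ↥(H0 L B)) :
    (cxPairing φ hA hB hC).cupH 1 0 1 rfl (mkH1 hA f) (mkH0 hB b) =
      mkH1 hC (cupZ₁₀ φ hB f b) :=
  Cx.Pairing.cupH_mk _ 1 0 1 rfl _ _ _ _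

theorem cupH_mkH0_mkH2 (a : ↥(H0 L A)) (F : ↥(Z₂ L B)) :
    (cxPairing φ hA hB hC).cupH 0 2 2 rfl (mkH0 hA a) (mkH2 hB F) = mkH2 hC (cupZ₀₂ φ a F) :=
  Cx.Pairing.cupH_mk _ 0 2 2 rfl _ _ _ _

theorem cupH_mkH2_mkH0 (F : ↥(Z₂ L A)) (b : ↥(H0 L B)) :
    (cxPairing φ hA hB hC).cupH 2 0 2 rfl (mkH2 hA F) (mkH0 hB b) =
      mkH2 hC (cupZ₂₀ φ hB F b) :=
  Cx.Pairing.cupH_mk _ 2 0 2 rfl _ _ _ _

/-- (5) The cup product of `Cx.Pairing` on `H¹ × H¹` is `LC.cupH₁₁`. -/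
theorem h2Equiv_cupH₁₁ (x : (cx hA).H 1) (y : (cx hB).H 1) :
    h2Equiv hC ((cxPairing φ hA hB hC).cupH 1 1 2 rfl x y) =
      cupH₁₁ φ hB (h1Equiv hA x) (h1Equiv hB y) := by
  obtain ⟨f, rfl⟩ := exists_mkH1_eq hA x
  obtain ⟨f', rfl⟩ := exists_mkH1_eq hB y
  rw [cupH_mkH1_mkH1, h2Equiv_mkH2, h1Equiv_mkH1, h1Equiv_mkH1, cupH₁₁_π]

theorem h1Equiv_cupH₀₁ (x : (cx hA).H 0) (y : (cx hB).H 1) :
    h1Equiv hC ((cxPairing φ hA hB hC).cupH 0 1 1 rfl x y) =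
      cupH₀₁ φ (h0Equiv hA x) (h1Equiv hB y) := by
  obtain ⟨a, rfl⟩ := exists_mkH0_eq hA x
  obtain ⟨f, rfl⟩ := exists_mkH1_eq hB y
  rw [cupH_mkH0_mkH1, h1Equiv_mkH1, h0Equiv_mkH0, h1Equiv_mkH1, cupH₀₁_π]

theorem h1Equiv_cupH₁₀ (x : (cx hA).H 1) (y : (cx hB).H 0) :
    h1Equiv hC ((cxPairing φ hA hB hC).cupH 1 0 1 rfl x y) =
      cupH₁₀ φ hB (h1Equiv hA x) (h0Equiv hB y) := by
  obtain ⟨f, rfl⟩ := exists_mkH1_eq hA x
  obtain ⟨b, rfl⟩ := exists_mkH0_eq hB y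
  rw [cupH_mkH1_mkH0, h1Equiv_mkH1, h0Equiv_mkH0, h1Equiv_mkH1, cupH₁₀_π]

theorem h2Equiv_cupH₀₂ (x : (cx hA).H 0) (y : (cx hB).H 2) :
    h2Equiv hC ((cxPairing φ hA hB hC).cupH 0 2 2 rfl x y) =
      cupH₀₂ φ (h0Equiv hA x) (h2Equiv hB y) := by
  obtain ⟨a, rfl⟩ := exists_mkH0_eq hA x
  obtain ⟨F, rfl⟩ := exists_mkH2_eq hB y
  rw [cupH_mkH0_mkH2, h2Equiv_mkH2, h0Equiv_mkH0, h2Equiv_mkH2, cupH₀₂_π]

theorem h2Equiv_cupH₂₀ (x : (cx hA).H 2) (y : (cx hB).H 0) :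
    h2Equiv hC ((cxPairing φ hA hB hC).cupH 2 0 2 rfl x y) =
      cupH₂₀ φ hB (h2Equiv hA x) (h0Equiv hB y) := by
  obtain ⟨F, rfl⟩ := exists_mkH2_eq hA x
  obtain ⟨b, rfl⟩ := exists_mkH0_eq hB y
  rw [cupH_mkH2_mkH0, h2Equiv_mkH2, h0Equiv_mkH0, h2Equiv_mkH2, cupH₂₀_π]

end compare

end LC

end Fermat.Agent.CFT
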