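import Fermat.Agent.CFT.LC.Shapiro
import Fermat.Agent.CFT.ShapiroCup

/-!
# Level cohomology: the Shapiro chain map is natural and multiplicative

* `LC.cxSh_natural_f`: `cxSh` is natural in the coefficient module;
* `LC.cxSh_f_cupC₁₁` etc.: `cxSh (a ∪ b) = cxSh a ∪ cxRes b` for the coinduced pairing;
* `LC.cxTr_f_cupC₁₁` etc.: `cxTr (a ∪ b) = cxTr a ∪ b`.
-/

set_option autoImplicit false

universe u

open CategoryTheory groupCohomology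

namespace Fermat.Agent.CFT

namespace LC

open HExt Cup LevelStructure

variable {k G : Type u} [CommRing k] [Group G] {L : LevelStructure G} {S : Subgroup G}
  (hS : L.IsOpen S)

section Natural

variable {Y Y' : Rep.{u} k S} (hY : IsSmooth (L.comap S.subtype) Y)
  (hY' : IsSmooth (L.comap S.subtype) Y') (ψ : Y ⟶ Y')

/-- The Shapiro chain map is natural in the coefficient module. -/
lemma cxSh_natural_f (n : ℕ) (z : (cx (isSmooth_coind hS hY)).X n) :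
    (cxSh hS hY').f n ((cxMap (isSmooth_coind hS hY) (isSmooth_coind hS hY')
      (Rep.coindMap S.subtype ψ)).f n z) = (cxMap hY hY' ψ).f n ((cxSh hS hY).f n z) := by
  match n, z with
  | 0, _ => rfl
  | 1, _ => rfl
  | 2, _ => rfl
  | 3, _ => rfl
  | _ + 4, _ => rfl

lemma cxSh_natural_mapH (n : ℕ) (x : (cx (isSmooth_coind hS hY)).H n) :
    (cxSh hS hY').mapH n ((cxMap (isSmooth_coind hS hY) (isSmooth_coind hS hY')
      (Rep.coindMap S.subtype ψ)).mapH n x) = (cxMap hY hY' ψ).mapH n ((cxSh hS hY).mapH n x) := by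
  induction x using Cx.H.induction_on with | _ z hz =>
  show Cx.H.mk ((cxSh hS hY').f n ((cxMap (isSmooth_coind hS hY) (isSmooth_coind hS hY')
      (Rep.coindMap S.subtype ψ)).f n z)) (d_map_eq_zero _ (d_map_eq_zero _ hz)) =
    Cx.H.mk ((cxMap hY hY' ψ).f n ((cxSh hS hY).f n z)) (d_map_eq_zero _ (d_map_eq_zero _ hz))
  exact Cx.H.mk_congr (cxSh_natural_f hS hY hY' ψ n z) _

end Natural

section Cup

variable {A C : Rep.{u} k S} {B : Rep.{u} k G} (hA : IsSmooth (L.comap S.subtype) A)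
  (hC : IsSmooth (L.comap S.subtype) C) (hB : IsSmooth L B)
  (φ : RepPairing A (Rep.res S.subtype B) C)

lemma cxSh_f_toLin (c : Rep.coind S.subtype A) (b : B) :
    (cxSh hS hC).f 0 ((φ.coind S).toLin c b) = φ.toLin ((cxSh hS hA).f 0 c) b :=
  φ.ev₁_coind S c b

lemma cxSh_f_cupC₀₁ (c : Rep.coind S.subtype A) (f' : ↥(C₁ L B)) :
    (cxSh hS hC).f 1 (cupC₀₁ (φ.coind S) c f') =
      cupC₀₁ φ ((cxSh hS hA).f 0 c) ((cxRes (compat_comap L S.subtype) hB).f 1 f') :=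
  Subtype.ext (Shap.sh₁_cup₀₁ S φ c f')

lemma cxSh_f_cupC₁₀ (f : ↥(C₁ L (Rep.coind S.subtype A))) (b : B) :
    (cxSh hS hC).f 1 (cupC₁₀ (φ.coind S) hB f b) =
      cupC₁₀ φ (isSmooth_res hB) ((cxSh hS hA).f 1 f) b :=
  Subtype.ext (Shap.sh₁_cup₁₀ S φ f b)

lemma cxSh_f_cupC₁₁ (f : ↥(C₁ L (Rep.coind S.subtype A))) (f' : ↥(C₁ L B)) :
    (cxSh hS hC).f 2 (cupC₁₁ (φ.coind S) hB f f') =
      cupC₁₁ φ (isSmooth_res hB) ((cxSh hS hA).f 1 f)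
        ((cxRes (compat_comap L S.subtype) hB).f 1 f') :=
  Subtype.ext (Shap.sh₂_cup₁₁ S φ f f')

lemma cxSh_f_cupC₀₂ (c : Rep.coind S.subtype A) (F' : ↥(C₂ L B)) :
    (cxSh hS hC).f 2 (cupC₀₂ (φ.coind S) c F') =
      cupC₀₂ φ ((cxSh hS hA).f 0 c) ((cxRes (compat_comap L S.subtype) hB).f 2 F') :=
  Subtype.ext (Shap.sh₂_cup₀₂ S φ c F')

lemma cxSh_f_cupC₂₀ (F : ↥(C₂ L (Rep.coind S.subtype A))) (b : B) :
    (cxSh hS hC).f 2 (cupC₂₀ (φ.coind S) hB F b) =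
      cupC₂₀ φ (isSmooth_res hB) ((cxSh hS hA).f 2 F) b :=
  Subtype.ext (Shap.sh₂_cup₂₀ S φ F b)

end Cup

section Tr

variable [S.FiniteIndex] {X B Z : Rep.{u} k G} (hX : IsSmooth L X) (hB : IsSmooth L B)
  (hZ : IsSmooth L Z) (Φ : RepPairing X B Z)

lemma cxTr_f_toLin (c : Rep.coind S.subtype (Rep.res S.subtype X)) (b : B) :
    (cxTr hS hZ).f 0 (((Φ.res S.subtype).coind S).toLin c b) =
      Φ.toLin ((cxTr hS hX).f 0 c) b :=
  Φ.tr_coind S c b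

lemma cxTr_f_cupC₀₁ (c : Rep.coind S.subtype (Rep.res S.subtype X)) (f' : ↥(C₁ L B)) :
    (cxTr hS hZ).f 1 (cupC₀₁ ((Φ.res S.subtype).coind S) c f') =
      cupC₀₁ Φ ((cxTr hS hX).f 0 c) f' :=
  Subtype.ext (Shap.tr_cup₀₁ S Φ c f')

lemma cxTr_f_cupC₁₀ (f : ↥(C₁ L (Rep.coind S.subtype (Rep.res S.subtype X)))) (b : B) :
    (cxTr hS hZ).f 1 (cupC₁₀ ((Φ.res S.subtype).coind S) hB f b) =
      cupC₁₀ Φ hB ((cxTr hS hX).f 1 f) b :=
  Subtype.ext (Shap.tr_cup₁₀ S Φ f b)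

lemma cxTr_f_cupC₁₁ (f : ↥(C₁ L (Rep.coind S.subtype (Rep.res S.subtype X))))
    (f' : ↥(C₁ L B)) :
    (cxTr hS hZ).f 2 (cupC₁₁ ((Φ.res S.subtype).coind S) hB f f') =
      cupC₁₁ Φ hB ((cxTr hS hX).f 1 f) f' :=
  Subtype.ext (Shap.tr_cup₁₁ S Φ f f')

lemma cxTr_f_cupC₀₂ (c : Rep.coind S.subtype (Rep.res S.subtype X)) (F' : ↥(C₂ L B)) :
    (cxTr hS hZ).f 2 (cupC₀₂ ((Φ.res S.subtype).coind S) c F') =
      cupC₀₂ Φ ((cxTr hS hX).f 0 c) F' :=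
  Subtype.ext (Shap.tr_cup₀₂ S Φ c F')

lemma cxTr_f_cupC₂₀ (F : ↥(C₂ L (Rep.coind S.subtype (Rep.res S.subtype X)))) (b : B) :
    (cxTr hS hZ).f 2 (cupC₂₀ ((Φ.res S.subtype).coind S) hB F b) =
      cupC₂₀ Φ hB ((cxTr hS hX).f 2 F) b :=
  Subtype.ext (Shap.tr_cup₂₀ S Φ F b)

end Tr

end LC

end Fermat.Agent.CFT
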