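import Fermat.Agent.CFT.HyperExt.LCDualityInduced
import Fermat.Agent.CFT.LC.Lift
import Fermat.Agent.CFT.LC.ShapiroCup
import Fermat.Agent.CFT.PT.PairNat

/-!
# Level cohomology along an injection with prime-to-`p` torsion cokernel (S55, node LC-Cmp)

Let `φ : A ⟶ B` be an injective morphism of smooth `ℤ[G]`-modules such that every element of the
cokernel is killed by an integer prime to `p`.  Then

* (1) `H¹(A)` has no `p`-torsion if `H¹(B)` has none;
* (2) `H²(A) → H²(B)` is injective and surjective on `p`-primary classes;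
* (3) `A^G / p → B^G / p` is bijective (elementwise form);
* (4) the induced maps on cohomology commute with restriction and corestriction;
* (5) an invariant map on `H²(B)` which is injective on `p`-primary classes and takes the values
  `1 / p^a` on `p^a`-torsion classes induces such a map on `H²(A)`.
-/

set_option autoImplicit false
set_option linter.unusedSectionVars false

open CategoryTheory

namespace Fermat.Agent.CFT

namespace LC

open HExt LevelStructure

/-! ### Arithmetic -/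

section arith

variable {p : ℕ}

/-- An element killed by a power of `p` and by an integer prime to `p` is zero. -/
lemma eq_zero_of_pow_nsmul_of_nsmul {M : Type*} [AddCommGroup M] (hp : p.Prime) {c : M} {n m : ℕ}
    (hn : p ^ n • c = 0) (hm : ¬ p ∣ m) (hmc : m • c = 0) : c = 0 := by
  have hcop : Nat.Coprime (p ^ n) m := ((Nat.Prime.coprime_iff_not_dvd hp).2 hm).pow_left n
  have h1 := addOrderOf_dvd_of_nsmul_eq_zero hn
  have h2 := addOrderOf_dvd_of_nsmul_eq_zero hmc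
  have h3 : addOrderOf c ∣ 1 := by
    have := Nat.dvd_gcd h1 h2
    rwa [Nat.Coprime.gcd_eq_one hcop] at this
  exact AddMonoid.addOrderOf_eq_one_iff.1 (Nat.dvd_one.1 h3)

/-- Bezout in `ℕ`: `m` prime to `p` is invertible modulo `p ^ n`. -/
lemma exists_mul_eq_one_add_mul (hp : p.Prime) {m : ℕ} (hm : ¬ p ∣ m) (n : ℕ) :
    ∃ u v : ℕ, u * m = 1 + v * p ^ n := by
  rcases Nat.eq_zero_or_pos n with rfl | hn
  · have hm0 : m ≠ 0 := fun h => hm (h ▸ dvd_zero p)
    exact ⟨1, m - 1, by rw [pow_zero, mul_one, one_mul]; omega⟩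
  · have hcop : Nat.Coprime m (p ^ n) :=
      (((Nat.Prime.coprime_iff_not_dvd hp).2 hm).pow_left n).symm
    have h1 : 1 < p ^ n := Nat.one_lt_pow hn.ne' hp.one_lt
    obtain ⟨u, -, hu⟩ := Nat.exists_mul_mod_eq_one_of_coprime hcop h1
    refine ⟨u, m * u / p ^ n, ?_⟩
    have := Nat.div_add_mod (m * u) (p ^ n)
    rw [hu] at this
    rw [mul_comm u m]
    linarith

/-- A family with finite range of elements killed by integers prime to `p` has a common
annihilator prime to `p`. -/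
lemma exists_nsmul_eq_zero_of_finite_range {α Q : Type*} [AddCommGroup Q] (hp : p.Prime)
    (hQ : ∀ q : Q, ∃ m : ℕ, ¬ p ∣ m ∧ m • q = 0) (f : α → Q) (hf : (Set.range f).Finite) :
    ∃ m : ℕ, ¬ p ∣ m ∧ ∀ a, m • f a = 0 := by
  classical
  choose μ hμ1 hμ2 using hQ
  refine ⟨∏ q ∈ hf.toFinset, μ q, ?_, fun a => ?_⟩
  · rw [Prime.dvd_finsetProd_iff (Nat.prime_iff.1 hp)]
    rintro ⟨q, -, hq⟩
    exact hμ1 q hq
  · have hmem : f a ∈ hf.toFinset := hf.mem_toFinset.2 ⟨a, rfl⟩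
    obtain ⟨k, hk⟩ := Finset.dvd_prod_of_mem μ hmem
    rw [hk, mul_comm, mul_smul, hμ2, smul_zero]

/-- Abstract form of the injectivity statement. -/
lemma eq_zero_of_pPrimary_of_ker {A₂ B₂ : Type*} [AddCommGroup A₂] [AddCommGroup B₂]
    (hp : p.Prime) (f : A₂ →+ B₂)
    (hker : ∀ a, f a = 0 → ∃ m : ℕ, ¬ p ∣ m ∧ m • a = 0)
    (c : A₂) (hc : ∃ n : ℕ, p ^ n • c = 0) (hfc : f c = 0) : c = 0 := by
  obtain ⟨n, hn⟩ := hc
  obtain ⟨m, hm, hmc⟩ := hker c hfc
  exact eq_zero_of_pow_nsmul_of_nsmul hp hn hm hmc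

/-- Abstract form of the surjectivity statement. -/
lemma exists_pPrimary_preimage {A₂ B₂ Q₂ : Type*} [AddCommGroup A₂] [AddCommGroup B₂]
    [AddCommGroup Q₂] (hp : p.Prime) (f : A₂ →+ B₂) (g : B₂ →+ Q₂)
    (hex : ∀ b, g b = 0 → ∃ a, f a = b)
    (hker : ∀ a, f a = 0 → ∃ m : ℕ, ¬ p ∣ m ∧ m • a = 0)
    (hQ : ∀ q : Q₂, ∃ m : ℕ, ¬ p ∣ m ∧ m • q = 0)
    (b : B₂) (n : ℕ) (hb : p ^ n • b = 0) : ∃ c : A₂, p ^ n • c = 0 ∧ f c = b := by
  have hgb : g b = 0 := by
    obtain ⟨m, hm, hmq⟩ := hQ (g b)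
    refine eq_zero_of_pow_nsmul_of_nsmul hp (n := n) ?_ hm hmq
    rw [← map_nsmul, hb, map_zero]
  obtain ⟨a, rfl⟩ := hex b hgb
  obtain ⟨m, hm, hma⟩ := hker (p ^ n • a) (by rw [map_nsmul, hb])
  obtain ⟨u, v, huv⟩ := exists_mul_eq_one_add_mul hp hm n
  refine ⟨(u * m) • a, ?_, ?_⟩
  · rw [smul_smul, mul_comm, mul_assoc, mul_smul, ← smul_smul m, hma, smul_zero]
  · rw [map_nsmul, huv, add_smul, one_smul, mul_smul, hb, smul_zero, add_zero]

/-- A torsion abelian group without `p`-torsion is `p`-divisible. -/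
lemma exists_nsmul_eq_of_torsion_of_pTorsionFree {M : Type*} [AddCommGroup M] (hp : p.Prime)
    (htors : ∀ x : M, ∃ n : ℕ, 0 < n ∧ n • x = 0) (hfree : ∀ x : M, p • x = 0 → x = 0)
    (x : M) : ∃ y : M, p • y = x := by
  have hpow : ∀ (b : ℕ) (y : M), p ^ b • y = 0 → y = 0 := by
    intro b
    induction b with
    | zero => intro y hy; rwa [pow_zero, one_smul] at hy
    | succ b ih =>
      intro y hy
      refine ih y (hfree _ ?_)
      rwa [smul_smul, ← pow_succ']
  obtain ⟨n, hn, hnx⟩ := htors x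
  obtain ⟨b, n', hn', rfl⟩ := Nat.exists_eq_pow_mul_and_not_dvd hn.ne' p hp.ne_one
  have h1 : n' • x = 0 := hpow b _ (by rwa [smul_smul])
  obtain ⟨u, v, huv⟩ := exists_mul_eq_one_add_mul hp hn' 1
  rw [pow_one] at huv
  refine ⟨-(v • x), ?_⟩
  have h2 : (u * n') • x = x + (v * p) • x := by rw [huv, add_smul, one_smul]
  rw [mul_smul, h1, smul_zero] at h2
  rw [smul_neg, smul_smul, mul_comm p v]
  exact (eq_neg_of_add_eq_zero_left h2.symm).symm

end arith

/-! ### Modules whose elements are killed by integers prime to `p` -/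

section primeToP

variable {G : Type} [Group G] {L : LevelStructure G} {p : ℕ} {Q : Rep.{0} ℤ G}
  (hQs : IsSmooth L Q) (hp : p.Prime) (hQ : ∀ q : Q, ∃ m : ℕ, ¬ p ∣ m ∧ m • q = 0)

include hp hQ in
/-- LC cochains (in degrees `≤ 2`) with values in a module all of whose elements are killed by
integers prime to `p` are killed by integers prime to `p`. -/
lemma exists_nsmul_cxX_eq_zero :
    ∀ (n : ℕ), n ≤ 2 → ∀ x : (cx hQs).X n, ∃ m : ℕ, ¬ p ∣ m ∧ m • x = 0
  | 0, _, x => hQ x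
  | 1, _, x => by
    obtain ⟨m, hm, h⟩ := exists_nsmul_eq_zero_of_finite_range hp hQ
      (show ↥(C₁ L Q) from x).1 (IsLC₁.finite_range (show ↥(C₁ L Q) from x).2)
    exact ⟨m, hm, Subtype.ext (funext fun g => h g)⟩
  | 2, _, x => by
    obtain ⟨m, hm, h⟩ := exists_nsmul_eq_zero_of_finite_range hp hQ
      (show ↥(C₂ L Q) from x).1 (IsLC₂.finite_range (show ↥(C₂ L Q) from x).2)
    exact ⟨m, hm, Subtype.ext (funext fun g => h g)⟩
  | n + 3, h, _ => absurd h (by omega)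

include hp hQ in
/-- The level cohomology (in degrees `≤ 2`) of such a module consists of classes killed by
integers prime to `p`. -/
lemma exists_nsmul_H_eq_zero (n : ℕ) (hn : n ≤ 2) (x : (cx hQs).H n) :
    ∃ m : ℕ, ¬ p ∣ m ∧ m • x = 0 := by
  induction x using Cx.H.induction_on with
  | _ z hz =>
    obtain ⟨m, hm, hz0⟩ := exists_nsmul_cxX_eq_zero hQs hp hQ n hn z
    refine ⟨m, hm, ?_⟩
    have key : m • Cx.H.mk z hz = Cx.H.mk (m • z) (by rw [map_nsmul, hz, smul_zero]) := rfl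
    rw [key, Cx.H.mk_congr hz0]
    rfl

end primeToP

/-! ### Functoriality of `LC.H1`, `LC.H2` in the coefficient module -/

section mapLC

universe u

variable {k G : Type u} [CommRing k] [Group G] {L : LevelStructure G} {A B : Rep.{u} k G}
  (hA : IsSmooth L A) (hB : IsSmooth L B) (φ : A ⟶ B)

/-- The map induced on `LC.H1` (Prelude shape) by a morphism of smooth modules. -/
noncomputable def mapLC1 : H1 L A →ₗ[k] H1 L B :=
  (h1Equiv hB).toLinearMap ∘ₗ (cxMap hA hB φ).mapH 1 ∘ₗ (h1Equiv hA).symm.toLinearMap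

/-- The map induced on `LC.H2` (Prelude shape) by a morphism of smooth modules. -/
noncomputable def mapLC2 : H2 L A →ₗ[k] H2 L B :=
  (h2Equiv hB).toLinearMap ∘ₗ (cxMap hA hB φ).mapH 2 ∘ₗ (h2Equiv hA).symm.toLinearMap

lemma mapLC1_h1Equiv (x : (cx hA).H 1) :
    mapLC1 hA hB φ (h1Equiv hA x) = h1Equiv hB ((cxMap hA hB φ).mapH 1 x) := by
  simp only [mapLC1, LinearMap.comp_apply, LinearEquiv.coe_coe, LinearEquiv.symm_apply_apply]

lemma mapLC2_h2Equiv (x : (cx hA).H 2) :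
    mapLC2 hA hB φ (h2Equiv hA x) = h2Equiv hB ((cxMap hA hB φ).mapH 2 x) := by
  simp only [mapLC2, LinearMap.comp_apply, LinearEquiv.coe_coe, LinearEquiv.symm_apply_apply]

omit hA hB in
/-- The push-forward of an LC `1`-cocycle. -/
def mapZ₁ (x : ↥(Z₁ L A)) : ↥(Z₁ L B) :=
  ⟨fun g => φ.hom (x.1 g), by
    refine mem_Z₁_iff.2 ⟨?_, (mapC₁ (L := L) φ ⟨x.1, x.2.2⟩).2⟩
    have h0 : ∀ g h : G, A.ρ g (x.1 h) - x.1 (g * h) + x.1 g = 0 :=
      (groupCohomology.mem_cocycles₁_def x.1).1 x.2.1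
    refine (groupCohomology.mem_cocycles₁_def _).2 fun g h => ?_
    have := congrArg φ.hom (h0 g h)
    rw [map_zero, map_add, map_sub, Rep.hom_comm_apply] at this
    exact this⟩

omit hA hB in
/-- The push-forward of an LC `2`-cocycle. -/
def mapZ₂ (x : ↥(Z₂ L A)) : ↥(Z₂ L B) :=
  ⟨fun g => φ.hom (x.1 g), by
    refine mem_Z₂_iff.2 ⟨?_, (mapC₂ (L := L) φ ⟨x.1, x.2.2⟩).2⟩
    have h0 : ∀ g h j : G, A.ρ g (x.1 (h, j)) - x.1 (g * h, j) + x.1 (g, h * j) - x.1 (g, h) = 0 :=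
      (groupCohomology.mem_cocycles₂_def x.1).1 x.2.1
    refine (groupCohomology.mem_cocycles₂_def _).2 fun g h j => ?_
    have := congrArg φ.hom (h0 g h j)
    rw [map_zero, map_sub, map_add, map_sub, Rep.hom_comm_apply] at this
    exact this⟩

omit hA hB in
@[simp] lemma mapZ₁_coe (x : ↥(Z₁ L A)) (g : G) : (mapZ₁ φ x).1 g = φ.hom (x.1 g) := rfl

omit hA hB in
@[simp] lemma mapZ₂_coe (x : ↥(Z₂ L A)) (g : G × G) : (mapZ₂ φ x).1 g = φ.hom (x.1 g) := rfl

lemma mapLC1_H1π (x : ↥(Z₁ L A)) : mapLC1 hA hB φ (H1π L A x) = H1π L B (mapZ₁ φ x) := by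
  rw [← h1Equiv_mkH1 hA, mapLC1_h1Equiv]
  exact h1Equiv_mkH1 hB (mapZ₁ φ x)

lemma mapLC2_H2π (x : ↥(Z₂ L A)) : mapLC2 hA hB φ (H2π L A x) = H2π L B (mapZ₂ φ x) := by
  rw [← h2Equiv_mkH2 hA, mapLC2_h2Equiv]
  exact h2Equiv_mkH2 hB (mapZ₂ φ x)

end mapLC

/-! ### (4) Naturality with respect to restriction and corestriction -/

section naturality

universe u

variable {k G : Type u} [CommRing k] [Group G] {L : LevelStructure G} {A B : Rep.{u} k G}
  (hA : IsSmooth L A) (hB : IsSmooth L B) (φ : A ⟶ B)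

section res

variable {H : Type u} [Group H] {LH : LevelStructure H} {f : H →* G} (hf : LH.Compat L f)

/-- Restriction commutes with coefficient maps, on `Cx.H`. -/
theorem resH_cxMap_mapH (n : ℕ) (x : (cx hA).H n) :
    resH hf hB n ((cxMap hA hB φ).mapH n x) =
      (cxMap (hA.res hf) (hB.res hf) (Rep.resMap f φ)).mapH n (resH hf hA n x) := by
  induction x using Cx.H.induction_on with
  | _ z hz =>
    show Cx.H.mk ((cxRes hf hB).f n ((cxMap hA hB φ).f n z))
        (d_map_eq_zero _ (d_map_eq_zero _ hz)) =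
      Cx.H.mk ((cxMap (hA.res hf) (hB.res hf) (Rep.resMap f φ)).f n ((cxRes hf hA).f n z))
        (d_map_eq_zero _ (d_map_eq_zero _ hz))
    exact Cx.H.mk_congr (cxRes_cxMap hf hA hB φ n z) _

/-- Restriction commutes with coefficient maps, on `LC.H1`. -/
theorem resLC1_mapLC1 (c : H1 L A) :
    resLC1 hf hB (mapLC1 hA hB φ c) =
      mapLC1 (hA.res hf) (hB.res hf) (Rep.resMap f φ) (resLC1 hf hA c) := by
  obtain ⟨x, rfl⟩ := (h1Equiv hA).surjective c
  simp only [resLC1, mapLC1, LinearMap.comp_apply, LinearEquiv.coe_coe,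
    LinearEquiv.symm_apply_apply]
  rw [resH_cxMap_mapH]

/-- Restriction commutes with coefficient maps, on `LC.H2`. -/
theorem resLC2_mapLC2 (c : H2 L A) :
    resLC2 hf hB (mapLC2 hA hB φ c) =
      mapLC2 (hA.res hf) (hB.res hf) (Rep.resMap f φ) (resLC2 hf hA c) := by
  obtain ⟨x, rfl⟩ := (h2Equiv hA).surjective c
  simp only [resLC2, mapLC2, LinearMap.comp_apply, LinearEquiv.coe_coe,
    LinearEquiv.symm_apply_apply]
  rw [resH_cxMap_mapH]

end res

section cor

variable {S : Subgroup G} [S.FiniteIndex] (hS : L.IsOpen S)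

omit hA hB in
/-- The trace `coind (res X) ⟶ X` is natural in `X`. -/
lemma tr_coindMap_resMap (c : Rep.coind S.subtype (Rep.res S.subtype A)) :
    (Cup.tr S B).hom ((Rep.coindMap S.subtype (Rep.resMap S.subtype φ)).hom c) =
      φ.hom ((Cup.tr S A).hom c) := by
  have : Finite (G ⧸ S) := Subgroup.finite_quotient_of_finiteIndex
  rw [Cup.tr_hom_apply, Cup.tr_hom_apply, map_finsum _ (Set.toFinite _)]
  refine finsum_congr fun q => ?_
  induction q using QuotientGroup.induction_on with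
  | _ g =>
    show B.ρ g (φ.hom (c.1 g⁻¹)) = φ.hom (A.ρ g (c.1 g⁻¹))
    exact (Rep.hom_comm_apply φ g _).symm

/-- The trace chain map is natural in the coefficient module. -/
lemma cxTr_natural_f (n : ℕ) (z : (cx (isSmooth_coind hS (isSmooth_res hA))).X n) :
    (cxTr hS hB).f n ((cxMap (isSmooth_coind hS (isSmooth_res hA))
      (isSmooth_coind hS (isSmooth_res hB))
      (Rep.coindMap S.subtype (Rep.resMap S.subtype φ))).f n z) =
      (cxMap hA hB φ).f n ((cxTr hS hA).f n z) :=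
  cxMap_comm_of_comm _ _ _ _ (Rep.coindMap S.subtype (Rep.resMap S.subtype φ)) (Cup.tr S B)
    (Cup.tr S A) φ (tr_coindMap_resMap φ) n z

lemma cxTr_natural_mapH (n : ℕ) (x : (cx (isSmooth_coind hS (isSmooth_res hA))).H n) :
    (cxTr hS hB).mapH n ((cxMap (isSmooth_coind hS (isSmooth_res hA))
      (isSmooth_coind hS (isSmooth_res hB))
      (Rep.coindMap S.subtype (Rep.resMap S.subtype φ))).mapH n x) =
      (cxMap hA hB φ).mapH n ((cxTr hS hA).mapH n x) := by
  induction x using Cx.H.induction_on with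
  | _ z hz =>
    show Cx.H.mk ((cxTr hS hB).f n ((cxMap (isSmooth_coind hS (isSmooth_res hA))
        (isSmooth_coind hS (isSmooth_res hB))
        (Rep.coindMap S.subtype (Rep.resMap S.subtype φ))).f n z))
        (d_map_eq_zero _ (d_map_eq_zero _ hz)) =
      Cx.H.mk ((cxMap hA hB φ).f n ((cxTr hS hA).f n z)) (d_map_eq_zero _ (d_map_eq_zero _ hz))
    exact Cx.H.mk_congr (cxTr_natural_f hA hB φ hS n z) _

/-- Corestriction commutes with coefficient maps, in degree `0`. -/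
theorem corH₀_cxMap_mapH (x : (cx (isSmooth_res (S := S) hA)).H 0) :
    corH₀ hS hB ((cxMap (isSmooth_res hA) (isSmooth_res hB)
      (Rep.resMap S.subtype φ)).mapH 0 x) = (cxMap hA hB φ).mapH 0 (corH₀ hS hA x) := by
  obtain ⟨y, rfl⟩ := (cxSh_mapH_zero_bijective hS (isSmooth_res hA)).2 x
  rw [← cxSh_natural_mapH hS (isSmooth_res hA) (isSmooth_res hB) (Rep.resMap S.subtype φ) 0 y,
    corH₀_sh, corH₀_sh, cxTr_natural_mapH]

/-- Corestriction commutes with coefficient maps, in degree `1`. -/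
theorem corH₁_cxMap_mapH (x : (cx (isSmooth_res (S := S) hA)).H 1) :
    corH₁ hS hB ((cxMap (isSmooth_res hA) (isSmooth_res hB)
      (Rep.resMap S.subtype φ)).mapH 1 x) = (cxMap hA hB φ).mapH 1 (corH₁ hS hA x) := by
  obtain ⟨y, rfl⟩ := (cxSh_mapH_one_bijective hS (isSmooth_res hA)).2 x
  rw [← cxSh_natural_mapH hS (isSmooth_res hA) (isSmooth_res hB) (Rep.resMap S.subtype φ) 1 y,
    corH₁_sh, corH₁_sh, cxTr_natural_mapH]

/-- Corestriction commutes with coefficient maps, in degree `2`. -/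
theorem corH₂_cxMap_mapH (x : (cx (isSmooth_res (S := S) hA)).H 2) :
    corH₂ hS hB ((cxMap (isSmooth_res hA) (isSmooth_res hB)
      (Rep.resMap S.subtype φ)).mapH 2 x) = (cxMap hA hB φ).mapH 2 (corH₂ hS hA x) := by
  obtain ⟨y, rfl⟩ := (cxSh_mapH_two_bijective hS (isSmooth_res hA)).2 x
  rw [← cxSh_natural_mapH hS (isSmooth_res hA) (isSmooth_res hB) (Rep.resMap S.subtype φ) 2 y,
    corH₂_sh, corH₂_sh, cxTr_natural_mapH]

/-- Corestriction commutes with coefficient maps, on `LC.H2` (here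
`h2Equiv ∘ corH₂ ∘ h2Equiv.symm` is the map `LC.corLC2` of `Global/LCInvCoeff.lean`). -/
theorem corLC2_mapLC2_aux (c : H2 (L.comap S.subtype) (Rep.res S.subtype A)) :
    h2Equiv hB (corH₂ hS hB ((h2Equiv (isSmooth_res hB)).symm
      (mapLC2 (isSmooth_res hA) (isSmooth_res hB) (Rep.resMap S.subtype φ) c))) =
      mapLC2 hA hB φ (h2Equiv hA (corH₂ hS hA ((h2Equiv (isSmooth_res hA)).symm c))) := by
  obtain ⟨x, rfl⟩ := (h2Equiv (isSmooth_res (S := S) hA)).surjective c
  rw [mapLC2_h2Equiv, mapLC2_h2Equiv, LinearEquiv.symm_apply_apply,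
    LinearEquiv.symm_apply_apply, corH₂_cxMap_mapH]

end cor

end naturality

/-! ### The comparison -/

section Compare

variable {G : Type} [Group G] {L : LevelStructure G} {p : ℕ} {A B : Rep.{0} ℤ G}
  (hA : IsSmooth L A) (hB : IsSmooth L B) (φ : A ⟶ B) (hinj : Function.Injective φ.hom)
  (hp : p.Prime) (hcok : ∀ b : B, ∃ m : ℕ, ¬ p ∣ m ∧ ∃ a : A, φ.hom a = m • b)

include hcok in
/-- Every element of the cokernel is killed by an integer prime to `p`. -/
lemma exists_nsmul_cokerRep_eq_zero (q : cokerRep φ) : ∃ m : ℕ, ¬ p ∣ m ∧ m • q = 0 := by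
  obtain ⟨b, rfl⟩ := cokerProj_surjective φ q
  obtain ⟨m, hm, a, ha⟩ := hcok b
  refine ⟨m, hm, ?_⟩
  rw [← map_nsmul, ← ha]
  exact (exact_cokerProj φ _).2 ⟨a, rfl⟩

include hinj in
/-- The short exact sequence of LC cochain complexes attached to `0 → A → B → B/A → 0`. -/
theorem cx_shortExact_coker :
    Cx.ShortExact (cxMap hA hB φ) (cxMap hB (isSmooth_cokerRep φ hB) (cokerProj φ)) :=
  cx_shortExact φ (cokerProj φ) hA hB (isSmooth_cokerRep φ hB) hinj (cokerProj_surjective φ)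
    (exact_cokerProj φ)

include hinj hp hcok in
/-- The kernel of `H^{n+1}(A) → H^{n+1}(B)`, `n ≤ 1`, consists of classes killed by integers
prime to `p`. -/
theorem exists_nsmul_eq_zero_of_mapH_eq_zero (n : ℕ) (hn : n ≤ 1) (c : (cx hA).H (n + 1))
    (hc : (cxMap hA hB φ).mapH (n + 1) c = 0) : ∃ m : ℕ, ¬ p ∣ m ∧ m • c = 0 := by
  obtain ⟨q, rfl⟩ := ((cx_shortExact_coker hA hB φ hinj).exact_δH_mapH n c).1 hc
  obtain ⟨m, hm, hq⟩ := exists_nsmul_H_eq_zero (isSmooth_cokerRep φ hB) hp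
    (exists_nsmul_cokerRep_eq_zero φ hcok) n (by omega) q
  exact ⟨m, hm, by rw [← map_nsmul, hq, map_zero]⟩

include hinj hp hcok in
/-- **(1)** If `H¹(B)` has no `p`-torsion, then `H¹(A)` has no `p`-torsion. -/
theorem cxH1_pTorsion_eq_zero_of (hB1 : ∀ c : (cx hB).H 1, p • c = 0 → c = 0)
    (c : (cx hA).H 1) (hc : p • c = 0) : c = 0 := by
  have h1 : (cxMap hA hB φ).mapH 1 c = 0 := hB1 _ (by rw [← map_nsmul, hc, map_zero])
  obtain ⟨m, hm, hmc⟩ := exists_nsmul_eq_zero_of_mapH_eq_zero hA hB φ hinj hp hcok 0 (Nat.zero_le 1) c h1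
  exact eq_zero_of_pow_nsmul_of_nsmul hp (n := 1) (by rwa [pow_one]) hm hmc

include hinj hp hcok in
/-- **(2), injectivity**: `H²(A) → H²(B)` is injective on `p`-primary classes. -/
theorem cxMapH2_injective_on_pPrimary (c : (cx hA).H 2) (hc : ∃ n : ℕ, p ^ n • c = 0)
    (h : (cxMap hA hB φ).mapH 2 c = 0) : c = 0 :=
  eq_zero_of_pPrimary_of_ker hp ((cxMap hA hB φ).mapH 2).toAddMonoidHom
    (fun a ha => exists_nsmul_eq_zero_of_mapH_eq_zero hA hB φ hinj hp hcok 1 le_rfl a ha) c hc h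

include hinj hp hcok in
/-- **(2), surjectivity**: every `p`-primary class of `H²(B)` comes from a `p`-primary class
of `H²(A)` (killed by the same power of `p`). -/
theorem cxMapH2_surjective_on_pPrimary (b : (cx hB).H 2) (n : ℕ) (hb : p ^ n • b = 0) :
    ∃ c : (cx hA).H 2, p ^ n • c = 0 ∧ (cxMap hA hB φ).mapH 2 c = b :=
  exists_pPrimary_preimage hp ((cxMap hA hB φ).mapH 2).toAddMonoidHom
    ((cxMap hB (isSmooth_cokerRep φ hB) (cokerProj φ)).mapH 2).toAddMonoidHom
    (fun b hb => ((cx_shortExact_coker hA hB φ hinj).exact_mapH_mapH 2 b).1 hb)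
    (fun a ha => exists_nsmul_eq_zero_of_mapH_eq_zero hA hB φ hinj hp hcok 1 le_rfl a ha)
    (exists_nsmul_H_eq_zero (isSmooth_cokerRep φ hB) hp
      (exists_nsmul_cokerRep_eq_zero φ hcok) 2 le_rfl) b n hb

/-! #### The same statements for `LC.H1`, `LC.H2` in the Prelude shape -/

include hA hB hinj hp hcok in
/-- **(1)**, `p`-torsion form: if `LC.H1 L B` has no `p`-torsion, then `LC.H1 L A` has none. -/
theorem H1_pTorsion_eq_zero_of' (hB1 : ∀ c : H1 L B, p • c = 0 → c = 0)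
    (c : H1 L A) (hc : p • c = 0) : c = 0 := by
  have h := cxH1_pTorsion_eq_zero_of hA hB φ hinj hp hcok
    (fun c hc => (h1Equiv hB).injective
      ((hB1 _ (by rw [← map_nsmul, hc, map_zero])).trans (map_zero _).symm))
    ((h1Equiv hA).symm c) (by rw [← map_nsmul, hc, map_zero])
  rw [← (h1Equiv hA).apply_symm_apply c, h, map_zero]

include hA hB hinj hp hcok in
/-- **(1)** If `LC.H1 L B = 0`, then `LC.H1 L A` has no `p`-torsion. -/
theorem H1_pTorsion_eq_zero_of (hB1 : ∀ c : H1 L B, c = 0) (c : H1 L A) (hc : p • c = 0) :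
    c = 0 :=
  H1_pTorsion_eq_zero_of' hA hB φ hinj hp hcok (fun c _ => hB1 c) c hc

include hA hB hinj hp hcok in
/-- **(1')** If `LC.H1 L B` has no `p`-torsion, then `LC.H1 L A` is `p`-divisible (it is a
torsion group without `p`-torsion). -/
theorem H1_pDivisible_of' (hB1 : ∀ c : H1 L B, p • c = 0 → c = 0) (c : H1 L A) :
    ∃ y : H1 L A, p • y = c :=
  exists_nsmul_eq_of_torsion_of_pTorsionFree hp (exists_pos_nsmul_H1_eq_zero hA)
    (H1_pTorsion_eq_zero_of' hA hB φ hinj hp hcok hB1) c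

include hA hB hinj hp hcok in
/-- **(1')** If `LC.H1 L B = 0`, then `LC.H1 L A` is `p`-divisible. -/
theorem H1_pDivisible_of (hB1 : ∀ c : H1 L B, c = 0) (c : H1 L A) : ∃ y : H1 L A, p • y = c :=
  H1_pDivisible_of' hA hB φ hinj hp hcok (fun c _ => hB1 c) c

include hA hB hinj hp hcok in
/-- **(2), injectivity**: `LC.H2 L A → LC.H2 L B` is injective on `p`-primary classes. -/
theorem mapLC2_injective_on_pPrimary (c : H2 L A) (hc : ∃ n : ℕ, p ^ n • c = 0)
    (h : mapLC2 hA hB φ c = 0) : c = 0 := by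
  obtain ⟨n, hn⟩ := hc
  have h1 := cxMapH2_injective_on_pPrimary hA hB φ hinj hp hcok ((h2Equiv hA).symm c)
    ⟨n, by rw [← map_nsmul, hn, map_zero]⟩
    ((h2Equiv hB).injective (by
      rw [← mapLC2_h2Equiv, LinearEquiv.apply_symm_apply, h, map_zero]))
  rw [← (h2Equiv hA).apply_symm_apply c, h1, map_zero]

include hA hB hinj hp hcok in
/-- **(2), surjectivity** (with control of the exponent). -/
theorem mapLC2_surjective_on_pPrimary' (b : H2 L B) (n : ℕ) (hb : p ^ n • b = 0) :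
    ∃ c : H2 L A, p ^ n • c = 0 ∧ mapLC2 hA hB φ c = b := by
  obtain ⟨c, hc, hcb⟩ := cxMapH2_surjective_on_pPrimary hA hB φ hinj hp hcok
    ((h2Equiv hB).symm b) n (by rw [← map_nsmul, hb, map_zero])
  refine ⟨h2Equiv hA c, by rw [← map_nsmul, hc, map_zero], ?_⟩
  rw [mapLC2_h2Equiv, hcb, LinearEquiv.apply_symm_apply]

include hA hB hinj hp hcok in
/-- **(2), surjectivity**: every `p`-primary class of `LC.H2 L B` comes from a `p`-primary class
of `LC.H2 L A`. -/
theorem mapLC2_surjective_on_pPrimary (b : H2 L B) (hb : ∃ n : ℕ, p ^ n • b = 0) :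
    ∃ c : H2 L A, (∃ n : ℕ, p ^ n • c = 0) ∧ mapLC2 hA hB φ c = b := by
  obtain ⟨n, hn⟩ := hb
  obtain ⟨c, hc, hcb⟩ := mapLC2_surjective_on_pPrimary' hA hB φ hinj hp hcok b n hn
  exact ⟨c, ⟨n, hc⟩, hcb⟩

/-! #### (3) Invariants modulo `p` -/

include hinj hcok in
omit hA hB in
/-- A preimage under `φ` of a multiple of an invariant element is invariant. -/
lemma exists_invariant_preimage (b : B) (hb : ∀ g, B.ρ g b = b) :
    ∃ m : ℕ, ¬ p ∣ m ∧ ∃ a : A, (∀ g, A.ρ g a = a) ∧ φ.hom a = m • b := by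
  obtain ⟨m, hm, a, ha⟩ := hcok b
  refine ⟨m, hm, a, fun g => hinj ?_, ha⟩
  rw [Rep.hom_comm_apply, ha, map_nsmul, hb g]

include hinj hp hcok in
omit hA hB in
/-- **(3), injectivity** of `A^G / p → B^G / p`. -/
theorem invariants_mod_p_injective (a : A) (ha : ∀ g, A.ρ g a = a)
    (h : ∃ b : B, (∀ g, B.ρ g b = b) ∧ φ.hom a = p • b) :
    ∃ a' : A, (∀ g, A.ρ g a' = a') ∧ a = p • a' := by
  obtain ⟨b, hb, hab⟩ := h
  obtain ⟨m, hm, a₁, ha₁, ha₁b⟩ := exists_invariant_preimage φ hinj hcok b hb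
  obtain ⟨u, v, huv⟩ := exists_mul_eq_one_add_mul hp hm 1
  rw [pow_one] at huv
  -- `m • a = p • a₁`
  have h1 : m • a = p • a₁ := hinj (by rw [map_nsmul, map_nsmul, hab, ha₁b, smul_comm])
  refine ⟨u • a₁ - v • a, fun g => ?_, ?_⟩
  · rw [map_sub, map_nsmul, map_nsmul, ha₁ g, ha g]
  · have h2 : (u * m) • a = a + (v * p) • a := by rw [huv, add_smul, one_smul]
    rw [smul_sub, smul_comm p u a₁, ← h1, smul_smul, h2, smul_smul, mul_comm p v]
    abel

include hinj hp hcok in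
omit hA hB in
/-- **(3), surjectivity** of `A^G / p → B^G / p`. -/
theorem invariants_mod_p_surjective (b : B) (hb : ∀ g, B.ρ g b = b) :
    ∃ a : A, (∀ g, A.ρ g a = a) ∧ ∃ b' : B, (∀ g, B.ρ g b' = b') ∧ b = φ.hom a + p • b' := by
  obtain ⟨m, hm, a₁, ha₁, ha₁b⟩ := exists_invariant_preimage φ hinj hcok b hb
  obtain ⟨u, v, huv⟩ := exists_mul_eq_one_add_mul hp hm 1
  rw [pow_one] at huv
  refine ⟨u • a₁, fun g => by rw [map_nsmul, ha₁ g], -(v • b),
    fun g => by rw [map_neg, map_nsmul, hb g], ?_⟩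
  have h2 : (u * m) • b = b + (v * p) • b := by rw [huv, add_smul, one_smul]
  rw [map_nsmul, ha₁b, smul_smul, h2, smul_neg, smul_smul, mul_comm p v]
  abel

/-! #### (5) Transfer of an invariant map -/

section transfer

variable {T : Type*} [AddCommGroup T] (invB : H2 L B →+ T)

include hinj hp hcok in
/-- **(5a)** If `invB` is injective on the `p`-primary classes of `LC.H2 L B`, then
`invB ∘ φ₂` is injective on the `p`-primary classes of `LC.H2 L A`. -/
theorem eq_zero_of_inv_mapLC2_eq_zero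
    (hinjB : ∀ c : H2 L B, (∃ n : ℕ, p ^ n • c = 0) → invB c = 0 → c = 0)
    (c : H2 L A) (hc : ∃ n : ℕ, p ^ n • c = 0) (h0 : invB (mapLC2 hA hB φ c) = 0) : c = 0 := by
  refine mapLC2_injective_on_pPrimary hA hB φ hinj hp hcok c hc (hinjB _ ?_ h0)
  obtain ⟨n, hn⟩ := hc
  exact ⟨n, by rw [← map_nsmul, hn, map_zero]⟩

include hinj hp hcok in
/-- **(5b)** A value of `invB` on a `p^a`-torsion class of `LC.H2 L B` is a value of
`invB ∘ φ₂` on a `p^a`-torsion class of `LC.H2 L A`. -/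
theorem exists_inv_mapLC2_eq (a : ℕ) (v : T)
    (hv : ∃ b : H2 L B, p ^ a • b = 0 ∧ invB b = v) :
    ∃ c : H2 L A, p ^ a • c = 0 ∧ invB (mapLC2 hA hB φ c) = v := by
  obtain ⟨b, hb, hbv⟩ := hv
  obtain ⟨c, hc, hcb⟩ := mapLC2_surjective_on_pPrimary' hA hB φ hinj hp hcok b a hb
  exact ⟨c, hc, by rw [hcb, hbv]⟩

end transfer

end Compare

end LC

end Fermat.Agent.CFT
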