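import Fermat.Agent.CFT.LC.PInvFamily
import Fermat.Agent.CFT.LC.PrimeToPCompare
import Fermat.Agent.CFT.HyperExt.LCDualityBaseE
import Fermat.Agent.CFT.HyperExt.LCDuality

/-!
# Transfer of a `p`-primary family of invariants along an injection with prime-to-`p` cokernel
(S55, node C9 [F2])

Let `φ : A ⟶ B` be an injective morphism of smooth `ℤ[G]`-modules such that every element of the
cokernel is killed by an integer prime to `p` (`LC/PrimeToPCompare.lean`).

* `LC.PInvFamily.transfer`: a `PInvFamily` for `B` induces one for `A`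
  (`invG := I.invG ∘ φ_*`, `invS U := I.invS U ∘ (Res_U φ)_*`);
* `transfer_invG`, `transfer_invS`, `transfer_tauS`, `transfer_invHpG`, `transfer_invHpS`: the
  induced invariants in their various shapes;
* `cxH1_pTorsion_eq_zero_of_res`, `cxH1_pDivisible_of_res` (and `LC.H1` forms): transfer of
  (CF1a), (CF1b) to every open subgroup;
* `LC.PInvFamily.stdRes_isPerfect_of_pairLin`: for an arbitrary family `J`, the base case of
  `lc_duality` for an open subgroup `U` from (CF1a), (CF1b) and the perfectness of the symbol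
  pairing for `J.tauS U`;
* `LC.PInvFamily.isPerfect_of_pairLin`: `lc_duality` for the invariants of a family `J`, with
  hypotheses (CF1a), (CF1b), (E) for the open subgroups of an open `G₀` of index prime to `p`.
-/

set_option autoImplicit false
set_option linter.unusedSectionVars false

open CategoryTheory

namespace Fermat.Agent.CFT

namespace LC

open LevelStructure

/-! ### The hypotheses restrict to subgroups -/

section resHyp

variable {G : Type} [Group G] {p : ℕ} {A B : Rep.{0} ℤ G} (φ : A ⟶ B)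

/-- The cokernel hypothesis for `Res_U φ`. -/
lemma cok_resMap (U : Subgroup G)
    (hcok : ∀ b : B, ∃ m : ℕ, ¬ p ∣ m ∧ ∃ a : A, φ.hom a = m • b) :
    ∀ b : Rep.res U.subtype B, ∃ m : ℕ, ¬ p ∣ m ∧
      ∃ a : Rep.res U.subtype A, (Rep.resMap U.subtype φ).hom a = m • b :=
  hcok

/-- The injectivity hypothesis for `Res_U φ`. -/
lemma inj_resMap (U : Subgroup G) (hinj : Function.Injective φ.hom) :
    Function.Injective (Rep.resMap U.subtype φ).hom :=
  hinj

end resHyp

/-! ### `mapLC2` and torsion -/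

section tors

variable {G : Type} [Group G] {L : LevelStructure G} {p : ℕ} {A B : Rep.{0} ℤ G}
  (hA : IsSmooth L A) (hB : IsSmooth L B) (φ : A ⟶ B)

lemma mapLC2_mem_torsionBy {c : H2 L A} (hc : c ∈ AddSubgroup.torsionBy (H2 L A) (p : ℤ)) :
    mapLC2 hA hB φ c ∈ AddSubgroup.torsionBy (H2 L B) (p : ℤ) := by
  rw [AddSubgroup.torsionBy.nsmul_iff] at hc ⊢
  rw [← map_nsmul, hc, map_zero]

lemma cxMap_mapH_mem_Hp {x : (cx hA).H 2} (hx : x ∈ Hp p hA 2) :
    (cxMap hA hB φ).mapH 2 x ∈ Hp p hB 2 := by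
  rw [mem_Hp] at hx ⊢
  rw [← map_nsmul, hx, map_zero]

end tors

namespace PInvFamily

variable {G : Type} [Group G] {L : LevelStructure G} {p : ℕ} {A B : Rep.{0} ℤ G}
  {hB : IsSmooth L B} (I : PInvFamily L B hB p) (hA : IsSmooth L A) (φ : A ⟶ B)
  (hinj : Function.Injective φ.hom) (hp : p.Prime)
  (hcok : ∀ b : B, ∃ m : ℕ, ¬ p ∣ m ∧ ∃ a : A, φ.hom a = m • b)

/-- **Transfer of a family of invariants** along an injection `φ : A ⟶ B` whose cokernel is
elementwise killed by integers prime to `p`. -/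
noncomputable def transfer : PInvFamily L A hA p where
  invG := I.invG.comp (mapLC2 hA hB φ).toAddMonoidHom
  invS S hS := (I.invS S hS).comp
    (mapLC2 (isSmooth_res (S := S) hA) (isSmooth_res (S := S) hB)
      (Rep.resMap S.subtype φ)).toAddMonoidHom
  injG c hc h0 := eq_zero_of_inv_mapLC2_eq_zero hA hB φ hinj hp hcok I.invG I.injG c hc h0
  injS S hS c hc h0 :=
    eq_zero_of_inv_mapLC2_eq_zero (isSmooth_res (S := S) hA) (isSmooth_res (S := S) hB)
      (Rep.resMap S.subtype φ) (inj_resMap φ S hinj) hp (cok_resMap φ S hcok) (I.invS S hS)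
      (I.injS S hS) c hc h0
  valG a := exists_inv_mapLC2_eq hA hB φ hinj hp hcok I.invG a _ (I.valG a)
  valS S hS := by
    obtain ⟨b, hb, hbv⟩ := I.valS S hS
    obtain ⟨c, hc, hcv⟩ := exists_inv_mapLC2_eq (isSmooth_res (S := S) hA)
      (isSmooth_res (S := S) hB) (Rep.resMap S.subtype φ) (inj_resMap φ S hinj) hp
      (cok_resMap φ S hcok) (I.invS S hS) 1 _ ⟨b, by rwa [pow_one], hbv⟩
    exact ⟨c, by rwa [pow_one] at hc, hcv⟩
  res S hS x := by
    have h := resLC2_mapLC2 hA hB φ (LevelStructure.compat_comap L S.subtype) x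
    show I.invS S hS (mapLC2 (isSmooth_res (S := S) hA) (isSmooth_res (S := S) hB)
      (Rep.resMap S.subtype φ) (resLC2 (LevelStructure.compat_comap L S.subtype) hA x)) =
      S.index • I.invG (mapLC2 hA hB φ x)
    rw [← I.res S hS (mapLC2 hA hB φ x), h]

@[simp] lemma transfer_invG (c : H2 L A) :
    (I.transfer hA φ hinj hp hcok).invG c = I.invG (mapLC2 hA hB φ c) := rfl

@[simp] lemma transfer_invS (S : Subgroup G) (hS : L.IsOpen S)
    (c : H2 (L.comap S.subtype) (Rep.res S.subtype A)) :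
    (I.transfer hA φ hinj hp hcok).invS S hS c =
      I.invS S hS (mapLC2 (isSmooth_res (S := S) hA) (isSmooth_res (S := S) hB)
        (Rep.resMap S.subtype φ) c) := rfl

variable [Fact p.Prime]

/-- The `τ`-form of the transferred invariant of an open subgroup. -/
theorem transfer_tauS (S : Subgroup G) (hS : L.IsOpen S)
    (c : ↥(AddSubgroup.torsionBy (H2 (L.comap S.subtype) (Rep.res S.subtype A)) (p : ℤ))) :
    (I.transfer hA φ hinj hp hcok).tauS S hS c =
      I.tauS S hS ⟨mapLC2 (isSmooth_res (S := S) hA) (isSmooth_res (S := S) hB)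
        (Rep.resMap S.subtype φ) c.1, mapLC2_mem_torsionBy _ _ _ c.2⟩ := by
  apply zmodToCircle_injective p
  rw [zmodToCircle_tauS, zmodToCircle_tauS]
  rfl

/-- The `ZMod p`-valued transferred invariant of the whole group. -/
theorem transfer_invHpG (x : Hp p hA 2) :
    (I.transfer hA φ hinj hp hcok).invHpG x =
      I.invHpG ⟨(cxMap hA hB φ).mapH 2 x.1, cxMap_mapH_mem_Hp hA hB φ x.2⟩ := by
  apply zmodToCircle_injective p
  rw [zmodToCircle_invHpG, zmodToCircle_invHpG, transfer_invG, mapLC2_h2Equiv]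

/-- The `ZMod p`-valued transferred invariant of an open subgroup. -/
theorem transfer_invHpS (S : Subgroup G) (hS : L.IsOpen S)
    (x : Hp p (isSmooth_res (S := S) hA) 2) :
    (I.transfer hA φ hinj hp hcok).invHpS S hS x =
      I.invHpS S hS ⟨(cxMap (isSmooth_res (S := S) hA) (isSmooth_res (S := S) hB)
        (Rep.resMap S.subtype φ)).mapH 2 x.1, cxMap_mapH_mem_Hp _ _ _ x.2⟩ := by
  apply zmodToCircle_injective p
  rw [zmodToCircle_invHpS, zmodToCircle_invHpS, transfer_invS, mapLC2_h2Equiv]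

end PInvFamily

/-! ### Transfer of (CF1) to open subgroups -/

section CF1

variable {G : Type} [Group G] {L : LevelStructure G} {p : ℕ} {A B : Rep.{0} ℤ G}
  (hA : IsSmooth L A) (hB : IsSmooth L B) (φ : A ⟶ B)
  (hinj : Function.Injective φ.hom) (hp : p.Prime)
  (hcok : ∀ b : B, ∃ m : ℕ, ¬ p ∣ m ∧ ∃ a : A, φ.hom a = m • b) (U : Subgroup G)

include hA hB hinj hp hcok in
/-- **(CF1a)** for `A|U` from (CF1a) for `B|U`, `LC.H1` form. -/
theorem H1_pTorsion_eq_zero_of_res
    (hB1 : ∀ c : H1 (L.comap U.subtype) (Rep.res U.subtype B), p • c = 0 → c = 0)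
    (c : H1 (L.comap U.subtype) (Rep.res U.subtype A)) (hc : p • c = 0) : c = 0 :=
  H1_pTorsion_eq_zero_of' (isSmooth_res (S := U) hA) (isSmooth_res (S := U) hB)
    (Rep.resMap U.subtype φ) (inj_resMap φ U hinj) hp (cok_resMap φ U hcok) hB1 c hc

include hA hB hinj hp hcok in
/-- **(CF1b)** for `A|U` from (CF1a) for `B|U`, `LC.H1` form. -/
theorem H1_pDivisible_of_res
    (hB1 : ∀ c : H1 (L.comap U.subtype) (Rep.res U.subtype B), p • c = 0 → c = 0)
    (c : H1 (L.comap U.subtype) (Rep.res U.subtype A)) :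
    ∃ y : H1 (L.comap U.subtype) (Rep.res U.subtype A), p • y = c :=
  H1_pDivisible_of' (isSmooth_res (S := U) hA) (isSmooth_res (S := U) hB)
    (Rep.resMap U.subtype φ) (inj_resMap φ U hinj) hp (cok_resMap φ U hcok) hB1 c

include hB hinj hp hcok in
/-- **(CF1a)** for `A|U` from (CF1a) for `B|U`, in the shape of `StdBase.stdRes_isPerfect`. -/
theorem cxH1_pTorsion_eq_zero_of_res
    (hB1 : ∀ c : H1 (L.comap U.subtype) (Rep.res U.subtype B), p • c = 0 → c = 0)
    (x : (cx (isSmooth_res (S := U) hA)).H 1) (hx : p • x = 0) : x = 0 := by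
  have h := H1_pTorsion_eq_zero_of_res hA hB φ hinj hp hcok U hB1
    (h1Equiv (isSmooth_res (S := U) hA) x) (by rw [← map_nsmul, hx, map_zero])
  exact (LinearEquiv.map_eq_zero_iff _).1 h

include hB hinj hp hcok in
/-- **(CF1b)** for `A|U` from (CF1a) for `B|U`, in the shape of `StdBase.stdRes_isPerfect`. -/
theorem cxH1_pDivisible_of_res
    (hB1 : ∀ c : H1 (L.comap U.subtype) (Rep.res U.subtype B), p • c = 0 → c = 0)
    (x : (cx (isSmooth_res (S := U) hA)).H 1) :
    ∃ y : (cx (isSmooth_res (S := U) hA)).H 1, p • y = x := by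
  obtain ⟨y, hy⟩ := H1_pDivisible_of_res hA hB φ hinj hp hcok U hB1
    (h1Equiv (isSmooth_res (S := U) hA) x)
  refine ⟨(h1Equiv (isSmooth_res (S := U) hA)).symm y, ?_⟩
  rw [← map_nsmul, hy, LinearEquiv.symm_apply_apply]

end CF1

/-! ### The base case of `lc_duality` from a family of invariants -/

namespace PInvFamily

variable {G : Type} [Group G] {L : LevelStructure G} {p : ℕ} [Fact p.Prime] {A : Rep.{0} ℤ G}
  {hA : IsSmooth L A} (J : PInvFamily L A hA p)

/-- **The base case of `lc_duality` for an open subgroup `U`** from (CF1a), (CF1b) for `A|U`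
and the perfectness (on the left) of the symbol pairing `A^U/p × H¹(U, 𝔽_p) → 𝔽_p` attached to
`J.tauS U hU`. -/
theorem stdRes_isPerfect_of_pairLin (U : Subgroup G) (hU : L.IsOpen U)
    (hCF1a : ∀ x : (cx (isSmooth_res (S := U) hA)).H 1, p • x = 0 → x = 0)
    (hCF1b : ∀ x : (cx (isSmooth_res (S := U) hA)).H 1, ∃ y, p • y = x)
    (hE : Function.Bijective
      (LCSym.pairLin (L.comap U.subtype) (Rep.res U.subtype A) (J.tauS U hU))) :
    (stdRes (L.comap U.subtype) p).IsPerfect p (isSmooth_res (S := U) hA) zmod_nsmul_self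
      (J.invHpS U hU) :=
  StdBase.stdRes_isPerfect (isSmooth_res (S := U) hA) zmod_nsmul_self (J.invHpS U hU)
    (J.tauS U hU) hCF1a hCF1b (J.invHpS_bijective U hU)
    (fun x => J.invHpS_eq_tauS U hU x.1 x.2 _) hE

/-- The hypothesis `hinv` of `lc_duality` for the `ZMod p`-valued invariants of a family. -/
theorem hinv_lc_duality (S : Subgroup G) (hS : L.IsOpen S) :
    haveI := hS.finiteIndex
    ∀ (x : (cx (isSmooth_res (S := S) hA)).H 2)
      (hx : x ∈ Hp p (isSmooth_res (S := S) hA) 2)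
      (hx' : corH₂ hS hA x ∈ Hp p hA 2),
      J.invHpG ⟨corH₂ hS hA x, hx'⟩ = J.invHpS S hS ⟨x, hx⟩ :=
  J.invHpG_corH₂ S hS

/-- **`lc_duality` for a family of invariants**: if (CF1a), (CF1b) and the perfectness (on the
left) of the symbol pairing hold for all open subgroups of an open subgroup `G₀` of index prime
to `p`, then the duality maps of every finite smooth `p`-torsion module are bijective. -/
theorem isPerfect_of_pairLin (G₀ : Subgroup G) (hG₀ : L.IsOpen G₀)
    (hcop : Nat.Coprime p G₀.index)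
    (hCF1a : ∀ (U : Subgroup G), L.IsOpen U → U ≤ G₀ →
      ∀ x : (cx (isSmooth_res (S := U) hA)).H 1, p • x = 0 → x = 0)
    (hCF1b : ∀ (U : Subgroup G), L.IsOpen U → U ≤ G₀ →
      ∀ x : (cx (isSmooth_res (S := U) hA)).H 1, ∃ y, p • y = x)
    (hE : ∀ (U : Subgroup G) (hU : L.IsOpen U), U ≤ G₀ → Function.Bijective
      (LCSym.pairLin (L.comap U.subtype) (Rep.res U.subtype A) (J.tauS U hU)))
    (M : PMod L p) : M.res.IsPerfect p hA M.tors J.invHpG :=
  lc_duality hA G₀ hG₀ hcop J.invHpG J.invHpS (fun S hS _ => J.invHpG_corH₂ S hS)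
    (fun S hS hle => J.stdRes_isPerfect_of_pairLin S hS (hCF1a S hS hle) (hCF1b S hS hle)
      (hE S hS hle)) M

/-- **`lc_duality` for a transferred family**: (CF1) is inherited from `B`, the perfectness of
the symbol pairing for `A` is a hypothesis. -/
theorem transfer_isPerfect {B : Rep.{0} ℤ G} {hB : IsSmooth L B} (I : PInvFamily L B hB p)
    (hA : IsSmooth L A) (φ : A ⟶ B) (hinj : Function.Injective φ.hom) (hp : p.Prime)
    (hcok : ∀ b : B, ∃ m : ℕ, ¬ p ∣ m ∧ ∃ a : A, φ.hom a = m • b)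
    (G₀ : Subgroup G) (hG₀ : L.IsOpen G₀) (hcop : Nat.Coprime p G₀.index)
    (hB1 : ∀ (U : Subgroup G), L.IsOpen U → U ≤ G₀ →
      ∀ c : H1 (L.comap U.subtype) (Rep.res U.subtype B), p • c = 0 → c = 0)
    (hE : ∀ (U : Subgroup G) (hU : L.IsOpen U), U ≤ G₀ → Function.Bijective
      (LCSym.pairLin (L.comap U.subtype) (Rep.res U.subtype A)
        ((I.transfer hA φ hinj hp hcok).tauS U hU)))
    (M : PMod L p) : M.res.IsPerfect p hA M.tors (I.transfer hA φ hinj hp hcok).invHpG :=
  (I.transfer hA φ hinj hp hcok).isPerfect_of_pairLin G₀ hG₀ hcop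
    (fun U hU hle => cxH1_pTorsion_eq_zero_of_res hA hB φ hinj hp hcok U (hB1 U hU hle))
    (fun U hU hle => cxH1_pDivisible_of_res hA hB φ hinj hp hcok U (hB1 U hU hle)) hE M

end PInvFamily

end LC

end Fermat.Agent.CFT
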