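import Fermat.Agent.CFT.LC.Res
import Fermat.Agent.CFT.LC.LowDegree

/-!
# Level cohomology: modules which are "locally coinduced" (interface)

Let `G` be a group with a level structure `L`, and let `r i : H i →* G` be a finite family of
group homomorphisms.  A smooth `G`-module `A` together with `H i`-equivariant maps
`lam i : A → Y i` is *locally coinduced* (`IsLocCoind`) if `a ↦ (g ↦ lam i (g • a))_i` identifies
`A` with the smooth part of the product of the modules coinduced from the `Y i` along the `r i`:

* `inj`: an element `a` all of whose translates are killed by all the `lam i` is zero;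
* `surj`: every family of functions `F i : G → Y i` which are `H i`-equivariant
  (`F i (r i h * g) = h • F i g`) and right-invariant under a common level comes from an `a`.

In the application `G = G_ℚ` with the level structure of `G_S`, `H q = G_{ℚ_q}` for `q ∈ S`,
`A = Hom(P, J_S)` for a lattice `P`, `Y q = Hom(P, ℚ̄_qˣ)`, `lam q` = evaluation at the fixed
embedding.  The consequence (`LC/ClosedShapiro.lean`) is that localisation
`H^n(G, A) → ∏ H^n(H i, Y i)` is bijective for `n ≤ 1` and injective for `n = 2` (the second
and third under a Hilbert 90 hypothesis on the `Y i`).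
-/

set_option autoImplicit false

universe u

open CategoryTheory

namespace Fermat.Agent.CFT

namespace LC

variable {k G : Type u} [CommRing k] [Group G] (L : LevelStructure G)
  {ι : Type*} {H : ι → Type u} [∀ i, Group (H i)] (r : ∀ i, H i →* G)

/-- `A` (with the maps `lam i`) is the smooth part of the product of the modules coinduced from
`Y i` along `r i`. -/
structure IsLocCoind (A : Rep.{u} k G) (Y : ∀ i, Rep.{u} k (H i))
    (lam : ∀ i, Rep.res (r i) A ⟶ Y i) : Prop where
  /-- joint injectivity of `a ↦ (g ↦ lam i (g • a))` -/
  inj : ∀ a : A, (∀ i (g : G), (lam i).hom (A.ρ g a) = 0) → a = 0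
  /-- every equivariant family of level-invariant functions is hit -/
  surj : ∀ F : ∀ i, G → Y i,
    (∀ i (h : H i) (g : G), F i (r i h * g) = (Y i).ρ h (F i g)) →
    (∃ N, L.IsLevel N ∧ ∀ i (g : G), ∀ n ∈ N, F i (g * n) = F i g) →
    ∃ a : A, ∀ i (g : G), (lam i).hom (A.ρ g a) = F i g

end LC

end Fermat.Agent.CFT
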