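import Fermat.Agent.CFT.LC.CoindPair
import Fermat.Agent.CFT.LC.ShapiroCup
import Fermat.Agent.CFT.LC.CxPairing
import Fermat.Agent.CFT.HyperExt.EFive
import Fermat.Agent.CFT.HyperExt.FibPairing
import Fermat.Agent.CFT.HyperExt.LCExtSES

/-!
# Shapiro's lemma for hyper-Ext and its adjointness (S55, node N4)

For an open subgroup `S` of `(G, L)`, a lattice pair `R` over `S` and a smooth `G`-module `C`:

* generic lemmas on complexes: `Cx.Hom.mapH_bijective_of_bijective`,
  `Cx.EMap_bijective_of_bijective`, `Cx.Epair_EMap_cov` (covariant naturality of `Epair` in all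
  variables);
* `LC.shExtMap hS R hC n : Ext^n_G(coind R, C) → Ext^n_S(R, res C)` (all `n`), bijective for
  `n ≤ 2` (`LC.shExtMap_bijective`, `LC.shExt`).  It is the composite of the inverse of
  `LC.thetaE` (induced by `θ : coind Hom(P, res C) ≅ Hom(coind P, C)`) and of `LC.shE` (induced by
  the Shapiro chain maps `LC.cxSh`);
* `LatticeRes.extPair R hX n s m hm : Ext^{n+1}(N, X) × H^s(N) → H^{m+1}(X)`: the Ext pairing
  computed from a resolution `R` of `N`;
* `LC.coindRes hS R`: the coinduced resolution of `coind Y`;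
* **adjointness**: `LC.extPair_coindRes₁₁`, `LC.extPair_coindRes₂₀`, `LC.extPair_coindRes₁₀`:
  `⟨e, c⟩_G = cor ⟨sh e, sh c⟩_S`.
-/

set_option autoImplicit false

universe u v

open CategoryTheory

namespace Fermat.Agent.CFT

/-! ### Generic lemmas on complexes -/

namespace HExt.Cx

variable {k : Type u} [CommRing k]

/-- A degreewise bijective chain map induces bijections on cohomology. -/
theorem Hom.mapH_bijective_of_bijective {A B : Cx.{u, v} k} (f : Hom A B)
    (hf : ∀ n, Function.Bijective (f.f n)) (n : ℕ) : Function.Bijective (f.mapH n) := by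
  constructor
  · rw [injective_iff_map_eq_zero]
    intro x hx
    induction x using H.induction_on with | _ z hz =>
    rw [Hom.mapH_mk] at hx
    cases n with
    | zero =>
      rw [H.mk_eq_zero_iff_zero] at hx ⊢
      exact (hf 0).1 (hx.trans (map_zero _).symm)
    | succ n =>
      rw [H.mk_eq_zero_iff_succ] at hx ⊢
      obtain ⟨y, hy⟩ := hx
      obtain ⟨y', rfl⟩ := (hf n).2 y
      refine ⟨y', (hf (n + 1)).1 ?_⟩
      rw [f.comm, hy]
  · intro x
    induction x using H.induction_on with | _ w hw =>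
    obtain ⟨z, rfl⟩ := (hf n).2 w
    have hz : A.d n z = 0 := (hf (n + 1)).1 (by rw [f.comm, hw, map_zero])
    exact ⟨H.mk z hz, rfl⟩

variable {F₁ G₁ F₂ G₂ : Cx.{u, v} k}
  (φ₁ : Hom F₁ G₁) (φ₂ : Hom F₂ G₂) (α : Hom F₁ F₂) (β : Hom G₁ G₂)
  (hsq : ∀ n (x : F₁.X n), β.f n (φ₁.f n x) = φ₂.f n (α.f n x))

/-- A square of chain maps with degreewise bijective vertical maps induces bijections on the
hypercohomology of the fibres. -/
theorem EMap_bijective_of_bijective (hα : ∀ n, Function.Bijective (α.f n))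
    (hβ : ∀ n, Function.Bijective (β.f n)) (n : ℕ) :
    Function.Bijective (EMap φ₁ φ₂ α β hsq n) := by
  have hα' := Hom.mapH_bijective_of_bijective α hα
  have hβ' := Hom.mapH_bijective_of_bijective β hβ
  cases n with
  | zero => exact EMap_zero_bijective φ₁ φ₂ α β hsq (hα' 0) (hβ' 0).1
  | succ n =>
    exact EMap_succ_bijective φ₁ φ₂ α β hsq n (hα' n).2 (hβ' n) (hα' (n + 1)) (hβ' (n + 1)).1

section cov

variable {A₀ A₁ B₁ B₀ BN Z A₀' A₁' B₁' B₀' BN' Z' : Cx.{u, v} k}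

/-- **Covariant naturality of `Epair` in all variables**, with the multiplicativity hypotheses
only in the two bidegrees that are used. -/
theorem Epair_EMap_cov {φ : Hom A₀ A₁} {i : Hom B₁ B₀} {π : Hom B₀ BN} (hB : ShortExact i π)
    {φ' : Hom A₀' A₁'} {i' : Hom B₁' B₀'} {π' : Hom B₀' BN'} (hB' : ShortExact i' π')
    (P₀ : Pairing A₀ B₀ Z) (P₁ : Pairing A₁ B₁ Z) (hadj : P₀.Adj P₁ φ i)
    (P₀' : Pairing A₀' B₀' Z') (P₁' : Pairing A₁' B₁' Z') (hadj' : P₀'.Adj P₁' φ' i')
    (α₀ : Hom A₀ A₀') (α₁ : Hom A₁ A₁')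
    (hsq : ∀ n (x : A₀.X n), α₁.f n (φ.f n x) = φ'.f n (α₀.f n x))
    (β₁ : Hom B₁ B₁') (β₀ : Hom B₀ B₀') (βN : Hom BN BN')
    (hi : ∀ n (y : B₁.X n), i'.f n (β₁.f n y) = β₀.f n (i.f n y))
    (hπ : ∀ n (y : B₀.X n), π'.f n (β₀.f n y) = βN.f n (π.f n y))
    (ζ : Hom Z Z') (n s m : ℕ) (hm : n + s = m)
    (h₀ : ∀ (x : A₀.X (n + 1)) (y : B₀.X s),
      P₀'.cup (n + 1) s (m + 1) (by omega) (α₀.f (n + 1) x) (β₀.f s y) =
        ζ.f (m + 1) (P₀.cup (n + 1) s (m + 1) (by omega) x y))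
    (h₁ : ∀ (x : A₁.X n) (y : B₁.X (s + 1)),
      P₁'.cup n (s + 1) (m + 1) (by omega) (α₁.f n x) (β₁.f (s + 1) y) =
        ζ.f (m + 1) (P₁.cup n (s + 1) (m + 1) (by omega) x y))
    (e : E φ (n + 1)) (c : BN.H s) :
    Epair P₀' P₁' hB' hadj' n s m hm (EMap φ φ' α₀ α₁ hsq (n + 1) e) (βN.mapH s c) =
      ζ.mapH (m + 1) (Epair P₀ P₁ hB hadj n s m hm e c) := by
  induction e using E.induction_on' with
  | _ a₀ a₁ ha₀ ha₁ =>
    induction c using H.induction_on with
    | _ c hc =>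
      obtain ⟨b₀, b₁, hb₀, hb₁⟩ := hB.exists_lift s c hc
      rw [EMap_Emk, Hom.mapH_mk]
      obtain ⟨hz, e1⟩ := Epair_Emk P₀' P₁' hB' hadj' n s m hm (α₀.f (n + 1) a₀) (α₁.f n a₁)
        (by rw [← α₀.comm, ha₀, map_zero]) (by rw [← hsq, ha₁, α₁.comm]) (βN.f s c)
        (by rw [← βN.comm, hc, map_zero]) (β₀.f s b₀) (β₁.f (s + 1) b₁)
        (by rw [hπ, hb₀]) (by rw [hi, hb₁, β₀.comm])
      obtain ⟨hz', e2⟩ := Epair_Emk P₀ P₁ hB hadj n s m hm a₀ a₁ ha₀ ha₁ c hc b₀ b₁ hb₀ hb₁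
      rw [e1, e2, Hom.mapH_mk]
      refine H.mk_congr' ?_
      rw [fibCup_apply, fibCup_apply, h₀, h₁, map_add, map_smul]

end cov

end HExt.Cx

/-! ### The Shapiro map on hyper-Ext -/

namespace LC

open HExt Cup LevelStructure

variable {k G : Type u} [CommRing k] [Group G] {L : LevelStructure G} {S : Subgroup G}

lemma cxMap_f_bijective {A B : Rep.{u} k G} (hA : IsSmooth L A) (hB : IsSmooth L B) (f : A ⟶ B)
    (hf : Function.Bijective f.hom) (n : ℕ) : Function.Bijective ((cxMap hA hB f).f n) := by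
  match n with
  | 0 => exact hf
  | 1 => exact ⟨mapC₁_injective f hf.1, mapC₁_surjective f hf.2⟩
  | 2 => exact ⟨mapC₂_injective f hf.1, mapC₂_surjective f hf.2⟩
  | 3 => exact ⟨mapC₃_injective f hf.1, mapC₃_surjective f hf.2⟩
  | _ + 4 => exact Function.bijective_id

section ShExt

variable (hS : L.IsOpen S) [S.FiniteIndex] (R : LatticePair k (L.comap S.subtype))
  {C : Rep.{u} k G} (hC : IsSmooth L C)

omit [S.FiniteIndex] in
include hS hC in
/-- smoothness of `coind (Hom(P₀, res C))` -/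
lemma isSmooth_coindHom₀ :
    IsSmooth L (Rep.coind.{u, u, u, u} S.subtype
      ((Rep.ihom R.P₀).obj (Rep.res S.subtype C))) :=
  isSmooth_coind hS (R.smooth₀.ihom (isSmooth_res hC))

omit [S.FiniteIndex] in
include hS hC in
/-- smoothness of `coind (Hom(P₁, res C))` -/
lemma isSmooth_coindHom₁ :
    IsSmooth L (Rep.coind.{u, u, u, u} S.subtype
      ((Rep.ihom R.P₁).obj (Rep.res S.subtype C))) :=
  isSmooth_coind hS (R.smooth₁.ihom (isSmooth_res hC))

/-- The intermediate chain map `C(G, coind Hom(P₀, res C)) → C(G, coind Hom(P₁, res C))`. -/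
noncomputable def coindHomMap :
    Cx.Hom (cx (isSmooth_coindHom₀ hS R hC)) (cx (isSmooth_coindHom₁ hS R hC)) :=
  cxMap _ _ (Rep.coindMap S.subtype (Cup.precomp R.i (Rep.res S.subtype C)))

/-- `θ` is natural in the lattice. -/
lemma coindHomHom_natural
    (F : Rep.coind.{u, u, u, u} S.subtype ((Rep.ihom R.P₀).obj (Rep.res S.subtype C))) :
    (coindHomHom S R.P₁ C).hom
        ((Rep.coindMap S.subtype (Cup.precomp R.i (Rep.res S.subtype C))).hom F) =
      (Cup.precomp (coindPair hS R).i C).hom ((coindHomHom S R.P₀ C).hom F) := by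
  refine LinearMap.ext fun f => ?_
  rfl

/-- The `θ`-square commutes. -/
lemma theta_sq (n : ℕ) (x : (cx (isSmooth_coindHom₀ hS R hC)).X n) :
    (cxMap (isSmooth_coindHom₁ hS R hC) ((coindPair hS R).smooth₁.ihom hC)
        (coindHomHom S R.P₁ C)).f n ((coindHomMap hS R hC).f n x) =
      ((coindPair hS R).homMap hC).f n
        ((cxMap (isSmooth_coindHom₀ hS R hC) ((coindPair hS R).smooth₀.ihom hC)
          (coindHomHom S R.P₀ C)).f n x) :=
  cxMap_comm_of_comm _ _ _ _ _ _ _ _ (coindHomHom_natural hS R) n x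

omit [S.FiniteIndex] in
/-- The Shapiro square commutes. -/
lemma sh_sq (n : ℕ) (x : (cx (isSmooth_coindHom₀ hS R hC)).X n) :
    (cxSh hS (R.smooth₁.ihom (isSmooth_res hC))).f n ((coindHomMap hS R hC).f n x) =
      (R.homMap (isSmooth_res hC)).f n
        ((cxSh hS (R.smooth₀.ihom (isSmooth_res hC))).f n x) :=
  cxSh_natural_f hS _ _ (Cup.precomp R.i (Rep.res S.subtype C)) n x

/-- The comparison `E^n(coind Hom(P_•, res C)) → Ext^n_G(coind P_•, C)` induced by `θ`. -/
noncomputable def thetaE (n : ℕ) :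
    Cx.E (coindHomMap hS R hC) n →ₗ[k] (coindPair hS R).Ext hC n :=
  Cx.EMap (coindHomMap hS R hC) ((coindPair hS R).homMap hC) _ _ (theta_sq hS R hC) n

theorem thetaE_bijective (n : ℕ) : Function.Bijective (thetaE hS R hC n) :=
  Cx.EMap_bijective_of_bijective _ _ _ _ _
    (cxMap_f_bijective _ _ _ (coindHomHom_bijective S R.P₀ C))
    (cxMap_f_bijective _ _ _ (coindHomHom_bijective S R.P₁ C)) n

/-- `thetaE` as a linear equivalence. -/
noncomputable def thetaEquiv (n : ℕ) :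
    Cx.E (coindHomMap hS R hC) n ≃ₗ[k] (coindPair hS R).Ext hC n :=
  LinearEquiv.ofBijective _ (thetaE_bijective hS R hC n)

omit [S.FiniteIndex] in
/-- The comparison `E^n(coind Hom(P_•, res C)) → Ext^n_S(P_•, res C)` induced by the Shapiro
chain maps. -/
noncomputable def shE (n : ℕ) :
    Cx.E (coindHomMap hS R hC) n →ₗ[k] R.Ext (isSmooth_res hC) n :=
  Cx.EMap (coindHomMap hS R hC) (R.homMap (isSmooth_res hC)) _ _ (sh_sq hS R hC) n

omit [S.FiniteIndex] in
theorem shE_bijective (n : ℕ) (hn : n ≤ 2) : Function.Bijective (shE hS R hC n) := by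
  match n, hn with
  | 0, _ =>
    exact Cx.EMap_zero_bijective _ _ _ _ _ (cxSh_mapH_zero_bijective hS _)
      (cxSh_mapH_zero_bijective hS _).1
  | 1, _ =>
    exact Cx.EMap_succ_bijective _ _ _ _ _ 0 (cxSh_mapH_zero_bijective hS _).2
      (cxSh_mapH_zero_bijective hS _) (cxSh_mapH_one_bijective hS _)
      (cxSh_mapH_one_bijective hS _).1
  | 2, _ =>
    exact Cx.EMap_succ_bijective _ _ _ _ _ 1 (cxSh_mapH_one_bijective hS _).2
      (cxSh_mapH_one_bijective hS _) (cxSh_mapH_two_bijective hS _)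
      (cxSh_mapH_two_bijective hS _).1

/-- **Shapiro's map on hyper-Ext**: `Ext^n_G(coind P_•, C) → Ext^n_S(P_•, res C)`. -/
noncomputable def shExtMap (n : ℕ) :
    (coindPair hS R).Ext hC n →ₗ[k] R.Ext (isSmooth_res hC) n :=
  (shE hS R hC n).comp (thetaEquiv hS R hC n).symm.toLinearMap

lemma shExtMap_thetaE (n : ℕ) (e' : Cx.E (coindHomMap hS R hC) n) :
    shExtMap hS R hC n (thetaE hS R hC n e') = shE hS R hC n e' := by
  change shE hS R hC n ((thetaEquiv hS R hC n).symm (thetaEquiv hS R hC n e')) = _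
  rw [LinearEquiv.symm_apply_apply]

theorem shExtMap_bijective (n : ℕ) (hn : n ≤ 2) : Function.Bijective (shExtMap hS R hC n) :=
  (shE_bijective hS R hC n hn).comp (thetaEquiv hS R hC n).symm.bijective

/-- **Shapiro's lemma for hyper-Ext** in degrees `n ≤ 2`. -/
noncomputable def shExt (n : ℕ) (hn : n ≤ 2) :
    (coindPair hS R).Ext hC n ≃ₗ[k] R.Ext (isSmooth_res hC) n :=
  LinearEquiv.ofBijective _ (shExtMap_bijective hS R hC n hn)

@[simp] lemma shExt_apply (n : ℕ) (hn : n ≤ 2) (e : (coindPair hS R).Ext hC n) :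
    shExt hS R hC n hn e = shExtMap hS R hC n e := rfl

end ShExt

end LC

/-! ### The Ext pairing of a resolution -/

namespace LatticeRes

open HExt

variable {k G : Type u} [CommRing k] [Group G] {L : LevelStructure G} {N : Rep.{u} k G}
  (R : LatticeRes L N) {X : Rep.{u} k G} (hX : IsSmooth L X)

/-- The cochain complexes of a resolution form a degreewise short exact sequence. -/
theorem cxExact :
    Cx.ShortExact (LC.cxMap R.smooth₁ R.smooth₀ R.i) (LC.cxMap R.smooth₀ R.smooth R.π) :=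
  LC.cx_shortExact R.i R.π R.smooth₁ R.smooth₀ R.smooth R.inj R.surj R.exact

/-- The evaluation pairing `C(Hom(P₀, X)) × C(P₀) → C(X)`. -/
noncomputable def evPair₀ :
    Cx.Pairing (LC.cx (R.smooth₀.ihom hX)) (LC.cx R.smooth₀) (LC.cx hX) :=
  LC.cxPairing (RepPairing.eval R.P₀ X) (R.smooth₀.ihom hX) R.smooth₀ hX

/-- The evaluation pairing `C(Hom(P₁, X)) × C(P₁) → C(X)`. -/
noncomputable def evPair₁ :
    Cx.Pairing (LC.cx (R.smooth₁.ihom hX)) (LC.cx R.smooth₁) (LC.cx hX) :=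
  LC.cxPairing (RepPairing.eval R.P₁ X) (R.smooth₁.ihom hX) R.smooth₁ hX

theorem evPair_adj :
    (R.evPair₀ hX).Adj (R.evPair₁ hX) (R.homMap hX) (LC.cxMap R.smooth₁ R.smooth₀ R.i) :=
  fun a b c h x y =>
    LC.cxPairing_adjoint (RepPairing.eval R.P₁ X) (RepPairing.eval R.P₀ X) (Cup.precomp R.i X) R.i
      (R.smooth₁.ihom hX) R.smooth₁ hX (R.smooth₀.ihom hX) R.smooth₀ (fun _ _ => rfl) a b c h x y

/-- **The Ext pairing** `Ext^{n+1}(N, X) × H^s(N) → H^{n+s+1}(X)` computed from a resolution. -/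
noncomputable def extPair (n s m : ℕ) (hm : n + s = m) :
    R.Ext hX (n + 1) →ₗ[k] (LC.cx R.smooth).H s →ₗ[k] (LC.cx hX).H (m + 1) :=
  Cx.Epair (R.evPair₀ hX) (R.evPair₁ hX) R.cxExact (R.evPair_adj hX) n s m hm

end LatticeRes

/-! ### Coinduction of a resolution -/

namespace LC

open HExt Cup LevelStructure

variable {k G : Type u} [CommRing k] [Group G] {L : LevelStructure G} {S : Subgroup G}

/-- Coinduction (from a subgroup) preserves surjections. -/
lemma coindMap_surjective {A B : Rep.{u} k S} (f : A ⟶ B) (hf : Function.Surjective f.hom) :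
    Function.Surjective (Rep.coindMap S.subtype f).hom := by
  have : Epi f := (Rep.epi_iff_surjective f).2 hf
  have h : Epi ((Rep.coindFunctor k S.subtype).map f) := inferInstance
  exact (Rep.epi_iff_surjective _).1 h

/-- Coinduction preserves exactness at the middle of a left exact sequence. -/
lemma coindMap_exact {A B C : Rep.{u} k S} (f : A ⟶ B) (g : B ⟶ C)
    (hf : Function.Injective f.hom) (hfg : Function.Exact f.hom g.hom) :
    Function.Exact (Rep.coindMap S.subtype f).hom (Rep.coindMap S.subtype g).hom := by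
  intro y
  constructor
  · intro hy
    have h1 : ∀ x : G, ∃ a : A, f.hom a = y.1 x := fun x =>
      (hfg _).1 (congrFun (congrArg Subtype.val hy) x)
    choose a ha using h1
    refine ⟨⟨a, fun s x => hf ?_⟩, Subtype.ext (funext ha)⟩
    have h2 := y.2 s x
    change y.1 (s.1 * x) = B.ρ s (y.1 x) at h2
    change f.hom (a (s.1 * x)) = f.hom (A.ρ s (a x))
    rw [ha, Rep.hom_comm_apply, ha, h2]
  · rintro ⟨x, rfl⟩
    exact Subtype.ext (funext fun x' => hfg.apply_apply_eq_zero _)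

/-- The coinduction of a resolution over an open subgroup. -/
noncomputable def coindRes (hS : L.IsOpen S) {Y : Rep.{u} k S}
    (R : LatticeRes (L.comap S.subtype) Y) : LatticeRes L (Rep.coind S.subtype Y) :=
  { coindPair hS R.toLatticePair with
    π := Rep.coindMap S.subtype R.π
    surj := coindMap_surjective R.π R.surj
    exact := coindMap_exact R.i R.π R.inj R.exact
    inj := coindPair_i_injective hS R.toLatticePair R.inj }

@[simp] lemma coindRes_toLatticePair (hS : L.IsOpen S) {Y : Rep.{u} k S}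
    (R : LatticeRes (L.comap S.subtype) Y) :
    (coindRes hS R).toLatticePair = coindPair hS R.toLatticePair := rfl

@[simp] lemma coindRes_π (hS : L.IsOpen S) {Y : Rep.{u} k S}
    (R : LatticeRes (L.comap S.subtype) Y) :
    (coindRes hS R).π = Rep.coindMap S.subtype R.π := rfl

/-! ### Cochain-level functoriality of the cup products in the first variable and the target -/

section Target

variable {A A' B Z Z' : Rep.{u} k G} (ψ : RepPairing A B Z) (χ : RepPairing A' B Z')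
  (u : A ⟶ A') (w : Z ⟶ Z') (hB : IsSmooth L B)
  (hw : ∀ a b, χ.toLin (u.hom a) b = w.hom (ψ.toLin a b))

include hw

lemma cupC₀₁_target (x : A) (y : ↥(C₁ L B)) :
    cupC₀₁ χ (u.hom x) y = mapC₁ w (cupC₀₁ ψ x y) :=
  Subtype.ext (funext fun _ => hw _ _)

lemma cupC₁₀_target (x : ↥(C₁ L A)) (y : B) :
    cupC₁₀ χ hB (mapC₁ u x) y = mapC₁ w (cupC₁₀ ψ hB x y) :=
  Subtype.ext (funext fun _ => hw _ _)

lemma cupC₁₁_target (x : ↥(C₁ L A)) (y : ↥(C₁ L B)) :
    cupC₁₁ χ hB (mapC₁ u x) y = mapC₂ w (cupC₁₁ ψ hB x y) :=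
  Subtype.ext (funext fun _ => hw _ _)

lemma cupC₀₂_target (x : A) (y : ↥(C₂ L B)) :
    cupC₀₂ χ (u.hom x) y = mapC₂ w (cupC₀₂ ψ x y) :=
  Subtype.ext (funext fun _ => hw _ _)

lemma cupC₂₀_target (x : ↥(C₂ L A)) (y : B) :
    cupC₂₀ χ hB (mapC₂ u x) y = mapC₂ w (cupC₂₀ ψ hB x y) :=
  Subtype.ext (funext fun _ => hw _ _)

end Target

section PrecompRight

variable {A B B' Z : Rep.{u} k G} (φ : RepPairing A B Z) (v : B' ⟶ B) (hB : IsSmooth L B)
  (hB' : IsSmooth L B')

lemma cupC₁₀_precompRight (x : ↥(C₁ L A)) (y : B') :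
    cupC₁₀ (φ.precompRight v) hB' x y = cupC₁₀ φ hB x (v.hom y) := by
  refine Subtype.ext (funext fun g => ?_)
  change φ.toLin (x.1 g) (v.hom (B'.ρ g y)) = φ.toLin (x.1 g) (B.ρ g (v.hom y))
  rw [Rep.hom_comm_apply]

lemma cupC₁₁_precompRight (x : ↥(C₁ L A)) (y : ↥(C₁ L B')) :
    cupC₁₁ (φ.precompRight v) hB' x y = cupC₁₁ φ hB x (mapC₁ v y) := by
  refine Subtype.ext (funext fun p => ?_)
  change φ.toLin (x.1 p.1) (v.hom (B'.ρ p.1 (y.1 p.2))) =
    φ.toLin (x.1 p.1) (B.ρ p.1 (v.hom (y.1 p.2)))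
  rw [Rep.hom_comm_apply]

lemma cupC₂₀_precompRight (x : ↥(C₂ L A)) (y : B') :
    cupC₂₀ (φ.precompRight v) hB' x y = cupC₂₀ φ hB x (v.hom y) := by
  refine Subtype.ext (funext fun p => ?_)
  change φ.toLin (x.1 p) (v.hom (B'.ρ (p.1 * p.2) y)) =
    φ.toLin (x.1 p) (B.ρ (p.1 * p.2) (v.hom y))
  rw [Rep.hom_comm_apply]

end PrecompRight

/-! ### Multiplicativity of the Shapiro chain map for the diagonal evaluation pairing -/

section ShEval

variable (hS : L.IsOpen S) {N : Rep.{u} k S} {D : Rep.{u} k G}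
  (hH : IsSmooth (L.comap S.subtype) ((Rep.ihom N).obj (Rep.res S.subtype D)))
  (hN : IsSmooth (L.comap S.subtype) N) (hD : IsSmooth L D)

lemma cxSh_f_cupC₀₁_ev
    (x : Rep.coind.{u, u, u, u} S.subtype ((Rep.ihom N).obj (Rep.res S.subtype D)))
    (y : ↥(C₁ L (Rep.coind S.subtype N))) :
    (cxSh hS (isSmooth_res hD)).f 1 (cupC₀₁ ((evCoindPairing S N D).coind S) x y) =
      cupC₀₁ (RepPairing.eval N (Rep.res S.subtype D)) ((cxSh hS hH).f 0 x)
        ((cxSh hS hN).f 1 y) :=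
  (cxSh_f_cupC₀₁ hS hH (isSmooth_res hD) (isSmooth_coind hS hN) (evCoindPairing S N D) x y).trans
    (adjoint₀₁ (evCoindPairing S N D) (RepPairing.eval N (Rep.res S.subtype D)) (𝟙 _)
      (Cup.ev₁ S N) (fun _ _ => rfl) _ _)

lemma cxSh_f_cupC₁₀_ev
    (x : ↥(C₁ L (Rep.coind.{u, u, u, u} S.subtype ((Rep.ihom N).obj (Rep.res S.subtype D)))))
    (y : Rep.coind S.subtype N) :
    (cxSh hS (isSmooth_res hD)).f 1
        (cupC₁₀ ((evCoindPairing S N D).coind S) (isSmooth_coind hS hN) x y) =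
      cupC₁₀ (RepPairing.eval N (Rep.res S.subtype D)) hN ((cxSh hS hH).f 1 x)
        ((cxSh hS hN).f 0 y) :=
  (cxSh_f_cupC₁₀ hS hH (isSmooth_res hD) (isSmooth_coind hS hN) (evCoindPairing S N D) x y).trans
    (cupC₁₀_precompRight (RepPairing.eval N (Rep.res S.subtype D)) (Cup.ev₁ S N) hN
      (isSmooth_res (isSmooth_coind hS hN)) ((cxSh hS hH).f 1 x) y)

lemma cxSh_f_cupC₁₁_ev
    (x : ↥(C₁ L (Rep.coind.{u, u, u, u} S.subtype ((Rep.ihom N).obj (Rep.res S.subtype D)))))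
    (y : ↥(C₁ L (Rep.coind S.subtype N))) :
    (cxSh hS (isSmooth_res hD)).f 2
        (cupC₁₁ ((evCoindPairing S N D).coind S) (isSmooth_coind hS hN) x y) =
      cupC₁₁ (RepPairing.eval N (Rep.res S.subtype D)) hN ((cxSh hS hH).f 1 x)
        ((cxSh hS hN).f 1 y) :=
  (cxSh_f_cupC₁₁ hS hH (isSmooth_res hD) (isSmooth_coind hS hN) (evCoindPairing S N D) x y).trans
    (cupC₁₁_precompRight (RepPairing.eval N (Rep.res S.subtype D)) (Cup.ev₁ S N) hN
      (isSmooth_res (isSmooth_coind hS hN)) ((cxSh hS hH).f 1 x)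
      ((cxRes (compat_comap L S.subtype) (isSmooth_coind hS hN)).f 1 y))

lemma cxSh_f_cupC₀₂_ev
    (x : Rep.coind.{u, u, u, u} S.subtype ((Rep.ihom N).obj (Rep.res S.subtype D)))
    (y : ↥(C₂ L (Rep.coind S.subtype N))) :
    (cxSh hS (isSmooth_res hD)).f 2 (cupC₀₂ ((evCoindPairing S N D).coind S) x y) =
      cupC₀₂ (RepPairing.eval N (Rep.res S.subtype D)) ((cxSh hS hH).f 0 x)
        ((cxSh hS hN).f 2 y) :=
  (cxSh_f_cupC₀₂ hS hH (isSmooth_res hD) (isSmooth_coind hS hN) (evCoindPairing S N D) x y).trans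
    (adjoint₀₂ (evCoindPairing S N D) (RepPairing.eval N (Rep.res S.subtype D)) (𝟙 _)
      (Cup.ev₁ S N) (fun _ _ => rfl) _ _)

lemma cxSh_f_cupC₂₀_ev
    (x : ↥(C₂ L (Rep.coind.{u, u, u, u} S.subtype ((Rep.ihom N).obj (Rep.res S.subtype D)))))
    (y : Rep.coind S.subtype N) :
    (cxSh hS (isSmooth_res hD)).f 2
        (cupC₂₀ ((evCoindPairing S N D).coind S) (isSmooth_coind hS hN) x y) =
      cupC₂₀ (RepPairing.eval N (Rep.res S.subtype D)) hN ((cxSh hS hH).f 2 x)
        ((cxSh hS hN).f 0 y) :=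
  (cxSh_f_cupC₂₀ hS hH (isSmooth_res hD) (isSmooth_coind hS hN) (evCoindPairing S N D) x y).trans
    (cupC₂₀_precompRight (RepPairing.eval N (Rep.res S.subtype D)) (Cup.ev₁ S N) hN
      (isSmooth_res (isSmooth_coind hS hN)) ((cxSh hS hH).f 2 x) y)

end ShEval

/-! ### The adjointness of Shapiro's isomorphisms -/

section Adjoint

variable (hS : L.IsOpen S) [S.FiniteIndex] {Y : Rep.{u} k S}
  (R : LatticeRes (L.comap S.subtype) Y) {C : Rep.{u} k G} (hC : IsSmooth L C)

/-- The intermediate pairing `C(coind Hom(P₀, res C)) × C(coind P₀) → C(coind res C)`. -/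
noncomputable def midPair₀ :
    Cx.Pairing (cx (isSmooth_coindHom₀ hS R.toLatticePair hC)) (cx (coindRes hS R).smooth₀)
      (cx (isSmooth_coind hS (isSmooth_res hC))) :=
  cxPairing ((evCoindPairing S R.P₀ C).coind S) _ _ _

/-- The intermediate pairing `C(coind Hom(P₁, res C)) × C(coind P₁) → C(coind res C)`. -/
noncomputable def midPair₁ :
    Cx.Pairing (cx (isSmooth_coindHom₁ hS R.toLatticePair hC)) (cx (coindRes hS R).smooth₁)
      (cx (isSmooth_coind hS (isSmooth_res hC))) :=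
  cxPairing ((evCoindPairing S R.P₁ C).coind S) _ _ _

omit [S.FiniteIndex] in
theorem midPair_adj :
    (midPair₀ hS R hC).Adj (midPair₁ hS R hC) (coindHomMap hS R.toLatticePair hC)
      (cxMap (coindRes hS R).smooth₁ (coindRes hS R).smooth₀ (coindRes hS R).i) :=
  fun a b c h x y =>
    cxPairing_adjoint ((evCoindPairing S R.P₁ C).coind S) ((evCoindPairing S R.P₀ C).coind S)
      (Rep.coindMap S.subtype (Cup.precomp R.i (Rep.res S.subtype C)))
      (Rep.coindMap S.subtype R.i) _ _ _ _ _ (fun _ _ => rfl) a b c h x y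

/-- The intermediate pairing on hypercohomology. -/
noncomputable def midExtPair (n s m : ℕ) (hm : n + s = m) :
    Cx.E (coindHomMap hS R.toLatticePair hC) (n + 1) →ₗ[k] (cx (coindRes hS R).smooth).H s →ₗ[k]
      (cx (isSmooth_coind hS (isSmooth_res hC))).H (m + 1) :=
  Cx.Epair (midPair₀ hS R hC) (midPair₁ hS R hC) (coindRes hS R).cxExact (midPair_adj hS R hC)
    n s m hm

/-- The `θ`-step of the adjointness, assuming the cochain-level compatibilities in the two
relevant bidegrees. -/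
theorem extPair_thetaE_of (n s m : ℕ) (hm : n + s = m)
    (h₀ : ∀ (x : (cx (isSmooth_coindHom₀ hS R.toLatticePair hC)).X (n + 1))
        (y : (cx (coindRes hS R).smooth₀).X s),
      ((coindRes hS R).evPair₀ hC).cup (n + 1) s (m + 1) (by omega)
          ((cxMap (isSmooth_coindHom₀ hS R.toLatticePair hC)
            ((coindRes hS R).smooth₀.ihom hC) (coindHomHom S R.P₀ C)).f (n + 1) x) y =
        (cxTr hS hC).f (m + 1) ((midPair₀ hS R hC).cup (n + 1) s (m + 1) (by omega) x y))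
    (h₁ : ∀ (x : (cx (isSmooth_coindHom₁ hS R.toLatticePair hC)).X n)
        (y : (cx (coindRes hS R).smooth₁).X (s + 1)),
      ((coindRes hS R).evPair₁ hC).cup n (s + 1) (m + 1) (by omega)
          ((cxMap (isSmooth_coindHom₁ hS R.toLatticePair hC)
            ((coindRes hS R).smooth₁.ihom hC) (coindHomHom S R.P₁ C)).f n x) y =
        (cxTr hS hC).f (m + 1) ((midPair₁ hS R hC).cup n (s + 1) (m + 1) (by omega) x y))
    (e' : Cx.E (coindHomMap hS R.toLatticePair hC) (n + 1))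
    (c : (cx (coindRes hS R).smooth).H s) :
    (coindRes hS R).extPair hC n s m hm (thetaE hS R.toLatticePair hC (n + 1) e') c =
      (cxTr hS hC).mapH (m + 1) (midExtPair hS R hC n s m hm e' c) := by
  have key := Cx.Epair_EMap_cov (coindRes hS R).cxExact (coindRes hS R).cxExact
    (midPair₀ hS R hC) (midPair₁ hS R hC) (midPair_adj hS R hC)
    ((coindRes hS R).evPair₀ hC) ((coindRes hS R).evPair₁ hC) ((coindRes hS R).evPair_adj hC)
    _ _ (theta_sq hS R.toLatticePair hC) (Cx.Hom.id _) (Cx.Hom.id _) (Cx.Hom.id _)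
    (fun _ _ => rfl) (fun _ _ => rfl) (cxTr hS hC) n s m hm h₀ h₁ e' c
  rw [Cx.Hom.mapH_id] at key
  exact key

omit [S.FiniteIndex] in
/-- The Shapiro step of the adjointness, assuming the cochain-level compatibilities in the two
relevant bidegrees. -/
theorem extPair_shE_of (n s m : ℕ) (hm : n + s = m)
    (h₀ : ∀ (x : (cx (isSmooth_coindHom₀ hS R.toLatticePair hC)).X (n + 1))
        (y : (cx (coindRes hS R).smooth₀).X s),
      (R.evPair₀ (isSmooth_res hC)).cup (n + 1) s (m + 1) (by omega)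
          ((cxSh hS (R.smooth₀.ihom (isSmooth_res hC))).f (n + 1) x)
          ((cxSh hS R.smooth₀).f s y) =
        (cxSh hS (isSmooth_res hC)).f (m + 1)
          ((midPair₀ hS R hC).cup (n + 1) s (m + 1) (by omega) x y))
    (h₁ : ∀ (x : (cx (isSmooth_coindHom₁ hS R.toLatticePair hC)).X n)
        (y : (cx (coindRes hS R).smooth₁).X (s + 1)),
      (R.evPair₁ (isSmooth_res hC)).cup n (s + 1) (m + 1) (by omega)
          ((cxSh hS (R.smooth₁.ihom (isSmooth_res hC))).f n x)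
          ((cxSh hS R.smooth₁).f (s + 1) y) =
        (cxSh hS (isSmooth_res hC)).f (m + 1)
          ((midPair₁ hS R hC).cup n (s + 1) (m + 1) (by omega) x y))
    (e' : Cx.E (coindHomMap hS R.toLatticePair hC) (n + 1))
    (c : (cx (coindRes hS R).smooth).H s) :
    R.extPair (isSmooth_res hC) n s m hm (shE hS R.toLatticePair hC (n + 1) e')
        ((cxSh hS R.smooth).mapH s c) =
      (cxSh hS (isSmooth_res hC)).mapH (m + 1) (midExtPair hS R hC n s m hm e' c) :=
  Cx.Epair_EMap_cov (coindRes hS R).cxExact R.cxExact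
    (midPair₀ hS R hC) (midPair₁ hS R hC) (midPair_adj hS R hC)
    (R.evPair₀ (isSmooth_res hC)) (R.evPair₁ (isSmooth_res hC)) (R.evPair_adj (isSmooth_res hC))
    _ _ (sh_sq hS R.toLatticePair hC) (cxSh hS R.smooth₁) (cxSh hS R.smooth₀) (cxSh hS R.smooth)
    (fun n y => (cxSh_natural_f hS R.smooth₁ R.smooth₀ R.i n y).symm)
    (fun n y => (cxSh_natural_f hS R.smooth₀ R.smooth R.π n y).symm)
    (cxSh hS (isSmooth_res hC)) n s m hm h₀ h₁ e' c

/-- **Adjointness of Shapiro's isomorphisms**, bidegree `(1, 1)`: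
`⟨e, c⟩_G = cor ⟨sh e, sh c⟩_S` for `e ∈ Ext¹_G(coind Y, C)`, `c ∈ H¹(G, coind Y)`. -/
theorem extPair_coindRes₁₁ (e : (coindRes hS R).Ext hC 1)
    (c : (cx (coindRes hS R).smooth).H 1) :
    (coindRes hS R).extPair hC 0 1 1 rfl e c =
      corH₂ hS hC (R.extPair (isSmooth_res hC) 0 1 1 rfl
        (shExtMap hS R.toLatticePair hC 1 e) ((cxSh hS R.smooth).mapH 1 c)) := by
  obtain ⟨e', rfl⟩ := (thetaEquiv hS R.toLatticePair hC 1).surjective e
  have h3 : shExtMap hS R.toLatticePair hC 1 (thetaEquiv hS R.toLatticePair hC 1 e') =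
      shE hS R.toLatticePair hC 1 e' := shExtMap_thetaE hS R.toLatticePair hC 1 e'
  rw [h3]
  have h1 := extPair_thetaE_of hS R hC 0 1 1 rfl
    (fun x y => cupC₁₁_target ((evCoindPairing S R.P₀ C).coind S)
      (RepPairing.eval (Rep.coind S.subtype R.P₀) C) (coindHomHom S R.P₀ C) (Cup.tr S C)
      (coindRes hS R).smooth₀ (fun _ _ => rfl) x y)
    (fun x y => cupC₀₂_target ((evCoindPairing S R.P₁ C).coind S)
      (RepPairing.eval (Rep.coind S.subtype R.P₁) C) (coindHomHom S R.P₁ C) (Cup.tr S C)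
      (fun _ _ => rfl) x y) e' c
  have h2 := extPair_shE_of hS R hC 0 1 1 rfl
    (fun x y => (cxSh_f_cupC₁₁_ev hS (R.smooth₀.ihom (isSmooth_res hC)) R.smooth₀ hC x y).symm)
    (fun x y => (cxSh_f_cupC₀₂_ev hS (R.smooth₁.ihom (isSmooth_res hC)) R.smooth₁ hC x y).symm)
    e' c
  rw [h2]
  exact h1.trans (corH₂_sh hS hC _).symm

/-- **Adjointness of Shapiro's isomorphisms**, bidegree `(2, 0)`:
`⟨e, c⟩_G = cor ⟨sh e, sh c⟩_S` for `e ∈ Ext²_G(coind Y, C)`, `c ∈ H⁰(G, coind Y)`. -/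
theorem extPair_coindRes₂₀ (e : (coindRes hS R).Ext hC 2)
    (c : (cx (coindRes hS R).smooth).H 0) :
    (coindRes hS R).extPair hC 1 0 1 rfl e c =
      corH₂ hS hC (R.extPair (isSmooth_res hC) 1 0 1 rfl
        (shExtMap hS R.toLatticePair hC 2 e) ((cxSh hS R.smooth).mapH 0 c)) := by
  obtain ⟨e', rfl⟩ := (thetaEquiv hS R.toLatticePair hC 2).surjective e
  have h3 : shExtMap hS R.toLatticePair hC 2 (thetaEquiv hS R.toLatticePair hC 2 e') =
      shE hS R.toLatticePair hC 2 e' := shExtMap_thetaE hS R.toLatticePair hC 2 e'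
  rw [h3]
  have h1 := extPair_thetaE_of hS R hC 1 0 1 rfl
    (fun x y => cupC₂₀_target ((evCoindPairing S R.P₀ C).coind S)
      (RepPairing.eval (Rep.coind S.subtype R.P₀) C) (coindHomHom S R.P₀ C) (Cup.tr S C)
      (coindRes hS R).smooth₀ (fun _ _ => rfl) x y)
    (fun x y => cupC₁₁_target ((evCoindPairing S R.P₁ C).coind S)
      (RepPairing.eval (Rep.coind S.subtype R.P₁) C) (coindHomHom S R.P₁ C) (Cup.tr S C)
      (coindRes hS R).smooth₁ (fun _ _ => rfl) x y) e' c
  have h2 := extPair_shE_of hS R hC 1 0 1 rfl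
    (fun x y => (cxSh_f_cupC₂₀_ev hS (R.smooth₀.ihom (isSmooth_res hC)) R.smooth₀ hC x y).symm)
    (fun x y => (cxSh_f_cupC₁₁_ev hS (R.smooth₁.ihom (isSmooth_res hC)) R.smooth₁ hC x y).symm)
    e' c
  rw [h2]
  exact h1.trans (corH₂_sh hS hC _).symm

/-- **Adjointness of Shapiro's isomorphisms**, bidegree `(1, 0)`:
`⟨e, c⟩_G = cor ⟨sh e, sh c⟩_S` for `e ∈ Ext¹_G(coind Y, C)`, `c ∈ H⁰(G, coind Y)`. -/
theorem extPair_coindRes₁₀ (e : (coindRes hS R).Ext hC 1)
    (c : (cx (coindRes hS R).smooth).H 0) :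
    (coindRes hS R).extPair hC 0 0 0 rfl e c =
      corH₁ hS hC (R.extPair (isSmooth_res hC) 0 0 0 rfl
        (shExtMap hS R.toLatticePair hC 1 e) ((cxSh hS R.smooth).mapH 0 c)) := by
  obtain ⟨e', rfl⟩ := (thetaEquiv hS R.toLatticePair hC 1).surjective e
  have h3 : shExtMap hS R.toLatticePair hC 1 (thetaEquiv hS R.toLatticePair hC 1 e') =
      shE hS R.toLatticePair hC 1 e' := shExtMap_thetaE hS R.toLatticePair hC 1 e'
  rw [h3]
  have h1 := extPair_thetaE_of hS R hC 0 0 0 rfl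
    (fun x y => cupC₁₀_target ((evCoindPairing S R.P₀ C).coind S)
      (RepPairing.eval (Rep.coind S.subtype R.P₀) C) (coindHomHom S R.P₀ C) (Cup.tr S C)
      (coindRes hS R).smooth₀ (fun _ _ => rfl) x y)
    (fun x y => cupC₀₁_target ((evCoindPairing S R.P₁ C).coind S)
      (RepPairing.eval (Rep.coind S.subtype R.P₁) C) (coindHomHom S R.P₁ C) (Cup.tr S C)
      (fun _ _ => rfl) x y) e' c
  have h2 := extPair_shE_of hS R hC 0 0 0 rfl
    (fun x y => (cxSh_f_cupC₁₀_ev hS (R.smooth₀.ihom (isSmooth_res hC)) R.smooth₀ hC x y).symm)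
    (fun x y => (cxSh_f_cupC₀₁_ev hS (R.smooth₁.ihom (isSmooth_res hC)) R.smooth₁ hC x y).symm)
    e' c
  rw [h2]
  exact h1.trans (corH₁_sh hS hC _).symm

end Adjoint

end LC

end Fermat.Agent.CFT
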