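import Fermat.Agent.CFT.LC.Res
import Fermat.Agent.CFT.LC.LowDegree

/-!
# Level cohomology: inflation–restriction in degrees 1 and 2, cochain form

Let `M` be a normal subgroup of `G` (in the applications a level, or the preimage of a level)
such that the level cohomology `LC.H1` of `M` with coefficients in `A` vanishes.

* `exists_eq_d₀₁_on`: an LC `1`-cocycle of `G` is, on `M`, the coboundary of some `y : A`;
* `cocycle_mul_right_of_vanish`, `cocycle_fixed_of_vanish`: a `1`-cocycle vanishing on `M` is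
  right-`M`-invariant with `M`-fixed values (it is inflated from `G ⧸ M`);
* `exists_invariant_primitive`: if a `2`-cocycle which is inflated from `G ⧸ M` (right-`M`-invariant
  in both variables with `M`-fixed values) is the coboundary of an LC `1`-cochain, then it is the
  coboundary of a `1`-cochain inflated from `G ⧸ M` (injectivity of inflation in degree `2`).
-/

set_option autoImplicit false

universe u

open CategoryTheory groupCohomology

namespace Fermat.Agent.CFT

namespace LC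

open LevelStructure

variable {k G : Type u} [CommRing k] [Group G] {L : LevelStructure G} {A : Rep.{u} k G}
  (M : Subgroup G)

/-- The restriction to a subgroup `M` of an LC `1`-cochain which satisfies the cocycle identity
on `M` is an LC `1`-cocycle of `M`. -/
lemma res_mem_Z₁' {b : G → A} (hLC : L.IsLC₁ b)
    (hcoc : ∀ m ∈ M, ∀ m' ∈ M, b (m * m') = A.ρ m (b m') + b m) :
    (fun m : M => (show Rep.res M.subtype A from b m)) ∈
      Z₁ (L.comap M.subtype) (Rep.res M.subtype A) := by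
  refine ⟨?_, (compat_comap L M.subtype).isLC₁ hLC⟩
  exact (mem_cocycles₁_iff (A := Rep.res M.subtype A) _).2 fun g h' => hcoc g g.2 h' h'.2

/-- The restriction of an LC `1`-cocycle to a subgroup. -/
lemma res_mem_Z₁ {b : G → A} (hb : b ∈ Z₁ L A) :
    (fun m : M => (show Rep.res M.subtype A from b m)) ∈
      Z₁ (L.comap M.subtype) (Rep.res M.subtype A) :=
  res_mem_Z₁' M hb.2 fun m _ m' _ => (mem_cocycles₁_iff b).1 hb.1 m m'

/-- If `LC.H1` of `M` vanishes, an LC `1`-cochain of `G` which is a cocycle on `M` is a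
coboundary on `M`. -/
theorem exists_eq_d₀₁_on'
    (hH1 : Subsingleton (H1 (L.comap M.subtype) (Rep.res M.subtype A)))
    {b : G → A} (hLC : L.IsLC₁ b)
    (hcoc : ∀ m ∈ M, ∀ m' ∈ M, b (m * m') = A.ρ m (b m') + b m) :
    ∃ y : A, ∀ m ∈ M, b m = A.ρ m y - y := by
  let bM : ↥(Z₁ (L.comap M.subtype) (Rep.res M.subtype A)) := ⟨_, res_mem_Z₁' M hLC hcoc⟩
  have h0 : H1π (L.comap M.subtype) (Rep.res M.subtype A) bM = 0 := Subsingleton.elim _ _
  have h1 := (H1π_eq_zero_iff bM).1 h0
  obtain ⟨y, hy⟩ := h1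
  refine ⟨y, fun m hm => ?_⟩
  have := congrFun hy ⟨m, hm⟩
  rw [d₀₁_hom_apply] at this
  exact this.symm

/-- If `LC.H1` of `M` vanishes, an LC `1`-cocycle of `G` is a coboundary on `M`. -/
theorem exists_eq_d₀₁_on
    (hH1 : Subsingleton (H1 (L.comap M.subtype) (Rep.res M.subtype A)))
    {b : G → A} (hb : b ∈ Z₁ L A) : ∃ y : A, ∀ m ∈ M, b m = A.ρ m y - y :=
  exists_eq_d₀₁_on' M hH1 hb.2 fun m _ m' _ => (mem_cocycles₁_iff b).1 hb.1 m m'

variable {M}

/-- A `1`-cocycle vanishing on `M` is right-`M`-invariant. -/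
lemma cocycle_mul_right_of_vanish {b : G → A} (hb : b ∈ cocycles₁ A)
    (h0 : ∀ m ∈ M, b m = 0) (g : G) {m : G} (hm : m ∈ M) : b (g * m) = b g := by
  rw [(mem_cocycles₁_iff b).1 hb g m, h0 m hm, map_zero, zero_add]

/-- A `1`-cocycle vanishing on the normal subgroup `M` has `M`-fixed values. -/
lemma cocycle_fixed_of_vanish [M.Normal] {b : G → A} (hb : b ∈ cocycles₁ A)
    (h0 : ∀ m ∈ M, b m = 0) (g : G) {m : G} (hm : m ∈ M) : A.ρ m (b g) = b g := by
  have h1 : b (m * g) = A.ρ m (b g) := by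
    rw [(mem_cocycles₁_iff b).1 hb m g, h0 m hm, add_zero]
  have h2 : m * g = g * (g⁻¹ * m * g) := by group
  have h3 : g⁻¹ * m * g ∈ M := by
    have := (inferInstance : M.Normal).conj_mem m hm g⁻¹
    simpa [mul_assoc] using this
  rw [← h1, h2, cocycle_mul_right_of_vanish hb h0 g h3]

variable (M)

/-- **Injectivity of inflation in degree 2** (cochain form).  If `LC.H1` of the normal subgroup
`M` vanishes and the `2`-cocycle `c`, inflated from `G ⧸ M`, is the coboundary of an LC
`1`-cochain `β`, then `c` is the coboundary of a `1`-cochain inflated from `G ⧸ M`. -/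
theorem exists_invariant_primitive [M.Normal]
    (hH1 : Subsingleton (H1 (L.comap M.subtype) (Rep.res M.subtype A)))
    {c : G × G → A} (hc : c ∈ cocycles₂ A)
    (hcM : ∀ g h, ∀ m ∈ M, ∀ m' ∈ M, c (g * m, h * m') = c (g, h))
    (hcfix : ∀ g h, ∀ m ∈ M, A.ρ m (c (g, h)) = c (g, h))
    {β : G → A} (hβ : L.IsLC₁ β) (hd : (d₁₂ A).hom β = c) :
    ∃ β' : G → A, (∀ g, ∀ m ∈ M, β' (g * m) = β' g) ∧ (∀ g, ∀ m ∈ M, A.ρ m (β' g) = β' g) ∧
      (d₁₂ A).hom β' = c := by
  have hcoc := (mem_cocycles₂_iff c).1 hc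
  set a : A := c (1, 1) with ha
  have hafix : ∀ m ∈ M, A.ρ m a = a := fun m hm => hcfix 1 1 m hm
  -- `c (g, 1) = g • a` and `c (1, g) = a`
  have hc1 : ∀ g, c (g, 1) = A.ρ g a := by
    intro g
    have := hcoc g 1 1
    simp only [mul_one] at this
    exact add_right_cancel this
  have hc2 : ∀ g, c (1, g) = a := by
    intro g
    have := hcoc 1 1 g
    simp only [one_mul, map_one, Module.End.one_apply] at this
    exact (add_left_cancel this).symm
  -- `β₁ := β - a` restricted to `M` is an LC cocycle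
  have hdβ : ∀ g h, A.ρ g (β h) - β (g * h) + β g = c (g, h) := by
    intro g h
    have := congrFun hd (g, h)
    rwa [d₁₂_hom_apply] at this
  let β₁ : G → A := fun g => β g - a
  have hβ₁LC : L.IsLC₁ β₁ := by
    obtain ⟨N, hN, h⟩ := hβ
    exact ⟨N, hN, fun g s hs => by simp only [β₁, h g s hs]⟩
  have hdβ₁ : ∀ g h, A.ρ g (β₁ h) - β₁ (g * h) + β₁ g = c (g, h) - A.ρ g a := by
    intro g h
    simp only [β₁, map_sub]
    rw [← hdβ g h]
    abel
  have hcMM : ∀ m ∈ M, ∀ m' ∈ M, c (m, m') = a := by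
    intro m hm m' hm'
    have := hcM 1 1 m hm m' hm'
    simpa only [one_mul] using this
  have hβ₁coc : ∀ m ∈ M, ∀ m' ∈ M, β₁ (m * m') = A.ρ m (β₁ m') + β₁ m := by
    intro m hm m' hm'
    have h := hdβ₁ m m'
    rw [hcMM m hm m' hm', hafix m hm, sub_self] at h
    have h' : β₁ (m * m') = A.ρ m (β₁ m') + β₁ m - 0 := by rw [← h]; abel
    rw [h', sub_zero]
  obtain ⟨y, hy⟩ := exists_eq_d₀₁_on' M hH1 hβ₁LC hβ₁coc
  let β₂ : G → A := fun g => β₁ g - (A.ρ g y - y)
  have hβ₂M : ∀ m ∈ M, β₂ m = 0 := fun m hm => by simp only [β₂, hy m hm, sub_self]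
  have hP : ∀ g h, A.ρ g (β₂ h) - β₂ (g * h) + β₂ g = c (g, h) - A.ρ g a := by
    intro g h
    rw [← hdβ₁ g h]
    simp only [β₂, map_sub, map_mul, Module.End.mul_apply]
    abel
  have hc'1 : ∀ g, ∀ m ∈ M, c (g, m) - A.ρ g a = 0 := by
    intro g m hm
    have := hcM g 1 1 (one_mem M) m hm
    rw [mul_one, one_mul] at this
    rw [this, hc1, sub_self]
  have hc'2 : ∀ g, ∀ m ∈ M, c (m, g) - A.ρ m a = 0 := by
    intro g m hm
    have := hcM 1 g m hm 1 (one_mem M)
    rw [mul_one, one_mul] at this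
    rw [this, hc2, hafix m hm, sub_self]
  have hβ₂r : ∀ g, ∀ m ∈ M, β₂ (g * m) = β₂ g := by
    intro g m hm
    have h := hP g m
    rw [hc'1 g m hm, hβ₂M m hm, map_zero, zero_sub, neg_add_eq_zero] at h
    exact h
  have hβ₂l : ∀ g, ∀ m ∈ M, A.ρ m (β₂ g) = β₂ g := by
    intro g m hm
    have h := hP m g
    rw [hc'2 g m hm, hβ₂M m hm, add_zero, sub_eq_zero] at h
    have h2 : m * g = g * (g⁻¹ * m * g) := by group
    have h3 : g⁻¹ * m * g ∈ M := by
      have := (inferInstance : M.Normal).conj_mem m hm g⁻¹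
      simpa [mul_assoc] using this
    rw [h, h2, hβ₂r g _ h3]
  refine ⟨fun g => β₂ g + a, fun g m hm => by simp only [hβ₂r g m hm],
    fun g m hm => by simp only [map_add, hβ₂l g m hm, hafix m hm], ?_⟩
  funext ⟨g, h⟩
  rw [d₁₂_hom_apply]
  simp only [map_add]
  have := hP g h
  have h' : c (g, h) = A.ρ g (β₂ h) - β₂ (g * h) + β₂ g + A.ρ g a := by rw [this]; abel
  rw [h']
  abel

end LC

end Fermat.Agent.CFT
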