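import Fermat.Agent.CFT.LC.LocCoind
import Fermat.Agent.CFT.LC.InfRes
import Fermat.Agent.CFT.ShapiroLow

/-!
# Level cohomology: Shapiro's lemma for closed subgroups (locally coinduced modules)

Let `A` be a smooth `G`-module which is locally coinduced (`LC.IsLocCoind`) from the smooth
`H i`-modules `Y i` along `r i : H i →* G` (finite family).  Then the localisation maps
`Hⁿ(G, A) → ∏ᵢ Hⁿ(H i, Y i)` (restriction along `r i` followed by `lam i`) are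

* bijective for `n = 0` (`locH_zero_bijective`);
* bijective for `n = 1` (`locH_one_bijective`) and injective for `n = 2` (`locH_two_injective`),
  provided `LC.H1` of the preimages `(r i)⁻¹ N` of a cofinal family of levels `N` of `G` vanishes
  with coefficients in `Y i` ("Hilbert 90").

The level structure of `H i` may be finer than the one induced from `G` (this is the case for
`G_{ℚ_q} → G_S`), which is why a Hilbert 90 hypothesis is needed.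
-/

set_option autoImplicit false

universe u

open CategoryTheory groupCohomology

namespace Fermat.Agent.CFT

namespace LC

open HExt LevelStructure

section Retraction

variable {G H : Type u} [Group G] [Group H] (r : H →* G) (N : Subgroup G) [N.Normal]

/-- A "retraction modulo `N`" of `r : H →* G`: a map `η : G → H` which is `H`-equivariant and
right-`N`-invariant modulo `r⁻¹ N`. -/
structure RetrMod where
  /-- the retraction -/
  η : G → H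
  mul_left : ∀ (h : H) (x : G), ∃ m ∈ N.comap r, η (r h * x) = h * η x * m
  mul_right : ∀ (x : G), ∀ n ∈ N, ∃ m ∈ N.comap r, η (x * n) = η x * m

theorem RetrMod.nonempty : Nonempty (RetrMod r N) := by
  classical
  let Q : Subgroup G := r.range ⊔ N
  let σ : G → G := fun x => (Quotient.mk (QuotientGroup.rightRel Q) x).out
  have hσ : ∀ x, x * (σ x)⁻¹ ∈ Q := by
    intro x
    have h : (QuotientGroup.rightRel Q) (σ x) x := Quotient.mk_out (s := QuotientGroup.rightRel Q) x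
    rwa [QuotientGroup.rightRel_apply] at h
  have hσeq : ∀ x x', x' * x⁻¹ ∈ Q → σ x' = σ x := by
    intro x x' h
    have : (Quotient.mk (QuotientGroup.rightRel Q) x') = Quotient.mk (QuotientGroup.rightRel Q) x :=
      Quotient.sound (by
        show (QuotientGroup.rightRel Q) x' x
        rw [QuotientGroup.rightRel_apply]
        have := Q.inv_mem h
        simpa [mul_inv_rev] using this)
    show (Quotient.mk (QuotientGroup.rightRel Q) x').out = _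
    rw [this]
  have hdec : ∀ x, ∃ h : H, ∃ n ∈ N, r h * n = x * (σ x)⁻¹ := by
    intro x
    obtain ⟨y, ⟨h, rfl⟩, n, hn, e⟩ := Subgroup.mem_sup_of_normal_right.1 (hσ x)
    exact ⟨h, n, hn, e⟩
  choose η nn hnn hη using hdec
  have key : ∀ (x' : G) (h : H) (n : G), n ∈ N → r h * n = x' * (σ x')⁻¹ →
      ∃ m ∈ N.comap r, η x' = h * m := by
    intro x' h n hn e
    refine ⟨h⁻¹ * η x', ?_, by group⟩
    rw [Subgroup.mem_comap, map_mul, map_inv]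
    have e2 : r (η x') * nn x' = r h * n := (hη x').trans e.symm
    have e3 : (r h)⁻¹ * r (η x') = n * (nn x')⁻¹ := by
      have : r (η x') = r h * n * (nn x')⁻¹ := by rw [← e2]; group
      rw [this]; group
    rw [e3]
    exact N.mul_mem hn (N.inv_mem (hnn x'))
  refine ⟨⟨η, fun h x => ?_, fun x n hn => ?_⟩⟩
  · have hs : σ (r h * x) = σ x := hσeq x (r h * x) (by
      have : r h * x * x⁻¹ = r h := by group
      rw [this]
      exact Subgroup.mem_sup_left ⟨h, rfl⟩)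
    obtain ⟨m, hm, e⟩ := key (r h * x) (h * η x) (nn x) (hnn x) (by
      rw [hs, map_mul, mul_assoc, hη x]; group)
    exact ⟨m, hm, e⟩
  · have hs : σ (x * n) = σ x := hσeq x (x * n) (by
      have : x * n * x⁻¹ ∈ N := (inferInstance : N.Normal).conj_mem n hn x
      exact Subgroup.mem_sup_right this)
    obtain ⟨m, hm, e⟩ := key (x * n) (η x) (nn x * (σ x * n * (σ x)⁻¹))
      (N.mul_mem (hnn x) ((inferInstance : N.Normal).conj_mem n hn (σ x))) (by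
      rw [hs, ← mul_assoc, hη x]; group)
    exact ⟨m, hm, e⟩

end Retraction

section CxFun

variable {k G : Type u} [CommRing k] [Group G] {L : LevelStructure G} {A : Rep.{u} k G}
  (hA : IsSmooth L A)

/-- The underlying function of an element of degree `1` of the LC complex. -/
def cxFun₁ (z : (cx hA).X 1) : G → A := ((show ↥(C₁ L A) from z) : G → A)

/-- The underlying function of an element of degree `2` of the LC complex. -/
def cxFun₂ (z : (cx hA).X 2) : G × G → A := ((show ↥(C₂ L A) from z) : G × G → A)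

/-- An element of degree `1` of the LC complex from a level-constant function. -/
def cxMk₁ (f : G → A) (hf : L.IsLC₁ f) : (cx hA).X 1 := (⟨f, hf⟩ : ↥(C₁ L A))

/-- An element of degree `2` of the LC complex from a level-constant function. -/
def cxMk₂ (f : G × G → A) (hf : L.IsLC₂ f) : (cx hA).X 2 := (⟨f, hf⟩ : ↥(C₂ L A))

lemma cxFun₁_isLC (z : (cx hA).X 1) : L.IsLC₁ (cxFun₁ hA z) := (show ↥(C₁ L A) from z).2

lemma cxFun₂_isLC (z : (cx hA).X 2) : L.IsLC₂ (cxFun₂ hA z) := (show ↥(C₂ L A) from z).2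

@[simp] lemma cxFun₁_cxMk₁ (f : G → A) (hf : L.IsLC₁ f) : cxFun₁ hA (cxMk₁ hA f hf) = f := rfl

@[simp] lemma cxFun₂_cxMk₂ (f : G × G → A) (hf : L.IsLC₂ f) : cxFun₂ hA (cxMk₂ hA f hf) = f := rfl

lemma cxFun₁_sub (z z' : (cx hA).X 1) : cxFun₁ hA (z - z') = cxFun₁ hA z - cxFun₁ hA z' := rfl

lemma cxFun₂_sub (z z' : (cx hA).X 2) : cxFun₂ hA (z - z') = cxFun₂ hA z - cxFun₂ hA z' := rfl

lemma cxFun₁_injective : Function.Injective (cxFun₁ hA) := fun _ _ h => Subtype.ext h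

lemma cxFun₂_injective : Function.Injective (cxFun₂ hA) := fun _ _ h => Subtype.ext h

lemma cxFun₁_d (a : (cx hA).X 0) : cxFun₁ hA ((cx hA).d 0 a) = (d₀₁ A).hom (show A from a) := rfl

lemma cxFun₂_d (z : (cx hA).X 1) : cxFun₂ hA ((cx hA).d 1 z) = (d₁₂ A).hom (cxFun₁ hA z) := rfl

lemma cxFun₁_mem_cocycles₁ {z : (cx hA).X 1} (hz : (cx hA).d 1 z = 0) :
    cxFun₁ hA z ∈ cocycles₁ A := (dLC₁_eq_zero_iff hA _).1 hz

lemma cxFun₂_mem_cocycles₂ {z : (cx hA).X 2} (hz : (cx hA).d 2 z = 0) :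
    cxFun₂ hA z ∈ cocycles₂ A := (dLC₂_eq_zero_iff hA _).1 hz

lemma d_cxMk₁_eq_zero {f : G → A} (hf : L.IsLC₁ f) (hcoc : f ∈ cocycles₁ A) :
    (cx hA).d 1 (cxMk₁ hA f hf) = 0 := (dLC₁_eq_zero_iff hA _).2 hcoc

lemma d_cxMk₂_eq_zero {f : G × G → A} (hf : L.IsLC₂ f) (hcoc : f ∈ cocycles₂ A) :
    (cx hA).d 2 (cxMk₂ hA f hf) = 0 := (dLC₂_eq_zero_iff hA _).2 hcoc

end CxFun

section Dict

variable {k G : Type u} [CommRing k] [Group G] {L : LevelStructure G}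
  {ι : Type*} {H : ι → Type u} [∀ i, Group (H i)]
  {r : ∀ i, H i →* G}
  {A : Rep.{u} k G} {Y : ∀ i, Rep.{u} k (H i)} (lam : ∀ i, Rep.res (r i) A ⟶ Y i)

/-- The function `g ↦ lam i (g • a)`. -/
def evF (i : ι) (a : A) (g : G) : Y i := (lam i).hom (A.ρ g a)

lemma evF_add (i : ι) (a a' : A) (g : G) : evF lam i (a + a') g = evF lam i a g + evF lam i a' g := by
  simp only [evF, map_add]

lemma evF_sub (i : ι) (a a' : A) (g : G) : evF lam i (a - a') g = evF lam i a g - evF lam i a' g := by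
  simp only [evF, map_sub]

lemma evF_zero (i : ι) (g : G) : evF lam i (0 : A) g = 0 := by
  simp only [evF, map_zero]

lemma evF_one (i : ι) (a : A) : evF lam i a 1 = (lam i).hom a := by
  simp only [evF, map_one, Module.End.one_apply]

lemma evF_ρ (i : ι) (a : A) (x g : G) : evF lam i (A.ρ x a) g = evF lam i a (g * x) := by
  simp only [evF, map_mul, Module.End.mul_apply]

lemma evF_mul_left (i : ι) (a : A) (h : H i) (g : G) :
    evF lam i a (r i h * g) = (Y i).ρ h (evF lam i a g) := by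
  simp only [evF, map_mul, Module.End.mul_apply]
  exact Rep.hom_comm_apply (lam i) h (A.ρ g a)

lemma lam_ρ (i : ι) (h : H i) (a : A) :
    (lam i).hom (A.ρ (r i h) a) = (Y i).ρ h ((lam i).hom a) :=
  Rep.hom_comm_apply (lam i) h a

/-- The homogeneous `Y i`-valued form of an `A`-valued `1`-cochain. -/
def e₁ (f : G → A) (i : ι) (x₀ x₁ : G) : Y i := (lam i).hom (show A from Shap.h₁ (A := A) f x₀ x₁)

/-- The homogeneous `Y i`-valued form of an `A`-valued `2`-cochain. -/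
def e₂ (F : G × G → A) (i : ι) (x₀ x₁ x₂ : G) : Y i := (lam i).hom (show A from Shap.h₂ (A := A) F x₀ x₁ x₂)

lemma e₁_eq (f : G → A) (i : ι) (x₀ x₁ : G) : e₁ lam f i x₀ x₁ = evF lam i (f (x₀⁻¹ * x₁)) x₀ := rfl

lemma e₂_eq (F : G × G → A) (i : ι) (x₀ x₁ x₂ : G) :
    e₂ lam F i x₀ x₁ x₂ = evF lam i (F (x₀⁻¹ * x₁, x₁⁻¹ * x₂)) x₀ := rfl

lemma evF_eq_e₁ (f : G → A) (i : ι) (g x : G) : evF lam i (f g) x = e₁ lam f i x (x * g) := by
  rw [e₁_eq, inv_mul_cancel_left]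

lemma evF_eq_e₂ (F : G × G → A) (i : ι) (g h x : G) :
    evF lam i (F (g, h)) x = e₂ lam F i x (x * g) (x * g * h) := by
  rw [e₂_eq, inv_mul_cancel_left, inv_mul_cancel_left]

lemma e₁_smul (f : G → A) (i : ι) (h : H i) (x₀ x₁ : G) :
    e₁ lam f i (r i h * x₀) (r i h * x₁) = (Y i).ρ h (e₁ lam f i x₀ x₁) := by
  rw [e₁, Shap.h₁_smul]
  exact Rep.hom_comm_apply (lam i) h _

lemma e₂_smul (F : G × G → A) (i : ι) (h : H i) (x₀ x₁ x₂ : G) :
    e₂ lam F i (r i h * x₀) (r i h * x₁) (r i h * x₂) = (Y i).ρ h (e₂ lam F i x₀ x₁ x₂) := by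
  rw [e₂, Shap.h₂_smul]
  exact Rep.hom_comm_apply (lam i) h _

lemma e₁_d₀₁ (a : A) (i : ι) (x₀ x₁ : G) :
    e₁ lam ((d₀₁ A).hom a) i x₀ x₁ = evF lam i a x₁ - evF lam i a x₀ := by
  rw [e₁, Shap.h₁_d₀₁, map_sub]
  rfl

lemma e₂_d₁₂ (f : G → A) (i : ι) (x₀ x₁ x₂ : G) :
    e₂ lam ((d₁₂ A).hom f) i x₀ x₁ x₂ = e₁ lam f i x₁ x₂ - e₁ lam f i x₀ x₂ + e₁ lam f i x₀ x₁ := by
  rw [e₂, Shap.h₂_d₁₂, map_add, map_sub]
  rfl

lemma e₂_cocycle {F : G × G → A} (hF : F ∈ cocycles₂ A) (i : ι) (x₀ x₁ x₂ x₃ : G) :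
    e₂ lam F i x₁ x₂ x₃ + e₂ lam F i x₀ x₁ x₃ = e₂ lam F i x₀ x₂ x₃ + e₂ lam F i x₀ x₁ x₂ := by
  simp only [e₂, ← map_add, Shap.h₂_cocycle hF x₀ x₁ x₂ x₃]

lemma e₁_cocycle {f : G → A} (hf : f ∈ cocycles₁ A) (i : ι) (x₀ x₁ x₂ : G) :
    e₁ lam f i x₀ x₂ = e₁ lam f i x₀ x₁ + e₁ lam f i x₁ x₂ := by
  simp only [e₁, ← map_add, Shap.h₁_cocycle hf x₀ x₁ x₂]

/-- Right-invariance of `e₁ f` under a normal subgroup `N` for `N`-invariant `f` with `N`-fixed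
values. -/
lemma e₁_mul_right {N : Subgroup G} [N.Normal] {f : G → A}
    (hinv : ∀ g, ∀ s ∈ N, f (g * s) = f g) (hfix : ∀ g, ∀ s ∈ N, A.ρ s (f g) = f g)
    (i : ι) (x₀ x₁ : G) {n₀ n₁ : G} (h₀ : n₀ ∈ N) (h₁ : n₁ ∈ N) :
    e₁ lam f i (x₀ * n₀) (x₁ * n₁) = e₁ lam f i x₀ x₁ := by
  have hn := (inferInstance : N.Normal)
  have e : (x₀ * n₀)⁻¹ * (x₁ * n₁) = x₀⁻¹ * x₁ * ((x₀⁻¹ * x₁)⁻¹ * n₀⁻¹ * (x₀⁻¹ * x₁) * n₁) := by
    group
  have hm : (x₀⁻¹ * x₁)⁻¹ * n₀⁻¹ * (x₀⁻¹ * x₁) * n₁ ∈ N := by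
    refine N.mul_mem ?_ h₁
    have := hn.conj_mem n₀⁻¹ (N.inv_mem h₀) (x₀⁻¹ * x₁)⁻¹
    simpa [mul_assoc] using this
  rw [e₁_eq, e₁_eq, e, hinv _ _ hm, evF, evF, map_mul, Module.End.mul_apply, hfix _ _ h₀]

/-- Right-invariance of `e₂ F` under a normal subgroup `N` for `N`-invariant `F` with `N`-fixed
values. -/
lemma e₂_mul_right {N : Subgroup G} [N.Normal] {F : G × G → A}
    (hinv : ∀ g g', ∀ s ∈ N, ∀ s' ∈ N, F (g * s, g' * s') = F (g, g'))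
    (hfix : ∀ g g', ∀ s ∈ N, A.ρ s (F (g, g')) = F (g, g'))
    (i : ι) (x₀ x₁ x₂ : G) {n₀ n₁ n₂ : G} (h₀ : n₀ ∈ N) (h₁ : n₁ ∈ N) (h₂ : n₂ ∈ N) :
    e₂ lam F i (x₀ * n₀) (x₁ * n₁) (x₂ * n₂) = e₂ lam F i x₀ x₁ x₂ := by
  have hn := (inferInstance : N.Normal)
  have e : (x₀ * n₀)⁻¹ * (x₁ * n₁) = x₀⁻¹ * x₁ * ((x₀⁻¹ * x₁)⁻¹ * n₀⁻¹ * (x₀⁻¹ * x₁) * n₁) := by
    group
  have hm : (x₀⁻¹ * x₁)⁻¹ * n₀⁻¹ * (x₀⁻¹ * x₁) * n₁ ∈ N := by
    refine N.mul_mem ?_ h₁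
    have := hn.conj_mem n₀⁻¹ (N.inv_mem h₀) (x₀⁻¹ * x₁)⁻¹
    simpa [mul_assoc] using this
  have e' : (x₁ * n₁)⁻¹ * (x₂ * n₂) = x₁⁻¹ * x₂ * ((x₁⁻¹ * x₂)⁻¹ * n₁⁻¹ * (x₁⁻¹ * x₂) * n₂) := by
    group
  have hm' : (x₁⁻¹ * x₂)⁻¹ * n₁⁻¹ * (x₁⁻¹ * x₂) * n₂ ∈ N := by
    refine N.mul_mem ?_ h₂
    have := hn.conj_mem n₁⁻¹ (N.inv_mem h₁) (x₁⁻¹ * x₂)⁻¹
    simpa [mul_assoc] using this
  rw [e₂_eq, e₂_eq, e, e', hinv _ _ _ hm _ hm', evF, evF, map_mul, Module.End.mul_apply,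
    hfix _ _ _ h₀]

/-- Right-invariance of the homogeneous form `Shap.h₁ f` under a normal subgroup `N`, for
`N`-invariant `f` with `N`-fixed values. -/
lemma h₁_mul_right {Γ : Type u} [Group Γ] {B : Rep.{u} k Γ} {N : Subgroup Γ} [N.Normal]
    {f : Γ → B} (hinv : ∀ g, ∀ s ∈ N, f (g * s) = f g) (hfix : ∀ g, ∀ s ∈ N, B.ρ s (f g) = f g)
    (x₀ x₁ : Γ) {n₀ n₁ : Γ} (h₀ : n₀ ∈ N) (h₁ : n₁ ∈ N) :
    Shap.h₁ f (x₀ * n₀) (x₁ * n₁) = Shap.h₁ f x₀ x₁ := by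
  have hn := (inferInstance : N.Normal)
  have e : (x₀ * n₀)⁻¹ * (x₁ * n₁) = x₀⁻¹ * x₁ * ((x₀⁻¹ * x₁)⁻¹ * n₀⁻¹ * (x₀⁻¹ * x₁) * n₁) := by
    group
  have hm : (x₀⁻¹ * x₁)⁻¹ * n₀⁻¹ * (x₀⁻¹ * x₁) * n₁ ∈ N := by
    refine N.mul_mem ?_ h₁
    have := hn.conj_mem n₀⁻¹ (N.inv_mem h₀) (x₀⁻¹ * x₁)⁻¹
    simpa [mul_assoc] using this
  simp only [Shap.h₁]
  rw [e, hinv _ _ hm, map_mul, Module.End.mul_apply, hfix _ _ h₀]

variable {lam}

/-- Two elements of `A` with the same evaluations are equal. -/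
lemma IsLocCoind.ext (hc : IsLocCoind L r A Y lam) {a a' : A}
    (h : ∀ i g, evF lam i a g = evF lam i a' g) : a = a' := by
  rw [← sub_eq_zero]
  refine hc.inj _ fun i g => ?_
  have := evF_sub lam i a a' g
  rw [evF] at this
  rw [this, h i g, sub_self]

/-- Two `1`-cochains with the same homogeneous forms are equal. -/
lemma IsLocCoind.ext₁ (hc : IsLocCoind L r A Y lam) {f f' : G → A}
    (h : ∀ i x₀ x₁, e₁ lam f i x₀ x₁ = e₁ lam f' i x₀ x₁) : f = f' := by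
  funext g
  refine hc.ext fun i x => ?_
  rw [evF_eq_e₁, evF_eq_e₁, h]

/-- Two `2`-cochains with the same homogeneous forms are equal. -/
lemma IsLocCoind.ext₂ (hc : IsLocCoind L r A Y lam) {F F' : G × G → A}
    (h : ∀ i x₀ x₁ x₂, e₂ lam F i x₀ x₁ x₂ = e₂ lam F' i x₀ x₁ x₂) : F = F' := by
  funext ⟨g, g'⟩
  refine hc.ext fun i x => ?_
  rw [evF_eq_e₂, evF_eq_e₂, h]

/-- Construction of an element of `A` from its evaluations; it is fixed by the level. -/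
lemma IsLocCoind.exists_evF (hc : IsLocCoind L r A Y lam) (F : ∀ i, G → Y i)
    (hF : ∀ i (h : H i) (g : G), F i (r i h * g) = (Y i).ρ h (F i g))
    {N : Subgroup G} (hN : L.IsLevel N) (hinv : ∀ i (g : G), ∀ n ∈ N, F i (g * n) = F i g) :
    ∃ a : A, (∀ i g, evF lam i a g = F i g) ∧ ∀ n ∈ N, A.ρ n a = a := by
  obtain ⟨a, ha⟩ := hc.surj F hF ⟨N, hN, hinv⟩
  refine ⟨a, ha, fun n hn => hc.ext fun i g => ?_⟩
  rw [evF_ρ, evF, ha, evF, ha, hinv i g n hn]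

/-- Construction of a level-constant `1`-cochain from its homogeneous form. -/
lemma IsLocCoind.exists_e₁ (hc : IsLocCoind L r A Y lam) (ψ : ∀ i, G → G → Y i)
    (hψ : ∀ i (h : H i) (x₀ x₁ : G), ψ i (r i h * x₀) (r i h * x₁) = (Y i).ρ h (ψ i x₀ x₁))
    {N : Subgroup G} (hN : L.IsLevel N)
    (hinv : ∀ i (x₀ x₁ : G), ∀ n₀ ∈ N, ∀ n₁ ∈ N, ψ i (x₀ * n₀) (x₁ * n₁) = ψ i x₀ x₁) :
    ∃ f : G → A, (∀ i x₀ x₁, e₁ lam f i x₀ x₁ = ψ i x₀ x₁) ∧ (∀ g, ∀ n ∈ N, f (g * n) = f g) ∧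
      ∀ g, ∀ n ∈ N, A.ρ n (f g) = f g := by
  have hn := L.normal hN
  have key : ∀ g : G, ∃ a : A, (∀ i x, evF lam i a x = ψ i x (x * g)) ∧ ∀ n ∈ N, A.ρ n a = a := by
    intro g
    refine hc.exists_evF (fun i x => ψ i x (x * g)) (fun i h x => ?_) hN (fun i x n hn' => ?_)
    · rw [mul_assoc, hψ]
    · have e : x * n * g = x * g * (g⁻¹ * n * g) := by group
      have hm : g⁻¹ * n * g ∈ N := by
        have := hn.conj_mem n hn' g⁻¹
        simpa [mul_assoc] using this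
      rw [e, hinv i x (x * g) n hn' _ hm]
  choose f hf hfix using key
  refine ⟨f, fun i x₀ x₁ => ?_, fun g n hn' => ?_, hfix⟩
  · rw [e₁_eq, hf, mul_inv_cancel_left]
  · refine hc.ext fun i x => ?_
    rw [hf, hf, ← mul_assoc]
    have := hinv i x (x * g) 1 (N.one_mem) n hn'
    rwa [mul_one] at this

end Dict

section Main

variable {k G : Type u} [CommRing k] [Group G] {L : LevelStructure G}
  {ι : Type*} {H : ι → Type u} [∀ i, Group (H i)] {LH : ∀ i, LevelStructure (H i)}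
  {r : ∀ i, H i →* G}
  {A : Rep.{u} k G} {Y : ∀ i, Rep.{u} k (H i)} {lam : ∀ i, Rep.res (r i) A ⟶ Y i}

/-- The preimages of the levels of `G` are levels of the `H i`. -/
def LevelComap (L : LevelStructure G) (LH : ∀ i, LevelStructure (H i)) (r : ∀ i, H i →* G) :
    Prop :=
  ∀ i N, L.IsLevel N → (LH i).IsLevel (N.comap (r i))

lemma LevelComap.compat (hlev : LevelComap L LH r) (i : ι) : (LH i).Compat L (r i) :=
  fun N hN => ⟨_, hlev i N hN, le_rfl⟩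

variable (hlev : LevelComap L LH r) (hA : IsSmooth L A) (hY : ∀ i, IsSmooth (LH i) (Y i))

/-- The localisation chain map `cx A ⟶ cx (Y i)`: restriction along `r i`, then `lam i`. -/
noncomputable def locHom (lam : ∀ i, Rep.res (r i) A ⟶ Y i) (i : ι) :
    Cx.Hom (cx hA) (cx (hY i)) :=
  (cxMap (hA.res (hlev.compat i)) (hY i) (lam i)).comp (cxRes (hlev.compat i) hA)

/-- The total localisation map on level cohomology. -/
noncomputable def locH (lam : ∀ i, Rep.res (r i) A ⟶ Y i) (n : ℕ) :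
    (cx hA).H n →ₗ[k] ∀ i, (cx (hY i)).H n :=
  LinearMap.pi fun i => (locHom hlev hA hY lam i).mapH n

lemma locH_apply (n : ℕ) (x : (cx hA).H n) (i : ι) :
    locH hlev hA hY lam n x i = (locHom hlev hA hY lam i).mapH n x := rfl

lemma locHom_f_zero (i : ι) (a : A) : (locHom hlev hA hY lam i).f 0 a = (lam i).hom a := rfl

lemma cxFun₁_locHom (i : ι) (z : (cx hA).X 1) :
    cxFun₁ (hY i) ((locHom hlev hA hY lam i).f 1 z) =
      fun h => (lam i).hom (show A from cxFun₁ hA z (r i h)) := rfl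

lemma cxFun₂_locHom (i : ι) (z : (cx hA).X 2) :
    cxFun₂ (hY i) ((locHom hlev hA hY lam i).f 2 z) =
      fun p => (lam i).hom (show A from cxFun₂ hA z (r i p.1, r i p.2)) := rfl

variable (hc : IsLocCoind L r A Y lam)

include hc in
/-- **Closed-subgroup Shapiro, degree `0`.** -/
theorem locH_zero_bijective : Function.Bijective (locH hlev hA hY lam 0) := by
  constructor
  · rw [injective_iff_map_eq_zero]
    intro x hx
    induction x using Cx.H.induction_on with | _ z hz =>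
    rw [Cx.H.mk_eq_zero_iff_zero]
    have hz' : (show A from z) ∈ A.ρ.invariants := (dLC₀_eq_zero_iff hA _).1 hz
    refine hc.inj _ fun i g => ?_
    have hi := congrFun hx i
    rw [locH_apply, Cx.Hom.mapH_mk, Pi.zero_apply, Cx.H.mk_eq_zero_iff_zero] at hi
    rw [hz' g]
    exact hi
  · intro x
    have hrep : ∀ i, ∃ (y : Y i) (hy : (cx (hY i)).d 0 y = 0), x i = Cx.H.mk y hy := by
      intro i
      induction x i using Cx.H.induction_on with | _ y hy => exact ⟨y, hy, rfl⟩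
    choose y hy hxy using hrep
    have hyinv : ∀ i, (y i) ∈ (Y i).ρ.invariants := fun i => (dLC₀_eq_zero_iff (hY i) _).1 (hy i)
    obtain ⟨N, hN⟩ := L.exists_level
    obtain ⟨a, ha, -⟩ := hc.exists_evF (fun i _ => y i) (fun i h g => ((hyinv i) h).symm) hN
      (fun i g n _ => rfl)
    have hainv : a ∈ A.ρ.invariants := by
      intro x
      refine hc.ext fun i g => ?_
      rw [evF_ρ, ha, ha]
    refine ⟨Cx.H.mk (C := cx hA) (n := 0) a ((dLC₀_eq_zero_iff hA _).2 hainv), ?_⟩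
    funext i
    rw [locH_apply, hxy i]
    have e : (locHom hlev hA hY lam i).f 0 a = y i :=
      (locHom_f_zero hlev hA hY i a).trans ((evF_one lam i a).symm.trans (ha i 1))
    exact (Cx.Hom.mapH_mk (locHom hlev hA hY lam i) 0 _ _).trans (Cx.H.mk_congr e _)

include hc in
/-- **Closed-subgroup Shapiro, degree `1`, injectivity** (no Hilbert 90 needed). -/
theorem locH_one_injective : Function.Injective (locH hlev hA hY lam 1) := by
  rw [injective_iff_map_eq_zero]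
  intro x hx
  induction x using Cx.H.induction_on with | _ z hz =>
  rw [Cx.H.mk_eq_zero_iff_succ]
  set zf : G → A := cxFun₁ hA z with hzf
  have hcoc : zf ∈ cocycles₁ A := cxFun₁_mem_cocycles₁ hA hz
  have hcoc' := (mem_cocycles₁_iff zf).1 hcoc
  have hy : ∀ i, ∃ y : Y i, ∀ h : H i, (lam i).hom (zf (r i h)) = (Y i).ρ h y - y := by
    intro i
    have hi := congrFun hx i
    rw [locH_apply, Cx.Hom.mapH_mk, Pi.zero_apply, Cx.H.mk_eq_zero_iff_succ] at hi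
    obtain ⟨y, hy⟩ := hi
    refine ⟨y, fun h => ?_⟩
    have h1 := congrFun (congrArg (cxFun₁ (hY i)) hy) h
    rw [cxFun₁_locHom, cxFun₁_d, d₀₁_hom_apply] at h1
    exact h1.symm
  choose y hy using hy
  obtain ⟨N, hN, hzN⟩ := cxFun₁_isLC hA z
  obtain ⟨a, ha, -⟩ := hc.exists_evF (fun i g => (lam i).hom (zf g) + y i)
    (fun i h g => by
      rw [hcoc' (r i h) g, map_add, hy i h, map_add, lam_ρ]
      abel)
    hN (fun i g n hn => by simp only [hzf, hzN g n hn])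
  refine ⟨a, cxFun₁_injective hA ?_⟩
  change (d₀₁ A).hom a = zf
  funext g
  rw [d₀₁_hom_apply]
  refine hc.ext fun i x => ?_
  rw [evF_sub, evF_ρ, ha, ha, evF, hcoc' x g, map_add]
  abel

/-- **Hilbert 90 hypothesis**: below every level of `G` there is a level `N'` such that `LC.H1`
of `(r i)⁻¹ N'` with coefficients in `Y i` vanishes for all `i`. -/
def LocH90 (L : LevelStructure G) (LH : ∀ i, LevelStructure (H i)) (r : ∀ i, H i →* G)
    (Y : ∀ i, Rep.{u} k (H i)) : Prop :=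
  ∀ N, L.IsLevel N → ∃ N', L.IsLevel N' ∧ N' ≤ N ∧ ∀ i,
    Subsingleton (H1 ((LH i).comap (N'.comap (r i)).subtype)
      (Rep.res (N'.comap (r i)).subtype (Y i)))

include hc in
/-- **Closed-subgroup Shapiro, degree `1`, surjectivity** (under Hilbert 90). -/
theorem locH_one_surjective (h90 : LocH90 L LH r Y) :
    Function.Surjective (locH hlev hA hY lam 1) := by
  intro x
  have hrep : ∀ i, ∃ (w : (cx (hY i)).X 1) (hw : (cx (hY i)).d 1 w = 0), x i = Cx.H.mk w hw := by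
    intro i
    induction x i using Cx.H.induction_on with | _ w hw => exact ⟨w, hw, rfl⟩
  choose w hw hxw using hrep
  obtain ⟨N₀, hN₀⟩ := L.exists_level
  obtain ⟨N, hN, -, h1⟩ := h90 N₀ hN₀
  have hn : N.Normal := L.normal hN
  have hy : ∀ i, ∃ y : Y i, ∀ m ∈ N.comap (r i),
      cxFun₁ (hY i) (w i) m = (Y i).ρ m y - y := fun i =>
    exists_eq_d₀₁_on (N.comap (r i)) (h1 i)
      ⟨cxFun₁_mem_cocycles₁ (hY i) (hw i), cxFun₁_isLC (hY i) (w i)⟩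
  choose y hy using hy
  obtain ⟨b, hb⟩ : ∃ b : ∀ i, H i → Y i,
      ∀ i h, b i h = cxFun₁ (hY i) (w i) h - ((Y i).ρ h (y i) - y i) := ⟨_, fun _ _ => rfl⟩
  have hbcoc : ∀ i, b i ∈ cocycles₁ (Y i) := by
    intro i
    have hwc := (mem_cocycles₁_iff _).1 (cxFun₁_mem_cocycles₁ (hY i) (hw i))
    rw [mem_cocycles₁_iff]
    intro g h
    simp only [hb, hwc g h, map_sub, map_mul, Module.End.mul_apply]
    abel
  have hb0 : ∀ i, ∀ m ∈ N.comap (r i), b i m = 0 := fun i m hm => by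
    simp only [hb, hy i m hm, sub_self]
  have hbM : ∀ i (h : H i), ∀ m ∈ N.comap (r i), b i (h * m) = b i h := fun i h m hm =>
    cocycle_mul_right_of_vanish (hbcoc i) (hb0 i) h hm
  have R : ∀ i, RetrMod (r i) N := fun i => (RetrMod.nonempty (r i) N).some
  obtain ⟨bt, hbt⟩ : ∃ bt : ∀ i, G → Y i, ∀ i g, bt i g = b i ((R i).η g) := ⟨_, fun _ _ => rfl⟩
  have hbt1 : ∀ i (h : H i) (g : G), bt i (r i h * g) = b i h + (Y i).ρ h (bt i g) := by
    intro i h g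
    obtain ⟨m, hm, e⟩ := (R i).mul_left h g
    rw [hbt, hbt, e, hbM i _ m hm, (mem_cocycles₁_iff _).1 (hbcoc i) h ((R i).η g)]
    abel
  have hbt2 : ∀ i (g : G), ∀ n ∈ N, bt i (g * n) = bt i g := by
    intro i g n hn'
    obtain ⟨m, hm, e⟩ := (R i).mul_right g n hn'
    rw [hbt, hbt, e, hbM i _ m hm]
  obtain ⟨f, hf, hfinv, -⟩ := hc.exists_e₁ (fun i x₀ x₁ => bt i x₁ - bt i x₀)
    (fun i h x₀ x₁ => by rw [hbt1, hbt1, map_sub]; abel) hN
    (fun i x₀ x₁ n₀ hn₀ n₁ hn₁ => by rw [hbt2 i x₀ n₀ hn₀, hbt2 i x₁ n₁ hn₁])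
  have hfLC : L.IsLC₁ f := ⟨N, hN, hfinv⟩
  have hfcoc : f ∈ cocycles₁ A := by
    rw [mem_cocycles₁_iff]
    intro g h
    refine hc.ext fun i x => ?_
    rw [evF_add, evF_ρ, evF_eq_e₁, evF_eq_e₁, evF_eq_e₁, hf, hf, hf, mul_assoc]
    abel
  refine ⟨Cx.H.mk (cxMk₁ hA f hfLC) (d_cxMk₁_eq_zero hA hfLC hfcoc), ?_⟩
  funext i
  rw [locH_apply, Cx.Hom.mapH_mk, hxw i, Cx.H.mk_eq_mk_iff_succ]
  refine ⟨bt i 1 - y i, cxFun₁_injective (hY i) ?_⟩
  rw [cxFun₁_sub, cxFun₁_locHom, cxFun₁_cxMk₁]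
  change (d₀₁ (Y i)).hom (bt i 1 - y i) = _
  funext h
  rw [d₀₁_hom_apply, Pi.sub_apply]
  have e1 : (lam i).hom (show A from f (r i h)) = bt i (r i h) - bt i 1 := by
    rw [← evF_one lam i (f (r i h)), evF_eq_e₁, hf, one_mul]
  have e2 : bt i (r i h) = b i h + (Y i).ρ h (bt i 1) := by
    have := hbt1 i h 1
    rwa [mul_one] at this
  rw [e1, e2, hb]
  simp only [map_sub]
  abel

include hc in
/-- **Closed-subgroup Shapiro, degree `2`, injectivity** (under Hilbert 90). -/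
theorem locH_two_injective (h90 : LocH90 L LH r Y) :
    Function.Injective (locH hlev hA hY lam 2) := by
  rw [injective_iff_map_eq_zero]
  intro x hx
  induction x using Cx.H.induction_on with | _ z hz =>
  rw [Cx.H.mk_eq_zero_iff_succ]
  obtain ⟨zf, hzf⟩ : ∃ zf : G × G → A, zf = cxFun₂ hA z := ⟨_, rfl⟩
  have hcoc : zf ∈ cocycles₂ A := hzf ▸ cxFun₂_mem_cocycles₂ hA hz
  obtain ⟨N₁, hN₁, hinv₁, hfix₁⟩ := IsLC₂.exists_good hA (hzf ▸ cxFun₂_isLC hA z : L.IsLC₂ zf)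
  obtain ⟨N, hN, hle, h1⟩ := h90 N₁ hN₁
  have hn : N.Normal := L.normal hN
  have hinv : ∀ g g', ∀ s ∈ N, ∀ s' ∈ N, zf (g * s, g' * s') = zf (g, g') :=
    fun g g' s hs s' hs' => hinv₁ g g' s (hle hs) s' (hle hs')
  have hfix : ∀ g g', ∀ s ∈ N, A.ρ s (zf (g, g')) = zf (g, g') :=
    fun g g' s hs => hfix₁ (g, g') s (hle hs)
  -- the localised cocycles
  obtain ⟨cb, hcb⟩ : ∃ cb : ∀ i, H i × H i → Y i,
      ∀ i p, cb i p = (lam i).hom (show A from zf (r i p.1, r i p.2)) := ⟨_, fun _ _ => rfl⟩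
  have hβ : ∀ i, ∃ β : H i → Y i, (LH i).IsLC₁ β ∧ (d₁₂ (Y i)).hom β = cb i := by
    intro i
    have hi := congrFun hx i
    rw [locH_apply, Cx.Hom.mapH_mk, Pi.zero_apply, Cx.H.mk_eq_zero_iff_succ] at hi
    obtain ⟨β, hβ⟩ := hi
    refine ⟨cxFun₁ (hY i) β, cxFun₁_isLC (hY i) β, ?_⟩
    have := congrArg (cxFun₂ (hY i)) hβ
    rw [cxFun₂_d, cxFun₂_locHom] at this
    rw [this]
    funext p
    rw [hcb, hzf]
  have hβ' : ∀ i, ∃ β' : H i → Y i, (∀ g, ∀ m ∈ N.comap (r i), β' (g * m) = β' g) ∧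
      (∀ g, ∀ m ∈ N.comap (r i), (Y i).ρ m (β' g) = β' g) ∧ (d₁₂ (Y i)).hom β' = cb i := by
    intro i
    obtain ⟨β, hβLC, hdβ⟩ := hβ i
    have : (N.comap (r i)).Normal := hn.comap (r i)
    refine exists_invariant_primitive (N.comap (r i)) (h1 i) ?_ ?_ ?_ hβLC hdβ
    · rw [← hdβ]
      show (d₂₃ (Y i)).hom ((d₁₂ (Y i)).hom β) = 0
      have := d₁₂_comp_d₂₃ (Y i)
      exact congrArg (fun φ => φ.hom β) this
    · intro g h m hm m' hm'
      rw [hcb, hcb]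
      simp only [map_mul]
      rw [hinv _ _ _ hm _ hm']
    · intro g h m hm
      rw [hcb, ← lam_ρ, hfix _ _ _ hm]
  choose β' hβ'inv hβ'fix hdβ' using hβ'
  have R : ∀ i, RetrMod (r i) N := fun i => (RetrMod.nonempty (r i) N).some
  obtain ⟨η, hη⟩ : ∃ η : ∀ i, G → H i, ∀ i x, η i x = (R i).η x := ⟨_, fun _ _ => rfl⟩
  have hη1 : ∀ i (h : H i) (x : G), ∃ m ∈ N.comap (r i), η i (r i h * x) = h * η i x * m := by
    intro i h x
    simp only [hη]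
    exact (R i).mul_left h x
  have hη2 : ∀ i (x : G), ∀ n ∈ N, ∃ m ∈ N.comap (r i), η i (x * n) = η i x * m := by
    intro i x n hn'
    simp only [hη]
    exact (R i).mul_right x n hn'
  -- the homogeneous primitive
  obtain ⟨T, hT⟩ : ∃ T : ∀ i, G → G → Y i,
      ∀ i x₀ x₁, T i x₀ x₁ = Shap.h₁ (β' i) (η i x₀) (η i x₁) := ⟨_, fun _ _ _ => rfl⟩
  obtain ⟨E, hE⟩ : ∃ E : ∀ i, G → G → G → Y i,
      ∀ i x₀ x₁ x₂, E i x₀ x₁ x₂ = e₂ lam zf i x₀ x₁ x₂ := ⟨_, fun _ _ _ _ => rfl⟩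
  have hEsmul : ∀ i (h : H i) x₀ x₁ x₂,
      E i (r i h * x₀) (r i h * x₁) (r i h * x₂) = (Y i).ρ h (E i x₀ x₁ x₂) := by
    intro i h x₀ x₁ x₂
    rw [hE, hE, e₂_smul]
  have hEinv : ∀ i x₀ x₁ x₂, ∀ n₀ ∈ N, ∀ n₁ ∈ N, ∀ n₂ ∈ N,
      E i (x₀ * n₀) (x₁ * n₁) (x₂ * n₂) = E i x₀ x₁ x₂ := by
    intro i x₀ x₁ x₂ n₀ h₀ n₁ h₁ n₂ h₂
    rw [hE, hE, e₂_mul_right lam hinv hfix i x₀ x₁ x₂ h₀ h₁ h₂]
  have hEcoc : ∀ i x₀ x₁ x₂ x₃,
      E i x₁ x₂ x₃ + E i x₀ x₁ x₃ = E i x₀ x₂ x₃ + E i x₀ x₁ x₂ := by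
    intro i x₀ x₁ x₂ x₃
    simp only [hE]
    exact e₂_cocycle lam hcoc i x₀ x₁ x₂ x₃
  have hTsmul : ∀ i (h : H i) (m₀ m₁ : H i), m₀ ∈ N.comap (r i) → m₁ ∈ N.comap (r i) →
      ∀ (a₀ a₁ : H i), Shap.h₁ (β' i) (h * a₀ * m₀) (h * a₁ * m₁) =
        (Y i).ρ h (Shap.h₁ (β' i) a₀ a₁) := by
    intro i h m₀ m₁ hm₀ hm₁ a₀ a₁
    have : (N.comap (r i)).Normal := hn.comap (r i)
    rw [h₁_mul_right (hβ'inv i) (hβ'fix i) _ _ hm₀ hm₁, Shap.h₁_smul]
  have hδT : ∀ i x₀ x₁ x₂, T i x₁ x₂ - T i x₀ x₂ + T i x₀ x₁ =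
      E i (r i (η i x₀)) (r i (η i x₁)) (r i (η i x₂)) := by
    intro i x₀ x₁ x₂
    rw [hT, hT, hT, ← Shap.h₂_d₁₂, hdβ' i, hE, e₂_eq, evF]
    simp only [Shap.h₂, hcb, map_mul, map_inv]
    rw [lam_ρ]
  obtain ⟨ψ, hψ⟩ : ∃ ψ : ∀ i, G → G → Y i, ∀ i x₀ x₁, ψ i x₀ x₁ =
      T i x₀ x₁ - E i x₀ (r i (η i x₀)) (r i (η i x₁)) + E i x₀ x₁ (r i (η i x₁)) :=
    ⟨_, fun _ _ _ => rfl⟩
  obtain ⟨f, hf, hfinv, -⟩ := hc.exists_e₁ ψ
    (fun i h x₀ x₁ => by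
      obtain ⟨m₀, hm₀, e₀⟩ := hη1 i h x₀
      obtain ⟨m₁, hm₁, e₁'⟩ := hη1 i h x₁
      have hr₀ : r i m₀ ∈ N := hm₀
      have hr₁ : r i m₁ ∈ N := hm₁
      rw [hψ, hψ, hT, hT, e₀, e₁', hTsmul i h m₀ m₁ hm₀ hm₁]
      simp only [map_mul]
      have a1 := hEinv i (r i h * x₀) (r i h * r i (η i x₀)) (r i h * r i (η i x₁))
        1 N.one_mem (r i m₀) hr₀ (r i m₁) hr₁
      rw [mul_one] at a1
      have a2 := hEinv i (r i h * x₀) (r i h * x₁) (r i h * r i (η i x₁))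
        1 N.one_mem 1 N.one_mem (r i m₁) hr₁
      rw [mul_one, mul_one] at a2
      rw [a1, a2, hEsmul, hEsmul, map_add, map_sub])
    hN
    (fun i x₀ x₁ n₀ hn₀ n₁ hn₁ => by
      obtain ⟨m₀, hm₀, e₀⟩ := hη2 i x₀ n₀ hn₀
      obtain ⟨m₁, hm₁, e₁'⟩ := hη2 i x₁ n₁ hn₁
      have hr₀ : r i m₀ ∈ N := hm₀
      have hr₁ : r i m₁ ∈ N := hm₁
      have : (N.comap (r i)).Normal := hn.comap (r i)
      rw [hψ, hψ, hT, hT, e₀, e₁', h₁_mul_right (hβ'inv i) (hβ'fix i) _ _ hm₀ hm₁]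
      simp only [map_mul]
      rw [hEinv i x₀ _ _ n₀ hn₀ (r i m₀) hr₀ (r i m₁) hr₁,
        hEinv i x₀ x₁ _ n₀ hn₀ n₁ hn₁ (r i m₁) hr₁])
  have hfLC : L.IsLC₁ f := ⟨N, hN, hfinv⟩
  refine ⟨cxMk₁ hA f hfLC, cxFun₂_injective hA ?_⟩
  rw [cxFun₂_d, cxFun₁_cxMk₁, ← hzf]
  refine hc.ext₂ fun i x₀ x₁ x₂ => ?_
  rw [e₂_d₁₂, hf, hf, hf, hψ, hψ, hψ, ← hE]
  have hT' := hδT i x₀ x₁ x₂
  have id1 := hEcoc i x₀ (r i (η i x₀)) (r i (η i x₁)) (r i (η i x₂))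
  have id2 := hEcoc i x₀ x₁ (r i (η i x₁)) (r i (η i x₂))
  have id3 := hEcoc i x₀ x₁ x₂ (r i (η i x₂))
  linear_combination (norm := abel) hT' + id1 - id2 + id3

include hc in
/-- **Closed-subgroup Shapiro, degree `1`** (under Hilbert 90). -/
theorem locH_one_bijective (h90 : LocH90 L LH r Y) :
    Function.Bijective (locH hlev hA hY lam 1) :=
  ⟨locH_one_injective hlev hA hY hc, locH_one_surjective hlev hA hY hc h90⟩

end Main

end LC

end Fermat.Agent.CFT
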