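import Fermat.Agent.CFT.LC.H90Transfer
import Fermat.Agent.CFT.LC.ClosedShapiro
import Fermat.Agent.CFT.HyperExt.LCHom

/-!
# The Hilbert 90 hypothesis `LocH90` passes to `Hom(P, X)`

`LC.LocH90.ihom`: if the family of local modules `X i` satisfies the Hilbert 90 hypothesis
`LC.LocH90 L LH r X` of `LC/ClosedShapiro.lean`, then so does the family `Hom(Res P, X i)` for every
finite free smooth `G`-module `P` (below the level fixing `P` pointwise the local groups act
trivially on `P`, and `LC.subsingleton_H1_res_ihom_res` applies).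
-/

set_option autoImplicit false

universe u

open CategoryTheory groupCohomology

namespace Fermat.Agent.CFT

namespace LC

variable {k G : Type u} [CommRing k] [Group G] {L : LevelStructure G}
  {ι : Type*} {H : ι → Type u} [∀ i, Group (H i)] {LH : ∀ i, LevelStructure (H i)}
  {r : ∀ i, H i →* G}

/-- **Hilbert 90 for `Hom(P, X)`**: the hypothesis `LocH90` for the modules `X i` implies `LocH90`
for the modules `Hom(Res P, X i)`, for every finite free smooth `P`. -/
theorem LocH90.ihom {X : ∀ i, Rep.{u} k (H i)} (h90 : LocH90 L LH r X) (P : Rep.{u} k G)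
    [Module.Free k P] [Module.Finite k P] (hP : IsSmooth L P) :
    LocH90 L LH r (fun i => (Rep.ihom (Rep.res (r i) P)).obj (X i)) := by
  intro N hN
  obtain ⟨NP, hNP, hfix⟩ := hP.exists_level_of_moduleFinite
  obtain ⟨N₁, hN₁, hle₁⟩ := L.directed hN hNP
  obtain ⟨N', hN', hle', h1⟩ := h90 N₁ hN₁
  refine ⟨N', hN', hle'.trans (hle₁.trans inf_le_left), fun i => ?_⟩
  refine subsingleton_H1_res_ihom_res (r i) (N'.comap (r i)) _ P (X i) (fun m π => ?_) (h1 i)
  exact hfix _ ((hle₁.trans inf_le_right) (hle' m.2)) π

end LC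

end Fermat.Agent.CFT
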