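import Fermat.Agent.CFT.LC.InfRes

/-!
# Level cohomology: inflation–restriction in degree 2, exactness at `H²(G)` (cochain form)

Let `M` be an open normal subgroup of `G` such that the level cohomology `LC.H1` of `M` with
coefficients in `A` vanishes.  If the restriction to `M` of an LC `2`-cocycle `c` of `G` is the
coboundary of an LC `1`-cochain of `M`, then `c` is cohomologous (by an LC `1`-cochain of `G`) to a
`2`-cocycle which is inflated from `G ⧸ M`: right-`M`-invariant in both variables with `M`-fixed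
values (`exists_inflated_of_res_coboundary`).

The proof is the classical chain of three explicit normalisations:

* `exists_sub_d_vanish_on`: extend the primitive on `M` by zero; the new cocycle vanishes on
  `M × M`;
* `exists_add_d_vanish_right`: a cocycle vanishing on `M × M` is cohomologous to one vanishing on
  `G × M`;
* `exists_sub_d_vanish_both`: a cocycle vanishing on `G × M` is cohomologous to one vanishing on
  `G × M` and `M × G` (this uses `H¹(M, A) = 0`);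
* `inflated_of_vanish`: a cocycle vanishing on `G × M` and `M × G` is inflated from `G ⧸ M`.
-/

set_option autoImplicit false

universe u

open CategoryTheory groupCohomology

namespace Fermat.Agent.CFT

namespace LC

open LevelStructure

variable {k G : Type u} [CommRing k] [Group G] {L : LevelStructure G} {A : Rep.{u} k G}
  (M : Subgroup G)

/-- A set-theoretic section of `G → G ⧸ M`, written as a map `σ : G → G` which is constant on the
left cosets of `M`, with `σ g ∈ g M` and `σ = 1` on `M`. -/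
theorem exists_cosetSection :
    ∃ σ : G → G, (∀ g, g⁻¹ * σ g ∈ M) ∧ (∀ g, ∀ m ∈ M, σ (g * m) = σ g) ∧ ∀ m ∈ M, σ m = 1 := by
  classical
  refine ⟨fun g => if g ∈ M then 1 else (QuotientGroup.mk g : G ⧸ M).out, fun g => ?_,
    fun g m hm => ?_, fun m hm => if_pos hm⟩
  · by_cases hg : g ∈ M
    · simp only [if_pos hg, mul_one]
      exact M.inv_mem hg
    · simp only [if_neg hg]
      obtain ⟨h, hh⟩ := QuotientGroup.mk_out_eq_mul M g
      rw [hh, inv_mul_cancel_left]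
      exact h.2
  · have hiff : g * m ∈ M ↔ g ∈ M :=
      ⟨fun h => by simpa using M.mul_mem h (M.inv_mem hm), fun h => M.mul_mem h hm⟩
    by_cases hg : g ∈ M
    · simp only [if_pos hg, if_pos (hiff.2 hg)]
    · simp only [if_neg hg, if_neg (fun h => hg (hiff.1 h))]
      rw [QuotientGroup.mk_mul_of_mem g hm]

/-- A function which is right-invariant under an open subgroup is level-constant. -/
lemma isLC₁_of_mul_right {X : Type*} (hMo : L.IsOpen M) {β : G → X}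
    (h : ∀ g, ∀ m ∈ M, β (g * m) = β g) : L.IsLC₁ β := by
  obtain ⟨N, hN, hle⟩ := hMo
  exact ⟨N, hN, fun g s hs => h g s (hle hs)⟩

variable {M}

/-- `c (1, g) = c (1, 1)` for a `2`-cocycle. -/
lemma cocycle₂_one_left {c : G × G → A} (hc : c ∈ cocycles₂ A) (g : G) : c (1, g) = c (1, 1) := by
  have h := (mem_cocycles₂_iff c).1 hc 1 1 g
  simp only [one_mul, map_one, Module.End.one_apply] at h
  exact (add_left_cancel h).symm

/-- `c (g, 1) = g • c (1, 1)` for a `2`-cocycle. -/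
lemma cocycle₂_one_right {c : G × G → A} (hc : c ∈ cocycles₂ A) (g : G) :
    c (g, 1) = A.ρ g (c (1, 1)) := by
  have h := (mem_cocycles₂_iff c).1 hc g 1 1
  simp only [mul_one] at h
  exact add_right_cancel h

variable (M)

/-- **Step A.** If the restriction of `c` to `M` is the coboundary of an LC cochain `b` of `M`,
then subtracting the coboundary of the extension by zero of `b` makes `c` vanish on `M × M`. -/
theorem exists_sub_d_vanish_on (hMo : L.IsOpen M) {c : G × G → A} {b : M → A}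
    (hb : (L.comap M.subtype).IsLC₁ b)
    (hres : ∀ m m' : M, c ((m : G), (m' : G)) = A.ρ (m : G) (b m') - b (m * m') + b m) :
    ∃ β : G → A, L.IsLC₁ β ∧ ∀ m ∈ M, ∀ m' ∈ M, (c - (d₁₂ A).hom β) (m, m') = 0 := by
  classical
  obtain ⟨β, hβ⟩ : ∃ β : G → A, ∀ g, β g = if h : g ∈ M then b ⟨g, h⟩ else 0 := ⟨_, fun _ => rfl⟩
  have hβM : ∀ (m : G) (hm : m ∈ M), β m = b ⟨m, hm⟩ := fun m hm => by rw [hβ, dif_pos hm]
  refine ⟨β, ?_, fun m hm m' hm' => ?_⟩
  · obtain ⟨_, ⟨N, hN, rfl⟩, hinv⟩ := hb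
    obtain ⟨N₁, hN₁, hle₁⟩ := hMo
    obtain ⟨N₂, hN₂, hle₂⟩ := L.directed hN hN₁
    refine ⟨N₂, hN₂, fun g s hs => ?_⟩
    have hsM : s ∈ M := hle₁ ((hle₂.trans inf_le_right) hs)
    have hsN : s ∈ N := (hle₂.trans inf_le_left) hs
    by_cases hg : g ∈ M
    · rw [hβM _ (M.mul_mem hg hsM), hβM _ hg]
      exact hinv ⟨g, hg⟩ ⟨s, hsM⟩ hsN
    · have hgs : g * s ∉ M := fun h => hg (by simpa using M.mul_mem h (M.inv_mem hsM))
      rw [hβ, hβ, dif_neg hg, dif_neg hgs]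
  · rw [Pi.sub_apply, d₁₂_hom_apply, hβM m hm, hβM m' hm', hβM _ (M.mul_mem hm hm')]
    have := hres ⟨m, hm⟩ ⟨m', hm'⟩
    simp only at this
    rw [this]
    exact sub_self _

/-- **Step B.** An LC `2`-cocycle vanishing on `M × M` is cohomologous to one vanishing on
`G × M`. -/
theorem exists_add_d_vanish_right (hMo : L.IsOpen M) {w : G × G → A} (hw : w ∈ Z₂ L A)
    (hwM : ∀ m ∈ M, ∀ m' ∈ M, w (m, m') = 0) :
    ∃ β : G → A, L.IsLC₁ β ∧ ∀ g, ∀ m ∈ M, (w + (d₁₂ A).hom β) (g, m) = 0 := by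
  obtain ⟨σ, hσ, hσM, hσ1⟩ := exists_cosetSection M
  have hcoc := (mem_cocycles₂_iff w).1 hw.1
  have h11 : w (1, 1) = 0 := hwM 1 M.one_mem 1 M.one_mem
  obtain ⟨β, hβ⟩ : ∃ β : G → A, ∀ g, β g = w (σ g, (σ g)⁻¹ * g) := ⟨_, fun _ => rfl⟩
  have hn : ∀ g, (σ g)⁻¹ * g ∈ M := fun g => by
    have := M.inv_mem (hσ g)
    rwa [mul_inv_rev, inv_inv] at this
  have hβM : ∀ m ∈ M, β m = 0 := fun m hm => by
    rw [hβ, hσ1 m hm, inv_one, one_mul, cocycle₂_one_left hw.1, h11]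
  refine ⟨β, ?_, fun g m hm => ?_⟩
  · obtain ⟨N, hN, hinv⟩ := hw.2
    obtain ⟨N₁, hN₁, hle₁⟩ := hMo
    obtain ⟨N₂, hN₂, hle₂⟩ := L.directed hN hN₁
    refine ⟨N₂, hN₂, fun g s hs => ?_⟩
    have hsM : s ∈ M := hle₁ ((hle₂.trans inf_le_right) hs)
    have hsN : s ∈ N := (hle₂.trans inf_le_left) hs
    rw [hβ, hβ, hσM g s hsM, ← mul_assoc]
    have := hinv (σ g) ((σ g)⁻¹ * g) 1 N.one_mem s hsN
    rwa [mul_one] at this
  · rw [Pi.add_apply, d₁₂_hom_apply, hβM m hm, map_zero, hβ (g * m), hβ g, hσM g m hm,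
      ← mul_assoc]
    have h := hcoc (σ g) ((σ g)⁻¹ * g) m
    rw [mul_inv_cancel_left, hwM _ (hn g) m hm, map_zero, zero_add] at h
    rw [← h]
    abel

/-- **Step C.** If `LC.H1` of the open normal subgroup `M` vanishes, an LC `2`-cocycle vanishing
on `G × M` is cohomologous to one vanishing on `G × M` and on `M × G`. -/
theorem exists_sub_d_vanish_both [M.Normal] (hMo : L.IsOpen M)
    (hH1 : Subsingleton (H1 (L.comap M.subtype) (Rep.res M.subtype A)))
    {w : G × G → A} (hw : w ∈ Z₂ L A) (hwr : ∀ g, ∀ m ∈ M, w (g, m) = 0) :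
    ∃ β : G → A, L.IsLC₁ β ∧ (∀ g, ∀ m ∈ M, (w - (d₁₂ A).hom β) (g, m) = 0) ∧
      ∀ g, ∀ m ∈ M, (w - (d₁₂ A).hom β) (m, g) = 0 := by
  obtain ⟨σ, hσ, hσM, hσ1⟩ := exists_cosetSection M
  have hcoc := (mem_cocycles₂_iff w).1 hw.1
  have hconj : ∀ g : G, ∀ m ∈ M, g⁻¹ * m * g ∈ M := fun g m hm => by
    have := (inferInstance : M.Normal).conj_mem m hm g⁻¹
    simpa [mul_assoc] using this
  -- right-`M`-invariance in the second variable
  have hr2 : ∀ g₁ g₂, ∀ m ∈ M, w (g₁, g₂ * m) = w (g₁, g₂) := by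
    intro g₁ g₂ m hm
    have h := hcoc g₁ g₂ m
    rw [hwr _ m hm, hwr _ m hm, map_zero, zero_add, zero_add] at h
    exact h.symm
  -- `m ↦ w (m, h)` is a cocycle on `M`
  have hb : ∀ h : G, ∃ y : A, ∀ m ∈ M, w (m, h) = A.ρ m y - y := by
    intro h
    refine exists_eq_d₀₁_on' M hH1 (b := fun g => w (g, h)) ?_ ?_
    · obtain ⟨N, hN, hinv⟩ := hw.2
      refine ⟨N, hN, fun g s hs => ?_⟩
      have := hinv g h s hs 1 N.one_mem
      rwa [mul_one] at this
    · intro m hm m' hm'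
      have h1 := hcoc m m' h
      have h2 : m' * h = h * (h⁻¹ * m' * h) := by group
      rw [hwr m m' hm', add_zero, h2, hr2 m h _ (hconj h m' hm')] at h1
      exact h1
  choose y hy using hb
  have hy1 : ∀ m ∈ M, A.ρ m (y 1) = y 1 := by
    intro m hm
    have := hy 1 m hm
    rw [hwr m 1 M.one_mem] at this
    exact (sub_eq_zero.1 this.symm)
  have hyσ : ∀ h, ∀ m ∈ M, w (m, h) = A.ρ m (y (σ h)) - y (σ h) := by
    intro h m hm
    rw [← hy (σ h) m hm]
    have h2 : σ h = h * (h⁻¹ * σ h) := by group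
    rw [h2, hr2 m h _ (hσ h)]
  obtain ⟨β, hβ⟩ : ∃ β : G → A, ∀ g, β g = y (σ g) - y 1 := ⟨_, fun _ => rfl⟩
  have hβr : ∀ g, ∀ m ∈ M, β (g * m) = β g := fun g m hm => by rw [hβ, hβ, hσM g m hm]
  have hβM : ∀ m ∈ M, β m = 0 := fun m hm => by rw [hβ, hσ1 m hm, sub_self]
  refine ⟨β, isLC₁_of_mul_right M hMo hβr, fun g m hm => ?_, fun g m hm => ?_⟩
  · rw [Pi.sub_apply, d₁₂_hom_apply, hwr g m hm, hβM m hm, hβr g m hm, map_zero]
    abel
  · have h2 : m * g = g * (g⁻¹ * m * g) := by group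
    have h3 : β (m * g) = β g := by rw [h2, hβr g _ (hconj g m hm)]
    rw [Pi.sub_apply, d₁₂_hom_apply]
    simp only
    rw [hβM m hm, h3, hyσ g m hm, hβ, map_sub, hy1 m hm]
    abel

variable {M}

/-- **Step D.** A `2`-cocycle vanishing on `G × M` and on `M × G` (`M` normal) is inflated from
`G ⧸ M`: it is right-`M`-invariant in both variables and has `M`-fixed values. -/
theorem inflated_of_vanish [M.Normal] {w : G × G → A} (hw : w ∈ cocycles₂ A)
    (hwr : ∀ g, ∀ m ∈ M, w (g, m) = 0) (hwl : ∀ g, ∀ m ∈ M, w (m, g) = 0) :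
    (∀ g h, ∀ m ∈ M, ∀ m' ∈ M, w (g * m, h * m') = w (g, h)) ∧
      ∀ g h, ∀ m ∈ M, A.ρ m (w (g, h)) = w (g, h) := by
  have hcoc := (mem_cocycles₂_iff w).1 hw
  have hconj : ∀ g : G, ∀ m ∈ M, g⁻¹ * m * g ∈ M := fun g m hm => by
    have := (inferInstance : M.Normal).conj_mem m hm g⁻¹
    simpa [mul_assoc] using this
  have hr2 : ∀ g₁ g₂, ∀ m ∈ M, w (g₁, g₂ * m) = w (g₁, g₂) := by
    intro g₁ g₂ m hm
    have h := hcoc g₁ g₂ m
    rw [hwr _ m hm, hwr _ m hm, map_zero, zero_add, zero_add] at h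
    exact h.symm
  have hr1 : ∀ g₁ g₂, ∀ m ∈ M, w (g₁ * m, g₂) = w (g₁, g₂) := by
    intro g₁ g₂ m hm
    have h := hcoc g₁ m g₂
    have h2 : m * g₂ = g₂ * (g₂⁻¹ * m * g₂) := by group
    rw [hwr _ m hm, hwl _ m hm, map_zero, add_zero, zero_add, h2, hr2 _ _ _ (hconj g₂ m hm)] at h
    exact h
  refine ⟨fun g h m hm m' hm' => by rw [hr1 _ _ m hm, hr2 _ _ m' hm'], fun g h m hm => ?_⟩
  have h1 := hcoc m g h
  have h2 : m * g = g * (g⁻¹ * m * g) := by group
  rw [hwl _ m hm, hwl _ m hm, add_zero, add_zero, h2, hr1 _ _ _ (hconj g m hm)] at h1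
  exact h1.symm

variable (M)

/-- **Inflation–restriction in degree 2, exactness at `H²(G, A)`** (cochain form).  Let `M` be an
open normal subgroup with `LC.H1 (M, A) = 0`.  If the restriction to `M` of the LC `2`-cocycle `c`
is the coboundary of an LC `1`-cochain `b` of `M`, there is an LC `1`-cochain `β` of `G` such
that `c - dβ` is inflated from `G ⧸ M`. -/
theorem exists_inflated_of_res_coboundary [M.Normal] (hMo : L.IsOpen M) (hA : IsSmooth L A)
    (hH1 : Subsingleton (H1 (L.comap M.subtype) (Rep.res M.subtype A)))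
    {c : G × G → A} (hc : c ∈ Z₂ L A) {b : M → A} (hb : (L.comap M.subtype).IsLC₁ b)
    (hres : ∀ m m' : M, c ((m : G), (m' : G)) = A.ρ (m : G) (b m') - b (m * m') + b m) :
    ∃ β : G → A, L.IsLC₁ β ∧
      (∀ g h, ∀ m ∈ M, ∀ m' ∈ M,
        (c - (d₁₂ A).hom β) (g * m, h * m') = (c - (d₁₂ A).hom β) (g, h)) ∧
      ∀ g h, ∀ m ∈ M, A.ρ m ((c - (d₁₂ A).hom β) (g, h)) = (c - (d₁₂ A).hom β) (g, h) := by
  have hdZ : ∀ β : G → A, L.IsLC₁ β → (d₁₂ A).hom β ∈ Z₂ L A := fun β hβ =>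
    B₂_le_Z₂ hA (mem_B₂_iff.2 ⟨β, hβ, rfl⟩)
  obtain ⟨β₁, hβ₁, h1⟩ := exists_sub_d_vanish_on M hMo hb hres
  have hc₁ : c - (d₁₂ A).hom β₁ ∈ Z₂ L A := (Z₂ L A).sub_mem hc (hdZ β₁ hβ₁)
  obtain ⟨β₂, hβ₂, h2⟩ := exists_add_d_vanish_right M hMo hc₁ h1
  have hc₂ : c - (d₁₂ A).hom β₁ + (d₁₂ A).hom β₂ ∈ Z₂ L A := (Z₂ L A).add_mem hc₁ (hdZ β₂ hβ₂)
  obtain ⟨β₃, hβ₃, h3, h3'⟩ := exists_sub_d_vanish_both M hMo hH1 hc₂ h2
  have hc₃ : c - (d₁₂ A).hom β₁ + (d₁₂ A).hom β₂ - (d₁₂ A).hom β₃ ∈ Z₂ L A :=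
    (Z₂ L A).sub_mem hc₂ (hdZ β₃ hβ₃)
  have hfin := inflated_of_vanish (M := M) hc₃.1 h3 h3'
  have hβLC : L.IsLC₁ (β₁ - β₂ + β₃) :=
    (C₁ L A).add_mem ((C₁ L A).sub_mem hβ₁ hβ₂) hβ₃
  have heq : c - (d₁₂ A).hom (β₁ - β₂ + β₃) =
      c - (d₁₂ A).hom β₁ + (d₁₂ A).hom β₂ - (d₁₂ A).hom β₃ := by
    rw [map_add, map_sub]
    abel
  refine ⟨β₁ - β₂ + β₃, hβLC, ?_, ?_⟩
  · rw [heq]
    exact hfin.1
  · rw [heq]
    exact hfin.2

end LC

end Fermat.Agent.CFT
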