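import Fermat.Agent.CFT.LC.ClosedShapiro
import Fermat.Agent.CFT.LC.InfResTwo

/-!
# Level cohomology: closed-subgroup Shapiro in degree 2, surjectivity onto effaceable classes

Setting of `LC/ClosedShapiro.lean`: `A` a smooth `G`-module which is locally coinduced
(`LC.IsLocCoind`) from the smooth `H i`-modules `Y i` along `r i : H i →* G`, Hilbert 90
(`LC.LocH90`).  The localisation map `H²(G, A) → ∏ᵢ H²(H i, Y i)` is injective
(`locH_two_injective`) but in general not surjective, because the level structure of `H i` may be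
finer than the one induced from `G`.  Here we prove that its image contains every family of
classes `y i` which are *effaceable*: killed by restriction to `(r i)⁻¹ N` for some level `N` of
`G` (`locH_two_surjective_of_eff`).

* `RetrMod.nonempty_one`: retractions modulo `N` normalised by `η 1 = 1`;
* `h₂_mul_right`: right-invariance of the homogeneous form of an inflated `2`-cochain;
* `IsLocCoind.exists_e₂`: construction of an `A`-valued `2`-cochain from its homogeneous forms;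
* `locH_two_surjective_of_eff`.
-/

set_option autoImplicit false
set_option linter.style.haveILetI false

universe u

open CategoryTheory groupCohomology

namespace Fermat.Agent.CFT

namespace LC

open HExt LevelStructure

section Retraction

variable {G H : Type u} [Group G] [Group H] (r : H →* G) (N : Subgroup G) [N.Normal]

/-- There is a retraction modulo `N` with `η 1 = 1`. -/
theorem RetrMod.nonempty_one : ∃ R : RetrMod r N, R.η 1 = 1 := by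
  obtain ⟨R⟩ := RetrMod.nonempty r N
  have hconj : ∀ m ∈ N.comap r, R.η 1 * m * (R.η 1)⁻¹ ∈ N.comap r := fun m hm =>
    (inferInstance : (N.comap r).Normal).conj_mem m hm (R.η 1)
  refine ⟨⟨fun x => R.η x * (R.η 1)⁻¹, fun h x => ?_, fun x n hn => ?_⟩, mul_inv_cancel _⟩
  · obtain ⟨m, hm, e⟩ := R.mul_left h x
    refine ⟨R.η 1 * m * (R.η 1)⁻¹, hconj m hm, ?_⟩
    rw [e]
    group
  · obtain ⟨m, hm, e⟩ := R.mul_right x n hn
    refine ⟨R.η 1 * m * (R.η 1)⁻¹, hconj m hm, ?_⟩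
    rw [e]
    group

end Retraction

section Hmg

variable {k Γ : Type u} [CommRing k] [Group Γ] {B : Rep.{u} k Γ}

/-- Right-invariance of the homogeneous form `Shap.h₂ F` under a normal subgroup `N`, for
`N`-invariant `F` with `N`-fixed values. -/
lemma h₂_mul_right {N : Subgroup Γ} [N.Normal] {F : Γ × Γ → B}
    (hinv : ∀ g g', ∀ s ∈ N, ∀ s' ∈ N, F (g * s, g' * s') = F (g, g'))
    (hfix : ∀ g g', ∀ s ∈ N, B.ρ s (F (g, g')) = F (g, g'))
    (x₀ x₁ x₂ : Γ) {n₀ n₁ n₂ : Γ} (h₀ : n₀ ∈ N) (h₁ : n₁ ∈ N) (h₂ : n₂ ∈ N) :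
    Shap.h₂ F (x₀ * n₀) (x₁ * n₁) (x₂ * n₂) = Shap.h₂ F x₀ x₁ x₂ := by
  have hn := (inferInstance : N.Normal)
  have e : (x₀ * n₀)⁻¹ * (x₁ * n₁) = x₀⁻¹ * x₁ * ((x₀⁻¹ * x₁)⁻¹ * n₀⁻¹ * (x₀⁻¹ * x₁) * n₁) := by
    group
  have hm : (x₀⁻¹ * x₁)⁻¹ * n₀⁻¹ * (x₀⁻¹ * x₁) * n₁ ∈ N := by
    refine N.mul_mem ?_ h₁
    have := hn.conj_mem n₀⁻¹ (N.inv_mem h₀) (x₀⁻¹ * x₁)⁻¹
    simpa [mul_assoc] using this
  have e' : (x₁ * n₁)⁻¹ * (x₂ * n₂) = x₁⁻¹ * x₂ * ((x₁⁻¹ * x₂)⁻¹ * n₁⁻¹ * (x₁⁻¹ * x₂) * n₂) := by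
    group
  have hm' : (x₁⁻¹ * x₂)⁻¹ * n₁⁻¹ * (x₁⁻¹ * x₂) * n₂ ∈ N := by
    refine N.mul_mem ?_ h₂
    have := hn.conj_mem n₁⁻¹ (N.inv_mem h₁) (x₁⁻¹ * x₂)⁻¹
    simpa [mul_assoc] using this
  simp only [Shap.h₂]
  rw [e, e', hinv _ _ _ hm _ hm', map_mul, Module.End.mul_apply, hfix _ _ _ h₀]

end Hmg

section Dict

variable {k G : Type u} [CommRing k] [Group G] {L : LevelStructure G}
  {ι : Type*} {H : ι → Type u} [∀ i, Group (H i)]
  {r : ∀ i, H i →* G}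
  {A : Rep.{u} k G} {Y : ∀ i, Rep.{u} k (H i)} {lam : ∀ i, Rep.res (r i) A ⟶ Y i}

/-- Construction of a level-constant `2`-cochain from its homogeneous form. -/
lemma IsLocCoind.exists_e₂ (hc : IsLocCoind L r A Y lam) (ψ : ∀ i, G → G → G → Y i)
    (hψ : ∀ i (h : H i) (x₀ x₁ x₂ : G),
      ψ i (r i h * x₀) (r i h * x₁) (r i h * x₂) = (Y i).ρ h (ψ i x₀ x₁ x₂))
    {N : Subgroup G} (hN : L.IsLevel N)
    (hinv : ∀ i (x₀ x₁ x₂ : G), ∀ n₀ ∈ N, ∀ n₁ ∈ N, ∀ n₂ ∈ N,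
      ψ i (x₀ * n₀) (x₁ * n₁) (x₂ * n₂) = ψ i x₀ x₁ x₂) :
    ∃ F : G × G → A, (∀ i x₀ x₁ x₂, e₂ lam F i x₀ x₁ x₂ = ψ i x₀ x₁ x₂) ∧
      (∀ g g', ∀ n ∈ N, ∀ n' ∈ N, F (g * n, g' * n') = F (g, g')) ∧
      ∀ p, ∀ n ∈ N, A.ρ n (F p) = F p := by
  have hn := L.normal hN
  have hconj : ∀ g : G, ∀ n ∈ N, g⁻¹ * n * g ∈ N := fun g n hn' => by
    have := hn.conj_mem n hn' g⁻¹
    simpa [mul_assoc] using this
  have key : ∀ p : G × G, ∃ a : A, (∀ i x, evF lam i a x = ψ i x (x * p.1) (x * p.1 * p.2)) ∧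
      ∀ n ∈ N, A.ρ n a = a := by
    rintro ⟨g, g'⟩
    refine hc.exists_evF (fun i x => ψ i x (x * g) (x * g * g')) (fun i h x => ?_) hN
      (fun i x n hn' => ?_)
    · rw [mul_assoc, mul_assoc, mul_assoc, ← mul_assoc x g g', hψ]
    · have e : x * n * g = x * g * (g⁻¹ * n * g) := by group
      have e' : x * n * g * g' = x * g * g' * ((g * g')⁻¹ * n * (g * g')) := by group
      rw [e', e, hinv i x (x * g) (x * g * g') n hn' _ (hconj g n hn') _ (hconj (g * g') n hn')]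
  choose F hF hfix using key
  refine ⟨F, fun i x₀ x₁ x₂ => ?_, fun g g' n hn' n' hn'' => ?_, hfix⟩
  · rw [e₂_eq, hF]
    simp only [mul_inv_cancel_left]
  · refine hc.ext fun i x => ?_
    rw [hF, hF]
    simp only
    have e : x * (g * n) * (g' * n') = x * g * g' * ((g'⁻¹ * n * g') * n') := by group
    have e0 : x * (g * n) = x * g * n := by group
    rw [e, e0]
    have := hinv i x (x * g) (x * g * g') 1 N.one_mem n hn' _
      (N.mul_mem (hconj g' n hn') hn'')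
    rwa [mul_one] at this

end Dict

section Main

variable {k G : Type u} [CommRing k] [Group G] {L : LevelStructure G}
  {ι : Type*} {H : ι → Type u} [∀ i, Group (H i)] {LH : ∀ i, LevelStructure (H i)}
  {r : ∀ i, H i →* G}
  {A : Rep.{u} k G} {Y : ∀ i, Rep.{u} k (H i)} {lam : ∀ i, Rep.res (r i) A ⟶ Y i}
  (hlev : LevelComap L LH r) (hA : IsSmooth L A) (hY : ∀ i, IsSmooth (LH i) (Y i))
  (hc : IsLocCoind L r A Y lam)

/-- Cochain form of the vanishing of the restriction of a class of degree `2` to a subgroup. -/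
lemma exists_primitive_of_resH_eq_zero {Γ : Type u} [Group Γ] {LΓ : LevelStructure Γ}
    {B : Rep.{u} k Γ} (hB : IsSmooth LΓ B) (V : Subgroup Γ) {w : (cx hB).X 2}
    (hw : (cx hB).d 2 w = 0)
    (h0 : resH (compat_comap LΓ V.subtype) hB 2 (Cx.H.mk w hw) = 0) :
    ∃ b : V → B, (LΓ.comap V.subtype).IsLC₁ b ∧ ∀ m m' : V,
      cxFun₂ hB w ((m : Γ), (m' : Γ)) = B.ρ (m : Γ) (b m') - b (m * m') + b m := by
  rw [resH, Cx.Hom.mapH_mk, Cx.H.mk_eq_zero_iff_succ] at h0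
  obtain ⟨b, hb⟩ := h0
  refine ⟨cxFun₁ (hB.res (compat_comap LΓ V.subtype)) b,
    cxFun₁_isLC (hB.res (compat_comap LΓ V.subtype)) b, fun m m' => ?_⟩
  have h1 := congrFun (congrArg (cxFun₂ (hB.res (compat_comap LΓ V.subtype))) hb) (m, m')
  rw [cxFun₂_d, d₁₂_hom_apply] at h1
  exact h1.symm

include hc in
/-- **Closed-subgroup Shapiro, degree `2`, surjectivity onto effaceable classes** (under
Hilbert 90): a family of classes `y i ∈ H²(H i, Y i)`, each of which dies on restriction to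
`(r i)⁻¹ N i` for some level `N i` of `G`, is the localisation of a class of `H²(G, A)`. -/
theorem locH_two_surjective_of_eff [Finite ι] (h90 : LocH90 L LH r Y)
    (y : ∀ i, (cx (hY i)).H 2)
    (heff : ∀ i, ∃ N, L.IsLevel N ∧
      resH (compat_comap (LH i) (N.comap (r i)).subtype) (hY i) 2 (y i) = 0) :
    ∃ x, locH hlev hA hY lam 2 x = y := by
  classical
  haveI : Fintype ι := Fintype.ofFinite ι
  -- representatives
  have hrep : ∀ i, ∃ (w : (cx (hY i)).X 2) (hw : (cx (hY i)).d 2 w = 0), y i = Cx.H.mk w hw := by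
    intro i
    induction y i using Cx.H.induction_on with | _ w hw => exact ⟨w, hw, rfl⟩
  choose w hw hyw using hrep
  -- primitives of the restrictions
  choose N₀ hN₀ hres using heff
  have hprim : ∀ i, ∃ b : (N₀ i).comap (r i) → Y i,
      ((LH i).comap ((N₀ i).comap (r i)).subtype).IsLC₁ b ∧ ∀ m m' : (N₀ i).comap (r i),
        cxFun₂ (hY i) (w i) ((m : H i), (m' : H i)) =
          (Y i).ρ (m : H i) (b m') - b (m * m') + b m := by
    intro i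
    have h := hres i
    rw [hyw i] at h
    exact exists_primitive_of_resH_eq_zero (hY i) _ (hw i) h
  choose b₀ hb₀LC hb₀ using hprim
  -- a common level with Hilbert 90
  obtain ⟨N₁, hN₁, hle₁⟩ := L.exists_level_le_of_finite Finset.univ N₀ (fun i _ => hN₀ i)
  obtain ⟨N, hN, hle, h1⟩ := h90 N₁ hN₁
  have hn : N.Normal := L.normal hN
  have hVle : ∀ i, N.comap (r i) ≤ (N₀ i).comap (r i) := fun i =>
    Subgroup.comap_mono (hle.trans (hle₁ i (Finset.mem_univ i)))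
  -- the primitives restricted to `V i = (r i)⁻¹ N`
  obtain ⟨b, hb⟩ : ∃ b : ∀ i, N.comap (r i) → Y i,
      ∀ i (m : N.comap (r i)), b i m = b₀ i ⟨m.1, hVle i m.2⟩ := ⟨_, fun _ _ => rfl⟩
  have hbLC : ∀ i, ((LH i).comap (N.comap (r i)).subtype).IsLC₁ (b i) := by
    intro i
    obtain ⟨_, ⟨N', hN', rfl⟩, hinv⟩ := hb₀LC i
    refine ⟨_, ⟨N', hN', rfl⟩, fun g s hs => ?_⟩
    rw [hb, hb]
    exact hinv ⟨g.1, hVle i g.2⟩ ⟨s.1, hVle i s.2⟩ hs
  have hbres : ∀ i (m m' : N.comap (r i)), cxFun₂ (hY i) (w i) ((m : H i), (m' : H i)) =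
      (Y i).ρ (m : H i) (b i m') - b i (m * m') + b i m := by
    intro i m m'
    rw [hb, hb, hb]
    exact hb₀ i ⟨m.1, hVle i m.2⟩ ⟨m'.1, hVle i m'.2⟩
  -- inflation–restriction
  have hinf : ∀ i, ∃ β : H i → Y i, (LH i).IsLC₁ β ∧
      (∀ g h, ∀ m ∈ N.comap (r i), ∀ m' ∈ N.comap (r i),
        (cxFun₂ (hY i) (w i) - (d₁₂ (Y i)).hom β) (g * m, h * m') =
          (cxFun₂ (hY i) (w i) - (d₁₂ (Y i)).hom β) (g, h)) ∧
      ∀ g h, ∀ m ∈ N.comap (r i), (Y i).ρ m ((cxFun₂ (hY i) (w i) - (d₁₂ (Y i)).hom β) (g, h)) =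
        (cxFun₂ (hY i) (w i) - (d₁₂ (Y i)).hom β) (g, h) := by
    intro i
    haveI : (N.comap (r i)).Normal := inferInstance
    exact exists_inflated_of_res_coboundary (N.comap (r i))
      ((LH i).isOpen_of_isLevel (hlev i N hN)) (hY i) (h1 i)
      ⟨cxFun₂_mem_cocycles₂ (hY i) (hw i), cxFun₂_isLC (hY i) (w i)⟩ (hbLC i) (hbres i)
  choose β hβLC hβinv hβfix using hinf
  obtain ⟨W, hW⟩ : ∃ W : ∀ i, H i × H i → Y i,
      ∀ i, W i = cxFun₂ (hY i) (w i) - (d₁₂ (Y i)).hom (β i) := ⟨_, fun _ => rfl⟩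
  have hWcoc : ∀ i, W i ∈ cocycles₂ (Y i) := fun i => by
    rw [hW]
    exact (cocycles₂ (Y i)).sub_mem (cxFun₂_mem_cocycles₂ (hY i) (hw i))
      (coboundaries₂_le_cocycles₂ (Y i) ⟨β i, rfl⟩)
  have hWinv : ∀ i g h, ∀ m ∈ N.comap (r i), ∀ m' ∈ N.comap (r i),
      W i (g * m, h * m') = W i (g, h) := fun i => by rw [hW]; exact hβinv i
  have hWfix : ∀ i g h, ∀ m ∈ N.comap (r i), (Y i).ρ m (W i (g, h)) = W i (g, h) := fun i => by
    rw [hW]; exact hβfix i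
  -- transport along retractions
  have hR : ∀ i, ∃ R : RetrMod (r i) N, R.η 1 = 1 := fun i => RetrMod.nonempty_one (r i) N
  choose R hR1 using hR
  obtain ⟨ψ, hψ⟩ : ∃ ψ : ∀ i, G → G → G → Y i, ∀ i x₀ x₁ x₂,
      ψ i x₀ x₁ x₂ = Shap.h₂ (W i) ((R i).η x₀) ((R i).η x₁) ((R i).η x₂) :=
    ⟨_, fun _ _ _ _ => rfl⟩
  have hψ1 : ∀ i (h : H i) (x₀ x₁ x₂ : G),
      ψ i (r i h * x₀) (r i h * x₁) (r i h * x₂) = (Y i).ρ h (ψ i x₀ x₁ x₂) := by
    intro i h x₀ x₁ x₂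
    haveI : (N.comap (r i)).Normal := inferInstance
    obtain ⟨m₀, hm₀, e₀⟩ := (R i).mul_left h x₀
    obtain ⟨m₁, hm₁, e₁⟩ := (R i).mul_left h x₁
    obtain ⟨m₂, hm₂, e₂⟩ := (R i).mul_left h x₂
    rw [hψ, hψ, e₀, e₁, e₂, h₂_mul_right (hWinv i) (hWfix i) _ _ _ hm₀ hm₁ hm₂, Shap.h₂_smul]
  have hψ2 : ∀ i (x₀ x₁ x₂ : G), ∀ n₀ ∈ N, ∀ n₁ ∈ N, ∀ n₂ ∈ N,
      ψ i (x₀ * n₀) (x₁ * n₁) (x₂ * n₂) = ψ i x₀ x₁ x₂ := by
    intro i x₀ x₁ x₂ n₀ hn₀ n₁ hn₁ n₂ hn₂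
    haveI : (N.comap (r i)).Normal := inferInstance
    obtain ⟨m₀, hm₀, e₀⟩ := (R i).mul_right x₀ n₀ hn₀
    obtain ⟨m₁, hm₁, e₁⟩ := (R i).mul_right x₁ n₁ hn₁
    obtain ⟨m₂, hm₂, e₂⟩ := (R i).mul_right x₂ n₂ hn₂
    rw [hψ, hψ, e₀, e₁, e₂, h₂_mul_right (hWinv i) (hWfix i) _ _ _ hm₀ hm₁ hm₂]
  have hψcoc : ∀ i (x₀ x₁ x₂ x₃ : G),
      ψ i x₁ x₂ x₃ + ψ i x₀ x₁ x₃ = ψ i x₀ x₂ x₃ + ψ i x₀ x₁ x₂ := by
    intro i x₀ x₁ x₂ x₃
    simp only [hψ]
    exact Shap.h₂_cocycle (hWcoc i) _ _ _ _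
  obtain ⟨F, hF, hFinv, hFfix⟩ := hc.exists_e₂ ψ hψ1 hN hψ2
  have hFLC : L.IsLC₂ F := ⟨N, hN, hFinv⟩
  have hFcoc : F ∈ cocycles₂ A := by
    rw [mem_cocycles₂_iff]
    intro g h j
    refine hc.ext fun i x => ?_
    rw [evF_add, evF_add, evF_ρ, evF_eq_e₂, evF_eq_e₂, evF_eq_e₂, evF_eq_e₂, hF, hF, hF, hF]
    have e1 : x * (g * h) = x * g * h := by group
    have e2 : x * g * (h * j) = x * g * h * j := by group
    rw [e1, e2]
    have := hψcoc i x (x * g) (x * g * h) (x * g * h * j)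
    rw [this.symm.trans (add_comm _ _)]
    exact add_comm _ _
  refine ⟨Cx.H.mk (cxMk₂ hA F hFLC) (d_cxMk₂_eq_zero hA hFLC hFcoc), ?_⟩
  funext i
  rw [locH_apply, Cx.Hom.mapH_mk, hyw i, Cx.H.mk_eq_mk_iff_succ]
  refine ⟨cxMk₁ (hY i) (-(β i)) ((C₁ (LH i) (Y i)).neg_mem (hβLC i)), cxFun₂_injective (hY i) ?_⟩
  rw [cxFun₂_sub, cxFun₂_locHom, cxFun₂_cxMk₂, cxFun₂_d]
  change (d₁₂ (Y i)).hom (-(β i)) = _
  rw [map_neg]
  funext ⟨h₁, h₂⟩
  have key : (lam i).hom (show A from F (r i h₁, r i h₂)) = W i (h₁, h₂) := by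
    rw [← evF_one lam i (F (r i h₁, r i h₂)), evF_eq_e₂, hF, one_mul, hψ, hR1 i]
    haveI : (N.comap (r i)).Normal := inferInstance
    obtain ⟨m₁, hm₁, e₁⟩ := (R i).mul_left h₁ 1
    obtain ⟨m₂, hm₂, e₂⟩ := (R i).mul_left (h₁ * h₂) 1
    rw [mul_one, hR1 i, mul_one] at e₁ e₂
    rw [← map_mul, e₁, e₂]
    have := h₂_mul_right (hWinv i) (hWfix i) 1 h₁ (h₁ * h₂) (Subgroup.one_mem _) hm₁ hm₂
    rw [mul_one] at this
    rw [this, Shap.h₂_one]
  rw [Pi.sub_apply, Pi.neg_apply]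
  simp only
  rw [key, hW, Pi.sub_apply]
  abel

end Main

end LC

end Fermat.Agent.CFT
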