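import Mathlib

/-!
# Level cohomology (LC), basic definitions

A *level structure* on a group `G` is a nonempty family of finite-index normal subgroups which is
directed downwards.  A module is *smooth* if every element is fixed by a level; a cochain is
*level-constant* (LC) if it is right-invariant, in every variable, under a level.  For smooth
modules the LC cochains form a subcomplex of the low-degree cochains used by Mathlib
(`groupCohomology.d₀₁`, `d₁₂`, `d₂₃`); its cohomology in degrees `0, 1, 2` is the level cohomology.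
-/

set_option autoImplicit false

universe u

open CategoryTheory groupCohomology

namespace Fermat.Agent.CFT

/-- A level structure on a group: a nonempty, downward directed family of finite-index normal
subgroups (the "levels"). -/
structure LevelStructure (G : Type u) [Group G] where
  /-- the distinguished subgroups -/
  IsLevel : Subgroup G → Prop
  normal : ∀ {N : Subgroup G}, IsLevel N → N.Normal
  finiteIndex : ∀ {N : Subgroup G}, IsLevel N → N.FiniteIndex
  exists_level : ∃ N, IsLevel N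
  directed : ∀ {N N' : Subgroup G}, IsLevel N → IsLevel N' → ∃ N'', IsLevel N'' ∧ N'' ≤ N ⊓ N'

namespace LevelStructure

variable {G : Type u} [Group G] (L : LevelStructure G)

/-- A subgroup is open if it contains a level. -/
def IsOpen (U : Subgroup G) : Prop := ∃ N, L.IsLevel N ∧ N ≤ U

lemma isOpen_of_isLevel {N : Subgroup G} (hN : L.IsLevel N) : L.IsOpen N := ⟨N, hN, le_rfl⟩

lemma IsOpen.mono {U V : Subgroup G} (hU : L.IsOpen U) (h : U ≤ V) : L.IsOpen V := by
  obtain ⟨N, hN, hNU⟩ := hU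
  exact ⟨N, hN, hNU.trans h⟩

lemma isOpen_top : L.IsOpen ⊤ := by
  obtain ⟨N, hN⟩ := L.exists_level
  exact ⟨N, hN, le_top⟩

lemma IsOpen.inf {U V : Subgroup G} (hU : L.IsOpen U) (hV : L.IsOpen V) : L.IsOpen (U ⊓ V) := by
  obtain ⟨N, hN, hNU⟩ := hU
  obtain ⟨N', hN', hNV⟩ := hV
  obtain ⟨N'', hN'', h⟩ := L.directed hN hN'
  exact ⟨N'', hN'', h.trans (inf_le_inf hNU hNV)⟩

lemma IsOpen.finiteIndex {U : Subgroup G} (hU : L.IsOpen U) : U.FiniteIndex := by
  obtain ⟨N, hN, hNU⟩ := hU
  have := L.finiteIndex hN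
  exact Subgroup.finiteIndex_of_le hNU

/-- Finitely many levels have a common lower level. -/
lemma exists_level_le_of_finite {ι : Type*} (s : Finset ι) (N : ι → Subgroup G)
    (hN : ∀ i ∈ s, L.IsLevel (N i)) : ∃ N₀, L.IsLevel N₀ ∧ ∀ i ∈ s, N₀ ≤ N i := by
  classical
  induction s using Finset.induction_on with
  | empty =>
    obtain ⟨N₀, h₀⟩ := L.exists_level
    exact ⟨N₀, h₀, by simp⟩
  | insert a s _ ih =>
    obtain ⟨N₁, h₁, h₁'⟩ := ih fun i hi => hN i (Finset.mem_insert_of_mem hi)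
    obtain ⟨N₂, h₂, h₂'⟩ := L.directed h₁ (hN a (Finset.mem_insert_self a s))
    refine ⟨N₂, h₂, fun i hi => ?_⟩
    rcases Finset.mem_insert.1 hi with rfl | hi
    · exact h₂'.trans inf_le_right
    · exact (h₂'.trans inf_le_left).trans (h₁' i hi)

/-- The level structure pulled back along a group homomorphism. -/
def comap {H : Type u} [Group H] (f : H →* G) : LevelStructure H where
  IsLevel N' := ∃ N, L.IsLevel N ∧ N' = N.comap f
  normal := by
    rintro _ ⟨N, hN, rfl⟩
    have := L.normal hN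
    infer_instance
  finiteIndex := by
    rintro _ ⟨N, hN, rfl⟩
    have hn := L.normal hN
    have hdvd : N.relIndex f.range ∣ N.index := Subgroup.relIndex_dvd_index_of_normal N f.range
    refine ⟨?_⟩
    rw [Subgroup.index_comap]
    intro h0
    rw [h0] at hdvd
    exact (L.finiteIndex hN).index_ne_zero (Nat.eq_zero_of_zero_dvd hdvd)
  exists_level := by
    obtain ⟨N, hN⟩ := L.exists_level
    exact ⟨_, N, hN, rfl⟩
  directed := by
    rintro _ _ ⟨N, hN, rfl⟩ ⟨N', hN', rfl⟩
    obtain ⟨N'', hN'', h⟩ := L.directed hN hN'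
    refine ⟨_, ⟨N'', hN'', rfl⟩, ?_⟩
    rw [← Subgroup.comap_inf]
    exact Subgroup.comap_mono h

/-- The level structure on a finite group all of whose normal subgroups are levels. -/
def discrete (G : Type u) [Group G] [Finite G] : LevelStructure G where
  IsLevel N := N.Normal
  normal h := h
  finiteIndex _ := inferInstance
  exists_level := ⟨⊥, inferInstance⟩
  directed := by
    intro N N' hN hN'
    exact ⟨N ⊓ N', inferInstance, le_rfl⟩

/-! ### Level-constant cochains -/

/-- `f : G → X` is level-constant. -/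
def IsLC₁ {X : Type*} (f : G → X) : Prop :=
  ∃ N, L.IsLevel N ∧ ∀ g, ∀ s ∈ N, f (g * s) = f g

/-- `f : G × G → X` is level-constant. -/
def IsLC₂ {X : Type*} (f : G × G → X) : Prop :=
  ∃ N, L.IsLevel N ∧ ∀ g g', ∀ s ∈ N, ∀ s' ∈ N, f (g * s, g' * s') = f (g, g')

/-- `f : G × G × G → X` is level-constant. -/
def IsLC₃ {X : Type*} (f : G × G × G → X) : Prop :=
  ∃ N, L.IsLevel N ∧ ∀ g g' g'', ∀ s ∈ N, ∀ s' ∈ N, ∀ s'' ∈ N,
    f (g * s, g' * s', g'' * s'') = f (g, g', g'')

variable {L}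

lemma IsLC₁.mono {X : Type*} {f : G → X} {N : Subgroup G}
    (h : ∀ g, ∀ s ∈ N, f (g * s) = f g) {N' : Subgroup G} (hN' : N' ≤ N) :
    ∀ g, ∀ s ∈ N', f (g * s) = f g := fun g s hs => h g s (hN' hs)

lemma IsLC₁.comp {X Y : Type*} {f : G → X} (hf : L.IsLC₁ f) (φ : X → Y) : L.IsLC₁ (φ ∘ f) := by
  obtain ⟨N, hN, h⟩ := hf
  exact ⟨N, hN, fun g s hs => by simp only [Function.comp_apply, h g s hs]⟩

lemma IsLC₂.comp {X Y : Type*} {f : G × G → X} (hf : L.IsLC₂ f) (φ : X → Y) :
    L.IsLC₂ (φ ∘ f) := by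
  obtain ⟨N, hN, h⟩ := hf
  exact ⟨N, hN, fun g g' s hs s' hs' => by simp only [Function.comp_apply, h g g' s hs s' hs']⟩

lemma IsLC₃.comp {X Y : Type*} {f : G × G × G → X} (hf : L.IsLC₃ f) (φ : X → Y) :
    L.IsLC₃ (φ ∘ f) := by
  obtain ⟨N, hN, h⟩ := hf
  exact ⟨N, hN, fun g g' g'' s hs s' hs' s'' hs'' => by
    simp only [Function.comp_apply, h g g' g'' s hs s' hs' s'' hs'']⟩

lemma IsLC₁.add {X : Type*} [Add X] {f f' : G → X} (hf : L.IsLC₁ f) (hf' : L.IsLC₁ f') :
    L.IsLC₁ (f + f') := by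
  obtain ⟨N, hN, h⟩ := hf
  obtain ⟨N', hN', h'⟩ := hf'
  obtain ⟨N'', hN'', hle⟩ := L.directed hN hN'
  refine ⟨N'', hN'', fun g s hs => ?_⟩
  simp only [Pi.add_apply]
  rw [h g s ((hle.trans inf_le_left) hs), h' g s ((hle.trans inf_le_right) hs)]

lemma IsLC₂.add {X : Type*} [Add X] {f f' : G × G → X} (hf : L.IsLC₂ f) (hf' : L.IsLC₂ f') :
    L.IsLC₂ (f + f') := by
  obtain ⟨N, hN, h⟩ := hf
  obtain ⟨N', hN', h'⟩ := hf'
  obtain ⟨N'', hN'', hle⟩ := L.directed hN hN'
  refine ⟨N'', hN'', fun g g' s hs s' hs' => ?_⟩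
  simp only [Pi.add_apply]
  rw [h g g' s ((hle.trans inf_le_left) hs) s' ((hle.trans inf_le_left) hs'),
    h' g g' s ((hle.trans inf_le_right) hs) s' ((hle.trans inf_le_right) hs')]

lemma IsLC₃.add {X : Type*} [Add X] {f f' : G × G × G → X} (hf : L.IsLC₃ f)
    (hf' : L.IsLC₃ f') : L.IsLC₃ (f + f') := by
  obtain ⟨N, hN, h⟩ := hf
  obtain ⟨N', hN', h'⟩ := hf'
  obtain ⟨N'', hN'', hle⟩ := L.directed hN hN'
  refine ⟨N'', hN'', fun g g' g'' s hs s' hs' s'' hs'' => ?_⟩
  simp only [Pi.add_apply]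
  rw [h g g' g'' s ((hle.trans inf_le_left) hs) s' ((hle.trans inf_le_left) hs')
      s'' ((hle.trans inf_le_left) hs''),
    h' g g' g'' s ((hle.trans inf_le_right) hs) s' ((hle.trans inf_le_right) hs')
      s'' ((hle.trans inf_le_right) hs'')]

variable (L)

lemma isLC₁_const {X : Type*} (x : X) : L.IsLC₁ (fun _ : G => x) := by
  obtain ⟨N, hN⟩ := L.exists_level
  exact ⟨N, hN, fun _ _ _ => rfl⟩

lemma isLC₂_const {X : Type*} (x : X) : L.IsLC₂ (fun _ : G × G => x) := by
  obtain ⟨N, hN⟩ := L.exists_level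
  exact ⟨N, hN, fun _ _ _ _ _ _ => rfl⟩

lemma isLC₃_const {X : Type*} (x : X) : L.IsLC₃ (fun _ : G × G × G => x) := by
  obtain ⟨N, hN⟩ := L.exists_level
  exact ⟨N, hN, fun _ _ _ _ _ _ _ _ _ => rfl⟩

variable {L}

/-- A level-constant function has finitely many values. -/
lemma IsLC₁.finite_range {X : Type*} {f : G → X} (hf : L.IsLC₁ f) : (Set.range f).Finite := by
  obtain ⟨N, hN, h⟩ := hf
  have := L.finiteIndex hN
  have : Finite (G ⧸ N) := Subgroup.finite_quotient_of_finiteIndex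
  let f' : G ⧸ N → X := Quotient.lift f (by
    intro a b hab
    have hab' : a⁻¹ * b ∈ N := QuotientGroup.leftRel_apply.1 hab
    have := h a (a⁻¹ * b) hab'
    rw [mul_inv_cancel_left] at this
    exact this.symm)
  have : Set.range f ⊆ Set.range f' := by
    rintro _ ⟨g, rfl⟩
    exact ⟨(g : G ⧸ N), rfl⟩
  exact (Set.finite_range f').subset this

end LevelStructure

end Fermat.Agent.CFT
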