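import Fermat.Agent.CFT.HyperExt.LCExt
import Fermat.Agent.CFT.LC.Shapiro

/-!
# Coinduction of lattice pairs (S55, node N4-0)

For an open subgroup `S` of `(G, L)` and a lattice pair `R` over `S` (with respect to the
induced level structure), `LC.coindPair hS R` is the lattice pair over `G` with terms
`coind R.P₀`, `coind R.P₁` and differential `coind R.i`.
-/

set_option autoImplicit false

universe u

open CategoryTheory

namespace Fermat.Agent.CFT

namespace LC

variable {k G : Type u} [CommRing k] [Group G] {L : LevelStructure G} {S : Subgroup G}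

/-- The coinduction, along a subgroup of finite index, of a finitely generated module is
finitely generated. -/
theorem moduleFinite_coind [S.FiniteIndex] (A : Rep.{u} k S) [Module.Finite k A] :
    Module.Finite k (Rep.coind S.subtype A) := by
  classical
  have : Finite (G ⧸ S) := Subgroup.finite_quotient_of_finiteIndex
  let _ : Fintype (G ⧸ S) := Fintype.ofFinite _
  let Φ : ((G ⧸ S) → A) →ₗ[k] Rep.coind S.subtype A :=
    ∑ c : G ⧸ S, (coindDelta S A (c.out)⁻¹) ∘ₗ (LinearMap.proj c)
  have hΦ : Function.Surjective Φ := by
    intro f
    refine ⟨fun c => f.1 (c.out)⁻¹, ?_⟩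
    have h := finsum_coindDeltaFun S A f
    rw [finsum_eq_sum_of_fintype] at h
    refine Eq.trans ?_ h
    simp only [Φ, LinearMap.sum_apply, LinearMap.comp_apply, LinearMap.proj_apply]
    refine Finset.sum_congr rfl fun c _ => ?_
    conv_rhs => rw [← QuotientGroup.out_eq' c]
    rfl
  exact Module.Finite.of_surjective Φ hΦ

/-- The coinduction of a lattice pair over an open subgroup. -/
noncomputable def coindPair (hS : L.IsOpen S) (R : LatticePair k (L.comap S.subtype)) :
    LatticePair k L :=
  haveI := hS.finiteIndex
  { P₀ := Rep.coind S.subtype R.P₀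
    P₁ := Rep.coind S.subtype R.P₁
    i := Rep.coindMap S.subtype R.i
    fin₀ := moduleFinite_coind R.P₀
    fin₁ := moduleFinite_coind R.P₁
    smooth₀ := isSmooth_coind hS R.smooth₀
    smooth₁ := isSmooth_coind hS R.smooth₁ }

section

variable (hS : L.IsOpen S) (R : LatticePair k (L.comap S.subtype))

@[simp] lemma coindPair_P₀ : (coindPair hS R).P₀ = Rep.coind S.subtype R.P₀ := rfl

@[simp] lemma coindPair_P₁ : (coindPair hS R).P₁ = Rep.coind S.subtype R.P₁ := rfl

@[simp] lemma coindPair_i : (coindPair hS R).i = Rep.coindMap S.subtype R.i := rfl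

lemma coindPair_i_apply (f : Rep.coind S.subtype R.P₁) (g : G) :
    ((coindPair hS R).i.hom f).1 g = R.i.hom (f.1 g) := rfl

lemma coindPair_i_injective (hi : Function.Injective R.i.hom) :
    Function.Injective (coindPair hS R).i.hom := by
  intro f f' h
  refine Subtype.ext (funext fun g => hi ?_)
  exact congrFun (congrArg Subtype.val h) g

/-- Functoriality of `coindPair` in the lattice pair. -/
noncomputable def coindPairMap {R R' : LatticePair k (L.comap S.subtype)}
    (f : LatticePair.Hom R R') : LatticePair.Hom (coindPair hS R) (coindPair hS R') where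
  f₀ := Rep.coindMap S.subtype f.f₀
  f₁ := Rep.coindMap S.subtype f.f₁
  comm x := Subtype.ext (funext fun g => f.comm (x.1 g))

end

end LC

end Fermat.Agent.CFT
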