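import Fermat.Agent.CFT.LC.Cochains
import Fermat.Agent.CFT.HyperExt.Shift

/-!
# The (truncated) LC cochain complex of a smooth module

`LC.cx L A hA : HExt.Cx k` is the complex `A → C₁ → C₂ → C₃ → 0 → 0 → …` of level-constant
cochains.  Its cohomology in degrees `0, 1, 2` is the level cohomology; all the homological
algebra of `HyperExt/` (long exact sequences, fibres of chain maps) applies to it.
-/

set_option autoImplicit false

universe u

open CategoryTheory groupCohomology

namespace Fermat.Agent.CFT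

namespace LC

open HExt

variable {k G : Type u} [CommRing k] [Group G] (L : LevelStructure G) (A : Rep.{u} k G)

/-- Terms of the truncated LC complex. -/
def cxX : ℕ → Type u
  | 0 => A
  | 1 => ↥(C₁ L A)
  | 2 => ↥(C₂ L A)
  | 3 => ↥(C₃ L A)
  | _ + 4 => PUnit.{u + 1}

instance cxACG : ∀ n, AddCommGroup (cxX L A n)
  | 0 => inferInstanceAs (AddCommGroup A)
  | 1 => inferInstanceAs (AddCommGroup ↥(C₁ L A))
  | 2 => inferInstanceAs (AddCommGroup ↥(C₂ L A))
  | 3 => inferInstanceAs (AddCommGroup ↥(C₃ L A))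
  | _ + 4 => inferInstanceAs (AddCommGroup PUnit.{u + 1})

instance cxMod : ∀ n, Module k (cxX L A n)
  | 0 => inferInstanceAs (Module k A)
  | 1 => inferInstanceAs (Module k ↥(C₁ L A))
  | 2 => inferInstanceAs (Module k ↥(C₂ L A))
  | 3 => inferInstanceAs (Module k ↥(C₃ L A))
  | _ + 4 => inferInstanceAs (Module k PUnit.{u + 1})

variable {L A}

/-- `d₀₁` into LC cochains. -/
def dLC₀ (hA : IsSmooth L A) : A →ₗ[k] ↥(C₁ L A) :=
  (d₀₁ A).hom.codRestrict (C₁ L A) (fun a => d₀₁_mem_C₁ hA a)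

/-- `d₁₂` on LC cochains. -/
def dLC₁ (hA : IsSmooth L A) : ↥(C₁ L A) →ₗ[k] ↥(C₂ L A) :=
  ((d₁₂ A).hom.comp (C₁ L A).subtype).codRestrict (C₂ L A) (fun f => d₁₂_mem_C₂ hA f.2)

/-- `d₂₃` on LC cochains. -/
def dLC₂ (hA : IsSmooth L A) : ↥(C₂ L A) →ₗ[k] ↥(C₃ L A) :=
  ((d₂₃ A).hom.comp (C₂ L A).subtype).codRestrict (C₃ L A) (fun f => d₂₃_mem_C₃ hA f.2)

@[simp] lemma coe_dLC₀ (hA : IsSmooth L A) (a : A) : (dLC₀ hA a : G → A) = (d₀₁ A).hom a := rfl
@[simp] lemma coe_dLC₁ (hA : IsSmooth L A) (f : ↥(C₁ L A)) :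
    (dLC₁ hA f : G × G → A) = (d₁₂ A).hom (f : G → A) := rfl
@[simp] lemma coe_dLC₂ (hA : IsSmooth L A) (f : ↥(C₂ L A)) :
    (dLC₂ hA f : G × G × G → A) = (d₂₃ A).hom (f : G × G → A) := rfl

/-- The differential of the truncated LC complex. -/
def cxd (hA : IsSmooth L A) : ∀ n, cxX L A n →ₗ[k] cxX L A (n + 1)
  | 0 => dLC₀ hA
  | 1 => dLC₁ hA
  | 2 => dLC₂ hA
  | _ + 3 => 0

/-- The truncated LC cochain complex `A → C₁ → C₂ → C₃ → 0 → …` of a smooth module. -/
def cx (hA : IsSmooth L A) : Cx.{u, u} k where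
  X := cxX L A
  d := cxd hA
  d_d n x := by
    match n, x with
    | 0, x =>
      refine Subtype.ext ?_
      change (d₁₂ A).hom ((d₀₁ A).hom x) = 0
      exact d₀₁_comp_d₁₂_apply A x
    | 1, x =>
      refine Subtype.ext ?_
      change (d₂₃ A).hom ((d₁₂ A).hom ((show ↥(C₁ L A) from x) : G → A)) = 0
      exact d₁₂_comp_d₂₃_apply A _
    | 2, _ => rfl
    | _ + 3, _ => rfl

end LC

end Fermat.Agent.CFT

namespace Fermat.Agent.CFT

namespace LC

open HExt

variable {k G : Type u} [CommRing k] [Group G] {L : LevelStructure G} {A B C : Rep.{u} k G}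

/-! ### Functoriality in the coefficient module -/

/-- Post-composition with a morphism of representations on LC `1`-cochains. -/
def mapC₁ (f : A ⟶ B) : ↥(C₁ L A) →ₗ[k] ↥(C₁ L B) :=
  ((f.hom.toLinearMap.compLeft G).comp (C₁ L A).subtype).codRestrict (C₁ L B)
    (fun x => (x.2 : L.IsLC₁ (x : G → A)).comp f.hom)

/-- Post-composition with a morphism of representations on LC `2`-cochains. -/
def mapC₂ (f : A ⟶ B) : ↥(C₂ L A) →ₗ[k] ↥(C₂ L B) :=
  ((f.hom.toLinearMap.compLeft (G × G)).comp (C₂ L A).subtype).codRestrict (C₂ L B)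
    (fun x => (x.2 : L.IsLC₂ (x : G × G → A)).comp f.hom)

/-- Post-composition with a morphism of representations on LC `3`-cochains. -/
def mapC₃ (f : A ⟶ B) : ↥(C₃ L A) →ₗ[k] ↥(C₃ L B) :=
  ((f.hom.toLinearMap.compLeft (G × G × G)).comp (C₃ L A).subtype).codRestrict (C₃ L B)
    (fun x => (x.2 : L.IsLC₃ (x : G × G × G → A)).comp f.hom)

@[simp] lemma mapC₁_apply (f : A ⟶ B) (x : ↥(C₁ L A)) (g : G) :
    (mapC₁ f x : G → B) g = f.hom ((x : G → A) g) := rfl
@[simp] lemma mapC₂_apply (f : A ⟶ B) (x : ↥(C₂ L A)) (g : G × G) :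
    (mapC₂ f x : G × G → B) g = f.hom ((x : G × G → A) g) := rfl
@[simp] lemma mapC₃_apply (f : A ⟶ B) (x : ↥(C₃ L A)) (g : G × G × G) :
    (mapC₃ f x : G × G × G → B) g = f.hom ((x : G × G × G → A) g) := rfl

lemma mapC₁_dLC₀ (hA : IsSmooth L A) (hB : IsSmooth L B) (f : A ⟶ B) (x : A) :
    mapC₁ f (dLC₀ hA x) = dLC₀ hB (f.hom x) := by
  refine Subtype.ext (funext fun g => ?_)
  change f.hom ((d₀₁ A).hom x g) = (d₀₁ B).hom (f.hom x) g
  rw [d₀₁_hom_apply, d₀₁_hom_apply, map_sub, Rep.hom_comm_apply]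

lemma mapC₂_dLC₁ (hA : IsSmooth L A) (hB : IsSmooth L B) (f : A ⟶ B) (x : ↥(C₁ L A)) :
    mapC₂ f (dLC₁ hA x) = dLC₁ hB (mapC₁ f x) := by
  refine Subtype.ext (funext fun ⟨g, h⟩ => ?_)
  change f.hom ((d₁₂ A).hom (x : G → A) (g, h)) = (d₁₂ B).hom ((mapC₁ f x : G → B)) (g, h)
  simp only [d₁₂_hom_apply, map_sub, map_add, Rep.hom_comm_apply]
  rfl

lemma mapC₃_dLC₂ (hA : IsSmooth L A) (hB : IsSmooth L B) (f : A ⟶ B) (x : ↥(C₂ L A)) :
    mapC₃ f (dLC₂ hA x) = dLC₂ hB (mapC₂ f x) := by
  refine Subtype.ext (funext fun ⟨g, h, j⟩ => ?_)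
  change f.hom ((d₂₃ A).hom (x : G × G → A) (g, h, j)) =
    (d₂₃ B).hom ((mapC₂ f x : G × G → B)) (g, h, j)
  simp only [d₂₃_hom_apply, map_sub, map_add, Rep.hom_comm_apply]
  rfl

/-- The components of the chain map induced by a morphism of representations. -/
def cxMapF (f : A ⟶ B) : ∀ n, cxX L A n →ₗ[k] cxX L B n
  | 0 => f.hom.toLinearMap
  | 1 => mapC₁ f
  | 2 => mapC₂ f
  | 3 => mapC₃ f
  | _ + 4 => LinearMap.id

/-- The chain map induced by a morphism of smooth representations. -/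
def cxMap (hA : IsSmooth L A) (hB : IsSmooth L B) (f : A ⟶ B) : Cx.Hom (cx hA) (cx hB) where
  f := cxMapF f
  comm n x := by
    match n, x with
    | 0, x => exact mapC₁_dLC₀ hA hB f x
    | 1, x => exact mapC₂_dLC₁ hA hB f x
    | 2, x => exact mapC₃_dLC₂ hA hB f x
    | _ + 3, _ => rfl

/-! ### Degreewise exactness -/

section exact

variable (f : A ⟶ B) (g : B ⟶ C)

lemma mapC₁_injective (hf : Function.Injective f.hom) :
    Function.Injective (mapC₁ (L := L) f) := by
  intro x y hxy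
  refine Subtype.ext (funext fun s => hf ?_)
  exact congrFun (congrArg Subtype.val hxy) s

lemma mapC₂_injective (hf : Function.Injective f.hom) :
    Function.Injective (mapC₂ (L := L) f) := by
  intro x y hxy
  refine Subtype.ext (funext fun s => hf ?_)
  exact congrFun (congrArg Subtype.val hxy) s

lemma mapC₃_injective (hf : Function.Injective f.hom) :
    Function.Injective (mapC₃ (L := L) f) := by
  intro x y hxy
  refine Subtype.ext (funext fun s => hf ?_)
  exact congrFun (congrArg Subtype.val hxy) s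

lemma mapC₁_surjective (hg : Function.Surjective g.hom) :
    Function.Surjective (mapC₁ (L := L) g) := by
  intro z
  refine ⟨⟨Function.surjInv hg ∘ (z : G → C), (z.2 : L.IsLC₁ _).comp _⟩, ?_⟩
  refine Subtype.ext (funext fun s => ?_)
  exact Function.surjInv_eq hg _

lemma mapC₂_surjective (hg : Function.Surjective g.hom) :
    Function.Surjective (mapC₂ (L := L) g) := by
  intro z
  refine ⟨⟨Function.surjInv hg ∘ (z : G × G → C), (z.2 : L.IsLC₂ _).comp _⟩, ?_⟩
  refine Subtype.ext (funext fun s => ?_)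
  exact Function.surjInv_eq hg _

lemma mapC₃_surjective (hg : Function.Surjective g.hom) :
    Function.Surjective (mapC₃ (L := L) g) := by
  intro z
  refine ⟨⟨Function.surjInv hg ∘ (z : G × G × G → C), (z.2 : L.IsLC₃ _).comp _⟩, ?_⟩
  refine Subtype.ext (funext fun s => ?_)
  exact Function.surjInv_eq hg _

open Classical in
/-- A set-theoretic right inverse of `f` on its range. -/
private noncomputable def rinv (b : B) : A := if h : b ∈ Set.range f.hom then h.choose else 0

private lemma rinv_spec (hfg : Function.Exact f.hom g.hom) (b : B) (hb : g.hom b = 0) :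
    f.hom (rinv f b) = b := by
  have h : b ∈ Set.range f.hom := (hfg b).1 hb
  simp only [rinv, dif_pos h]
  exact h.choose_spec

lemma mapC₁_exact (hfg : Function.Exact f.hom g.hom) :
    Function.Exact (mapC₁ (L := L) f) (mapC₁ (L := L) g) := by
  intro y
  constructor
  · intro hy
    refine ⟨⟨rinv f ∘ (y : G → B), (y.2 : L.IsLC₁ _).comp _⟩, ?_⟩
    refine Subtype.ext (funext fun s => ?_)
    exact rinv_spec f g hfg _ (congrFun (congrArg Subtype.val hy) s)
  · rintro ⟨x, rfl⟩
    refine Subtype.ext (funext fun s => ?_)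
    exact hfg.apply_apply_eq_zero _

lemma mapC₂_exact (hfg : Function.Exact f.hom g.hom) :
    Function.Exact (mapC₂ (L := L) f) (mapC₂ (L := L) g) := by
  intro y
  constructor
  · intro hy
    refine ⟨⟨rinv f ∘ (y : G × G → B), (y.2 : L.IsLC₂ _).comp _⟩, ?_⟩
    refine Subtype.ext (funext fun s => ?_)
    exact rinv_spec f g hfg _ (congrFun (congrArg Subtype.val hy) s)
  · rintro ⟨x, rfl⟩
    refine Subtype.ext (funext fun s => ?_)
    exact hfg.apply_apply_eq_zero _

lemma mapC₃_exact (hfg : Function.Exact f.hom g.hom) :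
    Function.Exact (mapC₃ (L := L) f) (mapC₃ (L := L) g) := by
  intro y
  constructor
  · intro hy
    refine ⟨⟨rinv f ∘ (y : G × G × G → B), (y.2 : L.IsLC₃ _).comp _⟩, ?_⟩
    refine Subtype.ext (funext fun s => ?_)
    exact rinv_spec f g hfg _ (congrFun (congrArg Subtype.val hy) s)
  · rintro ⟨x, rfl⟩
    refine Subtype.ext (funext fun s => ?_)
    exact hfg.apply_apply_eq_zero _

/-- **Degreewise exactness**: a short exact sequence of smooth modules induces a degreewise short
exact sequence of (truncated) LC cochain complexes. -/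
theorem cx_shortExact (hA : IsSmooth L A) (hB : IsSmooth L B) (hC : IsSmooth L C)
    (hf : Function.Injective f.hom) (hg : Function.Surjective g.hom)
    (hfg : Function.Exact f.hom g.hom) :
    Cx.ShortExact (cxMap hA hB f) (cxMap hB hC g) where
  inj n := by
    match n with
    | 0 => exact hf
    | 1 => exact mapC₁_injective f hf
    | 2 => exact mapC₂_injective f hf
    | 3 => exact mapC₃_injective f hf
    | _ + 4 => exact fun _ _ h => h
  surj n := by
    match n with
    | 0 => exact hg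
    | 1 => exact mapC₁_surjective g hg
    | 2 => exact mapC₂_surjective g hg
    | 3 => exact mapC₃_surjective g hg
    | _ + 4 => exact fun x => ⟨x, rfl⟩
  exact n := by
    match n with
    | 0 => exact hfg
    | 1 => exact mapC₁_exact f g hfg
    | 2 => exact mapC₂_exact f g hfg
    | 3 => exact mapC₃_exact f g hfg
    | _ + 4 => exact fun x => ⟨fun _ => ⟨x, rfl⟩, fun _ => rfl⟩

end exact

end LC

end Fermat.Agent.CFT
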