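import Fermat.Agent.CFT.LC.Cochains
import Fermat.Agent.CFT.LC.Res

/-!
# Level cohomology: Hilbert 90 transfer to `Hom(P, X)` for a trivial finite free `P`

* `LC.exists_of_subsingleton_H1`, `LC.subsingleton_H1_of_forall`: `LC.H1 L A` is trivial iff every
  LC `1`-cocycle is a coboundary;
* `LC.subsingleton_H1_res_ihom`: if `H` acts trivially (through `f : H →* G`) on the finite free
  `k`-module `P`, then `LC.H1 LH (Res X) = 0` implies `LC.H1 LH (Res Hom(P, X)) = 0`
  (componentwise along a basis of `P`);
* `LC.subsingleton_H1_res_ihom_res`: the same in the shape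
  `Rep.res M.subtype ((Rep.ihom (Rep.res r P)).obj X)` for a subgroup `M ≤ H` and `r : H →* G`.

General coefficient ring `k` (at `k = ℤ` supply the `Module.Free`/`Module.Finite` instances with
respect to `P.hV2`, e.g. under `attribute [local instance 2000] Rep.hV2`).
-/

set_option autoImplicit false
set_option linter.style.haveILetI false

universe u

open CategoryTheory groupCohomology

namespace Fermat.Agent.CFT

namespace LC

variable {k G H : Type u} [CommRing k] [Group G] [Group H]

/-- If `LC.H1` vanishes then every LC cocycle is a coboundary. -/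
lemma exists_of_subsingleton_H1 {L : LevelStructure G} {A : Rep.{u} k G}
    (h : Subsingleton (LC.H1 L A)) {F : G → A} (hF : F ∈ Z₁ L A) :
    ∃ a : A, ∀ g, F g = A.ρ g a - a := by
  have h0 : H1π L A ⟨F, hF⟩ = 0 := Subsingleton.elim _ _
  rw [H1π_eq_zero_iff] at h0
  obtain ⟨a, ha⟩ := h0
  exact ⟨a, fun g => (congrFun ha g).symm⟩

lemma subsingleton_H1_of_forall {L : LevelStructure G} {A : Rep.{u} k G}
    (h : ∀ F ∈ Z₁ L A, ∃ a : A, ∀ g, F g = A.ρ g a - a) : Subsingleton (LC.H1 L A) := by
  refine ⟨fun x y => ?_⟩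
  obtain ⟨f, rfl⟩ := Submodule.mkQ_surjective _ x
  obtain ⟨f', rfl⟩ := Submodule.mkQ_surjective _ y
  rw [← sub_eq_zero, ← map_sub]
  change H1π L A (f - f') = 0
  rw [H1π_eq_zero_iff]
  obtain ⟨a, ha⟩ := h _ (f - f').2
  exact ⟨a, funext fun g => (ha g).symm⟩

/-- **Hilbert 90 transfer**: if `H` acts trivially (through `f`) on the finite free module `P`,
then the vanishing of `LC.H1` for `X` implies the vanishing for `Hom(P, X)`. -/
theorem subsingleton_H1_res_ihom (LH : LevelStructure H) (f : H →* G) (P X : Rep.{u} k G)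
    [Module.Free k P] [Module.Finite k P] (hP : ∀ (h : H) (π : P), P.ρ (f h) π = π)
    (hX : Subsingleton (LC.H1 LH (Rep.res f X))) :
    Subsingleton (LC.H1 LH (Rep.res f ((Rep.ihom P).obj X))) := by
  classical
  apply subsingleton_H1_of_forall
  intro F hF
  obtain ⟨hcoc, hlc⟩ := mem_Z₁_iff.1 hF
  rw [mem_cocycles₁_iff] at hcoc
  let b := Module.Free.chooseBasis k P
  -- the component cocycles
  have hcomp : ∀ i, ∃ x : X, ∀ h : H, (show P →ₗ[k] X from F h) (b i) = X.ρ (f h) x - x := by
    intro i
    have hFi : (fun h => (show P →ₗ[k] X from F h) (b i)) ∈ Z₁ LH (Rep.res f X) := by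
      refine mem_Z₁_iff.2 ⟨?_, hlc.comp (fun φ => (show P →ₗ[k] X from φ) (b i))⟩
      rw [mem_cocycles₁_iff]
      intro g h
      have := LinearMap.congr_fun (show (show P →ₗ[k] X from F (g * h)) = _ from hcoc g h) (b i)
      rw [this]
      show X.ρ (f g) ((show P →ₗ[k] X from F h) (P.ρ (f g)⁻¹ (b i))) + _ = _
      rw [← map_inv, hP]
      rfl
    exact exists_of_subsingleton_H1 hX hFi
  choose x hx using hcomp
  refine ⟨b.constr k x, fun h => ?_⟩
  refine b.ext fun i => ?_
  show (show P →ₗ[k] X from F h) (b i) =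
    X.ρ (f h) (b.constr k x (P.ρ (f h)⁻¹ (b i))) - b.constr k x (b i)
  rw [← map_inv, hP, Module.Basis.constr_basis, hx i h]

/-- The Hilbert 90 transfer in the shape used by the local-global comparison: `M ≤ H` acts
trivially on `P` through `r : H →* G`. -/
theorem subsingleton_H1_res_ihom_res (r : H →* G) (M : Subgroup H) (LM : LevelStructure M)
    (P : Rep.{u} k G) (X : Rep.{u} k H) [Module.Free k P] [Module.Finite k P]
    (hP : ∀ (m : M) (π : P), P.ρ (r m) π = π)
    (hX : Subsingleton (LC.H1 LM (Rep.res M.subtype X))) :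
    Subsingleton (LC.H1 LM (Rep.res M.subtype ((Rep.ihom (Rep.res r P)).obj X))) := by
  haveI : Module.Free k ↑(Rep.res r P) := inferInstanceAs (Module.Free k P)
  haveI : Module.Finite k ↑(Rep.res r P) := inferInstanceAs (Module.Finite k P)
  exact subsingleton_H1_res_ihom LM M.subtype (Rep.res r P) X (fun m π => hP m π) hX

end LC

end Fermat.Agent.CFT
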