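import Fermat.Agent.CFT.LC.KummerDescent

/-!
# B7d, part 3: descent of the existence theorem mod `p` along an injective homomorphism with open
normal range of index prime to `p`; conjugation invariance for free (helper16)

Same as `LC/KummerDescent.lean` but for an injective `ι : H →* G` (e.g. helper22's
`fixIncl hEF : Gal(Ω/F) →* Gal(Ω/E)`) instead of a subgroup, with an arbitrary level structure
`LH` on `H` whose levels are pulled back from `G`, and WITHOUT a conjugation-invariance hypothesis: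

* `resInvOf`, `resXOf`, `coe_symT_resOf`, `resTors`, `symT_resOf`: restriction along `ι`;
* `conjH`, `conjInvOf`, `conjXOf`: the conjugation action of `G` on `H`, `C^H`, `H¹_LC(H, 𝔽_p)`;
* `exists_transferXOf`: transfer of characters;
* `innerCochain`, `conj_sub_eq_d`, `isLC₁_innerCochain`: inner automorphisms act trivially on
  `LC.H2` (cochain homotopy of helper7's `Tate/InnerTrivial.lean`, LC version);
* `symT_conj_eq_of_res`: a symbol on `H` which is the restriction of a class of `G` is conjugation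
  invariant; `symT_conj_eq`: all symbols are, if `τ' ∘ res = d • τ`, `τ` onto, `τ'` injective,
  `p ∤ d`;
* `right_nondegenerate_of_hom`, `perfect_of_hom`: the descent statements.
-/

set_option autoImplicit false
set_option linter.unusedSectionVars false
set_option linter.style.haveILetI false

open groupCohomology

namespace Fermat.Agent.CFT

namespace LCSym

section RestrictionHom

variable {G H : Type} [Group G] [Group H] (L : LevelStructure G) (LH : LevelStructure H)
  (C : Rep.{0} ℤ G) (ι : H →* G) {p : ℕ} [NeZero p]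

/-- Restriction of invariants along a homomorphism. -/
def resInvOf : ↥(invSub C) →+ ↥(invSub (Rep.res ι C)) where
  toFun a := ⟨a.1, fun h => a.2 (ι h)⟩
  map_zero' := rfl
  map_add' _ _ := rfl

@[simp] theorem coe_resInvOf (a : ↥(invSub C)) :
    ((resInvOf C ι a : ↥(invSub (Rep.res ι C))) : C) = a.1 := rfl

variable {L LH ι}

/-- Restriction of LC homomorphisms `G → 𝔽_p` along a compatible homomorphism. -/
noncomputable def resXOf (hι : LH.Compat L ι) : XChar L p →+ XChar LH p where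
  toFun f := ⟨fun h => (f : G → ZMod p) (ι h), by
    refine (mem_cocycles₁_iff (A := FpRep H p) _).2 fun g h => ?_
    show (f : G → ZMod p) (ι (g * h)) = _ + (f : G → ZMod p) (ι g)
    rw [map_mul, XChar.map_mul, add_comm]
    rfl,
    hι.isLC₁ f.2.2⟩
  map_zero' := rfl
  map_add' _ _ := rfl

@[simp] theorem resXOf_apply (hι : LH.Compat L ι) (f : XChar L p) (h : H) :
    (resXOf hι f : H → ZMod p) h = (f : G → ZMod p) (ι h) := rfl

theorem charOf_resXOf (hι : LH.Compat L ι) (f : XChar L p) :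
    charOf (resXOf hι f) = (charOf f).comp ι := by
  ext u
  rfl

/-- The symbol is compatible with restriction. -/
theorem coe_symT_resOf (hι : LH.Compat L ι) (hC : IsSmooth L C) (a : ↥(invSub C))
    (f : XChar L p) :
    ((symT LH (Rep.res ι C) (resInvOf C ι a) (resXOf hι f) :
        ↥(AddSubgroup.torsionBy (LC.H2 LH (Rep.res ι C)) (p : ℤ))) : LC.H2 LH (Rep.res ι C)) =
      LC.resLC2 hι hC
        ((symT L C a f : ↥(AddSubgroup.torsionBy (LC.H2 L C) (p : ℤ))) : LC.H2 L C) := by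
  rw [coe_symT, coe_symT]
  unfold lcSymClass
  rw [LC.resLC2_H2π]
  congr 1
  apply Subtype.ext
  funext q
  show bock (charOf (resXOf hι f)) q • a.1 = bock (charOf f) (ι q.1, ι q.2) • a.1
  rw [charOf_resXOf, bock_comp]

end RestrictionHom

section ConjHom

variable {G H : Type} [Group G] [Group H] (L : LevelStructure G) (LH : LevelStructure H)
  (C : Rep.{0} ℤ G) (ι : H →* G) (hinj : Function.Injective ι) (hnorm : ι.range.Normal)
  {p : ℕ} [NeZero p]

include hnorm in
theorem exists_conjH (t : G) (h : H) : ∃ h' : H, ι h' = t⁻¹ * ι h * t := by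
  have := hnorm.conj_mem (ι h) ⟨h, rfl⟩ t⁻¹
  rw [inv_inv] at this
  exact this

/-- Conjugation `h ↦ t⁻¹ h t` on `H`, for an injective `ι : H →* G` with normal range. -/
noncomputable def conjH (t : G) : H →* H where
  toFun h := (exists_conjH ι hnorm t h).choose
  map_one' := hinj (by
    rw [(exists_conjH ι hnorm t 1).choose_spec, map_one]; group)
  map_mul' a b := hinj (by
    rw [(exists_conjH ι hnorm t (a * b)).choose_spec, map_mul, map_mul,
      (exists_conjH ι hnorm t a).choose_spec, (exists_conjH ι hnorm t b).choose_spec]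
    group)

theorem ι_conjH (t : G) (h : H) : ι (conjH ι hinj hnorm t h) = t⁻¹ * ι h * t :=
  (exists_conjH ι hnorm t h).choose_spec

/-- The action of `t ∈ G` on `C^H`. -/
noncomputable def conjInvOf (t : G) : ↥(invSub (Rep.res ι C)) →+ ↥(invSub (Rep.res ι C)) where
  toFun a := ⟨C.ρ t a.1, fun u => by
    show C.ρ (ι u) (C.ρ t a.1) = C.ρ t a.1
    rw [← rho_mul_apply]
    have h1 : ι u * t = t * ι (conjH ι hinj hnorm t u) := by
      rw [ι_conjH]; group
    rw [h1, rho_mul_apply]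
    congr 1
    exact a.2 (conjH ι hinj hnorm t u)⟩
  map_zero' := Subtype.ext (map_zero _)
  map_add' a b := Subtype.ext (map_add _ _ _)

@[simp] theorem coe_conjInvOf (t : G) (a : ↥(invSub (Rep.res ι C))) :
    ((conjInvOf C ι hinj hnorm t a : ↥(invSub (Rep.res ι C))) : C) = C.ρ t a.1 := rfl

theorem conjInvOf_resInvOf (t : G) (a : ↥(invSub C)) :
    conjInvOf C ι hinj hnorm t (resInvOf C ι a) = resInvOf C ι a :=
  Subtype.ext (a.2 t)

variable {L LH}

/-- The conjugation action of `t ∈ G` on `H¹_LC(H, 𝔽_p)`: `(t f)(u) = f (t⁻¹ u t)`. -/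
noncomputable def conjXOf (hLH : ∀ N', LH.IsLevel N' → ∃ N, L.IsLevel N ∧ N' = N.comap ι)
    (t : G) : XChar LH p →+ XChar LH p where
  toFun f := ⟨fun u => (f : H → ZMod p) (conjH ι hinj hnorm t u), by
    refine (mem_cocycles₁_iff (A := FpRep H p) _).2 fun g h => ?_
    show (f : H → ZMod p) (conjH ι hinj hnorm t (g * h)) = _ +
      (f : H → ZMod p) (conjH ι hinj hnorm t g)
    rw [map_mul, XChar.map_mul, add_comm]
    rfl, by
    obtain ⟨N', hN', hinv⟩ := f.2.2
    obtain ⟨N, hN, rfl⟩ := hLH N' hN'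
    have hn := L.normal hN
    refine ⟨N.comap ι, hN', fun u s hs => ?_⟩
    show (f : H → ZMod p) (conjH ι hinj hnorm t (u * s)) =
      (f : H → ZMod p) (conjH ι hinj hnorm t u)
    rw [map_mul]
    refine hinv _ _ ?_
    rw [Subgroup.mem_comap] at hs ⊢
    rw [ι_conjH]
    have := hn.conj_mem _ hs t⁻¹
    rwa [inv_inv] at this⟩
  map_zero' := rfl
  map_add' _ _ := rfl

@[simp] theorem conjXOf_apply (hLH : ∀ N', LH.IsLevel N' → ∃ N, L.IsLevel N ∧ N' = N.comap ι)
    (t : G) (f : XChar LH p) (u : H) :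
    (conjXOf ι hinj hnorm hLH t f : H → ZMod p) u =
      (f : H → ZMod p) (conjH ι hinj hnorm t u) := rfl

end ConjHom

section TransferHom

variable {G H : Type} [Group G] [Group H] {L : LevelStructure G} {LH : LevelStructure H}
  (ι : H →* G) (hinj : Function.Injective ι) (hnorm : ι.range.Normal)
  {p : ℕ} [NeZero p]

/-- **Transfer of characters** along an injective `ι : H →* G` with open normal range: for
`f' ∈ H¹_LC(H, 𝔽_p)` there is `f ∈ H¹_LC(G, 𝔽_p)` whose restriction to `H` is the sum of the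
conjugates of `f'` over representatives of `G ⧸ ι(H)`. -/
theorem exists_transferXOf [Fintype (G ⧸ ι.range)]
    (hLH : ∀ N', LH.IsLevel N' → ∃ N, L.IsLevel N ∧ N' = N.comap ι)
    (hιo : L.IsOpen ι.range) (hcompat : LH.Compat L ι) (f' : XChar LH p) :
    ∃ (f : XChar L p) (t : G ⧸ ι.range → G),
      resXOf hcompat f = ∑ q : G ⧸ ι.range, conjXOf ι hinj hnorm hLH (t q) f' := by
  classical
  haveI : ι.range.Normal := hnorm
  haveI : ι.range.FiniteIndex := hιo.finiteIndex L
  let e : H ≃* ι.range := MonoidHom.ofInjective hinj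
  let ϕ : ι.range →* Multiplicative (ZMod p) := (charOf f').comp e.symm.toMonoidHom
  let t : G ⧸ ι.range → G := fun q =>
    ((default : ι.range.LeftTransversal).2.leftQuotientEquiv q : G)
  have he : ∀ h : H, ((e h : ι.range) : G) = ι h := fun h => rfl
  have hesymm : ∀ (s : G) (h : H), e.symm (conjElt ι.range s (e h)) = conjH ι hinj hnorm s h := by
    intro s h
    apply hinj
    rw [ι_conjH]
    have : ι (e.symm (conjElt ι.range s (e h))) = ((conjElt ι.range s (e h) : ι.range) : G) :=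
      MonoidHom.apply_ofInjective_symm hinj _
    rw [this, coe_conjElt, he]
  have key : ∀ h : H, MonoidHom.transfer ϕ (ι h) =
      ∏ q : G ⧸ ι.range, charOf f' (conjH ι hinj hnorm (t q) h) := by
    intro h
    have h1 := transfer_apply_coe ι.range ϕ (e h)
    rw [he] at h1
    rw [h1]
    refine Finset.prod_congr (Finset.ext fun _ => by simp) fun q _ => ?_
    show charOf f' (e.symm (conjElt ι.range (t q) (e h))) = _
    rw [hesymm]
  -- the kernel of the transfer is open
  have hopen : L.IsOpen (MonoidHom.transfer ϕ).ker := by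
    obtain ⟨N', hN', hinv⟩ := f'.2.2
    obtain ⟨N, hN, rfl⟩ := hLH N' hN'
    obtain ⟨N₁, hN₁, hN₁U⟩ := hιo
    obtain ⟨N₂, hN₂, hle⟩ := L.directed hN hN₁
    have hn := L.normal hN
    refine ⟨N₂, hN₂, fun n hn₂ => ?_⟩
    obtain ⟨h, rfl⟩ : n ∈ ι.range := hN₁U ((hle hn₂).2)
    rw [MonoidHom.mem_ker, key h]
    refine Finset.prod_eq_one fun q _ => ?_
    rw [charOf_apply]
    have hmem : conjH ι hinj hnorm (t q) h ∈ N.comap ι := by
      rw [Subgroup.mem_comap, ι_conjH]
      have := hn.conj_mem (ι h) ((hle hn₂).1) (t q)⁻¹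
      rwa [inv_inv] at this
    have h0 := hinv 1 _ hmem
    rw [one_mul, XChar.map_one] at h0
    rw [h0]
    rfl
  obtain ⟨f, hf⟩ := exists_charOf_eq (MonoidHom.transfer ϕ) hopen
  refine ⟨f, t, ?_⟩
  apply Subtype.ext
  funext u
  have h1 : (f : G → ZMod p) (ι u) = Multiplicative.toAdd (charOf f (ι u)) := rfl
  rw [resXOf_apply, h1, hf, key u, Submodule.coe_sum, Finset.sum_apply, toAdd_prod]
  rfl

end TransferHom

section Inner

variable {G : Type} [Group G] {L : LevelStructure G} {C : Rep.{0} ℤ G}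

/-- The homotopy cochain for conjugation by `t` (helper7's `InnerTrivial`). -/
def innerCochain (x : G × G → C) (t : G) : G → C := fun σ => x (t, t⁻¹ * σ * t) - x (σ, t)

/-- `t • x (t⁻¹ σ t, t⁻¹ τ t) - x (σ, τ) = (d w)(σ, τ)` for a `2`-cocycle `x`. -/
theorem conj_sub_eq_d (x : G × G → C) (hx : x ∈ cocycles₂ C) (t σ τ : G) :
    C.ρ t (x (t⁻¹ * σ * t, t⁻¹ * τ * t)) - x (σ, τ) =
      (d₁₂ C).hom (innerCochain x t) (σ, τ) := by
  have hc := (mem_cocycles₂_iff x).1 hx
  rw [d₁₂_hom_apply]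
  show _ = C.ρ σ (x (t, t⁻¹ * τ * t) - x (τ, t)) - (x (t, t⁻¹ * (σ * τ) * t) - x (σ * τ, t))
      + (x (t, t⁻¹ * σ * t) - x (σ, t))
  have e1 := hc t (t⁻¹ * σ * t) (t⁻¹ * τ * t)
  have e2 := hc σ t (t⁻¹ * τ * t)
  have e3 := hc σ τ t
  have a1 : t * (t⁻¹ * σ * t) = σ * t := by group
  have a2 : t⁻¹ * σ * t * (t⁻¹ * τ * t) = t⁻¹ * (σ * τ) * t := by group
  have a3 : t * (t⁻¹ * τ * t) = τ * t := by group
  rw [a1, a2] at e1
  rw [a3] at e2
  rw [map_sub]
  have h1 : C.ρ t (x (t⁻¹ * σ * t, t⁻¹ * τ * t)) =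
      x (σ * t, t⁻¹ * τ * t) + x (t, t⁻¹ * σ * t) - x (t, t⁻¹ * (σ * τ) * t) := by
    rw [e1]; abel
  rw [h1]
  have h2 : x (σ * t, t⁻¹ * τ * t) = C.ρ σ (x (t, t⁻¹ * τ * t)) + x (σ, τ * t) - x (σ, t) := by
    rw [← e2]; abel
  rw [h2]
  have h3 : x (σ, τ * t) = x (σ * τ, t) + x (σ, τ) - C.ρ σ (x (τ, t)) := by
    rw [e3]; abel
  rw [h3]
  abel

/-- The homotopy cochain of an LC cocycle is LC. -/
theorem isLC₁_innerCochain (x : ↥(LC.Z₂ L C)) (t : G) :
    L.IsLC₁ (innerCochain (x : G × G → C) t) := by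
  obtain ⟨N, hN, hinv⟩ := x.2.2
  have hn := L.normal hN
  refine ⟨N, hN, fun σ s hs => ?_⟩
  unfold innerCochain
  have h1 : t⁻¹ * (σ * s) * t = t⁻¹ * σ * t * (t⁻¹ * s * t) := by group
  have hs' : t⁻¹ * s * t ∈ N := by
    have := hn.conj_mem s hs t⁻¹
    rwa [inv_inv] at this
  have e1 := hinv t (t⁻¹ * σ * t) 1 N.one_mem (t⁻¹ * s * t) hs'
  have e2 := hinv σ t s hs 1 N.one_mem
  rw [mul_one] at e1 e2
  rw [h1, e1, e2]

end Inner

/-- Every class of `LC.H2` is the class of an LC cocycle (stated for a general coefficient ring to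
avoid instance clashes over `ℤ`). -/
theorem exists_H2π_eq {k G : Type} [CommRing k] [Group G] (L : LevelStructure G) (A : Rep.{0} k G)
    (c : LC.H2 L A) : ∃ x : ↥(LC.Z₂ L A), LC.H2π L A x = c :=
  Submodule.mkQ_surjective _ c

section ConjInvariance

variable {G H : Type} [Group G] [Group H] {L : LevelStructure G} {LH : LevelStructure H}
  {C : Rep.{0} ℤ G} (ι : H →* G) (hinj : Function.Injective ι) (hnorm : ι.range.Normal)
  {p : ℕ} [NeZero p]

/-- Precomposition with the conjugation of `H` preserves LC cochains. -/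
theorem isLC₁_comp_conjH (hLH : ∀ N', LH.IsLevel N' → ∃ N, L.IsLevel N ∧ N' = N.comap ι)
    {X : Type*} {y : H → X} (hy : LH.IsLC₁ y) (t : G) :
    LH.IsLC₁ (fun u => y (conjH ι hinj hnorm t u)) := by
  obtain ⟨N', hN', hinv⟩ := hy
  obtain ⟨N, hN, rfl⟩ := hLH N' hN'
  have hn := L.normal hN
  refine ⟨N.comap ι, hN', fun u s hs => ?_⟩
  show y (conjH ι hinj hnorm t (u * s)) = y (conjH ι hinj hnorm t u)
  rw [map_mul]
  refine hinv _ _ ?_
  rw [Subgroup.mem_comap] at hs ⊢
  rw [ι_conjH]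
  have := hn.conj_mem _ hs t⁻¹
  rwa [inv_inv] at this

theorem charOf_conjXOf (hLH : ∀ N', LH.IsLevel N' → ∃ N, L.IsLevel N ∧ N' = N.comap ι)
    (t : G) (f' : XChar LH p) :
    charOf (conjXOf ι hinj hnorm hLH t f') = (charOf f').comp (conjH ι hinj hnorm t) := by
  ext u
  rfl

/-- **Conjugation invariance of restricted classes.**  If the symbol `a' ∪ δf'` on `H` is the
restriction of a class of `G`, it is invariant under conjugation by `t ∈ G`. -/
theorem symT_conj_eq_of_res (hC : IsSmooth L C) (hcompat : LH.Compat L ι)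
    (hLH : ∀ N', LH.IsLevel N' → ∃ N, L.IsLevel N ∧ N' = N.comap ι) (t : G)
    (a' : ↥(invSub (Rep.res ι C))) (f' : XChar LH p) (c : LC.H2 L C)
    (hc : ((symT LH (Rep.res ι C) a' f' :
        ↥(AddSubgroup.torsionBy (LC.H2 LH (Rep.res ι C)) (p : ℤ))) : LC.H2 LH (Rep.res ι C)) =
      LC.resLC2 hcompat hC c) :
    symT LH (Rep.res ι C) (conjInvOf C ι hinj hnorm t a') (conjXOf ι hinj hnorm hLH t f') =
      symT LH (Rep.res ι C) a' f' := by
  obtain ⟨x, rfl⟩ := exists_H2π_eq L C c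
  rw [LC.resLC2_H2π, coe_symT] at hc
  unfold lcSymClass at hc
  -- the difference `sym' - res x` is an LC coboundary
  have hB : ((lcSymCocycle LH (Rep.res ι C) (charOf f') (isOpen_ker_charOf f') a'.1
      (isInv_of_mem a'.2) - LC.resZ₂ hcompat x : ↥(LC.Z₂ LH (Rep.res ι C))) : H × H → C) ∈
      LC.B₂ LH (Rep.res ι C) := by
    rw [← LC.H2π_eq_zero_iff, map_sub, hc, sub_self]
  obtain ⟨y', hy'LC, hy'⟩ := LC.mem_B₂_iff.1 hB
  have hy'val : ∀ u v : H, (d₁₂ (Rep.res ι C)).hom y' (u, v) =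
      bock (charOf f') (u, v) • a'.1 - (x : G × G → C) (ι u, ι v) := fun u v =>
    congrFun hy' (u, v)
  apply Subtype.ext
  rw [coe_symT, coe_symT]
  unfold lcSymClass
  rw [← sub_eq_zero, ← map_sub, LC.H2π_eq_zero_iff, LC.mem_B₂_iff]
  set cH := conjH ι hinj hnorm t with hcH
  set w := innerCochain (x : G × G → C) t with hw
  refine ⟨fun u => C.ρ t (y' (cH u)) + w (ι u) - y' u, ?_, ?_⟩
  · have h1 : (fun u => C.ρ t (y' (cH u))) ∈ LC.C₁ LH (Rep.res ι C) :=
      (isLC₁_comp_conjH ι hinj hnorm hLH hy'LC t).comp (fun z => C.ρ t z)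
    have h2 : (fun u => w (ι u)) ∈ LC.C₁ LH (Rep.res ι C) :=
      hcompat.isLC₁ (isLC₁_innerCochain x t)
    have h3 : y' ∈ LC.C₁ LH (Rep.res ι C) := hy'LC
    exact (LC.C₁ LH (Rep.res ι C)).sub_mem ((LC.C₁ LH (Rep.res ι C)).add_mem h1 h2) h3
  · funext q
    obtain ⟨u, v⟩ := q
    rw [d₁₂_hom_apply]
    show C.ρ (ι u) (C.ρ t (y' (cH v)) + w (ι v) - y' v) -
        (C.ρ t (y' (cH (u * v))) + w (ι (u * v)) - y' (u * v)) +
        (C.ρ t (y' (cH u)) + w (ι u) - y' u) =
      bock (charOf (conjXOf ι hinj hnorm hLH t f')) (u, v) • C.ρ t a'.1 -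
        bock (charOf f') (u, v) • a'.1
    -- the three pieces
    have e1 := hy'val u v
    rw [d₁₂_hom_apply] at e1
    have e2 := hy'val (cH u) (cH v)
    rw [d₁₂_hom_apply] at e2
    have e3 := conj_sub_eq_d (x : G × G → C) x.2.1 t (ι u) (ι v)
    rw [d₁₂_hom_apply] at e3
    have hιc : ∀ z : H, ι (cH z) = t⁻¹ * ι z * t := fun z => ι_conjH ι hinj hnorm t z
    have hcomm : ∀ z : C, C.ρ (ι u) (C.ρ t z) = C.ρ t (C.ρ (ι (cH u)) z) := by
      intro z
      rw [← rho_mul_apply, ← rho_mul_apply]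
      congr 2
      rw [hιc]; group
    have e2' : C.ρ t (C.ρ (ι (cH u)) (y' (cH v))) - C.ρ t (y' (cH u * cH v)) +
        C.ρ t (y' (cH u)) =
        bock (charOf f') (cH u, cH v) • C.ρ t a'.1 -
          C.ρ t ((x : G × G → C) (ι (cH u), ι (cH v))) := by
      have := congrArg (C.ρ t) e2
      rw [map_sub, map_zsmul, map_add, map_sub] at this
      exact this
    have hb : bock (charOf (conjXOf ι hinj hnorm hLH t f')) (u, v) =
        bock (charOf f') (cH u, cH v) := by
      rw [charOf_conjXOf, bock_comp]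
    rw [hb, map_sub, map_add, hcomm, map_mul cH, map_mul ι]
    have hx : (x : G × G → C) (ι (cH u), ι (cH v)) =
        (x : G × G → C) (t⁻¹ * ι u * t, t⁻¹ * ι v * t) := by rw [hιc, hιc]
    rw [hx] at e2'
    have e1' : C.ρ (ι u) (y' v) - y' (u * v) + y' u =
        bock (charOf f') (u, v) • a'.1 - (x : G × G → C) (ι u, ι v) := e1
    -- assemble
    have e3' : C.ρ t ((x : G × G → C) (t⁻¹ * ι u * t, t⁻¹ * ι v * t)) =
        (x : G × G → C) (ι u, ι v) + (C.ρ (ι u) (w (ι v)) - w (ι u * ι v) + w (ι u)) := by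
      rw [← e3]; abel
    rw [e3'] at e2'
    have := e2'
    -- linear combination
    calc C.ρ t (C.ρ (ι (cH u)) (y' (cH v))) + C.ρ (ι u) (w (ι v)) - C.ρ (ι u) (y' v) -
          (C.ρ t (y' (cH u * cH v)) + w (ι u * ι v) - y' (u * v)) +
          (C.ρ t (y' (cH u)) + w (ι u) - y' u)
        = (C.ρ t (C.ρ (ι (cH u)) (y' (cH v))) - C.ρ t (y' (cH u * cH v)) + C.ρ t (y' (cH u)))
          + (C.ρ (ι u) (w (ι v)) - w (ι u * ι v) + w (ι u))
          - (C.ρ (ι u) (y' v) - y' (u * v) + y' u) := by abel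
      _ = _ := by rw [e2', e1']; abel

end ConjInvariance

section DescentHom

variable {G H : Type} [Group G] [Group H] {L : LevelStructure G} {LH : LevelStructure H}
  {C : Rep.{0} ℤ G} (ι : H →* G) (hinj : Function.Injective ι) (hnorm : ι.range.Normal)
  {p : ℕ} [NeZero p]

/-- Restriction on the `p`-torsion of `LC.H2`. -/
noncomputable def resTors (hcompat : LH.Compat L ι) (hC : IsSmooth L C) :
    ↥(AddSubgroup.torsionBy (LC.H2 L C) (p : ℤ)) →+
      ↥(AddSubgroup.torsionBy (LC.H2 LH (Rep.res ι C)) (p : ℤ)) where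
  toFun c := ⟨LC.resLC2 hcompat hC c.1, by
    rw [AddSubgroup.torsionBy.nsmul_iff, ← map_nsmul, AddSubgroup.torsionBy.nsmul_iff.1 c.2,
      map_zero]⟩
  map_zero' := Subtype.ext (map_zero _)
  map_add' a b := Subtype.ext (map_add _ _ _)

@[simp] theorem coe_resTors (hcompat : LH.Compat L ι) (hC : IsSmooth L C)
    (c : ↥(AddSubgroup.torsionBy (LC.H2 L C) (p : ℤ))) :
    ((resTors ι hcompat hC c : ↥(AddSubgroup.torsionBy (LC.H2 LH (Rep.res ι C)) (p : ℤ))) :
      LC.H2 LH (Rep.res ι C)) = LC.resLC2 hcompat hC c.1 := rfl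

theorem symT_resOf (hcompat : LH.Compat L ι) (hC : IsSmooth L C) (a : ↥(invSub C))
    (f : XChar L p) :
    symT LH (Rep.res ι C) (resInvOf C ι a) (resXOf hcompat f) =
      resTors ι hcompat hC (symT L C a f) :=
  Subtype.ext (coe_symT_resOf C hcompat hC a f)

/-- **Conjugation invariance of the symbols on `H`**, deduced from `τ' ∘ res = d • τ` with `τ`
surjective, `τ'` injective and `d` prime to `p`. -/
theorem symT_conj_eq (hp : p.Prime) (hC : IsSmooth L C) (hcompat : LH.Compat L ι)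
    (hLH : ∀ N', LH.IsLevel N' → ∃ N, L.IsLevel N ∧ N' = N.comap ι)
    {d : ℕ} (hd : Nat.Coprime d p)
    (τ : ↥(AddSubgroup.torsionBy (LC.H2 L C) (p : ℤ)) →+ ZMod p) (hτs : Function.Surjective τ)
    (τ' : ↥(AddSubgroup.torsionBy (LC.H2 LH (Rep.res ι C)) (p : ℤ)) →+ ZMod p)
    (hτ' : Function.Injective τ')
    (hres : ∀ c, τ' (resTors ι hcompat hC c) = d • τ c)
    (t : G) (a' : ↥(invSub (Rep.res ι C))) (f' : XChar LH p) :
    symT LH (Rep.res ι C) (conjInvOf C ι hinj hnorm t a') (conjXOf ι hinj hnorm hLH t f') =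
      symT LH (Rep.res ι C) a' f' := by
  haveI : Fact p.Prime := ⟨hp⟩
  have hdz : ((d : ℕ) : ZMod p) ≠ 0 := by
    rw [Ne, ZMod.natCast_eq_zero_iff]
    intro hdvd
    have := Nat.Coprime.eq_one_of_dvd hd.symm hdvd
    exact hp.one_lt.ne' this
  obtain ⟨c, hc⟩ := hτs (((d : ℕ) : ZMod p)⁻¹ * τ' (symT LH (Rep.res ι C) a' f'))
  have h1 : resTors ι hcompat hC c = symT LH (Rep.res ι C) a' f' := by
    apply hτ'
    rw [hres, hc, nsmul_eq_mul, mul_inv_cancel_left₀ hdz]
  exact symT_conj_eq_of_res ι hinj hnorm hC hcompat hLH t a' f' c.1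
    (by rw [← h1]; rfl)

include hinj hnorm in
/-- **Descent of right-nondegeneracy** along an injective `ι : H →* G` with open normal range of
index prime to `p`. -/
theorem right_nondegenerate_of_hom (hp : p.Prime) (hC : IsSmooth L C) (hcompat : LH.Compat L ι)
    (hLH : ∀ N', LH.IsLevel N' → ∃ N, L.IsLevel N ∧ N' = N.comap ι)
    (hιo : L.IsOpen ι.range) (hd : Nat.Coprime ι.range.index p)
    (τ : ↥(AddSubgroup.torsionBy (LC.H2 L C) (p : ℤ)) →+ ZMod p) (hτs : Function.Surjective τ)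
    (τ' : ↥(AddSubgroup.torsionBy (LC.H2 LH (Rep.res ι C)) (p : ℤ)) →+ ZMod p)
    (hτ' : Function.Injective τ')
    (hres : ∀ c, τ' (resTors ι hcompat hC c) = ι.range.index • τ c)
    (hR' : ∀ a' : ↥(invSub (Rep.res ι C)),
      (∀ f', τ' (symT LH (Rep.res ι C) a' f') = 0) →
        ∃ b' : ↥(invSub (Rep.res ι C)), a' = p • b')
    (a : ↥(invSub C)) (ha : ∀ f : XChar L p, τ (symT L C a f) = 0) :
    ∃ b : ↥(invSub C), a = p • b := by
  classical
  haveI : Fact p.Prime := ⟨hp⟩
  haveI : ι.range.Normal := hnorm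
  haveI : ι.range.FiniteIndex := hιo.finiteIndex L
  letI : Fintype (G ⧸ ι.range) := ι.range.fintypeQuotientOfFiniteIndex
  have hdz : ((ι.range.index : ℕ) : ZMod p) ≠ 0 := by
    rw [Ne, ZMod.natCast_eq_zero_iff]
    intro hdvd
    have := Nat.Coprime.eq_one_of_dvd hd.symm hdvd
    exact hp.one_lt.ne' this
  have step2 : ∀ f', τ' (symT LH (Rep.res ι C) (resInvOf C ι a) f') = 0 := by
    intro f'
    obtain ⟨f, t, hft⟩ := exists_transferXOf ι hinj hnorm hLH hιo hcompat f'
    have h1 : τ' (symT LH (Rep.res ι C) (resInvOf C ι a) (resXOf hcompat f)) = 0 := by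
      rw [symT_resOf ι hcompat hC, hres, ha f, smul_zero]
    rw [hft] at h1
    have h2 : τ' (symT LH (Rep.res ι C) (resInvOf C ι a)
        (∑ q : G ⧸ ι.range, conjXOf ι hinj hnorm hLH (t q) f')) =
        ∑ q : G ⧸ ι.range, τ' (symT LH (Rep.res ι C) (resInvOf C ι a)
          (conjXOf ι hinj hnorm hLH (t q) f')) := by
      have := map_sum (pairAdd LH (Rep.res ι C) τ' (resInvOf C ι a))
        (fun q : G ⧸ ι.range => conjXOf ι hinj hnorm hLH (t q) f') Finset.univ
      simpa only [pairAdd_apply] using this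
    rw [h2] at h1
    have h3 : ∀ q : G ⧸ ι.range, τ' (symT LH (Rep.res ι C) (resInvOf C ι a)
        (conjXOf ι hinj hnorm hLH (t q) f')) =
        τ' (symT LH (Rep.res ι C) (resInvOf C ι a) f') := by
      intro q
      have := symT_conj_eq ι hinj hnorm hp hC hcompat hLH hd τ hτs τ' hτ' hres (t q)
        (resInvOf C ι a) f'
      rw [conjInvOf_resInvOf] at this
      rw [this]
    rw [Finset.sum_congr rfl fun q _ => h3 q, Finset.sum_const, Finset.card_univ,
      ← Nat.card_eq_fintype_card, ← Subgroup.index_eq_card, nsmul_eq_mul] at h1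
    exact (mul_eq_zero.1 h1).resolve_left hdz
  obtain ⟨b', hb'⟩ := hR' _ step2
  -- norm argument
  have hb'inv : ((b'.1 : C)) ∈ invSub (subRep C ι.range) := by
    rintro ⟨_, h, rfl⟩
    exact b'.2 h
  have h4 : a.1 = p • b'.1 := congrArg Subtype.val hb'
  exact exists_nsmul_eq_of_sub C ι.range hd a ⟨b'.1, hb'inv⟩ (Subtype.ext h4)

include hinj hnorm in
/-- **Existence theorem mod `p` by descent, homomorphism form.**  `ι : H →* G` injective with
open normal range of index prime to `p`; invariant maps `τ` (bijective) on `LC.H2 (G)[p]` and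
`τ'` (injective) on `LC.H2 (H)[p]` with `τ' ∘ res = [G : H] • τ`; right-nondegeneracy for `H`;
(N) for `G`; `C^G / p` finite.  Then the pairing for `G` is perfect. -/
theorem perfect_of_hom (hp : p.Prime) (hC : IsSmooth L C) (hcompat : LH.Compat L ι)
    (hLH : ∀ N', LH.IsLevel N' → ∃ N, L.IsLevel N ∧ N' = N.comap ι)
    (hιo : L.IsOpen ι.range) (hd : Nat.Coprime ι.range.index p)
    (τ : ↥(AddSubgroup.torsionBy (LC.H2 L C) (p : ℤ)) →+ ZMod p) (hτ : Function.Bijective τ)
    (τ' : ↥(AddSubgroup.torsionBy (LC.H2 LH (Rep.res ι C)) (p : ℤ)) →+ ZMod p)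
    (hτ' : Function.Injective τ')
    (hres : ∀ c, τ' (resTors ι hcompat hC c) = ι.range.index • τ c)
    (hR' : ∀ a' : ↥(invSub (Rep.res ι C)),
      (∀ f', τ' (symT LH (Rep.res ι C) a' f') = 0) →
        ∃ b' : ↥(invSub (Rep.res ι C)), a' = p • b')
    (hN : ∀ f : XChar L p, f ≠ 0 → ∃ a : ↥(invSub C), symT L C a f ≠ 0)
    (hfin : Finite (VQuot C p)) :
    (Finite (XChar L p) ∧ Nat.card (XChar L p) = Nat.card (VQuot C p)) ∧
    Function.Bijective (pairLin L C τ) ∧ Function.Bijective (pairLin L C τ).flip := by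
  refine perfect_of_nondegenerate L C hp τ (fun f hf => ?_)
    (right_nondegenerate_of_hom ι hinj hnorm hp hC hcompat hLH hιo hd τ hτ.2 τ' hτ' hres hR')
    hfin
  obtain ⟨a, ha⟩ := hN f hf
  exact ⟨a, fun h0 => ha (hτ.1 (h0.trans (map_zero τ).symm))⟩

end DescentHom

end LCSym

end Fermat.Agent.CFT
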