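import Fermat.Agent.CFT.LC.KummerPairing
import Fermat.Agent.CFT.LC.PrimeToPCompare

/-!
# Transfer of the Kummer pairing along an injection with prime-to-`p` cokernel (S55, node KT)

Let `φ : A ⟶ B` be an injective morphism of smooth `ℤ[G]`-modules such that every element of `B` has
a multiple prime to `p` in the image of `φ`.

* `lcSymClass_map`, `symT_map`: `φ_* (a ∪ δχ) = φ(a) ∪ δχ`;
* `vQuotMap φ : VQuot A p →ₗ[ZMod p] VQuot B p`, bijective (`vQuotMap_bijective`), `vQuotEquiv`;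
* `tauTransfer hA hB φ τ_B : H²(A)[p] →+ ZMod p`, `τ_A = τ_B ∘ φ_*`;
* `pairLin_tauTransfer`: `pairLin_A(τ_A) = pairLin_B(τ_B) ∘ vQuotMap`;
* `perfect_transfer`: the conclusion of `LCSym.perfect` for `(B, τ_B)` implies the one for
  `(A, τ_A)`.
-/

set_option autoImplicit false
set_option linter.unusedSectionVars false

open CategoryTheory

namespace Fermat.Agent.CFT

namespace LCSym

variable {G : Type} [Group G] {L : LevelStructure G} {A B : Rep.{0} ℤ G}
  (hA : IsSmooth L A) (hB : IsSmooth L B) (φ : A ⟶ B)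

/-- Morphisms of representations preserve invariants. -/
theorem IsInv.map_hom {a : A} (ha : IsInv A a) : IsInv B (φ.hom a) := fun g => by
  rw [← Rep.hom_comm_apply, ha g]

section sym

variable {n : ℕ} [NeZero n]

/-- `φ_* (a ∪ δχ) = φ(a) ∪ δχ`. -/
theorem lcSymClass_map (χ : G →* Multiplicative (ZMod n)) (hχ : L.IsOpen χ.ker) (a : A)
    (ha : IsInv A a) :
    LC.mapLC2 hA hB φ (lcSymClass L A χ hχ a ha) =
      lcSymClass L B χ hχ (φ.hom a) (IsInv.map_hom φ ha) := by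
  unfold lcSymClass
  rw [LC.mapLC2_H2π]
  congr 1
  apply Subtype.ext
  funext q
  show φ.hom (bock χ q • a) = bock χ q • φ.hom a
  rw [map_zsmul]

end sym

/-! ### The induced map on `C^G / p` -/

section vquot

variable (p : ℕ)

/-- The map `A^G → B^G` induced by `φ`. -/
def invSubMap : ↥(invSub A) →+ ↥(invSub B) :=
  AddMonoidHom.mk' (fun a => ⟨φ.hom a.1, IsInv.map_hom φ (isInv_of_mem a.2)⟩)
    (fun a b => Subtype.ext (map_add φ.hom a.1 b.1))

@[simp] lemma coe_invSubMap (a : ↥(invSub A)) : ((invSubMap φ a : ↥(invSub B)) : B) = φ.hom a.1 :=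
  rfl

/-- The map `A^G / p → B^G / p` induced by `φ` (additive form). -/
def vQuotAdd : VQuot A p →+ VQuot B p :=
  QuotientAddGroup.map _ _ (invSubMap φ) (by
    rintro _ ⟨b, rfl⟩
    exact ⟨invSubMap φ b, (map_nsmul (invSubMap φ) p b).symm⟩)

lemma vQuotAdd_mk (a : ↥(invSub A)) :
    vQuotAdd φ p (QuotientAddGroup.mk a) = QuotientAddGroup.mk (invSubMap φ a) := rfl

variable {p} [NeZero p]

/-- The map `A^G / p → B^G / p` induced by `φ`, as an `𝔽_p`-linear map. -/
noncomputable def vQuotMap : VQuot A p →ₗ[ZMod p] VQuot B p :=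
  (vQuotAdd φ p).toZModLinearMap p

lemma vQuotMap_mk (a : ↥(invSub A)) :
    vQuotMap (p := p) φ (QuotientAddGroup.mk a) = QuotientAddGroup.mk (invSubMap φ a) := rfl

variable (hinj : Function.Injective φ.hom) (hp : p.Prime)
  (hcok : ∀ b : B, ∃ m : ℕ, ¬ p ∣ m ∧ ∃ a : A, φ.hom a = m • b)

include hinj hp hcok in
/-- `A^G / p → B^G / p` is bijective. -/
theorem vQuotMap_bijective : Function.Bijective (vQuotMap (p := p) φ) := by
  constructor
  · rw [injective_iff_map_eq_zero]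
    intro v hv
    obtain ⟨a, rfl⟩ := QuotientAddGroup.mk_surjective v
    rw [vQuotMap_mk, QuotientAddGroup.eq_zero_iff] at hv
    obtain ⟨b, hb⟩ := hv
    obtain ⟨a', ha', haa'⟩ := LC.invariants_mod_p_injective φ hinj hp hcok a.1
      (isInv_of_mem a.2) ⟨b.1, isInv_of_mem b.2, by
        have := congrArg Subtype.val hb
        exact this.symm⟩
    rw [QuotientAddGroup.eq_zero_iff]
    exact ⟨⟨a', mem_of_isInv ha'⟩, Subtype.ext haa'.symm⟩
  · intro w
    obtain ⟨b, rfl⟩ := QuotientAddGroup.mk_surjective w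
    obtain ⟨a, ha, b', hb', hbb'⟩ := LC.invariants_mod_p_surjective φ hinj hp hcok b.1
      (isInv_of_mem b.2)
    refine ⟨QuotientAddGroup.mk ⟨a, mem_of_isInv ha⟩, ?_⟩
    rw [vQuotMap_mk]
    refine (QuotientAddGroup.eq_iff_sub_mem).2 ?_
    refine ⟨-⟨b', mem_of_isInv hb'⟩, Subtype.ext ?_⟩
    show p • (-b') = φ.hom a - b.1
    rw [hbb', smul_neg]
    abel

/-- `A^G / p ≃ B^G / p`. -/
noncomputable def vQuotEquiv : VQuot A p ≃ₗ[ZMod p] VQuot B p :=
  LinearEquiv.ofBijective (vQuotMap (p := p) φ) (vQuotMap_bijective φ hinj hp hcok)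

end vquot

/-! ### Transfer of the invariant and of the pairing -/

section transfer

variable {p : ℕ} [NeZero p]

/-- `φ_* : H²(A)[p] → H²(B)[p]`. -/
noncomputable def torsMap :
    ↥(AddSubgroup.torsionBy (LC.H2 L A) (p : ℤ)) →+ ↥(AddSubgroup.torsionBy (LC.H2 L B) (p : ℤ)) :=
  AddMonoidHom.mk' (fun c => ⟨LC.mapLC2 hA hB φ c.1, by
      rw [AddSubgroup.torsionBy.nsmul_iff, ← map_nsmul, AddSubgroup.torsionBy.nsmul_iff.1 c.2,
        map_zero]⟩)
    (fun c c' => Subtype.ext (map_add (LC.mapLC2 hA hB φ) c.1 c'.1))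

@[simp] lemma coe_torsMap (c : ↥(AddSubgroup.torsionBy (LC.H2 L A) (p : ℤ))) :
    ((torsMap hA hB φ c : ↥(AddSubgroup.torsionBy (LC.H2 L B) (p : ℤ))) : LC.H2 L B) =
      LC.mapLC2 hA hB φ c.1 := rfl

/-- `φ_* (a ∪ δf) = φ(a) ∪ δf` in the `p`-torsion. -/
theorem torsMap_symT (a : ↥(invSub A)) (f : XChar L p) :
    torsMap hA hB φ (symT L A a f) = symT L B (invSubMap φ a) f := by
  apply Subtype.ext
  rw [coe_torsMap, coe_symT, coe_symT]
  exact lcSymClass_map hA hB φ _ _ _ _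

/-- The transferred invariant `τ_A := τ_B ∘ φ_*`. -/
noncomputable def tauTransfer (τ : ↥(AddSubgroup.torsionBy (LC.H2 L B) (p : ℤ)) →+ ZMod p) :
    ↥(AddSubgroup.torsionBy (LC.H2 L A) (p : ℤ)) →+ ZMod p :=
  τ.comp (torsMap hA hB φ)

lemma tauTransfer_apply (τ : ↥(AddSubgroup.torsionBy (LC.H2 L B) (p : ℤ)) →+ ZMod p)
    (c : ↥(AddSubgroup.torsionBy (LC.H2 L A) (p : ℤ))) :
    tauTransfer hA hB φ τ c = τ (torsMap hA hB φ c) := rfl

lemma tauTransfer_eq (τ : ↥(AddSubgroup.torsionBy (LC.H2 L B) (p : ℤ)) →+ ZMod p)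
    (c : ↥(AddSubgroup.torsionBy (LC.H2 L A) (p : ℤ)))
    (h : LC.mapLC2 hA hB φ c.1 ∈ AddSubgroup.torsionBy (LC.H2 L B) (p : ℤ)) :
    tauTransfer hA hB φ τ c = τ ⟨LC.mapLC2 hA hB φ c.1, h⟩ := rfl

/-- The pairing of `A` for `τ_A` is the pairing of `B` for `τ_B` composed with `A^G/p → B^G/p`. -/
theorem pairLin_tauTransfer (τ : ↥(AddSubgroup.torsionBy (LC.H2 L B) (p : ℤ)) →+ ZMod p)
    (v : VQuot A p) (f : XChar L p) :
    pairLin L A (tauTransfer hA hB φ τ) v f = pairLin L B τ (vQuotMap φ v) f := by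
  obtain ⟨a, rfl⟩ := QuotientAddGroup.mk_surjective v
  rw [vQuotMap_mk, pairLin_mk, pairLin_mk, tauTransfer_apply, torsMap_symT]

variable (hinj : Function.Injective φ.hom) (hp : p.Prime)
  (hcok : ∀ b : B, ∃ m : ℕ, ¬ p ∣ m ∧ ∃ a : A, φ.hom a = m • b)

include hinj hp hcok in
/-- **Transfer of the existence theorem mod `p`**: if the symbol pairing of `B` is perfect for
`τ_B`, the symbol pairing of `A` is perfect for `τ_A = τ_B ∘ φ_*`. -/
theorem perfect_transfer (τ : ↥(AddSubgroup.torsionBy (LC.H2 L B) (p : ℤ)) →+ ZMod p)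
    (h : (Finite (XChar L p) ∧ Nat.card (XChar L p) = Nat.card (VQuot B p)) ∧
      Function.Bijective (pairLin L B τ) ∧ Function.Bijective (pairLin L B τ).flip) :
    (Finite (XChar L p) ∧ Nat.card (XChar L p) = Nat.card (VQuot A p)) ∧
      Function.Bijective (pairLin L A (tauTransfer hA hB φ τ)) ∧
      Function.Bijective (pairLin L A (tauTransfer hA hB φ τ)).flip := by
  obtain ⟨⟨hfin, hcard⟩, hbij, hflip⟩ := h
  have he := vQuotMap_bijective φ hinj hp hcok
  have h1 : pairLin L A (tauTransfer hA hB φ τ) = (pairLin L B τ).comp (vQuotMap φ) := by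
    ext v f
    exact pairLin_tauTransfer hA hB φ τ v f
  have h2 : (pairLin L A (tauTransfer hA hB φ τ)).flip =
      (LinearMap.lcomp (ZMod p) (ZMod p) (vQuotMap (p := p) φ)).comp (pairLin L B τ).flip := by
    ext f v
    exact pairLin_tauTransfer hA hB φ τ v f
  refine ⟨⟨hfin, ?_⟩, ?_, ?_⟩
  · rw [hcard]
    exact (Nat.card_congr (Equiv.ofBijective _ he)).symm
  · rw [h1, LinearMap.coe_comp]
    exact hbij.comp he
  · rw [h2, LinearMap.coe_comp]
    refine Function.Bijective.comp ?_ hflip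
    have hE : ⇑(LinearMap.lcomp (ZMod p) (ZMod p) (vQuotMap (p := p) φ)) =
        ⇑((vQuotEquiv φ hinj hp hcok).congrLeft (ZMod p) (ZMod p)).symm := by
      ext g v
      rfl
    rw [hE]
    exact (LinearEquiv.bijective _)

end transfer

end LCSym

end Fermat.Agent.CFT
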