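import Fermat.Agent.CFT.Local.LCLocalFamilyTau

/-!
# Level cohomology: packaging a family of `ℚ/ℤ`-valued invariants for `lc_duality`

Generic assembly (used for the global class formation; the local one is
`Local/LCLocalFamily.lean`): for a level group `(G, L)` and a smooth module `C`, a family of
invariant maps `invG : LC.H2 L C →+ ℚ/ℤ`, `invS S hS : LC.H2 (L.comap S.subtype) (Res C) →+ ℚ/ℤ`
(all open `S`) which are injective on `p`-primary classes, take the values `1/p^a` on `p`-primary
classes and satisfy `invS (res x) = [G : S] • invG x` yields the inputs of the abstract duality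
theorem `lc_duality`: `ZMod p`-valued bijective invariants on the `p`-torsion `LC.Hp p _ 2`,
compatible with corestriction (T2).
-/

set_option autoImplicit false
set_option linter.style.haveILetI false
set_option linter.unusedSectionVars false

open CategoryTheory groupCohomology

namespace Fermat.Agent.CFT

namespace LC

/-- A `p`-primary family of `ℚ/ℤ`-valued invariants on the level cohomology of a level group and
of all its open subgroups. -/
structure PInvFamily {R G : Type} [CommRing R] [Group G] (L : LevelStructure G) (C : Rep.{0} R G)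
    (hC : IsSmooth L C) (p : ℕ) where
  /-- the invariant of the whole group -/
  invG : H2 L C →+ AddCircle (1 : ℚ)
  /-- the invariants of the open subgroups -/
  invS : ∀ S : Subgroup G, L.IsOpen S →
    (H2 (L.comap S.subtype) (Rep.res S.subtype C) →+ AddCircle (1 : ℚ))
  injG : ∀ c : H2 L C, (∃ n : ℕ, p ^ n • c = 0) → invG c = 0 → c = 0
  injS : ∀ (S : Subgroup G) (hS : L.IsOpen S)
    (c : H2 (L.comap S.subtype) (Rep.res S.subtype C)), (∃ n : ℕ, p ^ n • c = 0) →
      invS S hS c = 0 → c = 0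
  valG : ∀ a : ℕ, ∃ c : H2 L C, p ^ a • c = 0 ∧
    invG c = (((1 : ℚ) / ((p ^ a : ℕ) : ℚ) : ℚ) : AddCircle (1 : ℚ))
  valS : ∀ (S : Subgroup G) (hS : L.IsOpen S),
    ∃ c : H2 (L.comap S.subtype) (Rep.res S.subtype C), p • c = 0 ∧
      invS S hS c = (((1 : ℚ) / (p : ℚ) : ℚ) : AddCircle (1 : ℚ))
  res : ∀ (S : Subgroup G) (hS : L.IsOpen S) (x : H2 L C),
    invS S hS (resLC2 (LevelStructure.compat_comap L S.subtype) hC x) = S.index • invG x

namespace PInvFamily

variable {R G : Type} [CommRing R] [Group G] {L : LevelStructure G} {C : Rep.{0} R G}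
  {hC : IsSmooth L C} {p : ℕ} [Fact p.Prime] (I : PInvFamily L C hC p)

/-- **(T2)**, `ℚ/ℤ`-form: `invG (cor y) = invS y` for `p`-primary `y`. -/
theorem invG_corLC2 (S : Subgroup G) [S.FiniteIndex] (hS : L.IsOpen S)
    (y : H2 (L.comap S.subtype) (Rep.res S.subtype C)) (hy : ∃ m : ℕ, p ^ m • y = 0) :
    I.invG (corLC2 hS hC y) = I.invS S hS y :=
  inv_cor_of_inv_res p (Fact.out : p.Prime)
    (resLC2 (LevelStructure.compat_comap L S.subtype) hC).toAddMonoidHom
    (corLC2 hS hC).toAddMonoidHom S.index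
    (Nat.pos_of_ne_zero Subgroup.FiniteIndex.index_ne_zero)
    (fun x => corLC2_resLC2 hS hC x) I.invG (I.invS S hS) (I.res S hS) (I.injS S hS) I.valG y hy

/-- The `ZMod p`-valued invariant of the whole group on `H²(G, C)[p]`. -/
noncomputable def invHpG : Hp p hC 2 →+ ZMod p :=
  invZMod p (I.invG.comp (h2Equiv hC).toAddEquiv.toAddMonoidHom)

/-- The `ZMod p`-valued invariant of an open subgroup on `H²(S, C)[p]`. -/
noncomputable def invHpS (S : Subgroup G) (hS : L.IsOpen S) :
    Hp p (isSmooth_res (S := S) hC) 2 →+ ZMod p :=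
  invZMod p ((I.invS S hS).comp
    (h2Equiv (isSmooth_res (S := S) hC)).toAddEquiv.toAddMonoidHom)

lemma zmodToCircle_invHpG (x : Hp p hC 2) :
    zmodToCircle p (I.invHpG x) = I.invG (h2Equiv hC x.1) :=
  zmodToCircle_invZMod p _ x

lemma zmodToCircle_invHpS (S : Subgroup G) (hS : L.IsOpen S)
    (x : Hp p (isSmooth_res (S := S) hC) 2) :
    zmodToCircle p (I.invHpS S hS x) = I.invS S hS (h2Equiv (isSmooth_res (S := S) hC) x.1) :=
  zmodToCircle_invZMod p _ x

/-- **(T1)** for the whole group. -/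
theorem invHpG_bijective : Function.Bijective I.invHpG := by
  constructor
  · refine invZMod_injective p _ fun x hx h0 => ?_
    have h1 : h2Equiv hC x = 0 := by
      refine I.injG _ ⟨1, ?_⟩ h0
      rw [pow_one, ← map_nsmul, hx, map_zero]
    exact (LinearEquiv.map_eq_zero_iff _).1 h1
  · refine invZMod_surjective p _ ?_
    obtain ⟨c, hc0, hc⟩ := I.valG 1
    rw [pow_one] at hc0 hc
    refine ⟨(h2Equiv hC).symm c, ?_, ?_⟩
    · rw [← map_nsmul, hc0, map_zero]
    · show I.invG (h2Equiv hC ((h2Equiv hC).symm c)) = _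
      rw [LinearEquiv.apply_symm_apply, hc]

/-- **(T1)** for every open subgroup. -/
theorem invHpS_bijective (S : Subgroup G) (hS : L.IsOpen S) :
    Function.Bijective (I.invHpS S hS) := by
  constructor
  · refine invZMod_injective p _ fun x hx h0 => ?_
    have h1 : h2Equiv (isSmooth_res (S := S) hC) x = 0 := by
      refine I.injS S hS _ ⟨1, ?_⟩ h0
      rw [pow_one, ← map_nsmul, hx, map_zero]
    exact (LinearEquiv.map_eq_zero_iff _).1 h1
  · refine invZMod_surjective p _ ?_
    obtain ⟨c, hc0, hc⟩ := I.valS S hS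
    refine ⟨(h2Equiv (isSmooth_res (S := S) hC)).symm c, ?_, ?_⟩
    · rw [← map_nsmul, hc0, map_zero]
    · show I.invS S hS (h2Equiv _ ((h2Equiv _).symm c)) = _
      rw [LinearEquiv.apply_symm_apply, hc]

/-- **(T2)** in the shape of `lc_duality`. -/
theorem invHpG_corH₂ (S : Subgroup G) (hS : L.IsOpen S) :
    haveI := hS.finiteIndex
    ∀ (x : (cx (isSmooth_res (S := S) hC)).H 2)
      (hx : x ∈ Hp p (isSmooth_res (S := S) hC) 2)
      (hx' : corH₂ hS hC x ∈ Hp p hC 2),
      I.invHpG ⟨corH₂ hS hC x, hx'⟩ = I.invHpS S hS ⟨x, hx⟩ := by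
  haveI := hS.finiteIndex
  intro x hx hx'
  apply zmodToCircle_injective p
  rw [zmodToCircle_invHpG, zmodToCircle_invHpS]
  have hy : ∃ m : ℕ, p ^ m • h2Equiv (isSmooth_res (S := S) hC) x = 0 := by
    refine ⟨1, ?_⟩
    have hx0 : p • x = 0 := hx
    rw [pow_one, ← map_nsmul, hx0, map_zero]
  have h1 := I.invG_corLC2 S hS (h2Equiv (isSmooth_res (S := S) hC) x) hy
  rw [← h1]
  congr 1
  simp only [corLC2, LinearMap.comp_apply, LinearEquiv.coe_coe]
  exact congrArg _ (congrArg _ (LinearEquiv.symm_apply_apply _ x).symm)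

/-- `τ`-form of the invariant of an open subgroup. -/
noncomputable def tauS (S : Subgroup G) (hS : L.IsOpen S) :
    ↥(AddSubgroup.torsionBy (H2 (L.comap S.subtype) (Rep.res S.subtype C)) (p : ℤ)) →+ ZMod p :=
  tauZMod p (I.invS S hS)

lemma zmodToCircle_tauS (S : Subgroup G) (hS : L.IsOpen S)
    (c : ↥(AddSubgroup.torsionBy (H2 (L.comap S.subtype) (Rep.res S.subtype C)) (p : ℤ))) :
    zmodToCircle p (I.tauS S hS c) = I.invS S hS c.1 :=
  zmodToCircle_tauZMod p _ c

theorem invHpS_eq_tauS (S : Subgroup G) (hS : L.IsOpen S)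
    (x : (cx (isSmooth_res (S := S) hC)).H 2) (hx : x ∈ Hp p (isSmooth_res (S := S) hC) 2)
    (hx' : h2Equiv (isSmooth_res (S := S) hC) x ∈
      AddSubgroup.torsionBy (H2 (L.comap S.subtype) (Rep.res S.subtype C)) (p : ℤ)) :
    I.invHpS S hS ⟨x, hx⟩ = I.tauS S hS ⟨h2Equiv (isSmooth_res (S := S) hC) x, hx'⟩ := by
  apply zmodToCircle_injective p
  rw [zmodToCircle_invHpS, zmodToCircle_tauS]

theorem tauS_bijective (S : Subgroup G) (hS : L.IsOpen S) :
    Function.Bijective (I.tauS S hS) := by
  constructor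
  · exact tauZMod_injective p _ fun x hx h0 => I.injS S hS x ⟨1, by rwa [pow_one]⟩ h0
  · exact tauZMod_surjective p _ (I.valS S hS)

end PInvFamily

end LC

/-! ### The local instance -/

section Gal

open GaloisTower LayerMaps IntermediateField

variable {k Ω : Type} [Field k] [Field Ω] [Algebra k Ω] [IsGalois k Ω]
variable (L : LevelStructure (Ω ≃ₐ[k] Ω))
  (hGal : ∀ N, L.IsLevel N → ∃ F : IntermediateField k Ω,
    FiniteDimensional k F ∧ Normal k F ∧ N = F.fixingSubgroup)
  (hcof : ∀ E' : IntermediateField k Ω, FiniteDimensional k E' →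
    ∃ N, L.IsLevel N ∧ N ≤ E'.fixingSubgroup)
  (T : LayerInvSystem k Ω) (p : ℕ) [Fact p.Prime]

/-- The local invariants form a `PInvFamily` (for every prime `p`). -/
noncomputable def galPInvFamily :
    LC.PInvFamily L (Rep.ofAlgebraAutOnUnits k Ω) (isSmooth_galUnits L hcof) p where
  invG := galInv L hGal hcof T
  invS := galInvS L hGal hcof T
  injG c _ h0 := galInv_injective L hGal hcof T (h0.trans (map_zero _).symm)
  injS S hS c _ h0 := galInvS_injective L hGal hcof T S hS (h0.trans (map_zero _).symm)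
  valG a := by
    obtain ⟨c, hc⟩ := galInv_surjective L hGal hcof T
      ((((1 : ℚ) / ((p ^ a : ℕ) : ℚ) : ℚ)) : AddCircle (1 : ℚ))
    refine ⟨c, galInv_injective L hGal hcof T ?_, hc⟩
    rw [map_nsmul, hc, map_zero]
    exact LC.addCircle_nsmul_one_div (p ^ a) (pow_pos (Fact.out : p.Prime).pos a)
  valS S hS := by
    obtain ⟨c, hc⟩ := galInvS_surjective L hGal hcof T S hS
      ((((1 : ℚ) / (p : ℚ) : ℚ)) : AddCircle (1 : ℚ))
    refine ⟨c, galInvS_injective L hGal hcof T S hS ?_, hc⟩
    rw [map_nsmul, hc, map_zero]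
    exact LC.addCircle_nsmul_one_div p (Fact.out : p.Prime).pos
  res S hS x := galInvS_resLC2 L hGal hcof T S hS x

end Gal

end Fermat.Agent.CFT
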