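import Fermat.Agent.CFT.LC.PInvFamilyTransfer
import Fermat.Agent.CFT.LC.KummerTransfer

/-!
# The Kummer pairing of a transferred family of invariants (S55, node C9 [E-TRANSFER])

For a family of invariants `I` of `B`, an injection `φ : A ⟶ B` with prime-to-`p` cokernel and an
open subgroup `U`:

* `transfer_tauS_eq_tauTransfer`: the `τ`-form of the transferred invariant of `U` is
  `LCSym.tauTransfer` of the `τ`-form of the invariant of `U` for `B`;
* `transfer_perfect`, `transfer_pairLin_bijective`: the conclusion of `LCSym.perfect` for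
  `(B|U, I.tauS U)` implies the one for `(A|U, (I.transfer ..).tauS U)`;
* `transfer_isPerfect_of_perfect`: `lc_duality` for the transferred family, with (CF1) and the
  existence theorem (E) as hypotheses on `B` only.
-/

set_option autoImplicit false
set_option linter.unusedSectionVars false

open CategoryTheory

namespace Fermat.Agent.CFT

namespace LC

namespace PInvFamily

variable {G : Type} [Group G] {L : LevelStructure G} {p : ℕ} [Fact p.Prime] {A B : Rep.{0} ℤ G}
  {hB : IsSmooth L B} (I : PInvFamily L B hB p) (hA : IsSmooth L A) (φ : A ⟶ B)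
  (hinj : Function.Injective φ.hom) (hp : p.Prime)
  (hcok : ∀ b : B, ∃ m : ℕ, ¬ p ∣ m ∧ ∃ a : A, φ.hom a = m • b)

/-- The `τ`-form of the transferred invariant of an open subgroup is the transferred `τ`. -/
theorem transfer_tauS_eq_tauTransfer (U : Subgroup G) (hU : L.IsOpen U) :
    (I.transfer hA φ hinj hp hcok).tauS U hU =
      LCSym.tauTransfer (isSmooth_res (S := U) hA) (isSmooth_res (S := U) hB)
        (Rep.resMap U.subtype φ) (I.tauS U hU) := by
  ext c
  rw [transfer_tauS]
  rfl

/-- **Transfer of the existence theorem mod `p`** to the transferred family, over an open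
subgroup `U`. -/
theorem transfer_perfect (U : Subgroup G) (hU : L.IsOpen U)
    (h : (Finite (LCSym.XChar (L.comap U.subtype) p) ∧
        Nat.card (LCSym.XChar (L.comap U.subtype) p) =
          Nat.card (LCSym.VQuot (Rep.res U.subtype B) p)) ∧
      Function.Bijective
        (LCSym.pairLin (L.comap U.subtype) (Rep.res U.subtype B) (I.tauS U hU)) ∧
      Function.Bijective
        (LCSym.pairLin (L.comap U.subtype) (Rep.res U.subtype B) (I.tauS U hU)).flip) :
    (Finite (LCSym.XChar (L.comap U.subtype) p) ∧
        Nat.card (LCSym.XChar (L.comap U.subtype) p) =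
          Nat.card (LCSym.VQuot (Rep.res U.subtype A) p)) ∧
      Function.Bijective (LCSym.pairLin (L.comap U.subtype) (Rep.res U.subtype A)
        ((I.transfer hA φ hinj hp hcok).tauS U hU)) ∧
      Function.Bijective (LCSym.pairLin (L.comap U.subtype) (Rep.res U.subtype A)
        ((I.transfer hA φ hinj hp hcok).tauS U hU)).flip := by
  rw [transfer_tauS_eq_tauTransfer]
  exact LCSym.perfect_transfer (isSmooth_res (S := U) hA) (isSmooth_res (S := U) hB)
    (Rep.resMap U.subtype φ) (inj_resMap φ U hinj) hp (cok_resMap φ U hcok) (I.tauS U hU) h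

/-- The hypothesis `hE` of `transfer_isPerfect` from the existence theorem for `B|U`. -/
theorem transfer_pairLin_bijective (U : Subgroup G) (hU : L.IsOpen U)
    (h : (Finite (LCSym.XChar (L.comap U.subtype) p) ∧
        Nat.card (LCSym.XChar (L.comap U.subtype) p) =
          Nat.card (LCSym.VQuot (Rep.res U.subtype B) p)) ∧
      Function.Bijective
        (LCSym.pairLin (L.comap U.subtype) (Rep.res U.subtype B) (I.tauS U hU)) ∧
      Function.Bijective
        (LCSym.pairLin (L.comap U.subtype) (Rep.res U.subtype B) (I.tauS U hU)).flip) :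
    Function.Bijective (LCSym.pairLin (L.comap U.subtype) (Rep.res U.subtype A)
      ((I.transfer hA φ hinj hp hcok).tauS U hU)) :=
  (I.transfer_perfect hA φ hinj hp hcok U hU h).2.1

/-- **`lc_duality` for a transferred family**, with all hypotheses on `B`: (CF1a) for `B|U` and
the existence theorem mod `p` for `(B|U, I.tauS U)`, for the open subgroups `U ≤ G₀`. -/
theorem transfer_isPerfect_of_perfect (G₀ : Subgroup G) (hG₀ : L.IsOpen G₀)
    (hcop : Nat.Coprime p G₀.index)
    (hB1 : ∀ (U : Subgroup G), L.IsOpen U → U ≤ G₀ →
      ∀ c : H1 (L.comap U.subtype) (Rep.res U.subtype B), p • c = 0 → c = 0)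
    (hEB : ∀ (U : Subgroup G) (hU : L.IsOpen U), U ≤ G₀ →
      (Finite (LCSym.XChar (L.comap U.subtype) p) ∧
        Nat.card (LCSym.XChar (L.comap U.subtype) p) =
          Nat.card (LCSym.VQuot (Rep.res U.subtype B) p)) ∧
      Function.Bijective
        (LCSym.pairLin (L.comap U.subtype) (Rep.res U.subtype B) (I.tauS U hU)) ∧
      Function.Bijective
        (LCSym.pairLin (L.comap U.subtype) (Rep.res U.subtype B) (I.tauS U hU)).flip)
    (M : PMod L p) : M.res.IsPerfect p hA M.tors (I.transfer hA φ hinj hp hcok).invHpG :=
  transfer_isPerfect I hA φ hinj hp hcok G₀ hG₀ hcop hB1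
    (fun U hU hle => I.transfer_pairLin_bijective hA φ hinj hp hcok U hU (hEB U hU hle)) M

end PInvFamily

end LC

end Fermat.Agent.CFT
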