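import Fermat.Agent.CFT.LC.ShapiroExt
import Fermat.Agent.CFT.HyperExt.LCExtPair

/-!
# Adjointness of Shapiro's isomorphisms on hyper-Ext, in terms of `LatticeRes.pair` (S55, node N4b)

`LatticeRes.extPair` of `LC/ShapiroExt.lean` is definitionally `LatticeRes.pair` of
`HyperExt/LCExtPair.lean`; this file restates the adjointness theorems for `LatticeRes.pair`.
-/

set_option autoImplicit false

universe u

open CategoryTheory

namespace Fermat.Agent.CFT

open HExt

variable {k G : Type u} [CommRing k] [Group G] {L : LevelStructure G}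

lemma LatticeRes.extPair_eq_pair {N : Rep.{u} k G} (R : LatticeRes L N) {X : Rep.{u} k G}
    (hX : IsSmooth L X) (n s m : ℕ) (hm : n + s = m) :
    R.extPair hX n s m hm = R.pair hX n s m hm := rfl

namespace LC

variable {S : Subgroup G} (hS : L.IsOpen S) [S.FiniteIndex] {Y : Rep.{u} k S}
  (R : LatticeRes (L.comap S.subtype) Y) {C : Rep.{u} k G} (hC : IsSmooth L C)

/-- **Adjointness of Shapiro's isomorphisms** for the hyper-Ext pairing with values in `H²`:
`⟨e, c⟩_G = cor ⟨sh e, sh c⟩_S` for `e ∈ Ext^{n+1}_G(coind Y, C)`, `c ∈ H^s(G, coind Y)`,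
`n + s = 1`. -/
theorem pair_coindRes (n s : ℕ) (hm : n + s = 1) (e : (coindRes hS R).Ext hC (n + 1))
    (c : (cx (coindRes hS R).smooth).H s) :
    (coindRes hS R).pair hC n s 1 hm e c =
      corH₂ hS hC (R.pair (isSmooth_res hC) n s 1 hm
        (shExtMap hS R.toLatticePair hC (n + 1) e) ((cxSh hS R.smooth).mapH s c)) := by
  obtain ⟨rfl, rfl⟩ | ⟨rfl, rfl⟩ : (n = 0 ∧ s = 1) ∨ (n = 1 ∧ s = 0) := by omega
  · exact extPair_coindRes₁₁ hS R hC e c
  · exact extPair_coindRes₂₀ hS R hC e c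

/-- **Adjointness of Shapiro's isomorphisms** for the pairing `Ext¹ × H⁰ → H¹`. -/
theorem pair_coindRes_zero (e : (coindRes hS R).Ext hC 1)
    (c : (cx (coindRes hS R).smooth).H 0) :
    (coindRes hS R).pair hC 0 0 0 rfl e c =
      corH₁ hS hC (R.pair (isSmooth_res hC) 0 0 0 rfl
        (shExtMap hS R.toLatticePair hC 1 e) ((cxSh hS R.smooth).mapH 0 c)) :=
  extPair_coindRes₁₀ hS R hC e c

end LC

end Fermat.Agent.CFT
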