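import Fermat.Agent.CFT.LC.ShapiroExtPair
import Fermat.Agent.CFT.HyperExt.LCDualityDefs
import Fermat.Agent.CFT.HyperExt.LCDualitySES

/-!
# The canonical resolution of a coinduced module (S55, node N4c)

For an open subgroup `S` of `(G, L)` and a finite smooth `S`-module `Y`, the canonical resolution
`zRes (coind Y)` maps quasi-isomorphically to the coinduced canonical resolution
`coindPair hS (zRes Y)` (`LC.zResCoind`), compatibly with the hyper-Ext pairings.  Combined with
Shapiro's lemma for hyper-Ext this gives `LC.shZ` and the adjointness `LC.pair_zResR_coind`.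
-/

set_option autoImplicit false

universe u

open CategoryTheory

namespace Fermat.Agent.CFT

namespace LC

open HExt

variable {k G : Type u} [CommRing k] [Group G] {L : LevelStructure G} {S : Subgroup G}

section Projective

variable [S.FiniteIndex] (A : Rep.{u} k S)

open Classical in
/-- `(v_c)_c ↦ ∑_c δ_{c⁻¹, v_c}`, a linear surjection `A^{G/S} → coind A`. -/
noncomputable def coindSum : ((G ⧸ S) → A) →ₗ[k] Rep.coind S.subtype A :=
  haveI : Finite (G ⧸ S) := Subgroup.finite_quotient_of_finiteIndex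
  letI : Fintype (G ⧸ S) := Fintype.ofFinite _
  ∑ c : G ⧸ S, (coindDelta S A (c.out)⁻¹) ∘ₗ (LinearMap.proj c)

/-- Evaluation at the representatives, `coind A → A^{G/S}`. -/
noncomputable def coindEvals : Rep.coind S.subtype A →ₗ[k] ((G ⧸ S) → A) :=
  LinearMap.pi fun c => coindEvalAt S A (c.out)⁻¹

lemma coindSum_coindEvals (f : Rep.coind S.subtype A) : coindSum A (coindEvals A f) = f := by
  classical
  have : Finite (G ⧸ S) := Subgroup.finite_quotient_of_finiteIndex
  let _ : Fintype (G ⧸ S) := Fintype.ofFinite _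
  have h := finsum_coindDeltaFun S A f
  rw [finsum_eq_sum_of_fintype] at h
  refine Eq.trans ?_ h
  simp only [coindSum, coindEvals, LinearMap.sum_apply, LinearMap.comp_apply,
    LinearMap.proj_apply, LinearMap.pi_apply]
  refine Finset.sum_congr (by congr) fun c _ => ?_
  conv_rhs => rw [← QuotientGroup.out_eq' c]
  rfl

/-- The coinduction, along a subgroup of finite index, of a projective module is projective. -/
theorem projective_coind [Module.Projective k A] :
    Module.Projective k (Rep.coind S.subtype A) := by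
  classical
  have : Finite (G ⧸ S) := Subgroup.finite_quotient_of_finiteIndex
  let _ : Fintype (G ⧸ S) := Fintype.ofFinite _
  have : Module.Projective k ((G ⧸ S) → A) :=
    Module.Projective.of_equiv' (DFinsupp.linearEquivFunOnFintype (R := k)
      (M := fun _ : G ⧸ S => A) (ι := G ⧸ S))
  exact Module.Projective.of_split (coindEvals A) (coindSum A)
    (LinearMap.ext fun f => coindSum_coindEvals A f)

end Projective

section ZResCoind

variable [IsNoetherianRing k] (hS : L.IsOpen S) [S.FiniteIndex] (Y : Rep.{u} k S) [Finite Y]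
  (hY : IsSmooth (L.comap S.subtype) Y)

/-- The equivariant set-theoretic section `coind Y → coind k[Y]`, `φ ↦ (g ↦ [φ g])`. -/
noncomputable def zCoindSection (φ : Rep.coind S.subtype Y) : Rep.coind S.subtype (zFree Y) :=
  ⟨fun g => zSingle Y (φ.1 g), fun s g => by
    have h := φ.2 s g
    change φ.1 (s.1 * g) = Y.ρ s (φ.1 g) at h
    change zSingle Y (φ.1 (s.1 * g)) = (zFree Y).ρ s (zSingle Y (φ.1 g))
    rw [h, zFree_ρ_single]⟩

omit [IsNoetherianRing k] [S.FiniteIndex] [Finite Y] in
lemma zCoindSection_apply (φ : Rep.coind S.subtype Y) (g : G) :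
    (zCoindSection Y φ).1 g = zSingle Y (φ.1 g) := rfl

/-- **The comparison** `zRes (coind Y) ⟶ coind (zRes Y)` of lattice pairs. -/
noncomputable def zResCoind :
    LatticePair.Hom (zRes (Rep.coind S.subtype Y) (isSmooth_coind hS hY))
      (coindPair hS (zRes Y hY)) :=
  zRes.lift (isSmooth_coind hS hY) (coindPair hS (zRes Y hY)) (Rep.coindMap S.subtype (zAug Y))
    (coindMap_exact (zKerι Y) (zAug Y) (zKerι_injective Y) (zKerι_exact Y))
    (coindPair_i_injective hS (zRes Y hY) (zKerι_injective Y)) (zCoindSection Y)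
    (fun φ => Subtype.ext (funext fun g => zAug_single Y (φ.1 g)))
    (fun _ _ => rfl)

lemma zResCoind_f₀_single (φ : Rep.coind S.subtype Y) :
    (zResCoind hS Y hY).f₀.hom (zSingle (Rep.coind S.subtype Y) φ) = zCoindSection Y φ :=
  zRes.lift_f₀_single _ _ _ _ _ _ _ _ φ

/-- compatibility with the augmentations -/
lemma zResCoind_aug (x : zFree (Rep.coind S.subtype Y)) :
    (Rep.coindMap S.subtype (zAug Y)).hom ((zResCoind hS Y hY).f₀.hom x) =
      (zAug (Rep.coind S.subtype Y)).hom x :=
  π_zLift₀ (coindPair hS (zRes Y hY)) (Rep.coindMap S.subtype (zAug Y)) (zCoindSection Y)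
    (fun φ => Subtype.ext (funext fun g => zAug_single Y (φ.1 g))) (fun _ _ => rfl) x

theorem zResCoind_isQis : (zResCoind hS Y hY).IsQis :=
  zRes.lift_isQis _ _ _ _ _ _ _ _

instance projective_coindPair_zRes_P₀ : Module.Projective k (coindPair hS (zRes Y hY)).P₀ :=
  projective_coind (zFree Y)

/-- **Resolution independence for the coinduced module**: `zResCoind` induces isomorphisms on
hyper-Ext. -/
theorem zResCoind_map_bijective {X : Rep.{u} k G} (hX : IsSmooth L X) (n : ℕ) :
    Function.Bijective (LatticePair.Ext.map hX (zResCoind hS Y hY) n) :=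
  LatticePair.Ext.map_bijective_of_isQis hX (zResCoind hS Y hY) (zResCoind_isQis hS Y hY)
    (zRes_i_injective (Rep.coind S.subtype Y) (isSmooth_coind hS hY))
    (coindPair_i_injective hS (zRes Y hY) (zKerι_injective Y)) n

/-- **Compatibility of the hyper-Ext pairings** with the comparison `zResCoind`. -/
theorem pair_zResCoind {X : Rep.{u} k G} (hX : IsSmooth L X) (n s m : ℕ) (hm : n + s = m)
    (e' : (coindRes hS (zResR Y hY)).Ext hX (n + 1))
    (c : (cx (zResR (Rep.coind S.subtype Y) (isSmooth_coind hS hY)).smooth).H s) :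
    (zResR (Rep.coind S.subtype Y) (isSmooth_coind hS hY)).pair hX n s m hm
        (LatticePair.Ext.map hX (zResCoind hS Y hY) (n + 1) e') c =
      (coindRes hS (zResR Y hY)).pair hX n s m hm e' c := by
  have h := LatticeRes.pair_map (R := zResR (Rep.coind S.subtype Y) (isSmooth_coind hS hY))
    (R' := coindRes hS (zResR Y hY)) hX (zResCoind hS Y hY) (𝟙 _)
    (fun x => zResCoind_aug hS Y hY x) n s m hm e' c
  rw [cxMap_id_mapH] at h
  exact h

variable {C : Rep.{u} k G} (hC : IsSmooth L C)

/-- `Ext.map zResCoind` as a linear equivalence. -/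
noncomputable def zResCoindEquiv (n : ℕ) :
    (coindPair hS (zRes Y hY)).Ext hC n ≃ₗ[k]
      (zRes (Rep.coind S.subtype Y) (isSmooth_coind hS hY)).Ext hC n :=
  LinearEquiv.ofBijective _ (zResCoind_map_bijective hS Y hY hC n)

/-- **Shapiro's map for the canonical resolutions**:
`Ext^n_G(coind Y, C) → Ext^n_S(Y, res C)`. -/
noncomputable def shZMap (n : ℕ) :
    (zRes (Rep.coind S.subtype Y) (isSmooth_coind hS hY)).Ext hC n →ₗ[k]
      (zRes Y hY).Ext (isSmooth_res hC) n :=
  (shExtMap hS (zRes Y hY) hC n).comp (zResCoindEquiv hS Y hY hC n).symm.toLinearMap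

theorem shZMap_bijective (n : ℕ) (hn : n ≤ 2) : Function.Bijective (shZMap hS Y hY hC n) :=
  (shExtMap_bijective hS (zRes Y hY) hC n hn).comp (zResCoindEquiv hS Y hY hC n).symm.bijective

/-- Shapiro's isomorphism for the canonical resolutions, degrees `n ≤ 2`. -/
noncomputable def shZ (n : ℕ) (hn : n ≤ 2) :
    (zRes (Rep.coind S.subtype Y) (isSmooth_coind hS hY)).Ext hC n ≃ₗ[k]
      (zRes Y hY).Ext (isSmooth_res hC) n :=
  LinearEquiv.ofBijective _ (shZMap_bijective hS Y hY hC n hn)

@[simp] lemma shZ_apply (n : ℕ) (hn : n ≤ 2)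
    (e : (zRes (Rep.coind S.subtype Y) (isSmooth_coind hS hY)).Ext hC n) :
    shZ hS Y hY hC n hn e = shZMap hS Y hY hC n e := rfl

/-- **Adjointness of Shapiro's isomorphisms for the canonical resolutions**:
`⟨e, c⟩_G = cor ⟨sh e, sh c⟩_S` for `e ∈ Ext^{n+1}_G(coind Y, C)`, `c ∈ H^s(G, coind Y)`,
`n + s = 1`. -/
theorem pair_zResR_coind (n s : ℕ) (hm : n + s = 1)
    (e : (zResR (Rep.coind S.subtype Y) (isSmooth_coind hS hY)).Ext hC (n + 1))
    (c : (cx (zResR (Rep.coind S.subtype Y) (isSmooth_coind hS hY)).smooth).H s) :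
    (zResR (Rep.coind S.subtype Y) (isSmooth_coind hS hY)).pair hC n s 1 hm e c =
      corH₂ hS hC ((zResR Y hY).pair (isSmooth_res hC) n s 1 hm
        (shZMap hS Y hY hC (n + 1) e) ((cxSh hS hY).mapH s c)) := by
  obtain ⟨e', rfl⟩ := (zResCoindEquiv hS Y hY hC (n + 1)).surjective e
  have h1 : shZMap hS Y hY hC (n + 1) (zResCoindEquiv hS Y hY hC (n + 1) e') =
      shExtMap hS (zRes Y hY) hC (n + 1) e' := by
    change shExtMap hS (zRes Y hY) hC (n + 1) ((zResCoindEquiv hS Y hY hC (n + 1)).symm
      (zResCoindEquiv hS Y hY hC (n + 1) e')) = _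
    rw [LinearEquiv.symm_apply_apply]
  rw [h1]
  exact (pair_zResCoind hS Y hY hC n s 1 hm e' c).trans
    (pair_coindRes hS (zResR Y hY) hC n s hm e' c)

end ZResCoind

end LC

end Fermat.Agent.CFT
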